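import Mathlib

/-!
# Ladder polynomials for the `x`-coordinate of `n • P` (S13/STRUCT, route without EDS identities)

For a Weierstrass curve `W` over a commutative ring `R` we define by strong recursion two
sequences of polynomials `ladA W n`, `ladB W n : R[X]` such that (see `H46_LadderEval`)
`x(n • P) = ladA n (x P) / ladB n (x P)` whenever `i • P ≠ 0` for `1 ≤ i ≤ n`.
The recursion uses only the duplication formula and the *sum* formula
`x(P+Q) + x(P-Q) = sumNum / (x P - x Q)^2`.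

Main results of this file: `ladA W n` has degree `≤ n^2` with coefficient `1` at `n^2`,
`ladB W n` (for `n ≥ 1`) has degree `≤ n^2 - 1` with coefficient `n^2` at `n^2 - 1`, and
`ladF W m = ladA (m+1) * ladB m - ladA m * ladB (m+1)` has degree `≤ 2m^2+2m` with
coefficient `-(2m+1)` there.
-/

set_option autoImplicit false

namespace Fermat.Agent.S13.H46

open Polynomial

section TopCoeff

variable {R : Type*} [CommRing R]

/-- `p` has degree at most `n` and its coefficient at `n` is `c`. -/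
def HasTop (p : R[X]) (n : ℕ) (c : R) : Prop := p.natDegree ≤ n ∧ p.coeff n = c

namespace HasTop

variable {p q : R[X]} {m n : ℕ} {a b : R}

lemma mul (hp : HasTop p m a) (hq : HasTop q n b) : HasTop (p * q) (m + n) (a * b) := by
  refine ⟨(natDegree_mul_le).trans (add_le_add hp.1 hq.1), ?_⟩
  rw [coeff_mul_add_eq_of_natDegree_le hp.1 hq.1, hp.2, hq.2]

lemma pow (hp : HasTop p n a) (k : ℕ) : HasTop (p ^ k) (k * n) (a ^ k) := by
  refine ⟨(natDegree_pow_le).trans (Nat.mul_le_mul_left k hp.1), ?_⟩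
  rw [coeff_pow_of_natDegree_le hp.1, hp.2]

lemma add (hp : HasTop p n a) (hq : HasTop q n b) : HasTop (p + q) n (a + b) := by
  refine ⟨(natDegree_add_le _ _).trans (max_le hp.1 hq.1), ?_⟩
  rw [coeff_add, hp.2, hq.2]

lemma sub (hp : HasTop p n a) (hq : HasTop q n b) : HasTop (p - q) n (a - b) := by
  refine ⟨(natDegree_sub_le _ _).trans (max_le hp.1 hq.1), ?_⟩
  rw [coeff_sub, hp.2, hq.2]

lemma neg (hp : HasTop p n a) : HasTop (-p) n (-a) := by
  refine ⟨by rw [natDegree_neg]; exact hp.1, ?_⟩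
  rw [coeff_neg, hp.2]

lemma C_mul (r : R) (hp : HasTop p n a) : HasTop (C r * p) n (r * a) := by
  refine ⟨(natDegree_C_mul_le _ _).trans hp.1, ?_⟩
  rw [coeff_C_mul, hp.2]

/-- a polynomial of degree `≤ m < n` has coefficient `0` at `n`. -/
lemma lower (hp : HasTop p m a) (h : m < n) : HasTop p n 0 :=
  ⟨hp.1.trans h.le, coeff_eq_zero_of_natDegree_lt (hp.1.trans_lt h)⟩

lemma congr (hp : HasTop p m a) (hmn : m = n) (hab : a = b) : HasTop p n b := by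
  subst hmn; subst hab; exact hp

lemma ne_zero (hp : HasTop p n a) (ha : a ≠ 0) : p ≠ 0 := by
  rintro rfl
  exact ha (by simpa using hp.2.symm)

lemma natDegree_eq (hp : HasTop p n a) (ha : a ≠ 0) : p.natDegree = n :=
  le_antisymm hp.1 (le_natDegree_of_ne_zero (by rw [hp.2]; exact ha))

lemma leadingCoeff_eq (hp : HasTop p n a) (ha : a ≠ 0) : p.leadingCoeff = a := by
  rw [leadingCoeff, hp.natDegree_eq ha, hp.2]

end HasTop

lemma hasTop_X : HasTop (X : R[X]) 1 1 := ⟨natDegree_X_le, coeff_X_one⟩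

lemma hasTop_one : HasTop (1 : R[X]) 0 1 := ⟨by simp, coeff_one_zero⟩

lemma hasTop_C (r : R) : HasTop (C r) 0 r := ⟨by simp, coeff_C_zero⟩

end TopCoeff

section Defs

variable {R : Type*} [CommRing R] (W : WeierstrassCurve R)

/-- homogenised numerator of the duplication formula -/
noncomputable def dblA (a c : R[X]) : R[X] :=
  a ^ 4 - C W.b₄ * (a ^ 2 * c ^ 2) - C (2 * W.b₆) * (a * c ^ 3) - C W.b₈ * c ^ 4

/-- homogenised denominator of the duplication formula -/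
noncomputable def dblB (a c : R[X]) : R[X] :=
  C 4 * (a ^ 3 * c) + C W.b₂ * (a ^ 2 * c ^ 2) + C (2 * W.b₄) * (a * c ^ 3) + C W.b₆ * c ^ 4

/-- the cross difference `a₁ c₂ - a₂ c₁` -/
noncomputable def addD (a₁ c₁ a₂ c₂ : R[X]) : R[X] := a₁ * c₂ - a₂ * c₁

/-- homogenised `sumNum` -/
noncomputable def addS (a₁ c₁ a₂ c₂ : R[X]) : R[X] :=
  C 2 * ((a₁ * c₂ + a₂ * c₁) * (a₁ * a₂)) + C W.b₂ * ((a₁ * a₂) * (c₁ * c₂)) +
    C W.b₄ * ((a₁ * c₂ + a₂ * c₁) * (c₁ * c₂)) + C W.b₆ * (c₁ * c₂) ^ 2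

/-- numerator of `x(P₁ + P₂)` when `P₁ - P₂` is the base point (whose `x`-coordinate is `X`) -/
noncomputable def addA (a₁ c₁ a₂ c₂ : R[X]) : R[X] :=
  addS W a₁ c₁ a₂ c₂ - X * addD a₁ c₁ a₂ c₂ ^ 2

/-- denominator of `x(P₁ + P₂)` -/
noncomputable def addB (a₁ c₁ a₂ c₂ : R[X]) : R[X] := addD a₁ c₁ a₂ c₂ ^ 2

/-- the ladder: `ladder W n = (A_n, B_n)` with `x(n • P) = A_n(x P) / B_n(x P)`. -/
noncomputable def ladder : ℕ → R[X] × R[X]
  | 0 => (1, 0)
  | 1 => (X, 1)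
  | (n + 2) =>
    if h : n % 2 = 0 then
      (dblA W (ladder ((n + 2) / 2)).1 (ladder ((n + 2) / 2)).2,
        dblB W (ladder ((n + 2) / 2)).1 (ladder ((n + 2) / 2)).2)
    else
      (addA W (ladder ((n + 2) / 2 + 1)).1 (ladder ((n + 2) / 2 + 1)).2
          (ladder ((n + 2) / 2)).1 (ladder ((n + 2) / 2)).2,
        addB (ladder ((n + 2) / 2 + 1)).1 (ladder ((n + 2) / 2 + 1)).2
          (ladder ((n + 2) / 2)).1 (ladder ((n + 2) / 2)).2)
termination_by n => n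
decreasing_by all_goals omega

/-- numerator polynomial of `x(n • P)` -/
noncomputable def ladA (n : ℕ) : R[X] := (ladder W n).1

/-- denominator polynomial of `x(n • P)` -/
noncomputable def ladB (n : ℕ) : R[X] := (ladder W n).2

@[simp] lemma ladA_zero : ladA W 0 = 1 := by simp [ladA, ladder]
@[simp] lemma ladB_zero : ladB W 0 = 0 := by simp [ladB, ladder]
@[simp] lemma ladA_one : ladA W 1 = X := by simp [ladA, ladder]
@[simp] lemma ladB_one : ladB W 1 = 1 := by simp [ladB, ladder]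

lemma ladder_even (j : ℕ) (hj : 1 ≤ j) :
    ladder W (2 * j) = (dblA W (ladA W j) (ladB W j), dblB W (ladA W j) (ladB W j)) := by
  obtain ⟨k, rfl⟩ : ∃ k, j = k + 1 := ⟨j - 1, by omega⟩
  have h1 : 2 * (k + 1) = 2 * k + 2 := by ring
  rw [h1, ladder]
  have h2 : (2 * k) % 2 = 0 := by omega
  have h3 : (2 * k + 2) / 2 = k + 1 := by omega
  simp only [h2, h3, ladA, ladB, dite_true]

lemma ladder_odd (j : ℕ) (hj : 1 ≤ j) :
    ladder W (2 * j + 1) =
      (addA W (ladA W (j + 1)) (ladB W (j + 1)) (ladA W j) (ladB W j),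
        addB (ladA W (j + 1)) (ladB W (j + 1)) (ladA W j) (ladB W j)) := by
  obtain ⟨k, rfl⟩ : ∃ k, j = k + 1 := ⟨j - 1, by omega⟩
  have h1 : 2 * (k + 1) + 1 = (2 * k + 1) + 2 := by ring
  rw [h1, ladder]
  have h2 : ¬ (2 * k + 1) % 2 = 0 := by omega
  have h3 : (2 * k + 1 + 2) / 2 = k + 1 := by omega
  simp only [h2, h3, ladA, ladB, dite_false]

lemma ladA_even (j : ℕ) (hj : 1 ≤ j) : ladA W (2 * j) = dblA W (ladA W j) (ladB W j) := by
  rw [ladA, ladder_even W j hj]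

lemma ladB_even (j : ℕ) (hj : 1 ≤ j) : ladB W (2 * j) = dblB W (ladA W j) (ladB W j) := by
  rw [ladB, ladder_even W j hj]

lemma ladA_odd (j : ℕ) (hj : 1 ≤ j) :
    ladA W (2 * j + 1) = addA W (ladA W (j + 1)) (ladB W (j + 1)) (ladA W j) (ladB W j) := by
  rw [ladA, ladder_odd W j hj]

lemma ladB_odd (j : ℕ) (hj : 1 ≤ j) :
    ladB W (2 * j + 1) = addB (ladA W (j + 1)) (ladB W (j + 1)) (ladA W j) (ladB W j) := by
  rw [ladB, ladder_odd W j hj]

/-- the polynomial vanishing at the `x`-coordinates of the points of exact order `2m+1`;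
substitute for the division polynomial `ψ_{2m+1}` (up to sign). -/
noncomputable def ladF (m : ℕ) : R[X] :=
  addD (ladA W (m + 1)) (ladB W (m + 1)) (ladA W m) (ladB W m)

end Defs


section Degree

variable {R : Type*} [CommRing R] (W : WeierstrassCurve R)

lemma hasTop_dblA {a c : R[X]} {s : ℕ} {β : R} (ha : HasTop a (s + 1) 1) (hc : HasTop c s β) :
    HasTop (dblA W a c) (4 * s + 4) 1 := by
  have h1 : HasTop (a ^ 4) (4 * s + 4) 1 := (ha.pow 4).congr (by omega) (by ring)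
  have h2 : HasTop (C W.b₄ * (a ^ 2 * c ^ 2)) (4 * s + 4) 0 :=
    (((ha.pow 2).mul (hc.pow 2)).C_mul _).lower (by omega)
  have h3 : HasTop (C (2 * W.b₆) * (a * c ^ 3)) (4 * s + 4) 0 :=
    ((ha.mul (hc.pow 3)).C_mul _).lower (by omega)
  have h4 : HasTop (C W.b₈ * c ^ 4) (4 * s + 4) 0 := ((hc.pow 4).C_mul _).lower (by omega)
  exact (((h1.sub h2).sub h3).sub h4).congr rfl (by ring)

lemma hasTop_dblB {a c : R[X]} {s : ℕ} {β : R} (ha : HasTop a (s + 1) 1) (hc : HasTop c s β) :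
    HasTop (dblB W a c) (4 * s + 3) (4 * β) := by
  have h1 : HasTop (C 4 * (a ^ 3 * c)) (4 * s + 3) (4 * β) :=
    (((ha.pow 3).mul hc).C_mul _).congr (by omega) (by ring)
  have h2 : HasTop (C W.b₂ * (a ^ 2 * c ^ 2)) (4 * s + 3) 0 :=
    (((ha.pow 2).mul (hc.pow 2)).C_mul _).lower (by omega)
  have h3 : HasTop (C (2 * W.b₄) * (a * c ^ 3)) (4 * s + 3) 0 :=
    ((ha.mul (hc.pow 3)).C_mul _).lower (by omega)
  have h4 : HasTop (C W.b₆ * c ^ 4) (4 * s + 3) 0 := ((hc.pow 4).C_mul _).lower (by omega)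
  exact (((h1.add h2).add h3).add h4).congr rfl (by ring)

lemma hasTop_addD {a₁ c₁ a₂ c₂ : R[X]} {s₁ s₂ : ℕ} {β₁ β₂ : R}
    (ha₁ : HasTop a₁ (s₁ + 1) 1) (hc₁ : HasTop c₁ s₁ β₁)
    (ha₂ : HasTop a₂ (s₂ + 1) 1) (hc₂ : HasTop c₂ s₂ β₂) :
    HasTop (addD a₁ c₁ a₂ c₂) (s₁ + s₂ + 1) (β₂ - β₁) := by
  have h1 : HasTop (a₁ * c₂) (s₁ + s₂ + 1) β₂ := (ha₁.mul hc₂).congr (by omega) (by ring)
  have h2 : HasTop (a₂ * c₁) (s₁ + s₂ + 1) β₁ := (ha₂.mul hc₁).congr (by omega) (by ring)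
  exact h1.sub h2

lemma hasTop_addB {a₁ c₁ a₂ c₂ : R[X]} {s₁ s₂ : ℕ} {β₁ β₂ : R}
    (ha₁ : HasTop a₁ (s₁ + 1) 1) (hc₁ : HasTop c₁ s₁ β₁)
    (ha₂ : HasTop a₂ (s₂ + 1) 1) (hc₂ : HasTop c₂ s₂ β₂) :
    HasTop (addB a₁ c₁ a₂ c₂) (2 * s₁ + 2 * s₂ + 2) ((β₂ - β₁) ^ 2) :=
  ((hasTop_addD ha₁ hc₁ ha₂ hc₂).pow 2).congr (by omega) rfl

lemma hasTop_addA {a₁ c₁ a₂ c₂ : R[X]} {s₁ s₂ : ℕ} {β₁ β₂ : R}
    (ha₁ : HasTop a₁ (s₁ + 1) 1) (hc₁ : HasTop c₁ s₁ β₁)
    (ha₂ : HasTop a₂ (s₂ + 1) 1) (hc₂ : HasTop c₂ s₂ β₂) :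
    HasTop (addA W a₁ c₁ a₂ c₂) (2 * s₁ + 2 * s₂ + 3) (2 * (β₁ + β₂) - (β₂ - β₁) ^ 2) := by
  have hs : HasTop (a₁ * c₂ + a₂ * c₁) (s₁ + s₂ + 1) (β₂ + β₁) :=
    ((ha₁.mul hc₂).congr (by omega) (by ring)).add ((ha₂.mul hc₁).congr (by omega) (by ring))
  have h1 : HasTop (C 2 * ((a₁ * c₂ + a₂ * c₁) * (a₁ * a₂))) (2 * s₁ + 2 * s₂ + 3)
      (2 * (β₁ + β₂)) :=
    ((hs.mul (ha₁.mul ha₂)).C_mul _).congr (by omega) (by ring)
  have h2 : HasTop (C W.b₂ * ((a₁ * a₂) * (c₁ * c₂))) (2 * s₁ + 2 * s₂ + 3) 0 :=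
    (((ha₁.mul ha₂).mul (hc₁.mul hc₂)).C_mul _).lower (by omega)
  have h3 : HasTop (C W.b₄ * ((a₁ * c₂ + a₂ * c₁) * (c₁ * c₂))) (2 * s₁ + 2 * s₂ + 3) 0 :=
    ((hs.mul (hc₁.mul hc₂)).C_mul _).lower (by omega)
  have h4 : HasTop (C W.b₆ * (c₁ * c₂) ^ 2) (2 * s₁ + 2 * s₂ + 3) 0 :=
    (((hc₁.mul hc₂).pow 2).C_mul _).lower (by omega)
  have h5 : HasTop (X * addD a₁ c₁ a₂ c₂ ^ 2) (2 * s₁ + 2 * s₂ + 3) ((β₂ - β₁) ^ 2) :=
    (hasTop_X.mul ((hasTop_addD ha₁ hc₁ ha₂ hc₂).pow 2)).congr (by omega) (by ring)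
  exact ((((h1.add h2).add h3).add h4).sub h5).congr rfl (by ring)

/-- **Degrees of the ladder polynomials**: `A_n` has degree `≤ n^2` and coefficient `1` at `n^2`;
for `n ≥ 1`, `B_n` has degree `≤ n^2 - 1` and coefficient `n^2` there. -/
theorem hasTop_ladder (n : ℕ) :
    HasTop (ladA W n) (n ^ 2) 1 ∧ (1 ≤ n → HasTop (ladB W n) (n ^ 2 - 1) ((n : R) ^ 2)) := by
  induction n using Nat.strong_induction_on with
  | _ n ih =>
    rcases Nat.lt_or_ge n 2 with hn | hn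
    · interval_cases n
      · exact ⟨by simpa using hasTop_one, by omega⟩
      · refine ⟨by simpa using hasTop_X, fun _ => ?_⟩
        simpa using (hasTop_one (R := R))
    · rcases Nat.even_or_odd' n with ⟨j, rfl | rfl⟩
      · -- n = 2 j
        have hj : 1 ≤ j := by omega
        obtain ⟨hA, hB⟩ := ih j (by omega)
        have hB := hB hj
        obtain ⟨s, hs⟩ : ∃ s, j ^ 2 = s + 1 := ⟨j ^ 2 - 1, by
          have : 1 ≤ j ^ 2 := Nat.one_le_pow _ _ hj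
          omega⟩
        have e1 : (2 * j) ^ 2 = 4 * s + 4 := by rw [mul_pow, hs]; ring
        rw [hs] at hA
        rw [hs, Nat.add_sub_cancel] at hB
        rw [ladA_even W j hj, ladB_even W j hj, e1]
        refine ⟨hasTop_dblA W hA hB, fun _ => ?_⟩
        exact (hasTop_dblB W hA hB).congr (by omega) (by push_cast; ring)
      · -- n = 2 j + 1
        have hj : 1 ≤ j := by omega
        obtain ⟨hA₁, hB₁⟩ := ih (j + 1) (by omega)
        obtain ⟨hA₂, hB₂⟩ := ih j (by omega)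
        have hB₁ := hB₁ (by omega)
        have hB₂ := hB₂ hj
        obtain ⟨s, hs⟩ : ∃ s, j ^ 2 = s + 1 := ⟨j ^ 2 - 1, by
          have : 1 ≤ j ^ 2 := Nat.one_le_pow _ _ hj
          omega⟩
        have hs' : (j + 1) ^ 2 = (s + 2 * j + 1) + 1 := by
          have : (j + 1) ^ 2 = j ^ 2 + 2 * j + 1 := by ring
          omega
        have e1 : (2 * j + 1) ^ 2 = 2 * (s + 2 * j + 1) + 2 * s + 3 := by
          have : (2 * j + 1) ^ 2 = 4 * j ^ 2 + 4 * j + 1 := by ring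
          omega
        rw [hs] at hA₂
        rw [hs, Nat.add_sub_cancel] at hB₂
        rw [hs'] at hA₁
        rw [hs', Nat.add_sub_cancel] at hB₁
        rw [ladA_odd W j hj, ladB_odd W j hj, e1]
        refine ⟨(hasTop_addA W hA₁ hB₁ hA₂ hB₂).congr rfl (by push_cast; ring), fun _ => ?_⟩
        exact (hasTop_addB hA₁ hB₁ hA₂ hB₂).congr (by omega) (by push_cast; ring)

lemma hasTop_ladA (n : ℕ) : HasTop (ladA W n) (n ^ 2) 1 := (hasTop_ladder W n).1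

lemma hasTop_ladB (n : ℕ) (hn : 1 ≤ n) : HasTop (ladB W n) (n ^ 2 - 1) ((n : R) ^ 2) :=
  (hasTop_ladder W n).2 hn

/-- `ladF W m` has degree `≤ 2m^2 + 2m` with coefficient `-(2m+1)` there. -/
theorem hasTop_ladF (m : ℕ) : HasTop (ladF W m) (2 * m ^ 2 + 2 * m) (-(2 * (m : R) + 1)) := by
  rcases Nat.eq_zero_or_pos m with rfl | hm
  · have h : ladF W 0 = -1 := by simp [ladF, addD]
    rw [h]
    exact (hasTop_one.neg).congr (by norm_num) (by push_cast; ring)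
  · have hA₁ := hasTop_ladA W (m + 1)
    have hB₁ := hasTop_ladB W (m + 1) (by omega)
    have hA₂ := hasTop_ladA W m
    have hB₂ := hasTop_ladB W m hm
    obtain ⟨s, hs⟩ : ∃ s, m ^ 2 = s + 1 := ⟨m ^ 2 - 1, by
      have : 1 ≤ m ^ 2 := Nat.one_le_pow _ _ hm
      omega⟩
    have hs' : (m + 1) ^ 2 = (s + 2 * m + 1) + 1 := by
      have : (m + 1) ^ 2 = m ^ 2 + 2 * m + 1 := by ring
      omega
    rw [hs] at hA₂
    rw [hs, Nat.add_sub_cancel] at hB₂
    rw [hs'] at hA₁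
    rw [hs', Nat.add_sub_cancel] at hB₁
    exact (hasTop_addD hA₁ hB₁ hA₂ hB₂).congr (by omega) (by push_cast; ring)

end Degree

end Fermat.Agent.S13.H46
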