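import Mathlib
import Fermat.Agent.S05.H67_XF

/-!
# x-only ladder for multiples of a point (project S13, STRUCT, helper84)

`ladder b₂ b₄ b₆ b₈ t n = (A_n, B_n)` is defined by strong recursion from the homogenised
duplication formula and the homogenised sum formula `x(Q+R) + x(Q-R)` with `R - Q` the base
point.  For a point `P ≠ 0` with `x`-coordinate `x₀` the pair `ladder … x₀ n` represents
`x(n • P)` projectively, for every `n`, including all degenerate cases.
-/

set_option autoImplicit false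

namespace Fermat.Agent.S13.H84

section Def

variable {S : Type*} [CommRing S] (b₂ b₄ b₆ b₈ t : S)

/-- homogenised duplication -/
def dblPair (p : S × S) : S × S :=
  (p.1 ^ 4 - b₄ * p.1 ^ 2 * p.2 ^ 2 - 2 * b₆ * p.1 * p.2 ^ 3 - b₈ * p.2 ^ 4,
   4 * p.1 ^ 3 * p.2 + b₂ * p.1 ^ 2 * p.2 ^ 2 + 2 * b₄ * p.1 * p.2 ^ 3 + b₆ * p.2 ^ 4)

/-- homogenised differential addition: `p ~ x(Q)`, `q ~ x(R)`, `t = x(R - Q)` -/
def addPair (p q : S × S) : S × S :=
  (2 * (q.1 * p.2 + p.1 * q.2) * (p.1 * q.1) + b₂ * (p.1 * q.1) * (p.2 * q.2)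
      + b₄ * (q.1 * p.2 + p.1 * q.2) * (p.2 * q.2) + b₆ * (p.2 * q.2) ^ 2
      - t * (q.1 * p.2 - p.1 * q.2) ^ 2,
   (q.1 * p.2 - p.1 * q.2) ^ 2)

/-- the ladder `(A_n, B_n)` -/
def ladder : ℕ → S × S
  | 0 => (1, 0)
  | 1 => (t, 1)
  | (n + 2) =>
    have h1 : (n + 2) / 2 < n + 2 := Nat.div_lt_self (by omega) one_lt_two
    if hn : Even n then dblPair b₂ b₄ b₆ b₈ (ladder ((n + 2) / 2))
    else
      have h2 : (n + 2) / 2 + 1 < n + 2 := by
        have := (Nat.not_even_iff_odd.mp hn).pos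
        omega
      addPair b₂ b₄ b₆ t (ladder ((n + 2) / 2)) (ladder ((n + 2) / 2 + 1))

@[simp] lemma ladder_zero : ladder b₂ b₄ b₆ b₈ t 0 = (1, 0) := by rw [ladder]

@[simp] lemma ladder_one : ladder b₂ b₄ b₆ b₈ t 1 = (t, 1) := by rw [ladder]

lemma ladder_even (j : ℕ) :
    ladder b₂ b₄ b₆ b₈ t (2 * j) = dblPair b₂ b₄ b₆ b₈ (ladder b₂ b₄ b₆ b₈ t j) := by
  rcases j with _ | j
  · simp [dblPair]
  · rw [show 2 * (j + 1) = 2 * j + 2 by ring, ladder, dif_pos (even_two_mul j)]
    congr 2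
    omega

lemma ladder_odd (j : ℕ) :
    ladder b₂ b₄ b₆ b₈ t (2 * j + 1) =
      addPair b₂ b₄ b₆ t (ladder b₂ b₄ b₆ b₈ t j) (ladder b₂ b₄ b₆ b₈ t (j + 1)) := by
  rcases j with _ | j
  · simp only [mul_zero, zero_add, ladder_one, ladder_zero, addPair]
    ext
    · simp; ring
    · simp
  · rw [show 2 * (j + 1) + 1 = (2 * j + 1) + 2 by ring, ladder,
      dif_neg (Nat.not_even_two_mul_add_one j)]
    have h : (2 * j + 1 + 2) / 2 = j + 1 := by omega
    simp only [h]

end Def

section Map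

variable {S S' : Type*} [CommRing S] [CommRing S'] (f : S →+* S') (b₂ b₄ b₆ b₈ t : S)

lemma map_dblPair (p : S × S) :
    Prod.map f f (dblPair b₂ b₄ b₆ b₈ p) = dblPair (f b₂) (f b₄) (f b₆) (f b₈) (Prod.map f f p) := by
  simp [dblPair, Prod.map, map_ofNat]

lemma map_addPair (p q : S × S) :
    Prod.map f f (addPair b₂ b₄ b₆ t p q) =
      addPair (f b₂) (f b₄) (f b₆) (f t) (Prod.map f f p) (Prod.map f f q) := by
  simp [addPair, Prod.map, map_ofNat]

lemma map_ladder (n : ℕ) :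
    Prod.map f f (ladder b₂ b₄ b₆ b₈ t n) = ladder (f b₂) (f b₄) (f b₆) (f b₈) (f t) n := by
  induction n using Nat.strong_induction_on with
  | _ n ih =>
    rcases Nat.even_or_odd' n with ⟨j, rfl | rfl⟩
    · rcases j with _ | j
      · simp [Prod.map]
      · rw [ladder_even, ladder_even, map_dblPair, ih (j + 1) (by omega)]
    · rcases j with _ | j
      · simp [Prod.map]
      · rw [ladder_odd, ladder_odd, map_addPair, ih (j + 1) (by omega), ih (j + 1 + 1) (by omega)]

end Map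

section Rep

open WeierstrassCurve WeierstrassCurve.Affine Fermat.Agent.S05.H67

variable {F : Type*} [Field F] [DecidableEq F] (W : WeierstrassCurve F)

/-- `p` represents the `x`-coordinate of `Q` projectively -/
def Rep (Q : W.toAffine.Point) (p : F × F) : Prop :=
  (Q = 0 ∧ p.2 = 0 ∧ p.1 ≠ 0) ∨ (Q ≠ 0 ∧ p.2 ≠ 0 ∧ xCoord W Q * p.2 = p.1)

/-- at a point of order two the duplication numerator is a nonzero square -/
lemma dblNum_ne_zero_of_two_nsmul_eq_zero {Q : W.toAffine.Point} (hQ : Q ≠ 0)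
    (h2 : 2 • Q = 0) : dblNum W (xCoord W Q) ≠ 0 := by
  obtain ⟨u, y, h, rfl⟩ := exists_of_ne_zero W hQ
  rw [two_nsmul, some_add_self_eq_zero_iff] at h2
  rw [xCoord_some]
  have hns := (Affine.nonsingular_iff' u y).mp h
  have heq := hns.1
  rw [Affine.equation_iff] at heq
  have hy : 2 * y + W.a₁ * u + W.a₃ = 0 := by
    simp only [Affine.negY] at h2
    linear_combination h2
  have hX : W.a₁ * y - (3 * u ^ 2 + 2 * W.a₂ * u + W.a₄) ≠ 0 := by
    rcases hns.2 with h' | h'
    · exact h'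
    · exact absurd hy h'
  have key : dblNum W u = (W.a₁ * y - (3 * u ^ 2 + 2 * W.a₂ * u + W.a₄)) ^ 2 := by
    simp only [dblNum, WeierstrassCurve.b₄, WeierstrassCurve.b₆, WeierstrassCurve.b₈]
    linear_combination (8 * u + W.a₁ ^ 2 + 4 * W.a₂) * heq
      + (W.a₁ * (3 * u ^ 2 + 2 * W.a₂ * u + W.a₄ - W.a₁ * y)
          - (W.a₂ + 2 * u) * (2 * y + W.a₁ * u + W.a₃)) * hy
  rw [key]
  exact pow_ne_zero 2 hX

variable {W}

lemma rep_dbl {Q : W.toAffine.Point} {p : F × F} (h : Rep W Q p) :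
    Rep W (2 • Q) (dblPair W.b₂ W.b₄ W.b₆ W.b₈ p) := by
  rcases h with ⟨rfl, hp2, hp1⟩ | ⟨hQ, hp2, hx⟩
  · left
    refine ⟨smul_zero 2, ?_, ?_⟩
    · simp [dblPair, hp2]
    · simp only [dblPair, hp2]
      simpa using pow_ne_zero 4 hp1
  · have e1 : (dblPair W.b₂ W.b₄ W.b₆ W.b₈ p).1 = p.2 ^ 4 * dblNum W (xCoord W Q) := by
      simp only [dblPair, dblNum, ← hx]; ring
    have e2 : (dblPair W.b₂ W.b₄ W.b₆ W.b₈ p).2 = p.2 ^ 4 * dblDen W (xCoord W Q) := by
      simp only [dblPair, dblDen, ← hx]; ring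
    by_cases h2 : 2 • Q = 0
    · left
      refine ⟨h2, ?_, ?_⟩
      · rw [e2, (two_nsmul_eq_zero_iff W hQ).mp h2, mul_zero]
      · rw [e1]
        exact mul_ne_zero (pow_ne_zero 4 hp2) (dblNum_ne_zero_of_two_nsmul_eq_zero W hQ h2)
    · right
      refine ⟨h2, ?_, ?_⟩
      · rw [e2]
        exact mul_ne_zero (pow_ne_zero 4 hp2) (fun h0 => h2 ((two_nsmul_eq_zero_iff W hQ).mpr h0))
      · rw [e1, e2]
        linear_combination p.2 ^ 4 * xCoord_two_nsmul W hQ h2

lemma rep_add {P Q R : W.toAffine.Point} (hP : P ≠ 0) (hR : R = Q + P) {p q : F × F}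
    (hp : Rep W Q p) (hq : Rep W R q) :
    Rep W (Q + R) (addPair W.b₂ W.b₄ W.b₆ (xCoord W P) p q) := by
  rcases hp with ⟨rfl, hp2, hp1⟩ | ⟨hQ, hp2, hxp⟩
  · -- `Q = 0`, so `R = P`
    rw [zero_add] at hR
    subst hR
    rcases hq with ⟨h0, -, -⟩ | ⟨-, hq2, hxq⟩
    · exact absurd h0 hP
    · right
      rw [zero_add]
      refine ⟨hP, ?_, ?_⟩
      · simp only [addPair, hp2]
        simpa using mul_ne_zero hp1 hq2
      · simp only [addPair, hp2, ← hxq]; ring
  · rcases hq with ⟨hR0, hq2, hq1⟩ | ⟨hR0, hq2, hxq⟩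
    · -- `R = 0`, so `Q = -P`
      have hQP : Q = -P := by
        rw [hR0] at hR
        exact eq_neg_of_add_eq_zero_left hR.symm
      have hxQ : xCoord W Q = xCoord W P := by rw [hQP, xCoord_neg]
      right
      rw [hR0, add_zero]
      refine ⟨hQ, ?_, ?_⟩
      · simp only [addPair, hq2]
        simpa using mul_ne_zero hq1 hp2
      · simp only [addPair, hq2, ← hxp, hxQ]; ring
    · -- both nonzero
      have e1 : (addPair W.b₂ W.b₄ W.b₆ (xCoord W P) p q).1 =
          (p.2 * q.2) ^ 2 * (sumNum W (xCoord W R) (xCoord W Q)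
            - xCoord W P * (xCoord W R - xCoord W Q) ^ 2) := by
        simp only [addPair, sumNum, ← hxp, ← hxq]; ring
      have e2 : (addPair W.b₂ W.b₄ W.b₆ (xCoord W P) p q).2 =
          (p.2 * q.2) ^ 2 * (xCoord W R - xCoord W Q) ^ 2 := by
        simp only [addPair, ← hxp, ← hxq]; ring
      have hpq : (p.2 * q.2) ^ 2 ≠ 0 := pow_ne_zero 2 (mul_ne_zero hp2 hq2)
      by_cases hx : xCoord W R = xCoord W Q
      · -- then `Q = -R`
        have hQR : R = -Q := by
          rcases (xCoord_eq_iff W hR0 hQ).mp hx with h | h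
          · exfalso
            rw [h] at hR
            exact hP (by simpa using hR)
          · exact h
        have h2Q : 2 • Q ≠ 0 := by
          intro h0
          apply hP
          have : Q + P = -Q := by rw [← hR, hQR]
          have h3 : P = -(2 • Q) := by
            rw [two_nsmul, neg_add]
            calc P = (Q + P) + -Q := by abel
              _ = -Q + -Q := by rw [this]
          rw [h3, h0, neg_zero]
        left
        refine ⟨by rw [hQR, add_neg_cancel], ?_, ?_⟩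
        · rw [e2, hx, sub_self]; ring
        · rw [e1, hx, sub_self, sumNum_self]
          have : dblDen W (xCoord W Q) ≠ 0 :=
            fun h0 => h2Q ((two_nsmul_eq_zero_iff W hQ).mpr h0)
          simpa using mul_ne_zero hpq this
      · have hne := add_ne_zero_and_sub_ne_zero W hR0 hQ hx
        have hsum := xCoord_add_add_xCoord_sub W hR0 hQ hx
        have hRQ : R - Q = P := by rw [hR]; abel
        rw [hRQ, add_comm R Q] at hsum
        right
        refine ⟨by rw [add_comm]; exact hne.1, ?_, ?_⟩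
        · rw [e2]
          exact mul_ne_zero hpq (pow_ne_zero 2 (sub_ne_zero.mpr hx))
        · rw [e1, e2]
          linear_combination (p.2 * q.2) ^ 2 * hsum

/-- **Evaluation theorem.** For `P ≠ 0` the ladder at `x(P)` represents `x(n • P)` for all `n`. -/
theorem rep_ladder {P : W.toAffine.Point} (hP : P ≠ 0) (n : ℕ) :
    Rep W (n • P) (ladder W.b₂ W.b₄ W.b₆ W.b₈ (xCoord W P) n) := by
  induction n using Nat.strong_induction_on with
  | _ n ih =>
    rcases Nat.even_or_odd' n with ⟨j, rfl | rfl⟩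
    · rcases j with _ | j
      · left
        simp
      · rw [ladder_even, mul_smul]
        exact rep_dbl (ih (j + 1) (by omega))
    · rcases j with _ | j
      · right
        simpa using hP
      · rw [ladder_odd]
        have h1 := ih (j + 1) (by omega)
        have h2 := ih (j + 1 + 1) (by omega)
        have hR : (j + 1 + 1) • P = (j + 1) • P + P := succ_nsmul P (j + 1)
        have := rep_add hP hR h1 h2
        rwa [← add_nsmul, show j + 1 + (j + 1 + 1) = 2 * (j + 1) + 1 by ring] at this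

/-- `n • P = 0` iff the second ladder component vanishes at `x(P)` -/
theorem nsmul_eq_zero_iff_ladder {P : W.toAffine.Point} (hP : P ≠ 0) (n : ℕ) :
    n • P = 0 ↔ (ladder W.b₂ W.b₄ W.b₆ W.b₈ (xCoord W P) n).2 = 0 := by
  rcases rep_ladder hP n with ⟨h0, h2, -⟩ | ⟨h0, h2, -⟩
  · exact ⟨fun _ => h2, fun _ => h0⟩
  · exact ⟨fun h => absurd h h0, fun h => absurd h h2⟩

/-- the `x`-coordinate of `n • P` when it is nonzero -/
theorem xCoord_nsmul_mul_ladder {P : W.toAffine.Point} (hP : P ≠ 0) (n : ℕ) (hn : n • P ≠ 0) :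
    xCoord W (n • P) * (ladder W.b₂ W.b₄ W.b₆ W.b₈ (xCoord W P) n).2 =
      (ladder W.b₂ W.b₄ W.b₆ W.b₈ (xCoord W P) n).1 := by
  rcases rep_ladder hP n with ⟨h0, -, -⟩ | ⟨-, -, h⟩
  · exact absurd h0 hn
  · exact h

/-- the two ladder components never vanish simultaneously at `x(P)` -/
theorem ladder_fst_ne_zero_of_snd_eq_zero {P : W.toAffine.Point} (hP : P ≠ 0) (n : ℕ)
    (h : (ladder W.b₂ W.b₄ W.b₆ W.b₈ (xCoord W P) n).2 = 0) :
    (ladder W.b₂ W.b₄ W.b₆ W.b₈ (xCoord W P) n).1 ≠ 0 := by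
  rcases rep_ladder hP n with ⟨-, -, h1⟩ | ⟨-, h2, -⟩
  · exact h1
  · exact absurd h h2

end Rep

end Fermat.Agent.S13.H84
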