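import Mathlib
import Fermat.Agent.S13.H46_LadderDefs
import Fermat.Agent.S13.H84_Ladder

/-!
# Degrees of helper84's polynomial ladder (bridge `H84.ladder` ↔ `H46.ladA/ladB`)

For `W : WeierstrassCurve R` (any commutative ring) the polynomial ladder
`H84.ladder (C W.b₂) (C W.b₄) (C W.b₆) (C W.b₈) X n` equals `(ladA W n, ladB W n)`, hence
has the degrees / top coefficients computed in `H46_LadderDefs`.
-/

set_option autoImplicit false

namespace Fermat.Agent.S13.H46

open Polynomial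

variable {R : Type*} [CommRing R] (W : WeierstrassCurve R)

/-- helper84's ladder over `R[X]` with base point `X`. -/
noncomputable abbrev polyLadder (n : ℕ) : R[X] × R[X] :=
  H84.ladder (C W.b₂) (C W.b₄) (C W.b₆) (C W.b₈) (X : R[X]) n

/-- `Θ_j = A_j B_{j+1} - B_j A_{j+1}` (helper84's sign convention). -/
noncomputable def polyTheta (j : ℕ) : R[X] :=
  (polyLadder W j).1 * (polyLadder W (j + 1)).2 - (polyLadder W j).2 * (polyLadder W (j + 1)).1

theorem polyLadder_eq (n : ℕ) : polyLadder W n = (ladA W n, ladB W n) := by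
  induction n using Nat.strong_induction_on with
  | _ n ih =>
    rcases Nat.lt_or_ge n 2 with hn | hn
    · interval_cases n <;> simp [polyLadder]
    · rcases Nat.even_or_odd' n with ⟨j, rfl | rfl⟩
      · have hj : 1 ≤ j := by omega
        rw [polyLadder, H84.ladder_even, ← polyLadder, ih j (by omega), ladA_even W j hj,
          ladB_even W j hj]
        ext
        · simp only [H84.dblPair, dblA, map_mul, map_ofNat]; ring_nf
        · simp only [H84.dblPair, dblB, map_mul, map_ofNat]; ring_nf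
      · have hj : 1 ≤ j := by omega
        rw [polyLadder, H84.ladder_odd, ← polyLadder, ← polyLadder, ih j (by omega),
          ih (j + 1) (by omega), ladA_odd W j hj, ladB_odd W j hj]
        ext
        · simp only [H84.addPair, addA, addS, addD, map_ofNat]; ring_nf
        · simp only [H84.addPair, addB, addD]

lemma polyLadder_fst (n : ℕ) : (polyLadder W n).1 = ladA W n := by rw [polyLadder_eq]

lemma polyLadder_snd (n : ℕ) : (polyLadder W n).2 = ladB W n := by rw [polyLadder_eq]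

lemma polyTheta_eq (j : ℕ) : polyTheta W j = -ladF W j := by
  simp only [polyTheta, polyLadder_fst, polyLadder_snd, ladF, addD]; ring

/-- `A_n` has degree `≤ n^2` and coefficient `1` at `n^2`. -/
theorem hasTop_polyLadder_fst (n : ℕ) : HasTop (polyLadder W n).1 (n ^ 2) 1 := by
  rw [polyLadder_fst]; exact hasTop_ladA W n

/-- `B_n` (`n ≥ 1`) has degree `≤ n^2 - 1` and coefficient `n^2` at `n^2 - 1`. -/
theorem hasTop_polyLadder_snd (n : ℕ) (hn : 1 ≤ n) :
    HasTop (polyLadder W n).2 (n ^ 2 - 1) ((n : R) ^ 2) := by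
  rw [polyLadder_snd]; exact hasTop_ladB W n hn

/-- `Θ_j` has degree `≤ 2j^2 + 2j = ((2j+1)^2 - 1)/2` and coefficient `2j+1` there. -/
theorem hasTop_polyTheta (j : ℕ) : HasTop (polyTheta W j) (2 * j ^ 2 + 2 * j) (2 * (j : R) + 1) := by
  rw [polyTheta_eq]
  exact (hasTop_ladF W j).neg.congr rfl (by ring)

theorem natDegree_polyLadder_fst_le (n : ℕ) : (polyLadder W n).1.natDegree ≤ n ^ 2 :=
  (hasTop_polyLadder_fst W n).1

theorem coeff_polyLadder_fst (n : ℕ) : (polyLadder W n).1.coeff (n ^ 2) = 1 :=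
  (hasTop_polyLadder_fst W n).2

theorem monic_polyLadder_fst (n : ℕ) : (polyLadder W n).1.Monic :=
  monic_of_natDegree_le_of_coeff_eq_one _ (natDegree_polyLadder_fst_le W n)
    (coeff_polyLadder_fst W n)

theorem natDegree_polyLadder_fst [Nontrivial R] (n : ℕ) : (polyLadder W n).1.natDegree = n ^ 2 :=
  (hasTop_polyLadder_fst W n).natDegree_eq one_ne_zero

theorem natDegree_polyLadder_snd_le (n : ℕ) (hn : 1 ≤ n) :
    (polyLadder W n).2.natDegree ≤ n ^ 2 - 1 :=
  (hasTop_polyLadder_snd W n hn).1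

theorem coeff_polyLadder_snd (n : ℕ) (hn : 1 ≤ n) :
    (polyLadder W n).2.coeff (n ^ 2 - 1) = (n : R) ^ 2 :=
  (hasTop_polyLadder_snd W n hn).2

theorem natDegree_polyTheta_le (j : ℕ) : (polyTheta W j).natDegree ≤ 2 * j ^ 2 + 2 * j :=
  (hasTop_polyTheta W j).1

theorem coeff_polyTheta (j : ℕ) : (polyTheta W j).coeff (2 * j ^ 2 + 2 * j) = 2 * (j : R) + 1 :=
  (hasTop_polyTheta W j).2

/-- if `2j+1` is nonzero in `R`: exact degree and leading coefficient of `Θ_j`. -/
theorem natDegree_polyTheta {j : ℕ} (h : (2 * (j : R) + 1) ≠ 0) :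
    (polyTheta W j).natDegree = 2 * j ^ 2 + 2 * j :=
  (hasTop_polyTheta W j).natDegree_eq h

theorem leadingCoeff_polyTheta {j : ℕ} (h : (2 * (j : R) + 1) ≠ 0) :
    (polyTheta W j).leadingCoeff = 2 * (j : R) + 1 :=
  (hasTop_polyTheta W j).leadingCoeff_eq h

theorem polyTheta_ne_zero {j : ℕ} (h : (2 * (j : R) + 1) ≠ 0) : polyTheta W j ≠ 0 :=
  (hasTop_polyTheta W j).ne_zero h

/-- `B_{2j+1} = Θ_j ^ 2`. -/
theorem polyLadder_snd_odd (j : ℕ) : (polyLadder W (2 * j + 1)).2 = polyTheta W j ^ 2 := by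
  rw [polyLadder, H84.ladder_odd]
  simp only [H84.addPair, polyTheta, polyLadder]
  ring

/-- evaluation of the polynomial ladder at `x₀` is the ladder at `x₀`. -/
theorem eval_polyLadder (x₀ : R) (n : ℕ) :
    ((polyLadder W n).1.eval x₀, (polyLadder W n).2.eval x₀) =
      H84.ladder W.b₂ W.b₄ W.b₆ W.b₈ x₀ n := by
  have := H84.map_ladder (evalRingHom x₀) (C W.b₂) (C W.b₄) (C W.b₆) (C W.b₈) (X : R[X]) n
  simpa [Prod.map] using this

theorem eval_polyTheta (x₀ : R) (j : ℕ) :
    (polyTheta W j).eval x₀ =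
      (H84.ladder W.b₂ W.b₄ W.b₆ W.b₈ x₀ j).1 * (H84.ladder W.b₂ W.b₄ W.b₆ W.b₈ x₀ (j + 1)).2 -
      (H84.ladder W.b₂ W.b₄ W.b₆ W.b₈ x₀ j).2 * (H84.ladder W.b₂ W.b₄ W.b₆ W.b₈ x₀ (j + 1)).1 := by
  rw [← eval_polyLadder W x₀ j, ← eval_polyLadder W x₀ (j + 1)]
  simp [polyTheta]

end Fermat.Agent.S13.H46
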