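import Mathlib
import Fermat.Agent.S05.H67_XF
import Fermat.Agent.S13.H46_LadderDefs

/-!
# Evaluation of the ladder polynomials at points (S13/STRUCT, route without EDS identities)

`eval_ladder`: if `P ≠ 0` and `i • P ≠ 0` for all `1 ≤ i ≤ n`, then `ladB W n` does not vanish at
`x(P)` and `x(n • P) * ladB W n (x P) = ladA W n (x P)`.
-/

set_option autoImplicit false

namespace Fermat.Agent.S13.H46

open Polynomial WeierstrassCurve
open Fermat.Agent.S05 (H67.xCoord)

variable {F : Type*} [Field F] (W : WeierstrassCurve F)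

local notation "xC" => Fermat.Agent.S05.H67.xCoord W

lemma eval_dblA (a c : F[X]) (x : F) :
    (dblA W a c).eval x = (a.eval x) ^ 4 - W.b₄ * ((a.eval x) ^ 2 * (c.eval x) ^ 2) -
      2 * W.b₆ * (a.eval x * (c.eval x) ^ 3) - W.b₈ * (c.eval x) ^ 4 := by
  simp [dblA]

lemma eval_dblB (a c : F[X]) (x : F) :
    (dblB W a c).eval x = 4 * ((a.eval x) ^ 3 * c.eval x) + W.b₂ * ((a.eval x) ^ 2 * (c.eval x) ^ 2) +
      2 * W.b₄ * (a.eval x * (c.eval x) ^ 3) + W.b₆ * (c.eval x) ^ 4 := by
  simp [dblB]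

lemma eval_addD (a₁ c₁ a₂ c₂ : F[X]) (x : F) :
    (addD a₁ c₁ a₂ c₂).eval x = a₁.eval x * c₂.eval x - a₂.eval x * c₁.eval x := by
  simp [addD]

lemma eval_addB (a₁ c₁ a₂ c₂ : F[X]) (x : F) :
    (addB a₁ c₁ a₂ c₂).eval x = (a₁.eval x * c₂.eval x - a₂.eval x * c₁.eval x) ^ 2 := by
  simp [addB, addD]

lemma eval_addA (a₁ c₁ a₂ c₂ : F[X]) (x : F) :
    (addA W a₁ c₁ a₂ c₂).eval x =
      2 * ((a₁.eval x * c₂.eval x + a₂.eval x * c₁.eval x) * (a₁.eval x * a₂.eval x)) +
      W.b₂ * ((a₁.eval x * a₂.eval x) * (c₁.eval x * c₂.eval x)) +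
      W.b₄ * ((a₁.eval x * c₂.eval x + a₂.eval x * c₁.eval x) * (c₁.eval x * c₂.eval x)) +
      W.b₆ * (c₁.eval x * c₂.eval x) ^ 2 -
      x * (a₁.eval x * c₂.eval x - a₂.eval x * c₁.eval x) ^ 2 := by
  simp [addA, addS, addD]

variable [DecidableEq F]

/-- **Evaluation of the ladder.**  If `i • P ≠ 0` for `1 ≤ i ≤ n` then
`x(n • P) = ladA n (x P) / ladB n (x P)` with non-vanishing denominator. -/
theorem eval_ladder {P : W.toAffine.Point} (n : ℕ) (hn : 1 ≤ n)
    (h : ∀ i, 1 ≤ i → i ≤ n → i • P ≠ 0) :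
    (ladB W n).eval (xC P) ≠ 0 ∧
      xC (n • P) * (ladB W n).eval (xC P) = (ladA W n).eval (xC P) := by
  induction n using Nat.strong_induction_on with
  | _ n ih =>
    rcases Nat.lt_or_ge n 2 with hn2 | hn2
    · obtain rfl : n = 1 := by omega
      simp
    · rcases Nat.even_or_odd' n with ⟨j, rfl | rfl⟩
      · -- n = 2 j
        have hj : 1 ≤ j := by omega
        obtain ⟨hb, hab⟩ := ih j (by omega) hj (fun i hi hij => h i hi (by omega))
        have hPj : j • P ≠ 0 := h j hj (by omega)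
        have h2Pj : 2 • (j • P) ≠ 0 := by
          rw [← mul_nsmul]
          exact h (j * 2) (by omega) (by omega)
        have hden : S05.H67.dblDen W (xC (j • P)) ≠ 0 := fun h0 =>
          h2Pj ((S05.H67.two_nsmul_eq_zero_iff W hPj).mpr h0)
        have hdbl := S05.H67.xCoord_two_nsmul W hPj h2Pj
        have e2 : (2 * j) • P = 2 • (j • P) := by rw [← mul_nsmul, mul_comm]
        rw [ladA_even W j hj, ladB_even W j hj, eval_dblA, eval_dblB, e2]
        set b := (ladB W j).eval (xC P) with hbdef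
        set xj := xC (j • P) with hxj
        rw [← hab]
        simp only [S05.H67.dblDen, S05.H67.dblNum] at hden hdbl
        constructor
        · have : 4 * ((xj * b) ^ 3 * b) + W.b₂ * ((xj * b) ^ 2 * b ^ 2) +
              2 * W.b₄ * (xj * b * b ^ 3) + W.b₆ * b ^ 4 =
              b ^ 4 * (4 * xj ^ 3 + W.b₂ * xj ^ 2 + 2 * W.b₄ * xj + W.b₆) := by ring
          rw [this]
          exact mul_ne_zero (pow_ne_zero 4 hb) hden
        · linear_combination (b ^ 4) * hdbl
      · -- n = 2 j + 1
        have hj : 1 ≤ j := by omega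
        obtain ⟨hb₁, hab₁⟩ := ih (j + 1) (by omega) (by omega) (fun i hi hij => h i hi (by omega))
        obtain ⟨hb₂, hab₂⟩ := ih j (by omega) hj (fun i hi hij => h i hi (by omega))
        have hP : P ≠ 0 := by simpa using h 1 le_rfl (by omega)
        have hP₁ : (j + 1) • P ≠ 0 := h (j + 1) (by omega) (by omega)
        have hP₂ : j • P ≠ 0 := h j hj (by omega)
        have hsum : (j + 1) • P + j • P = (2 * j + 1) • P := by
          rw [← add_nsmul]; congr 1; omega
        have hdiff : (j + 1) • P - j • P = P := by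
          rw [add_nsmul, one_nsmul]; abel
        have hx : xC ((j + 1) • P) ≠ xC (j • P) := by
          intro hxx
          rcases (S05.H67.xCoord_eq_iff W hP₁ hP₂).mp hxx with h1 | h1
          · apply hP
            rw [← hdiff, h1, sub_self]
          · apply h (2 * j + 1) (by omega) le_rfl
            rw [← hsum, h1, neg_add_cancel]
        have hform := S05.H67.xCoord_add_add_xCoord_sub W hP₁ hP₂ hx
        rw [hsum, hdiff] at hform
        rw [ladA_odd W j hj, ladB_odd W j hj, eval_addA, eval_addB]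
        set b₁ := (ladB W (j + 1)).eval (xC P)
        set b₂ := (ladB W j).eval (xC P)
        set x₁ := xC ((j + 1) • P)
        set x₂ := xC (j • P)
        set xn := xC ((2 * j + 1) • P)
        set x₀ := xC P
        rw [← hab₁, ← hab₂]
        simp only [S05.H67.sumNum] at hform
        constructor
        · have : x₁ * b₁ * b₂ - x₂ * b₂ * b₁ = b₁ * b₂ * (x₁ - x₂) := by ring
          rw [this]
          exact pow_ne_zero 2 (mul_ne_zero (mul_ne_zero hb₁ hb₂) (sub_ne_zero.mpr hx))
        · linear_combination ((b₁ * b₂) ^ 2) * hform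

end Fermat.Agent.S13.H46
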