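import Mathlib
import Fermat.Agent.S05.H67_XF
import Fermat.Agent.S13.H46_LadderDefs
import Fermat.Agent.S13.H46_LadderEval

/-!
# Finiteness of torsion and `#E[p] ≤ p^2` from the ladder polynomials (S13/STRUCT)

* `eval_ladG_eq_zero`: a point of exact order `n ≥ 2` has its `x`-coordinate among the roots of the
  nonzero polynomial `ladG W n` (`ladB W n` for even `n`, `ladF W ((n-1)/2)` for odd `n`).
* `finite_tors`: `{T | ∃ k, 1 ≤ k ≤ N, k • T = 0}` is finite (characteristic zero).
* `eval_ladF_eq_zero_of_prime`: for `p = 2m+1` prime, `ladF W m` vanishes at `x(Q)` for every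
  nonzero `Q` with `p • Q = 0`.
* `card_torsion_le`: `#{T | p • T = 0} ≤ p^2`.
-/

set_option autoImplicit false

namespace Fermat.Agent.S13.H46

open Polynomial WeierstrassCurve

variable {F : Type*} [Field F] (W : WeierstrassCurve F)

local notation "xC" => Fermat.Agent.S05.H67.xCoord W

section Fibres

variable [DecidableEq F]

/-- nonzero points with a given `x`-coordinate: at most two. -/
lemma fibre_subset_pair {T₀ : W.toAffine.Point} (hT₀ : T₀ ≠ 0) :
    {T : W.toAffine.Point | T ≠ 0 ∧ xC T = xC T₀} ⊆ {T₀, -T₀} := by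
  rintro T ⟨hT, hx⟩
  rcases (S05.H67.xCoord_eq_iff W hT hT₀).mp hx with h | h
  · exact Or.inl h
  · exact Or.inr h

/-- The set of nonzero points whose `x`-coordinate is a root of a nonzero polynomial is finite,
of cardinality at most twice the degree. -/
theorem finite_setOf_eval_eq_zero {G : F[X]} (hG : G ≠ 0) :
    {T : W.toAffine.Point | T ≠ 0 ∧ G.eval (xC T) = 0}.Finite ∧
      {T : W.toAffine.Point | T ≠ 0 ∧ G.eval (xC T) = 0}.ncard ≤ 2 * G.natDegree := by
  classical
  set S : Set W.toAffine.Point := {T | T ≠ 0 ∧ G.eval (xC T) = 0} with hS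
  have hfin : S.Finite := by
    have hsub : S ⊆ ⋃ x ∈ (G.roots.toFinset : Set F),
        {T : W.toAffine.Point | T ≠ 0 ∧ xC T = x} := by
      rintro T ⟨hT, hx⟩
      simp only [Set.mem_iUnion]
      refine ⟨xC T, ?_, hT, rfl⟩
      simp [hG, hx]
    refine Set.Finite.subset (Set.Finite.biUnion (Finset.finite_toSet _) ?_) hsub
    intro x _
    by_cases hx : ∃ T₀ : W.toAffine.Point, T₀ ≠ 0 ∧ xC T₀ = x
    · obtain ⟨T₀, hT₀, rfl⟩ := hx
      exact Set.Finite.subset (Set.toFinite {T₀, -T₀}) (fibre_subset_pair W hT₀)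
    · convert Set.finite_empty
      ext T
      simp only [Set.mem_ofPred_eq, Set.mem_empty_iff_false, iff_false]
      exact fun h => hx ⟨T, h⟩
  refine ⟨hfin, ?_⟩
  rw [Set.ncard_eq_toFinset_card S hfin]
  have h1 := Finset.card_le_mul_card_image (f := fun T => xC T) hfin.toFinset 2 (by
    intro a ha
    obtain ⟨T₀, hT₀, rfl⟩ := Finset.mem_image.mp ha
    have hT₀' : T₀ ≠ 0 := ((Set.Finite.mem_toFinset hfin).mp hT₀).1
    refine (Finset.card_le_card (t := {T₀, -T₀}) ?_).trans Finset.card_le_two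
    intro T hT
    rw [Finset.mem_filter, Set.Finite.mem_toFinset] at hT
    have := fibre_subset_pair W hT₀' ⟨hT.1.1, hT.2⟩
    simpa using this)
  refine h1.trans (Nat.mul_le_mul_left 2 ?_)
  calc (hfin.toFinset.image fun T => xC T).card ≤ G.roots.toFinset.card := by
        apply Finset.card_le_card
        intro x hx
        obtain ⟨T, hT, rfl⟩ := Finset.mem_image.mp hx
        have := ((Set.Finite.mem_toFinset hfin).mp hT).2
        simp [hG, this]
    _ ≤ Multiset.card G.roots := Multiset.toFinset_card_le _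
    _ ≤ G.natDegree := card_roots' G

end Fibres

section ExactOrder

variable [DecidableEq F]

/-- the polynomial whose roots contain the `x`-coordinates of the points of exact order `n`. -/
noncomputable def ladG (n : ℕ) : F[X] :=
  if n % 2 = 0 then ladB W n else ladF W ((n - 1) / 2)

lemma ladG_ne_zero [CharZero F] (n : ℕ) (hn : 2 ≤ n) : ladG W n ≠ 0 := by
  unfold ladG
  split_ifs with h
  · refine (hasTop_ladB W n (by omega)).ne_zero ?_
    exact pow_ne_zero 2 (Nat.cast_ne_zero.mpr (by omega))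
  · refine (hasTop_ladF W ((n - 1) / 2)).ne_zero ?_
    rw [neg_ne_zero]
    have : (2 * (((n - 1) / 2 : ℕ) : F) + 1) = ((2 * ((n - 1) / 2) + 1 : ℕ) : F) := by push_cast; ring
    rw [this]
    exact Nat.cast_ne_zero.mpr (by omega)

lemma nsmul_ne_zero_of_lt_addOrderOf' {T : W.toAffine.Point} {n i : ℕ} (hT : addOrderOf T = n)
    (hi : 1 ≤ i) (hin : i < n) : i • T ≠ 0 := by
  intro h0
  have := addOrderOf_dvd_of_nsmul_eq_zero h0
  rw [hT] at this
  exact absurd (Nat.le_of_dvd (by omega) this) (by omega)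

/-- A point of exact order `n ≥ 2` has `x`-coordinate a root of `ladG W n`. -/
theorem eval_ladG_eq_zero {T : W.toAffine.Point} {n : ℕ} (hn : 2 ≤ n) (hT : addOrderOf T = n) :
    T ≠ 0 ∧ (ladG W n).eval (xC T) = 0 := by
  have hT0 : T ≠ 0 := by
    rintro rfl
    rw [addOrderOf_zero] at hT
    omega
  have hnT : n • T = 0 := by rw [← hT]; exact addOrderOf_nsmul_eq_zero T
  refine ⟨hT0, ?_⟩
  unfold ladG
  rcases Nat.even_or_odd' n with ⟨j, rfl | rfl⟩
  · -- n = 2 j
    have hj : 1 ≤ j := by omega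
    rw [if_pos (by omega)]
    obtain ⟨hb, hab⟩ := eval_ladder W (P := T) j hj
      (fun i hi hij => nsmul_ne_zero_of_lt_addOrderOf' W hT hi (by omega))
    have hPj : j • T ≠ 0 := nsmul_ne_zero_of_lt_addOrderOf' W hT hj (by omega)
    have h2 : 2 • (j • T) = 0 := by rw [← mul_nsmul, mul_comm]; exact hnT
    have hden := (S05.H67.two_nsmul_eq_zero_iff W hPj).mp h2
    rw [ladB_even W j hj, eval_dblB, ← hab]
    simp only [S05.H67.dblDen] at hden
    linear_combination ((ladB W j).eval (xC T)) ^ 4 * hden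
  · -- n = 2 m + 1
    have hm : 1 ≤ j := by omega
    rw [if_neg (by omega)]
    have e : (2 * j + 1 - 1) / 2 = j := by omega
    rw [e]
    obtain ⟨hb₁, hab₁⟩ := eval_ladder W (P := T) (j + 1) (by omega)
      (fun i hi hij => nsmul_ne_zero_of_lt_addOrderOf' W hT hi (by omega))
    obtain ⟨hb₂, hab₂⟩ := eval_ladder W (P := T) j hm
      (fun i hi hij => nsmul_ne_zero_of_lt_addOrderOf' W hT hi (by omega))
    have hneg : (j + 1) • T = -(j • T) := by
      rw [eq_neg_iff_add_eq_zero, ← add_nsmul]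
      have : j + 1 + j = 2 * j + 1 := by omega
      rw [this]; exact hnT
    have hx : xC ((j + 1) • T) = xC (j • T) := by rw [hneg, S05.H67.xCoord_neg]
    rw [ladF, eval_addD, ← hab₁, ← hab₂, hx]
    ring

end ExactOrder

section Finite

variable [DecidableEq F] [CharZero F]

/-- points killed by some `1 ≤ k ≤ N` -/
def tors (N : ℕ) : Set W.toAffine.Point := {T | ∃ k, 1 ≤ k ∧ k ≤ N ∧ k • T = 0}

lemma tors_subset (N : ℕ) :
    tors W N ⊆ {0} ∪ ⋃ n ∈ Finset.Icc 2 N,
      {T : W.toAffine.Point | T ≠ 0 ∧ (ladG W n).eval (xC T) = 0} := by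
  rintro T ⟨k, hk1, hkN, hk⟩
  by_cases hT : T = 0
  · exact Or.inl hT
  · right
    have hdvd := addOrderOf_dvd_of_nsmul_eq_zero hk
    have hpos : 0 < addOrderOf T := Nat.pos_of_dvd_of_pos hdvd (by omega)
    have hne1 : addOrderOf T ≠ 1 := fun h => hT (AddMonoid.addOrderOf_eq_one_iff.mp h)
    have hle : addOrderOf T ≤ k := Nat.le_of_dvd (by omega) hdvd
    simp only [Set.mem_iUnion]
    refine ⟨addOrderOf T, ?_, ?_⟩
    · rw [Finset.mem_Icc]; exact ⟨by omega, by omega⟩
    · exact eval_ladG_eq_zero W (by omega) rfl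

/-- **Torsion of bounded order is finite** (characteristic zero). -/
theorem finite_tors (N : ℕ) : (tors W N).Finite := by
  refine Set.Finite.subset ?_ (tors_subset W N)
  refine (Set.finite_singleton _).union (Set.Finite.biUnion (Finset.finite_toSet _) ?_)
  intro n hn
  rw [Finset.mem_coe, Finset.mem_Icc] at hn
  exact (finite_setOf_eval_eq_zero W (ladG_ne_zero W n hn.1)).1

end Finite

section Prime

variable [DecidableEq F]

/-- For `p = 2m+1` prime, `ladF W m` vanishes at the `x`-coordinate of every nonzero `p`-torsion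
point. -/
theorem eval_ladF_eq_zero_of_prime {m : ℕ} (hp : (2 * m + 1).Prime) {Q : W.toAffine.Point}
    (hQ : Q ≠ 0) (hpQ : (2 * m + 1) • Q = 0) : (ladF W m).eval (xC Q) = 0 := by
  have hord : addOrderOf Q = 2 * m + 1 := by
    have := Fact.mk hp
    exact addOrderOf_eq_prime hpQ hQ
  have h := (eval_ladG_eq_zero W (n := 2 * m + 1) hp.two_le hord).2
  unfold ladG at h
  rw [if_neg (by omega)] at h
  have e : (2 * m + 1 - 1) / 2 = m := by omega
  rwa [e] at h

/-- **Upper bound**: for an odd prime `p` (invertible in `F`), `#{T | p • T = 0} ≤ p^2`. -/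
theorem card_torsion_le {p : ℕ} (hp : p.Prime) (hp2 : p ≠ 2) (hpF : (p : F) ≠ 0) :
    {T : W.toAffine.Point | p • T = 0}.Finite ∧
      {T : W.toAffine.Point | p • T = 0}.ncard ≤ p ^ 2 := by
  obtain ⟨m, rfl⟩ : ∃ m, p = 2 * m + 1 := by
    rcases hp.eq_two_or_odd' with h | h
    · exact absurd h hp2
    · exact h
  have hF : ladF W m ≠ 0 := by
    refine (hasTop_ladF W m).ne_zero ?_
    rw [neg_ne_zero]
    have : (2 * (m : F) + 1) = ((2 * m + 1 : ℕ) : F) := by push_cast; ring
    rw [this]; exact hpF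
  obtain ⟨hfin, hcard⟩ := finite_setOf_eval_eq_zero W hF
  have hsub : {T : W.toAffine.Point | (2 * m + 1) • T = 0} ⊆
      insert 0 {T : W.toAffine.Point | T ≠ 0 ∧ (ladF W m).eval (xC T) = 0} := by
    intro T hT
    by_cases h0 : T = 0
    · exact Or.inl h0
    · exact Or.inr ⟨h0, eval_ladF_eq_zero_of_prime W hp h0 hT⟩
  have hfin' := hfin.insert (0 : W.toAffine.Point)
  refine ⟨hfin'.subset hsub, ?_⟩
  calc _ ≤ (insert (0 : W.toAffine.Point)
        {T : W.toAffine.Point | T ≠ 0 ∧ (ladF W m).eval (xC T) = 0}).ncard :=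
        Set.ncard_le_ncard hsub hfin'
    _ ≤ {T : W.toAffine.Point | T ≠ 0 ∧ (ladF W m).eval (xC T) = 0}.ncard + 1 :=
        Set.ncard_insert_le _ _
    _ ≤ 2 * (ladF W m).natDegree + 1 := by omega
    _ ≤ 2 * (2 * m ^ 2 + 2 * m) + 1 := by
        have := (hasTop_ladF W m).1
        omega
    _ = (2 * m + 1) ^ 2 := by ring

end Prime

end Fermat.Agent.S13.H46
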