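import Mathlib
import Fermat.Agent.S05.H67_XF
import Fermat.Agent.S13.H46_LadderDefs
import Fermat.Agent.S13.H46_LadderEval
import Fermat.Agent.S13.H46_LadderTorsion
import Fermat.Agent.S13.H84_Ladder
import Fermat.Agent.S13.H46_LadderBridge

/-!
# STRUCT export: `E[p]` is nontrivial and has at most `p^2` elements

For `K` algebraically closed, `W` a Weierstrass curve over `K` with `Δ ≠ 0`, `p` an odd prime
invertible in `K`:

* `exists_ne_zero_torsion` : there is `P ≠ 0` with `p • P = 0`;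
* `nontrivial_torsionBy` : `Nontrivial (Submodule.torsionBy ℤ W.toAffine.Point p)`;
* `card_torsionBy_le` : `Finite _ ∧ Nat.card (Submodule.torsionBy ℤ W.toAffine.Point p) ≤ p ^ 2`
  (no algebraic closedness, no `Δ` hypothesis needed).

Route: helper84's projective ladder invariant `H84.rep_ladder` + the degree computation of
`H46_LadderDefs` (no division-polynomial identities).
-/

set_option autoImplicit false

namespace Fermat.Agent.S13.H46

open Polynomial WeierstrassCurve

variable {K : Type*} [Field K] [DecidableEq K] (W : WeierstrassCurve K)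

local notation "xC" => Fermat.Agent.S05.H67.xCoord W

/-- `(2m+1) • P = 0` iff `Θ_m` vanishes at `x(P)` (any field, any `P ≠ 0`). -/
theorem nsmul_eq_zero_iff_eval_polyTheta {P : W.toAffine.Point} (hP : P ≠ 0) (m : ℕ) :
    (2 * m + 1) • P = 0 ↔ (polyTheta W m).eval (xC P) = 0 := by
  rw [H84.nsmul_eq_zero_iff_ladder hP, ← eval_polyLadder W (xC P) (2 * m + 1)]
  simp only [polyLadder_snd_odd, eval_pow]
  exact pow_eq_zero_iff two_ne_zero

/-- Over an algebraically closed field every `x₀` is the `x`-coordinate of a point of the curve. -/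
theorem exists_point_of_xCoord [IsAlgClosed K] (hΔ : W.Δ ≠ 0) (x₀ : K) :
    ∃ P : W.toAffine.Point, P ≠ 0 ∧ xC P = x₀ := by
  set q : K[X] := X ^ 2 + C (W.a₁ * x₀ + W.a₃) * X -
    C (x₀ ^ 3 + W.a₂ * x₀ ^ 2 + W.a₄ * x₀ + W.a₆) with hq
  have hdeg : q.degree ≠ 0 := by
    have : q.natDegree = 2 := by rw [hq]; compute_degree!
    intro h0
    have := natDegree_eq_of_degree_eq_some (n := 0) (by simpa using h0)
    omega
  obtain ⟨y₀, hy₀⟩ := IsAlgClosed.exists_root q hdeg
  have heq : W.toAffine.Equation x₀ y₀ := by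
    rw [Affine.equation_iff]
    have : q.eval y₀ = 0 := hy₀
    simp only [hq, eval_sub, eval_add, eval_pow, eval_X, eval_mul, eval_C] at this
    linear_combination this
  have hns : W.toAffine.Nonsingular x₀ y₀ :=
    (Affine.equation_iff_nonsingular_of_Δ_ne_zero hΔ).mp heq
  exact ⟨Affine.Point.some x₀ y₀ hns, Affine.Point.some_ne_zero _, rfl⟩

/-- **Existence of a nonzero `p`-torsion point** over an algebraically closed field. -/
theorem exists_ne_zero_torsion [IsAlgClosed K] (hΔ : W.Δ ≠ 0) {p : ℕ} (hp : p.Prime)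
    (hp2 : p ≠ 2) (hpK : (p : K) ≠ 0) : ∃ P : W.toAffine.Point, P ≠ 0 ∧ p • P = 0 := by
  obtain ⟨m, rfl⟩ : ∃ m, p = 2 * m + 1 := by
    rcases hp.eq_two_or_odd' with h | h
    · exact absurd h hp2
    · exact h
  have hm : 1 ≤ m := by
    rcases Nat.eq_zero_or_pos m with rfl | h
    · exact absurd hp (by norm_num)
    · exact h
  have hlc : (2 * (m : K) + 1) ≠ 0 := by
    have : (2 * (m : K) + 1) = ((2 * m + 1 : ℕ) : K) := by push_cast; ring
    rw [this]; exact hpK
  have hdeg : (polyTheta W m).degree ≠ 0 := by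
    intro h0
    have h1 := natDegree_polyTheta W hlc
    have h2 := natDegree_eq_of_degree_eq_some (n := 0) (by simpa using h0)
    have : 1 ≤ m ^ 2 := Nat.one_le_pow _ _ hm
    omega
  obtain ⟨x₀, hx₀⟩ := IsAlgClosed.exists_root (polyTheta W m) hdeg
  obtain ⟨P, hP, hxP⟩ := exists_point_of_xCoord W hΔ x₀
  refine ⟨P, hP, ?_⟩
  rw [nsmul_eq_zero_iff_eval_polyTheta W hP, hxP]
  exact hx₀

/-- membership in the frozen `E[p] = Submodule.torsionBy ℤ _ p`. -/
lemma mem_torsionBy_iff_nsmul (p : ℕ) (P : W.toAffine.Point) :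
    P ∈ Submodule.torsionBy ℤ W.toAffine.Point (p : ℤ) ↔ p • P = 0 := by
  rw [Submodule.mem_torsionBy_iff, natCast_zsmul]

/-- **`E[p]` is nontrivial.** -/
theorem nontrivial_torsionBy [IsAlgClosed K] (hΔ : W.Δ ≠ 0) {p : ℕ} (hp : p.Prime)
    (hp2 : p ≠ 2) (hpK : (p : K) ≠ 0) :
    Nontrivial (Submodule.torsionBy ℤ W.toAffine.Point (p : ℤ)) := by
  obtain ⟨P, hP, hpP⟩ := exists_ne_zero_torsion W hΔ hp hp2 hpK
  refine ⟨⟨⟨P, (mem_torsionBy_iff_nsmul W p P).mpr hpP⟩, 0, ?_⟩⟩
  intro h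
  exact hP (congrArg Subtype.val h)

/-- **`#E[p] ≤ p^2`.** -/
theorem card_torsionBy_le {p : ℕ} (hp : p.Prime) (hp2 : p ≠ 2) (hpK : (p : K) ≠ 0) :
    Finite (Submodule.torsionBy ℤ W.toAffine.Point (p : ℤ)) ∧
      Nat.card (Submodule.torsionBy ℤ W.toAffine.Point (p : ℤ)) ≤ p ^ 2 := by
  obtain ⟨hfin, hcard⟩ := card_torsion_le W hp hp2 hpK
  have hset : ((Submodule.torsionBy ℤ W.toAffine.Point (p : ℤ) : Set W.toAffine.Point)) =
      {T : W.toAffine.Point | p • T = 0} := by
    ext T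
    exact mem_torsionBy_iff_nsmul W p T
  have hfin' : ((Submodule.torsionBy ℤ W.toAffine.Point (p : ℤ) : Set W.toAffine.Point)).Finite := by
    rw [hset]; exact hfin
  refine ⟨hfin'.to_subtype, ?_⟩
  have : Nat.card (Submodule.torsionBy ℤ W.toAffine.Point (p : ℤ)) =
      {T : W.toAffine.Point | p • T = 0}.ncard := by
    rw [← hset]; rfl
  rw [this]
  exact hcard

end Fermat.Agent.S13.H46
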