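import Mathlib
import Fermat.Prelude.Def_FLTPrelim_GaloisRep

/-!
# S13 / LEVEL : the Galois action on a finite torsion module has finite level

For `W' : Affine R`, fields `S ⊆ K` with `K/S` algebraic, and `n : ℕ` such that the prelude module
`T = Submodule.torsionBy ℤ (W'⁄K).Point n` is finite, there is a finite-dimensional intermediate
field `L` (generated by all coordinates of all points of `T`) whose fixing subgroup acts trivially
on `T` (`exists_finiteDimensional_fixing`).  Everything is stated with instance-implicit algebra
structures, so it applies to whichever `Algebra ℚ (AlgebraicClosure ℚ)` instance a consumer sees.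
-/

set_option autoImplicit false
set_option linter.style.haveILetI false

namespace Fermat.Agent.S13.H38

open WeierstrassCurve WeierstrassCurve.Affine WeierstrassCurve.Affine.Point

section Level

universe r s v

variable {R : Type r} {S : Type s} {K : Type v} [CommRing R] [Field S] [Field K]
  [DecidableEq K] (W' : Affine R) [Algebra R S] [Algebra R K] [Algebra S K]
  [IsScalarTower R S K]

/-- The coordinates of a point, as a finite set (empty for the point at infinity). -/
def coordFinset : (W'⁄K).Point → Finset K
  | .zero => ∅
  | .some x y _ => {x, y}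

theorem coordFinset_some {x y : K} (h : (W'⁄K).Nonsingular x y) :
    coordFinset W' (Point.some x y h : (W'⁄K).Point) = {x, y} := rfl

/-- An automorphism fixing the coordinates of a point fixes the point (prelude action). -/
theorem smul_eq_self_of_forall_coord (σ : K ≃ₐ[S] K) (P : (W'⁄K).Point)
    (h : ∀ z ∈ coordFinset W' P, σ z = z) : σ • P = P := by
  cases P with
  | zero => rfl
  | some x y hxy =>
    have hx : σ x = x := h x (by simp [coordFinset])
    have hy : σ y = y := h y (by simp [coordFinset])
    have h1 : σ • (Point.some x y hxy : (W'⁄K).Point) =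
        Point.some (σ x) (σ y)
          ((W'.baseChange_nonsingular σ.toAlgHom.injective ..).mpr hxy) := rfl
    rw [h1]
    exact (Point.some.injEq ..).mpr ⟨hx, hy⟩

/-- Per-point finite level: every point is fixed by the fixing subgroup of a finite-dimensional
intermediate field. -/
theorem exists_finiteDimensional_fixing_point [Algebra.IsAlgebraic S K] (P : (W'⁄K).Point) :
    ∃ L : IntermediateField S K, FiniteDimensional S L ∧
      ∀ σ ∈ L.fixingSubgroup, σ • P = P := by
  refine ⟨IntermediateField.adjoin S ((coordFinset W' P : Finset K) : Set K), ?_, ?_⟩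
  · exact IntermediateField.finiteDimensional_adjoin
      (fun z _ => (Algebra.IsAlgebraic.isAlgebraic z).isIntegral)
  · intro σ hσ
    apply smul_eq_self_of_forall_coord
    intro z hz
    exact (IntermediateField.mem_fixingSubgroup_iff _ σ).mp hσ z
      (IntermediateField.subset_adjoin S _ (by exact_mod_cast hz))

/-- **Finite level** of the Galois action on a finite torsion module, in the shape `hlev` of the
S13 glue. -/
theorem exists_finiteDimensional_fixing [Algebra.IsAlgebraic S K] (n : ℕ)
    [Finite (Submodule.torsionBy ℤ (W'⁄K).Point n)] :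
    ∃ L : IntermediateField S K, FiniteDimensional S L ∧
      ∀ σ ∈ L.fixingSubgroup, ∀ x : Submodule.torsionBy ℤ (W'⁄K).Point n, σ • x = x := by
  letI : Fintype (Submodule.torsionBy ℤ (W'⁄K).Point n) := Fintype.ofFinite _
  let s : Finset K := Finset.univ.biUnion
    fun x : Submodule.torsionBy ℤ (W'⁄K).Point n => coordFinset W' (x : (W'⁄K).Point)
  refine ⟨IntermediateField.adjoin S (s : Set K), ?_, ?_⟩
  · exact IntermediateField.finiteDimensional_adjoin
      (fun z _ => (Algebra.IsAlgebraic.isAlgebraic z).isIntegral)
  · intro σ hσ x
    apply Subtype.ext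
    change σ • (x : (W'⁄K).Point) = (x : (W'⁄K).Point)
    apply smul_eq_self_of_forall_coord
    intro z hz
    have hzs : z ∈ (s : Set K) := by
      rw [Finset.mem_coe, Finset.mem_biUnion]
      exact ⟨x, Finset.mem_univ _, hz⟩
    exact (IntermediateField.mem_fixingSubgroup_iff _ σ).mp hσ z
      (IntermediateField.subset_adjoin S _ hzs)

end Level

/-! ### Specialisation to `ℚ ⊆ AlgebraicClosure ℚ`

With all of Mathlib imported (as in the frozen statement S13) the instance found for
`Algebra ℚ (AlgebraicClosure ℚ)` is `DivisionRing.toRatAlgebra`; the statements below are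
elaborated in that context. -/

section Rat

theorem isAlgebraic_rat_algebraicClosure : Algebra.IsAlgebraic ℚ (AlgebraicClosure ℚ) :=
  AlgebraicClosure.isAlgebraic ℚ

/-- `hlev` of the S13 glue. -/
theorem exists_finiteDimensional_fixing_rat (W' : Affine ℚ) (n : ℕ)
    [Finite (Submodule.torsionBy ℤ (W'⁄(AlgebraicClosure ℚ)).Point n)] :
    ∃ L : IntermediateField ℚ (AlgebraicClosure ℚ), FiniteDimensional ℚ L ∧
      ∀ σ ∈ L.fixingSubgroup,
        ∀ x : Submodule.torsionBy ℤ (W'⁄(AlgebraicClosure ℚ)).Point n, σ • x = x :=
  haveI := isAlgebraic_rat_algebraicClosure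
  exists_finiteDimensional_fixing W' n

/-- Per-point version. -/
theorem exists_finiteDimensional_fixing_point_rat (W' : Affine ℚ)
    (P : (W'⁄(AlgebraicClosure ℚ)).Point) :
    ∃ L : IntermediateField ℚ (AlgebraicClosure ℚ), FiniteDimensional ℚ L ∧
      ∀ σ ∈ L.fixingSubgroup, σ • P = P :=
  haveI := isAlgebraic_rat_algebraicClosure
  exists_finiteDimensional_fixing_point W' P

end Rat

end Fermat.Agent.S13.H38
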