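import Mathlib

/-!
# S13 / STRUCT-count: from the torsion criterion to the size of `E[p]`

Consumer side of STRUCT.  Everything is stated against the explicit hypothesis
`TorsionCriterion W p` (for odd `p`): a nonsingular affine point `(x, y)` is killed by `p`
iff `x` is a root of the `p`-th division polynomial `preΨ p`.
-/

set_option autoImplicit false

noncomputable section

namespace Fermat.Agent.S13.H59

open Polynomial WeierstrassCurve WeierstrassCurve.Affine

variable {F : Type*} [Field F] [DecidableEq F] (W : WeierstrassCurve F)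

/-- The multiplication-by-`n` criterion (to be used for odd `n`). -/
def TorsionCriterion (n : ℕ) : Prop :=
  ∀ (x y : F) (h : W.toAffine.Nonsingular x y),
    n • (Point.some x y h : W.toAffine.Point) = 0 ↔ (W.preΨ n).eval x = 0

/-- The quadratic polynomial in `y` cutting out the points of `W` above `x`. -/
def fibrePoly (x : F) : F[X] :=
  X ^ 2 + C (W.a₁ * x + W.a₃) * X - C (x ^ 3 + W.a₂ * x ^ 2 + W.a₄ * x + W.a₆)

theorem fibrePoly_natDegree (x : F) : (fibrePoly W x).natDegree = 2 := by
  unfold fibrePoly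
  compute_degree!

theorem fibrePoly_ne_zero (x : F) : fibrePoly W x ≠ 0 := by
  intro h
  have := fibrePoly_natDegree W x
  rw [h, natDegree_zero] at this
  omega

theorem eval_fibrePoly (x y : F) :
    (fibrePoly W x).eval y = 0 ↔ W.toAffine.Equation x y := by
  rw [equation_iff']
  unfold fibrePoly
  simp only [eval_sub, eval_add, eval_pow, eval_X, eval_mul, eval_C]
  constructor <;> intro h <;> linear_combination h

theorem card_roots_fibrePoly_le (x : F) : (fibrePoly W x).roots.toFinset.card ≤ 2 := by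
  classical
  calc (fibrePoly W x).roots.toFinset.card ≤ Multiset.card (fibrePoly W x).roots :=
        Multiset.toFinset_card_le _
    _ ≤ (fibrePoly W x).natDegree := card_roots' _
    _ = 2 := fibrePoly_natDegree W x

/-! ### Degree of `preΨ p` for odd `p` -/

theorem natDegree_preΨ_odd {p : ℕ} (hodd : Odd p) (hpF : (p : F) ≠ 0) :
    (W.preΨ (p : ℤ)).natDegree = (p ^ 2 - 1) / 2 := by
  have h : ((p : ℤ) : F) ≠ 0 := by exact_mod_cast hpF
  rw [W.natDegree_preΨ h]
  have hne : ¬ Even (p : ℤ) := by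
    rw [Int.not_even_iff_odd]
    exact_mod_cast hodd
  simp [hne]

theorem leadingCoeff_preΨ_odd {p : ℕ} (hodd : Odd p) (hpF : (p : F) ≠ 0) :
    (W.preΨ (p : ℤ)).leadingCoeff = (p : F) := by
  have h : ((p : ℤ) : F) ≠ 0 := by exact_mod_cast hpF
  rw [W.leadingCoeff_preΨ h]
  have hne : ¬ Even (p : ℤ) := by
    rw [Int.not_even_iff_odd]
    exact_mod_cast hodd
  simp [hne]

theorem preΨ_odd_ne_zero {p : ℕ} (hpF : (p : F) ≠ 0) : W.preΨ (p : ℤ) ≠ 0 := by
  have h : ((p : ℤ) : F) ≠ 0 := by exact_mod_cast hpF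
  exact W.preΨ_ne_zero h

/-! ### (C1) existence of a nonzero `p`-torsion point -/

/-- Every `x` is the abscissa of a point of the curve over an algebraically closed field. -/
theorem exists_equation [IsAlgClosed F] (x : F) : ∃ y : F, W.toAffine.Equation x y := by
  have hdeg : (fibrePoly W x).degree ≠ 0 := by
    rw [degree_eq_natDegree (fibrePoly_ne_zero W x), fibrePoly_natDegree]
    norm_num
  obtain ⟨y, hy⟩ := IsAlgClosed.exists_root (fibrePoly W x) hdeg
  exact ⟨y, (eval_fibrePoly W x y).mp hy⟩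

variable {W}

/-- **(C1)** Over an algebraically closed field there is a nonzero point killed by `p`
(`p ≥ 3` odd, invertible in `F`), given the torsion criterion. -/
theorem exists_ne_zero_torsion [IsAlgClosed F] (hΔ : W.Δ ≠ 0) {p : ℕ} (hodd : Odd p)
    (hp3 : 3 ≤ p) (hpF : (p : F) ≠ 0) (hcrit : TorsionCriterion W p) :
    ∃ P : W.toAffine.Point, P ≠ 0 ∧ p • P = 0 := by
  have hdeg : (W.preΨ (p : ℤ)).degree ≠ 0 := by
    rw [degree_eq_natDegree (preΨ_odd_ne_zero W hpF), natDegree_preΨ_odd W hodd hpF]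
    have : 0 < (p ^ 2 - 1) / 2 := by
      have : 9 ≤ p ^ 2 := by nlinarith
      omega
    exact_mod_cast this.ne'
  obtain ⟨x, hx⟩ := IsAlgClosed.exists_root (W.preΨ (p : ℤ)) hdeg
  obtain ⟨y, hy⟩ := exists_equation W x
  have hns : W.toAffine.Nonsingular x y := (equation_iff_nonsingular_of_Δ_ne_zero hΔ).mp hy
  refine ⟨Point.some x y hns, Point.some_ne_zero hns, (hcrit x y hns).mpr hx⟩

/-! ### (C2) the upper bound `#E[p] ≤ p²` -/

open Classical in
/-- The finite set of pairs `(x, y)` with `x` a root of `preΨ p` and `(x, y)` on the curve. -/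
def torsionPairs (W : WeierstrassCurve F) (p : ℕ) : Finset (Σ _ : F, F) :=
  (W.preΨ (p : ℤ)).roots.toFinset.sigma fun x => (fibrePoly W x).roots.toFinset

theorem card_torsionPairs_le {p : ℕ} (hodd : Odd p) (hpF : (p : F) ≠ 0) :
    (torsionPairs W p).card ≤ p ^ 2 - 1 := by
  classical
  unfold torsionPairs
  rw [Finset.card_sigma]
  calc ∑ x ∈ (W.preΨ (p : ℤ)).roots.toFinset, (fibrePoly W x).roots.toFinset.card
      ≤ ∑ _x ∈ (W.preΨ (p : ℤ)).roots.toFinset, 2 :=
        Finset.sum_le_sum fun x _ => card_roots_fibrePoly_le W x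
    _ = (W.preΨ (p : ℤ)).roots.toFinset.card * 2 := by rw [Finset.sum_const, smul_eq_mul]
    _ ≤ (W.preΨ (p : ℤ)).natDegree * 2 :=
        Nat.mul_le_mul_right 2 ((Multiset.toFinset_card_le _).trans (card_roots' _))
    _ = (p ^ 2 - 1) / 2 * 2 := by rw [natDegree_preΨ_odd W hodd hpF]
    _ ≤ p ^ 2 - 1 := Nat.div_mul_le_self _ _

open Classical in
/-- The point attached to a pair (junk value `0` off the curve). -/
def pointOfPair (W : WeierstrassCurve F) (xy : Σ _ : F, F) : W.toAffine.Point :=
  if h : W.toAffine.Nonsingular xy.1 xy.2 then Point.some xy.1 xy.2 h else 0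

theorem torsion_subset {p : ℕ} (hpF : (p : F) ≠ 0) (hcrit : TorsionCriterion W p) :
    {P : W.toAffine.Point | p • P = 0} ⊆
      insert 0 ((torsionPairs W p).image (pointOfPair W) : Set W.toAffine.Point) := by
  classical
  intro P hP
  rcases P with _ | ⟨x, y, h⟩
  · exact Set.mem_insert _ _
  · right
    rw [Finset.mem_coe, Finset.mem_image]
    refine ⟨⟨x, y⟩, ?_, ?_⟩
    · unfold torsionPairs
      rw [Finset.mem_sigma, Multiset.mem_toFinset, Multiset.mem_toFinset,
        mem_roots (preΨ_odd_ne_zero W hpF), mem_roots (fibrePoly_ne_zero W x)]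
      exact ⟨(hcrit x y h).mp hP, (eval_fibrePoly W x y).mpr h.1⟩
    · unfold pointOfPair
      rw [dif_pos h]

/-- **(C2)** the `p`-torsion is finite. -/
theorem finite_torsion {p : ℕ} (hpF : (p : F) ≠ 0) (hcrit : TorsionCriterion W p) :
    {P : W.toAffine.Point | p • P = 0}.Finite := by
  classical
  refine Set.Finite.subset ?_ (torsion_subset hpF hcrit)
  exact (Finset.finite_toSet _).insert 0

/-- **(C2)** `#E[p] ≤ p²`. -/
theorem ncard_torsion_le {p : ℕ} (hodd : Odd p) (hp1 : 1 ≤ p) (hpF : (p : F) ≠ 0)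
    (hcrit : TorsionCriterion W p) :
    {P : W.toAffine.Point | p • P = 0}.ncard ≤ p ^ 2 := by
  classical
  have hfin : (insert 0 ((torsionPairs W p).image (pointOfPair W) : Set W.toAffine.Point)).Finite :=
    (Finset.finite_toSet _).insert 0
  calc {P : W.toAffine.Point | p • P = 0}.ncard
      ≤ (insert 0 ((torsionPairs W p).image (pointOfPair W) : Set W.toAffine.Point)).ncard :=
        Set.ncard_le_ncard (torsion_subset hpF hcrit) hfin
    _ ≤ ((torsionPairs W p).image (pointOfPair W) : Set W.toAffine.Point).ncard + 1 :=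
        Set.ncard_insert_le _ _
    _ = ((torsionPairs W p).image (pointOfPair W)).card + 1 := by rw [Set.ncard_coe_finset]
    _ ≤ (torsionPairs W p).card + 1 := Nat.add_le_add_right Finset.card_image_le 1
    _ ≤ (p ^ 2 - 1) + 1 := Nat.add_le_add_right (card_torsionPairs_le hodd hpF) 1
    _ = p ^ 2 := Nat.sub_add_cancel (Nat.one_le_pow _ _ hp1)

/-! ### Reformulation for `Submodule.torsionBy ℤ _ p` (the frozen `E[p]`) -/

theorem mem_torsionBy_iff_nsmul {p : ℕ} (P : W.toAffine.Point) :
    P ∈ Submodule.torsionBy ℤ W.toAffine.Point (p : ℤ) ↔ p • P = 0 := by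
  rw [Submodule.mem_torsionBy_iff, natCast_zsmul]

theorem coe_torsionBy {p : ℕ} :
    ((Submodule.torsionBy ℤ W.toAffine.Point (p : ℤ) : Submodule ℤ W.toAffine.Point) :
      Set W.toAffine.Point) = {P : W.toAffine.Point | p • P = 0} := by
  ext P
  exact mem_torsionBy_iff_nsmul P

theorem finite_torsionBy {p : ℕ} (hpF : (p : F) ≠ 0) (hcrit : TorsionCriterion W p) :
    Finite (Submodule.torsionBy ℤ W.toAffine.Point (p : ℤ)) := by
  have h := finite_torsion hpF hcrit
  rw [← coe_torsionBy] at h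
  exact h.to_subtype

theorem card_torsionBy_le {p : ℕ} (hodd : Odd p) (hp1 : 1 ≤ p) (hpF : (p : F) ≠ 0)
    (hcrit : TorsionCriterion W p) :
    Nat.card (Submodule.torsionBy ℤ W.toAffine.Point (p : ℤ)) ≤ p ^ 2 := by
  have h := ncard_torsion_le hodd hp1 hpF hcrit
  rw [← coe_torsionBy] at h
  exact h

theorem nontrivial_torsionBy [IsAlgClosed F] (hΔ : W.Δ ≠ 0) {p : ℕ} (hodd : Odd p)
    (hp3 : 3 ≤ p) (hpF : (p : F) ≠ 0) (hcrit : TorsionCriterion W p) :
    Nontrivial (Submodule.torsionBy ℤ W.toAffine.Point (p : ℤ)) := by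
  obtain ⟨P, hP0, hP⟩ := exists_ne_zero_torsion hΔ hodd hp3 hpF hcrit
  refine ⟨⟨⟨P, (mem_torsionBy_iff_nsmul P).mpr hP⟩, 0, ?_⟩⟩
  intro h
  exact hP0 (congrArg Subtype.val h)

/-! ### (C3) roots of `preΨ p` are exactly the abscissae of nonzero `p`-torsion points -/

theorem eval_preΨ_eq_zero_iff [IsAlgClosed F] (hΔ : W.Δ ≠ 0) {p : ℕ}
    (hcrit : TorsionCriterion W p) (x : F) :
    (W.preΨ (p : ℤ)).eval x = 0 ↔
      ∃ (y : F) (h : W.toAffine.Nonsingular x y), p • (Point.some x y h : W.toAffine.Point) = 0 := by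
  constructor
  · intro hx
    obtain ⟨y, hy⟩ := exists_equation W x
    have hns : W.toAffine.Nonsingular x y := (equation_iff_nonsingular_of_Δ_ne_zero hΔ).mp hy
    exact ⟨y, hns, (hcrit x y hns).mpr hx⟩
  · rintro ⟨y, h, hP⟩
    exact (hcrit x y h).mp hP

/-- Every root of `preΨ p` is the abscissa of a nonzero `p`-torsion point. -/
theorem exists_torsion_of_mem_roots [IsAlgClosed F] (hΔ : W.Δ ≠ 0) {p : ℕ}
    (hcrit : TorsionCriterion W p) {r : F} (hr : r ∈ (W.preΨ (p : ℤ)).roots) :
    ∃ (y : F) (h : W.toAffine.Nonsingular r y), p • (Point.some r y h : W.toAffine.Point) = 0 :=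
  (eval_preΨ_eq_zero_iff hΔ hcrit r).mp (isRoot_of_mem_roots hr)

/-- **Root product**: over an algebraically closed field, `preΨ p = p · ∏ (X - r)` over the roots
(with multiplicity), `p` odd and invertible. -/
theorem preΨ_eq_prod_roots [IsAlgClosed F] {p : ℕ} (hodd : Odd p) (hpF : (p : F) ≠ 0) :
    W.preΨ (p : ℤ) = C (p : F) * ((W.preΨ (p : ℤ)).roots.map fun r => X - C r).prod := by
  have h := C_leadingCoeff_mul_prod_multiset_X_sub_C
    (IsAlgClosed.card_roots_eq_natDegree (p := W.preΨ (p : ℤ)))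
  rw [leadingCoeff_preΨ_odd W hodd hpF] at h
  exact h.symm

/-- The value at `0`: `preΨ p (0) = p · ∏ (-r)`. -/
theorem eval_zero_preΨ_eq [IsAlgClosed F] {p : ℕ} (hodd : Odd p) (hpF : (p : F) ≠ 0) :
    (W.preΨ (p : ℤ)).eval 0 = (p : F) * ((W.preΨ (p : ℤ)).roots.map fun r => -r).prod := by
  conv_lhs => rw [preΨ_eq_prod_roots (W := W) hodd hpF]
  rw [eval_mul, eval_C, eval_multiset_prod, Multiset.map_map]
  congr 2
  ext r
  simp

/-! ### Linear algebra: a proper nonzero subspace of a space with at most `p²` elements -/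

/-- If a `ZMod p`-vector space `V` has at most `p²` elements and a proper nonzero subspace `N`,
then `#N = p` and `#V = p²` (so `V` is a plane and `N` a line). -/
theorem card_eq_of_proper_submodule {p : ℕ} [Fact p.Prime] {V : Type*} [AddCommGroup V]
    [Module (ZMod p) V] [Finite V] (hV : Nat.card V ≤ p ^ 2) (N : Submodule (ZMod p) V)
    (hbot : N ≠ ⊥) (htop : N ≠ ⊤) :
    Nat.card N = p ∧ Nat.card V = p ^ 2 ∧ Module.finrank (ZMod p) N = 1 ∧
      Module.finrank (ZMod p) V = 2 := by
  have hp : p.Prime := Fact.out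
  have hp1 : 1 < p := hp.one_lt
  haveI : Module.Finite (ZMod p) V := Module.Finite.of_finite
  have hcardV : Nat.card V = p ^ Module.finrank (ZMod p) V := by
    have := Module.natCard_eq_pow_finrank (K := ZMod p) (V := V)
    rwa [Nat.card_zmod] at this
  have hcardN : Nat.card N = p ^ Module.finrank (ZMod p) N := by
    have := Module.natCard_eq_pow_finrank (K := ZMod p) (V := N)
    rwa [Nat.card_zmod] at this
  have h2 : Module.finrank (ZMod p) V ≤ 2 := by
    rw [hcardV] at hV
    exact (Nat.pow_le_pow_iff_right hp1).mp hV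
  have hlt : Module.finrank (ZMod p) N < Module.finrank (ZMod p) V :=
    Submodule.finrank_lt htop
  have hpos : 0 < Module.finrank (ZMod p) N := by
    rw [Module.finrank_pos_iff]
    exact (Submodule.nontrivial_iff_ne_bot).mpr hbot
  have hN1 : Module.finrank (ZMod p) N = 1 := by omega
  have hV2 : Module.finrank (ZMod p) V = 2 := by omega
  refine ⟨by rw [hcardN, hN1, pow_one], by rw [hcardV, hV2], hN1, hV2⟩

end Fermat.Agent.S13.H59
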