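import Mathlib
import Fermat.Agent.S13.H84_Ladder

/-!
# The ladder polynomials (project S13, STRUCT, helper84)

`ladderPoly W n = (A_n, B_n) : R[X] × R[X]` and `theta W j = A_{j+1} B_j - A_j B_{j+1}`
(so that `B_{2j+1} = theta W j ^ 2`), their compatibility with ring maps and evaluation, and
the torsion criterion `(2j+1) • P = 0 ↔ (theta W j).eval (x(P)) = 0`.
-/

set_option autoImplicit false

namespace Fermat.Agent.S13.H84

open Polynomial

section Poly

variable {R : Type*} [CommRing R] (W : WeierstrassCurve R)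

/-- the ladder polynomials `(A_n, B_n)` -/
noncomputable def ladderPoly (n : ℕ) : R[X] × R[X] :=
  ladder (C W.b₂) (C W.b₄) (C W.b₆) (C W.b₈) X n

/-- `Θ_j = A_{j+1} B_j - A_j B_{j+1}`; `B_{2j+1} = Θ_j ^ 2` -/
noncomputable def theta (j : ℕ) : R[X] :=
  (ladderPoly W (j + 1)).1 * (ladderPoly W j).2 - (ladderPoly W j).1 * (ladderPoly W (j + 1)).2

lemma ladderPoly_zero : ladderPoly W 0 = (1, 0) := by simp [ladderPoly]

lemma ladderPoly_one : ladderPoly W 1 = (X, 1) := by simp [ladderPoly]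

lemma ladderPoly_even (j : ℕ) :
    ladderPoly W (2 * j) = dblPair (C W.b₂) (C W.b₄) (C W.b₆) (C W.b₈) (ladderPoly W j) :=
  ladder_even _ _ _ _ _ j

lemma ladderPoly_odd (j : ℕ) :
    ladderPoly W (2 * j + 1) =
      addPair (C W.b₂) (C W.b₄) (C W.b₆) X (ladderPoly W j) (ladderPoly W (j + 1)) :=
  ladder_odd _ _ _ _ _ j

lemma ladderPoly_odd_snd (j : ℕ) : (ladderPoly W (2 * j + 1)).2 = theta W j ^ 2 := by
  rw [ladderPoly_odd]; rfl

lemma eval_ladderPoly (x : R) (n : ℕ) :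
    Prod.map (eval x) (eval x) (ladderPoly W n) = ladder W.b₂ W.b₄ W.b₆ W.b₈ x n := by
  have := map_ladder (evalRingHom x) (C W.b₂) (C W.b₄) (C W.b₆) (C W.b₈) X n
  simpa [ladderPoly] using this

lemma eval_ladderPoly_fst (x : R) (n : ℕ) :
    (ladderPoly W n).1.eval x = (ladder W.b₂ W.b₄ W.b₆ W.b₈ x n).1 := by
  rw [← eval_ladderPoly]; rfl

lemma eval_ladderPoly_snd (x : R) (n : ℕ) :
    (ladderPoly W n).2.eval x = (ladder W.b₂ W.b₄ W.b₆ W.b₈ x n).2 := by
  rw [← eval_ladderPoly]; rfl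

lemma eval_theta (x : R) (j : ℕ) :
    (theta W j).eval x =
      (ladder W.b₂ W.b₄ W.b₆ W.b₈ x (j + 1)).1 * (ladder W.b₂ W.b₄ W.b₆ W.b₈ x j).2
        - (ladder W.b₂ W.b₄ W.b₆ W.b₈ x j).1 * (ladder W.b₂ W.b₄ W.b₆ W.b₈ x (j + 1)).2 := by
  simp only [theta, eval_sub, eval_mul, eval_ladderPoly_fst, eval_ladderPoly_snd]

variable {R' : Type*} [CommRing R'] (f : R →+* R')

lemma map_ladderPoly (n : ℕ) :
    Prod.map (Polynomial.map f) (Polynomial.map f) (ladderPoly W n) = ladderPoly (W.map f) n := by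
  have := map_ladder (mapRingHom f) (C W.b₂) (C W.b₄) (C W.b₆) (C W.b₈) X n
  simpa [ladderPoly] using this

lemma map_ladderPoly_fst (n : ℕ) :
    (ladderPoly W n).1.map f = (ladderPoly (W.map f) n).1 := by
  rw [← map_ladderPoly]; rfl

lemma map_ladderPoly_snd (n : ℕ) :
    (ladderPoly W n).2.map f = (ladderPoly (W.map f) n).2 := by
  rw [← map_ladderPoly]; rfl

lemma map_theta (j : ℕ) : (theta W j).map f = theta (W.map f) j := by
  simp only [theta, Polynomial.map_sub, Polynomial.map_mul, map_ladderPoly_fst,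
    map_ladderPoly_snd]

end Poly

section Field

open WeierstrassCurve WeierstrassCurve.Affine Fermat.Agent.S05.H67

variable {F : Type*} [Field F] [DecidableEq F] {W : WeierstrassCurve F}

/-- `n • P = 0` iff `B_n(x(P)) = 0` -/
theorem nsmul_eq_zero_iff_eval {P : W.toAffine.Point} (hP : P ≠ 0) (n : ℕ) :
    n • P = 0 ↔ (ladderPoly W n).2.eval (xCoord W P) = 0 := by
  rw [eval_ladderPoly_snd, nsmul_eq_zero_iff_ladder hP]

/-- **Torsion criterion, odd case**: `(2j+1) • P = 0` iff `Θ_j(x(P)) = 0` -/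
theorem nsmul_eq_zero_iff_theta {P : W.toAffine.Point} (hP : P ≠ 0) (j : ℕ) :
    (2 * j + 1) • P = 0 ↔ (theta W j).eval (xCoord W P) = 0 := by
  rw [nsmul_eq_zero_iff_eval hP, ladderPoly_odd_snd, eval_pow, sq_eq_zero_iff]

/-- `x(n • P) B_n(x(P)) = A_n(x(P))` when `n • P ≠ 0` -/
theorem xCoord_nsmul_mul_eval {P : W.toAffine.Point} (hP : P ≠ 0) (n : ℕ) (hn : n • P ≠ 0) :
    xCoord W (n • P) * (ladderPoly W n).2.eval (xCoord W P) =
      (ladderPoly W n).1.eval (xCoord W P) := by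
  rw [eval_ladderPoly_fst, eval_ladderPoly_snd, xCoord_nsmul_mul_ladder hP n hn]

end Field

end Fermat.Agent.S13.H84
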