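import Mathlib
import Fermat.Prelude.Def_FLTPrelim_FreyPackage
import Fermat.Prelude.Def_FLTPrelim_GaloisRep
import Fermat.Agent.S13.H84_LadderPoly
import Fermat.Agent.S13.H46_LadderBridge
import Fermat.Agent.S13.H46_LadderTorsion
import Fermat.Agent.S13.H59_Count

/-!
# STRUCT for S13 via the ladder route (helper84, on top of helper46's degree package)

* `theta W j` has degree `2j(j+1)` and leading coefficient `-(2j+1)`;
* `torsion_criterion`: `p • (x,y) = 0 ↔ Θ_{(p-1)/2}(x) = 0` for odd `p`, after base change;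
* `nontrivial_torsionBy`, `finite_torsionBy`, `card_torsionBy_le` for
  `Submodule.torsionBy ℤ (W'⁄K).Point p`;
* the Frey curve: `frey_nontrivial`, `frey_finite`, `frey_card_le`.
-/

set_option autoImplicit false

namespace Fermat.Agent.S13.H84

open Polynomial WeierstrassCurve WeierstrassCurve.Affine

section Deg

variable {R : Type*} [CommRing R] (W : WeierstrassCurve R)

lemma theta_eq_ladF (j : ℕ) : theta W j = H46.ladF W j := by
  have h1 : ∀ n, (ladderPoly W n).1 = H46.ladA W n := fun n => H46.polyLadder_fst W n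
  have h2 : ∀ n, (ladderPoly W n).2 = H46.ladB W n := fun n => H46.polyLadder_snd W n
  simp only [theta, h1, h2, H46.ladF, H46.addD]

theorem hasTop_theta (j : ℕ) :
    H46.HasTop (theta W j) (2 * j ^ 2 + 2 * j) (-(2 * (j : R) + 1)) := by
  rw [theta_eq_ladF]; exact H46.hasTop_ladF W j

theorem natDegree_theta_le (j : ℕ) : (theta W j).natDegree ≤ 2 * j ^ 2 + 2 * j :=
  (hasTop_theta W j).1

theorem natDegree_theta {j : ℕ} (h : (2 * (j : R) + 1) ≠ 0) :
    (theta W j).natDegree = 2 * j ^ 2 + 2 * j :=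
  (hasTop_theta W j).natDegree_eq (neg_ne_zero.mpr h)

theorem leadingCoeff_theta {j : ℕ} (h : (2 * (j : R) + 1) ≠ 0) :
    (theta W j).leadingCoeff = -(2 * (j : R) + 1) :=
  (hasTop_theta W j).leadingCoeff_eq (neg_ne_zero.mpr h)

theorem theta_ne_zero {j : ℕ} (h : (2 * (j : R) + 1) ≠ 0) : theta W j ≠ 0 :=
  (hasTop_theta W j).ne_zero (neg_ne_zero.mpr h)

end Deg

section Crit

variable {F : Type*} [Field F] [DecidableEq F] (W : WeierstrassCurve F)

/-- the torsion criterion for the ladder polynomial, in coordinates -/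
theorem torsion_criterion_field {p : ℕ} (hp : Odd p) (x y : F)
    (h : W.toAffine.Nonsingular x y) :
    p • (Point.some x y h : W.toAffine.Point) = 0 ↔ (theta W (p / 2)).eval x = 0 := by
  obtain ⟨j, rfl⟩ := hp
  have e : (2 * j + 1) / 2 = j := by omega
  rw [e]
  have := nsmul_eq_zero_iff_theta (W := W) (Point.some_ne_zero h) j
  rwa [Fermat.Agent.S05.H67.xCoord_some] at this

/-- existence of a nonzero point killed by an odd `p ≥ 3` -/
theorem exists_ne_zero_torsion [IsAlgClosed F] (hΔ : W.Δ ≠ 0) {p : ℕ} (hodd : Odd p)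
    (hp3 : 3 ≤ p) (hpF : (p : F) ≠ 0) :
    ∃ P : W.toAffine.Point, P ≠ 0 ∧ p • P = 0 := by
  obtain ⟨j, rfl⟩ := hodd
  have hj : (2 * (j : F) + 1) ≠ 0 := by
    intro h0; apply hpF; push_cast; exact h0
  have e : (2 * j + 1) / 2 = j := by omega
  have hdeg : (theta W j).degree ≠ 0 := by
    rw [degree_eq_natDegree (theta_ne_zero W hj), natDegree_theta W hj]
    have : 0 < 2 * j ^ 2 + 2 * j := by
      have : 1 ≤ j := by omega
      positivity
    exact_mod_cast this.ne'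
  obtain ⟨x, hx⟩ := IsAlgClosed.exists_root (theta W j) hdeg
  obtain ⟨y, hy⟩ := H59.exists_equation W x
  have hns : W.toAffine.Nonsingular x y := (equation_iff_nonsingular_of_Δ_ne_zero hΔ).mp hy
  refine ⟨Point.some x y hns, Point.some_ne_zero hns, ?_⟩
  rw [torsion_criterion_field W ⟨j, rfl⟩ x y hns, e]
  exact hx

theorem nontrivial_torsionBy_field [IsAlgClosed F] (hΔ : W.Δ ≠ 0) {p : ℕ} (hodd : Odd p)
    (hp3 : 3 ≤ p) (hpF : (p : F) ≠ 0) :
    Nontrivial (Submodule.torsionBy ℤ W.toAffine.Point (p : ℤ)) := by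
  obtain ⟨P, hP0, hP⟩ := exists_ne_zero_torsion W hΔ hodd hp3 hpF
  refine ⟨⟨⟨P, (H59.mem_torsionBy_iff_nsmul P).mpr hP⟩, 0, ?_⟩⟩
  intro h
  exact hP0 (congrArg Subtype.val h)

theorem finite_torsionBy_field {p : ℕ} (hp : p.Prime) (hp2 : p ≠ 2) (hpF : (p : F) ≠ 0) :
    Finite (Submodule.torsionBy ℤ W.toAffine.Point (p : ℤ)) := by
  have h := (H46.card_torsion_le W hp hp2 hpF).1
  rw [← H59.coe_torsionBy] at h
  exact h.to_subtype

theorem card_torsionBy_le_field {p : ℕ} (hp : p.Prime) (hp2 : p ≠ 2) (hpF : (p : F) ≠ 0) :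
    Nat.card (Submodule.torsionBy ℤ W.toAffine.Point (p : ℤ)) ≤ p ^ 2 := by
  have h := (H46.card_torsion_le W hp hp2 hpF).2
  rw [← H59.coe_torsionBy] at h
  exact h

end Crit

section BaseChange

variable {R : Type*} [CommRing R] {K : Type*} [Field K] [DecidableEq K] [Algebra R K]
  (W' : Affine R)

/-- **Torsion criterion** (polynomial over the base ring): for odd `p`,
`p • (x, y) = 0 ↔ Θ(x) = 0` with `Θ = theta W' (p / 2) : R[X]`. -/
theorem torsion_criterion {p : ℕ} (hp : Odd p) (x y : K) (h : (W'⁄K).Nonsingular x y) :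
    p • (Point.some x y h : (W'⁄K).Point) = 0 ↔
      ((theta W' (p / 2)).map (algebraMap R K)).eval x = 0 := by
  rw [map_theta]
  exact torsion_criterion_field (W'⁄K) hp x y h

theorem nontrivial_torsionBy [IsAlgClosed K] (hΔ : (W'⁄K).Δ ≠ 0) {p : ℕ} (hodd : Odd p)
    (hp3 : 3 ≤ p) (hpK : (p : K) ≠ 0) :
    Nontrivial (Submodule.torsionBy ℤ (W'⁄K).Point p) :=
  nontrivial_torsionBy_field (W'⁄K) hΔ hodd hp3 hpK

theorem finite_torsionBy {p : ℕ} (hp : p.Prime) (hp2 : p ≠ 2) (hpK : (p : K) ≠ 0) :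
    Finite (Submodule.torsionBy ℤ (W'⁄K).Point p) :=
  finite_torsionBy_field (W'⁄K) hp hp2 hpK

theorem card_torsionBy_le {p : ℕ} (hp : p.Prime) (hp2 : p ≠ 2) (hpK : (p : K) ≠ 0) :
    Nat.card (Submodule.torsionBy ℤ (W'⁄K).Point p) ≤ p ^ 2 :=
  card_torsionBy_le_field (W'⁄K) hp hp2 hpK

end BaseChange

section Frey

local notation "Qb" => AlgebraicClosure ℚ

theorem frey_Δ (P : FreyPackage) :
    P.freyCurve.Δ = ((P.a : ℚ) ^ P.p * (P.b : ℚ) ^ P.p * (P.c : ℚ) ^ P.p) ^ 2 / 256 := by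
  have h : (P.c : ℚ) ^ P.p = (P.a : ℚ) ^ P.p + (P.b : ℚ) ^ P.p := by
    exact_mod_cast P.hFLT.symm
  rw [h]
  simp only [WeierstrassCurve.Δ, WeierstrassCurve.b₂, WeierstrassCurve.b₄, WeierstrassCurve.b₆,
    WeierstrassCurve.b₈, FreyPackage.freyCurve]
  ring

theorem frey_Δ_ne_zero (P : FreyPackage) : P.freyCurve.Δ ≠ 0 := by
  rw [frey_Δ]
  have ha : (P.a : ℚ) ≠ 0 := by exact_mod_cast P.ha0
  have hb : (P.b : ℚ) ≠ 0 := by exact_mod_cast P.hb0
  have hc : (P.c : ℚ) ≠ 0 := by exact_mod_cast P.hc0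
  positivity

theorem frey_baseChange_Δ_ne_zero (P : FreyPackage) :
    ((P.freyCurve : Affine ℚ)⁄Qb).Δ ≠ 0 := by
  rw [Affine.baseChange, WeierstrassCurve.baseChange, map_Δ]
  simpa using frey_Δ_ne_zero P

theorem frey_nontrivial (P : FreyPackage) :
    Nontrivial (Submodule.torsionBy ℤ ((P.freyCurve : Affine ℚ)⁄Qb).Point P.p) :=
  nontrivial_torsionBy (P.freyCurve : Affine ℚ) (frey_baseChange_Δ_ne_zero P) P.hp_odd
    (by have := P.hp5; omega) (by exact_mod_cast P.hp0)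

theorem frey_finite (P : FreyPackage) :
    Finite (Submodule.torsionBy ℤ ((P.freyCurve : Affine ℚ)⁄Qb).Point P.p) :=
  finite_torsionBy (P.freyCurve : Affine ℚ) P.pp (by have := P.hp5; omega)
    (by exact_mod_cast P.hp0)

theorem frey_card_le (P : FreyPackage) :
    Nat.card (Submodule.torsionBy ℤ ((P.freyCurve : Affine ℚ)⁄Qb).Point P.p) ≤ P.p ^ 2 :=
  card_torsionBy_le (P.freyCurve : Affine ℚ) P.pp (by have := P.hp5; omega)
    (by exact_mod_cast P.hp0)

end Frey

end Fermat.Agent.S13.H84
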