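import Fermat.Agent.S13.H89_GF1
import Fermat.Agent.S05.H18_F3

/-!
# General closeness lemma (F3a) and valuation form of the general F1

For an arbitrary Weierstrass curve `W` over a field `K` with a valuation `v` (any residue
characteristic, in particular residue characteristic `2` and models with `a₁ ≠ 0`):

* `inE1_sub_of_close`: two integral affine points congruent modulo the maximal ideal whose
  common reduction is nonsingular differ by an element of the kernel of reduction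
  `E₁ = {O} ∪ {1 < v x}` (vocabulary `H18.InE1 v`);
* `noTorsionInE1`: valuation form of the landed general F1 (`H89_GF1`);
* `eq_of_close`, `coords_fixed_of_close`: the combination used in the local arguments.
-/

set_option autoImplicit false

namespace Fermat.Agent.S13.H89

open WeierstrassCurve WeierstrassCurve.Affine Fermat.Agent.S05.H67 Fermat.Agent.S05

variable {K : Type*} [Field K]
variable {Γ₀ : Type*} [LinearOrderedCommGroupWithZero Γ₀] (v : Valuation K Γ₀)

section basics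

lemma val_two_le_one' : v (2 : K) ≤ 1 := by
  have : (2 : K) = 1 + 1 := by norm_num
  rw [this]
  exact v.map_add_le (le_of_eq v.map_one) (le_of_eq v.map_one)

lemma val_three_le_one' : v (3 : K) ≤ 1 := by
  have : (3 : K) = 2 + 1 := by norm_num
  rw [this]
  exact v.map_add_le (val_two_le_one' v) (le_of_eq v.map_one)

lemma val_mul_le_one {a b : K} (ha : v a ≤ 1) (hb : v b ≤ 1) : v (a * b) ≤ 1 := by
  rw [map_mul]; exact mul_le_one' ha hb

lemma val_pow_le_one {a : K} (ha : v a ≤ 1) (n : ℕ) : v (a ^ n) ≤ 1 := by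
  rw [map_pow]; exact pow_le_one₀ zero_le ha

lemma val_mul_lt_one_of_left {a b : K} (ha : v a < 1) (hb : v b ≤ 1) : v (a * b) < 1 := by
  rw [map_mul]
  calc v a * v b ≤ v a * 1 := by gcongr
    _ = v a := mul_one _
    _ < 1 := ha

/-- `H18.InE1 v` in terms of the `x`-coordinate function. -/
lemma inE1_iff (W : WeierstrassCurve K) (P : W.toAffine.Point) :
    H18.InE1 v P ↔ P = 0 ∨ 1 < v (xCoord W P) := by
  cases P with
  | zero => exact ⟨fun _ => Or.inl rfl, fun _ => trivial⟩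
  | some x y h =>
    constructor
    · intro h1; exact Or.inr h1
    · rintro (h1 | h1)
      · exact absurd h1 (by simp)
      · exact h1

/-- `H18.InE1 v` is the kernel of reduction `InKer` of `H89_GF1` for the valuation subring
of `v`. -/
lemma inE1_iff_inKer (W : WeierstrassCurve K) (P : W.toAffine.Point) :
    H18.InE1 v P ↔ InKer W v.valuationSubring P := by
  rw [inE1_iff, InKer, Valuation.mem_valuationSubring_iff, not_le]

/-- If the slope is non-integral then so is the `x`-coordinate of the sum. -/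
lemma one_lt_val_addX (W : WeierstrassCurve K) (h₁ : v W.a₁ ≤ 1) (h₂ : v W.a₂ ≤ 1)
    {x x' ℓ : K} (hx : v x ≤ 1) (hx' : v x' ≤ 1) (hℓ : 1 < v ℓ) :
    1 < v (W.toAffine.addX x x' ℓ) := by
  have e : W.toAffine.addX x x' ℓ = ℓ ^ 2 + (W.a₁ * ℓ + (-(W.a₂ + x + x'))) := by
    simp only [Affine.addX]; ring
  have hsq : v ℓ < v (ℓ ^ 2) := by
    rw [map_pow, pow_two]
    have hpos : 0 < v ℓ := lt_trans zero_lt_one hℓ
    calc v ℓ = v ℓ * 1 := (mul_one _).symm
      _ < v ℓ * v ℓ := by gcongr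
  have h3 : v (W.a₁ * ℓ) ≤ v ℓ := by
    rw [map_mul]
    calc v W.a₁ * v ℓ ≤ 1 * v ℓ := by gcongr
      _ = v ℓ := one_mul _
  have h4 : v (-(W.a₂ + x + x')) ≤ v ℓ := by
    rw [Valuation.map_neg]
    exact le_trans (v.map_add_le (v.map_add_le h₂ hx) hx') hℓ.le
  have h5 : v (W.a₁ * ℓ + (-(W.a₂ + x + x'))) < v (ℓ ^ 2) :=
    lt_of_le_of_lt (v.map_add_le h3 h4) hsq
  rw [e, Valuation.map_add_eq_of_lt_left v h5]
  exact lt_trans hℓ hsq

end basics

section close

variable [DecidableEq K]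

/-- **General F3a**. Two integral affine points of a Weierstrass curve with integral
`a₁, a₂, a₃` which are congruent modulo the maximal ideal and reduce to a nonsingular point
(`ψ₂ = 2y + a₁x + a₃` or `3x² + 2a₂x + a₄ - a₁y` is a unit) differ by an element of the kernel of
reduction. No hypothesis on the residue characteristic. -/
theorem inE1_sub_of_close (W : WeierstrassCurve K) (h₁ : v W.a₁ ≤ 1) (h₂ : v W.a₂ ≤ 1)
    (h₃ : v W.a₃ ≤ 1)
    {x y x' y' : K} (h : W.toAffine.Nonsingular x y) (h' : W.toAffine.Nonsingular x' y')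
    (hx : v x ≤ 1) (hy : v y ≤ 1) (hxx : v (x - x') < 1) (hyy : v (y - y') < 1)
    (hns : v (2 * y + W.a₁ * x + W.a₃) = 1 ∨
      v (3 * x ^ 2 + 2 * W.a₂ * x + W.a₄ - W.a₁ * y) = 1) :
    H18.InE1 v (Point.some x y h - Point.some x' y' h') := by
  have hx' : v x' ≤ 1 := by
    have : x' = x - (x - x') := by ring
    rw [this]
    exact v.map_sub_le hx hxx.le
  have hy' : v y' ≤ 1 := by
    have : y' = y - (y - y') := by ring
    rw [this]
    exact v.map_sub_le hy hyy.le
  have heq := (Affine.equation_iff _ _).mp h.1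
  have heq' := (Affine.equation_iff _ _).mp h'.1
  have h2le := val_two_le_one' v
  -- integrality of `ψ₂`
  have hψle : v (2 * y + W.a₁ * x + W.a₃) ≤ 1 :=
    v.map_add_le (v.map_add_le (val_mul_le_one v h2le hy) (val_mul_le_one v h₁ hx)) h₃
  rw [sub_eq_add_neg, Point.neg_some]
  by_cases hxe : x = x'
  · subst hxe
    by_cases hye : y = y'
    · subst hye
      rw [Point.add_of_Y_eq rfl (Affine.negY_negY ..).symm]
      exact H18.inE1_zero v
    · -- `P' = -P`, so the difference is `2 P`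
      have hyneg : y = W.toAffine.negY x y' :=
        (Affine.Y_eq_of_X_eq h.1 h'.1 rfl).resolve_left hye
      have hy'neg : y' = W.toAffine.negY x y := by
        rw [hyneg, Affine.negY_negY]
      have hψ : y - y' = 2 * y + W.a₁ * x + W.a₃ := by
        rw [hy'neg]; simp only [Affine.negY]; ring
      have hψlt : v (2 * y + W.a₁ * x + W.a₃) < 1 := by rw [← hψ]; exact hyy
      have hM : v (3 * x ^ 2 + 2 * W.a₂ * x + W.a₄ - W.a₁ * y) = 1 :=
        hns.resolve_left hψlt.ne
      have hψ0 : 2 * y + W.a₁ * x + W.a₃ ≠ 0 := by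
        rw [← hψ]; exact sub_ne_zero.mpr hye
      have hne : y ≠ W.toAffine.negY x (W.toAffine.negY x y') := by
        rw [Affine.negY_negY]; exact hye
      rw [Point.add_of_Y_ne hne, H18.inE1_some]
      apply one_lt_val_addX v W h₁ h₂ hx hx
      rw [Affine.slope_of_Y_ne rfl hne]
      have hden : y - W.toAffine.negY x y = 2 * y + W.a₁ * x + W.a₃ := by
        simp only [Affine.negY]; ring
      rw [hden, map_div₀, hM]
      exact (one_lt_div₀ (zero_lt_iff.mpr ((map_ne_zero v).mpr hψ0))).mpr hψlt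
  · -- `x ≠ x'`
    rw [Point.add_of_X_ne hxe, H18.inE1_some]
    apply one_lt_val_addX v W h₁ h₂ hx hx'
    rw [Affine.slope_of_X_ne hxe]
    have hxne : x - x' ≠ 0 := sub_ne_zero.mpr hxe
    have hpos : 0 < v (x - x') := zero_lt_iff.mpr ((map_ne_zero v).mpr hxne)
    set N := y - W.toAffine.negY x' y' with hN
    have hNψ : N = (2 * y + W.a₁ * x + W.a₃) + (-(y - y') + -(W.a₁ * (x - x'))) := by
      rw [hN]; simp only [Affine.negY]; ring
    have hsmallN : v (-(y - y') + -(W.a₁ * (x - x'))) < 1 := by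
      refine v.map_add_lt ?_ ?_
      · rw [Valuation.map_neg]; exact hyy
      · rw [Valuation.map_neg, mul_comm]; exact val_mul_lt_one_of_left v hxx h₁
    rw [map_div₀]
    by_cases hψ1 : v (2 * y + W.a₁ * x + W.a₃) = 1
    · have hvN : v N = 1 := by
        rw [hNψ, Valuation.map_add_eq_of_lt_left]
        · exact hψ1
        · rw [hψ1]; exact hsmallN
      rw [hvN]
      exact (one_lt_div₀ hpos).mpr hxx
    · have hM : v (3 * x ^ 2 + 2 * W.a₂ * x + W.a₄ - W.a₁ * y) = 1 := hns.resolve_left hψ1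
      set g := x ^ 2 + x * x' + x' ^ 2 + W.a₂ * (x + x') + W.a₄ - W.a₁ * y with hg
      have hgf : g = (3 * x ^ 2 + 2 * W.a₂ * x + W.a₄ - W.a₁ * y) +
          (x' - x) * (x' + 2 * x + W.a₂) := by
        rw [hg]; ring
      have hsmall : v ((x' - x) * (x' + 2 * x + W.a₂)) < 1 := by
        have hle : v (x' + 2 * x + W.a₂) ≤ 1 :=
          v.map_add_le (v.map_add_le hx' (val_mul_le_one v h2le hx)) h₂
        refine val_mul_lt_one_of_left v ?_ hle
        rw [Valuation.map_sub_swap]; exact hxx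
      have hvg : v g = 1 := by
        rw [hgf, Valuation.map_add_eq_of_lt_left]
        · exact hM
        · rw [hM]; exact hsmall
      have hkey : (y - y') * N = (x - x') * g := by
        rw [hg, hN]; simp only [Affine.negY]; linear_combination heq - heq'
      have hyne : y - y' ≠ 0 := by
        intro hc
        rw [hc, zero_mul] at hkey
        rcases mul_eq_zero.mp hkey.symm with h0 | h0
        · exact hxne h0
        · rw [h0, map_zero] at hvg; exact absurd hvg (by simp)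
      have hratio : v N / v (x - x') = v g / v (y - y') := by
        rw [← map_div₀, ← map_div₀]
        congr 1
        field_simp
        linear_combination hkey
      rw [hratio, hvg]
      exact (one_lt_div₀ (zero_lt_iff.mpr ((map_ne_zero v).mpr hyne))).mpr hyy


/-! ### Valuation form of the general F1 -/

omit [DecidableEq K] in
/-- integrality of the `b`-invariants from integrality of the `a`-invariants, valuation form. -/
lemma val_b_le_one (W : WeierstrassCurve K) (h₁ : v W.a₁ ≤ 1) (h₂ : v W.a₂ ≤ 1)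
    (h₃ : v W.a₃ ≤ 1) (h₄ : v W.a₄ ≤ 1) (h₆ : v W.a₆ ≤ 1) :
    v W.b₂ ≤ 1 ∧ v W.b₄ ≤ 1 ∧ v W.b₆ ≤ 1 ∧ v W.b₈ ≤ 1 := by
  simp only [← Valuation.mem_valuationSubring_iff] at h₁ h₂ h₃ h₄ h₆ ⊢
  exact b_mem_of_a_mem W v.valuationSubring h₁ h₂ h₃ h₄ h₆

/-- **General F1, valuation form**: if the `b`-invariants of `W` are integral and `n` is a unit
for `v`, the kernel of reduction `E₁` contains no nonzero `n`-torsion point (any residue
characteristic). -/
theorem noTorsionInE1 (W : WeierstrassCurve K) (hb₂ : v W.b₂ ≤ 1) (hb₄ : v W.b₄ ≤ 1)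
    (hb₆ : v W.b₆ ≤ 1) (hb₈ : v W.b₈ ≤ 1) {n : ℕ} (hn : v (n : K) = 1) :
    H18.NoTorsionInE1 v W.toAffine n := by
  intro Q hnQ hQ
  have hn0 : (n : K) ≠ 0 := by
    intro h0
    rw [h0, map_zero] at hn
    exact zero_ne_one hn
  have hninv : (n : K)⁻¹ ∈ v.valuationSubring := by
    rw [Valuation.mem_valuationSubring_iff, map_inv₀, hn, inv_one]
  simp only [← Valuation.mem_valuationSubring_iff] at hb₂ hb₄ hb₆ hb₈
  exact eq_zero_of_inKer_of_nsmul_eq_zero W v.valuationSubring hb₂ hb₄ hb₆ hb₈ hninv hn0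
    ((inE1_iff_inKer v W Q).mp hQ) hnQ

/-- **General F1, valuation form** for the `x`-coordinate: an `n`-torsion point (`n` a unit for
`v`) of a curve with integral `b`-invariants has integral `x`-coordinate. -/
theorem val_xCoord_le_one_of_nsmul_eq_zero (W : WeierstrassCurve K) (hb₂ : v W.b₂ ≤ 1)
    (hb₄ : v W.b₄ ≤ 1) (hb₆ : v W.b₆ ≤ 1) (hb₈ : v W.b₈ ≤ 1) {n : ℕ} (hn : v (n : K) = 1)
    {T : W.toAffine.Point} (hT : n • T = 0) : v (xCoord W T) ≤ 1 := by
  have hn0 : (n : K) ≠ 0 := by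
    intro h0
    rw [h0, map_zero] at hn
    exact zero_ne_one hn
  have hninv : (n : K)⁻¹ ∈ v.valuationSubring := by
    rw [Valuation.mem_valuationSubring_iff, map_inv₀, hn, inv_one]
  simp only [← Valuation.mem_valuationSubring_iff] at hb₂ hb₄ hb₆ hb₈ ⊢
  exact xCoord_mem_of_nsmul_eq_zero W v.valuationSubring hb₂ hb₄ hb₆ hb₈ hninv hn0 hT

/-- `E₁` is closed under addition (valuation form). -/
theorem inE1_add (W : WeierstrassCurve K) (hb₂ : v W.b₂ ≤ 1) (hb₄ : v W.b₄ ≤ 1)
    (hb₆ : v W.b₆ ≤ 1) (hb₈ : v W.b₈ ≤ 1) {P Q : W.toAffine.Point} (hP : H18.InE1 v P)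
    (hQ : H18.InE1 v Q) : H18.InE1 v (P + Q) := by
  simp only [← Valuation.mem_valuationSubring_iff] at hb₂ hb₄ hb₆ hb₈
  rw [inE1_iff_inKer] at hP hQ ⊢
  exact inKer_add W v.valuationSubring hb₂ hb₄ hb₆ hb₈ hP hQ

omit [DecidableEq K] in
/-- `E₁` is closed under negation (valuation form). -/
theorem inE1_neg (W : WeierstrassCurve K) {P : W.toAffine.Point} (hP : H18.InE1 v P) :
    H18.InE1 v (-P) := by
  rw [inE1_iff_inKer] at hP ⊢
  exact inKer_neg W v.valuationSubring hP

/-- `E₁` is closed under subtraction (valuation form). -/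
theorem inE1_sub (W : WeierstrassCurve K) (hb₂ : v W.b₂ ≤ 1) (hb₄ : v W.b₄ ≤ 1)
    (hb₆ : v W.b₆ ≤ 1) (hb₈ : v W.b₈ ≤ 1) {P Q : W.toAffine.Point} (hP : H18.InE1 v P)
    (hQ : H18.InE1 v Q) : H18.InE1 v (P - Q) := by
  simp only [← Valuation.mem_valuationSubring_iff] at hb₂ hb₄ hb₆ hb₈
  rw [inE1_iff_inKer] at hP hQ ⊢
  exact inKer_sub W v.valuationSubring hb₂ hb₄ hb₆ hb₈ hP hQ

/-- `E₁` is closed under natural multiples (valuation form). -/
theorem inE1_nsmul (W : WeierstrassCurve K) (hb₂ : v W.b₂ ≤ 1) (hb₄ : v W.b₄ ≤ 1)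
    (hb₆ : v W.b₆ ≤ 1) (hb₈ : v W.b₈ ≤ 1) {P : W.toAffine.Point} (hP : H18.InE1 v P) (n : ℕ) :
    H18.InE1 v (n • P) := by
  simp only [← Valuation.mem_valuationSubring_iff] at hb₂ hb₄ hb₆ hb₈
  rw [inE1_iff_inKer] at hP ⊢
  exact inKer_nsmul W v.valuationSubring hb₂ hb₄ hb₆ hb₈ hP n

/-! ### Close torsion points are equal -/

/-- Two integral `n`-torsion points (`n` a unit for `v`) which are congruent modulo the maximal
ideal and have nonsingular reduction are equal. Any Weierstrass model with integral coefficients,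
any residue characteristic. -/
theorem eq_of_close (W : WeierstrassCurve K) (h₁ : v W.a₁ ≤ 1) (h₂ : v W.a₂ ≤ 1)
    (h₃ : v W.a₃ ≤ 1) (h₄ : v W.a₄ ≤ 1) (h₆ : v W.a₆ ≤ 1) {n : ℕ} (hn : v (n : K) = 1)
    {x y x' y' : K} (h : W.toAffine.Nonsingular x y) (h' : W.toAffine.Nonsingular x' y')
    (hT : n • Point.some x y h = 0) (hT' : n • Point.some x' y' h' = 0)
    (hx : v x ≤ 1) (hy : v y ≤ 1) (hxx : v (x - x') < 1) (hyy : v (y - y') < 1)
    (hns : v (2 * y + W.a₁ * x + W.a₃) = 1 ∨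
      v (3 * x ^ 2 + 2 * W.a₂ * x + W.a₄ - W.a₁ * y) = 1) :
    x = x' ∧ y = y' := by
  obtain ⟨hb₂, hb₄, hb₆, hb₈⟩ := val_b_le_one v W h₁ h₂ h₃ h₄ h₆
  have hE := inE1_sub_of_close v W h₁ h₂ h₃ h h' hx hy hxx hyy hns
  have h0 : n • (Point.some x y h - Point.some x' y' h') = 0 := by
    rw [nsmul_sub, hT, hT', sub_zero]
  have := noTorsionInE1 v W hb₂ hb₄ hb₆ hb₈ hn _ h0 hE
  have e := sub_eq_zero.mp this
  rw [Point.some.injEq] at e
  exact e

/-- **General F3c (good region)**, in the shape of `H18.coords_fixed_of_close`. Let `φ` be an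
additive endomorphism of the points of `W` acting on coordinates through `σ`. If `T = (x, y)` is
an integral `n`-torsion point with nonsingular reduction and `σ` moves `x`, `y` only inside their
residue classes, then `σ x = x` and `σ y = y`. -/
theorem coords_fixed_of_close (W : WeierstrassCurve K) (h₁ : v W.a₁ ≤ 1) (h₂ : v W.a₂ ≤ 1)
    (h₃ : v W.a₃ ≤ 1) {n : ℕ} (hF1 : H18.NoTorsionInE1 v W.toAffine n)
    (φ : W.toAffine.Point →+ W.toAffine.Point) (σ : K → K)
    (hφ : ∀ (x y : K) (h : W.toAffine.Nonsingular x y),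
      ∃ h' : W.toAffine.Nonsingular (σ x) (σ y), φ (Point.some x y h) = Point.some _ _ h')
    {x y : K} (h : W.toAffine.Nonsingular x y) (hT : n • Point.some x y h = 0)
    (hx : v x ≤ 1) (hy : v y ≤ 1) (hσx : v (x - σ x) < 1) (hσy : v (y - σ y) < 1)
    (hns : v (2 * y + W.a₁ * x + W.a₃) = 1 ∨
      v (3 * x ^ 2 + 2 * W.a₂ * x + W.a₄ - W.a₁ * y) = 1) :
    σ x = x ∧ σ y = y := by
  obtain ⟨h', hφT⟩ := hφ x y h
  have hE : H18.InE1 v (Point.some x y h - φ (Point.some x y h)) := by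
    rw [hφT]
    exact inE1_sub_of_close v W h₁ h₂ h₃ h h' hx hy hσx hσy hns
  have := H18.eq_of_inE1_sub v hF1 φ hT hE
  rw [hφT, Point.some.injEq] at this
  exact this

omit [DecidableEq K] in
/-- an affine point of an integral Weierstrass model with integral `x` has integral `y`. -/
lemma val_y_le_one (W : WeierstrassCurve K) (h₁ : v W.a₁ ≤ 1) (h₂ : v W.a₂ ≤ 1)
    (h₃ : v W.a₃ ≤ 1) (h₄ : v W.a₄ ≤ 1) (h₆ : v W.a₆ ≤ 1) {x y : K}
    (heq : W.toAffine.Equation x y) (hx : v x ≤ 1) : v y ≤ 1 := by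
  rw [Affine.equation_iff] at heq
  by_contra hlt
  rw [not_le] at hlt
  have hpos : 0 < v y := lt_trans zero_lt_one hlt
  -- `y ^ 2 = cubic - (a₁ x + a₃) y`
  have e : y ^ 2 = (x ^ 3 + W.a₂ * x ^ 2 + W.a₄ * x + W.a₆) + -((W.a₁ * x + W.a₃) * y) := by
    linear_combination heq
  have hc : v (x ^ 3 + W.a₂ * x ^ 2 + W.a₄ * x + W.a₆) ≤ 1 :=
    v.map_add_le (v.map_add_le (v.map_add_le (val_pow_le_one v hx 3)
      (val_mul_le_one v h₂ (val_pow_le_one v hx 2))) (val_mul_le_one v h₄ hx)) h₆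
  have hl : v (-((W.a₁ * x + W.a₃) * y)) ≤ v y := by
    rw [Valuation.map_neg, map_mul]
    have : v (W.a₁ * x + W.a₃) ≤ 1 := v.map_add_le (val_mul_le_one v h₁ hx) h₃
    calc v (W.a₁ * x + W.a₃) * v y ≤ 1 * v y := by gcongr
      _ = v y := one_mul _
  have hsq : v y < v (y ^ 2) := by
    rw [map_pow, pow_two]
    calc v y = v y * 1 := (mul_one _).symm
      _ < v y * v y := by gcongr
  have : v (y ^ 2) ≤ v y := by
    rw [e]
    exact v.map_add_le (le_trans hc hlt.le) hl
  exact absurd this (not_le.mpr hsq)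

/-! ### Node models: points of `E₀ \ E₁` have nonsingular reduction -/

omit [DecidableEq K] in
/-- For a model whose reduction has a node at the origin (`b₄, b₆` in the maximal ideal, `b₂` a
unit; e.g. `a₃ = a₆ = 0`, `v a₄ < 1`, `v b₂ = 1`), an integral point with unit `x`-coordinate has
nonsingular reduction. Any residue characteristic. -/
lemma nonsing_red_of_unit_x (W : WeierstrassCurve K) (h₁ : v W.a₁ ≤ 1)
    (hb₂ : v W.b₂ = 1) (hb₄ : v W.b₄ < 1) (hb₆ : v W.b₆ < 1) {x y : K}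
    (heq : W.toAffine.Equation x y) (hx : v x = 1) :
    v (2 * y + W.a₁ * x + W.a₃) = 1 ∨
      v (3 * x ^ 2 + 2 * W.a₂ * x + W.a₄ - W.a₁ * y) = 1 := by
  rw [Affine.equation_iff] at heq
  by_contra hcon
  push Not at hcon
  obtain ⟨hψne, hMne⟩ := hcon
  set ψ := 2 * y + W.a₁ * x + W.a₃ with hψdef
  set M := 3 * x ^ 2 + 2 * W.a₂ * x + W.a₄ - W.a₁ * y with hMdef
  have h2le := val_two_le_one' v
  -- `ψ² = 4x³ + b₂x² + 2b₄x + b₆`
  have e1 : ψ ^ 2 = 4 * x ^ 3 + W.b₂ * x ^ 2 + 2 * W.b₄ * x + W.b₆ := by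
    rw [hψdef]; simp only [WeierstrassCurve.b₂, WeierstrassCurve.b₄, WeierstrassCurve.b₆]
    linear_combination 4 * heq
  -- `2M + a₁ψ = 6x² + b₂x + b₄`
  have e2 : 2 * M + W.a₁ * ψ = 6 * x ^ 2 + W.b₂ * x + W.b₄ := by
    rw [hψdef, hMdef]; simp only [WeierstrassCurve.b₂, WeierstrassCurve.b₄]
    ring
  have hxle : v x ≤ 1 := hx.le
  -- first: `ψ` is integral, `M` is integral up to the factor `2`: we only use products
  have hcase : v ψ < 1 ∨ 1 < v ψ := lt_or_gt_of_ne hψne
  have hx2 : v (x ^ 2) = 1 := by rw [map_pow, hx, one_pow]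
  have hx3 : v (x ^ 3) = 1 := by rw [map_pow, hx, one_pow]
  have h4le : v (4 : K) ≤ 1 := by
    have : (4 : K) = 2 * 2 := by norm_num
    rw [this]; exact val_mul_le_one v h2le h2le
  have h6le : v (6 : K) ≤ 1 := by
    have : (6 : K) = 2 * 3 := by norm_num
    rw [this]; exact val_mul_le_one v h2le (val_three_le_one' v)
  have hrhs1 : v (4 * x ^ 3 + W.b₂ * x ^ 2 + 2 * W.b₄ * x + W.b₆) ≤ 1 := by
    refine v.map_add_le (v.map_add_le (v.map_add_le ?_ ?_) ?_) hb₆.le
    · exact val_mul_le_one v h4le hx3.le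
    · exact val_mul_le_one v hb₂.le hx2.le
    · exact val_mul_le_one v (val_mul_le_one v h2le hb₄.le) hxle
  have hψle : v ψ ≤ 1 := by
    by_contra hlt
    rw [not_le] at hlt
    have : 1 < v (ψ ^ 2) := by rw [map_pow]; exact one_lt_pow₀ hlt (by norm_num)
    rw [e1] at this
    exact absurd hrhs1 (not_le.mpr this)
  have hψlt : v ψ < 1 := lt_of_le_of_ne hψle hψne
  -- `v (4x + b₂) < 1`
  have hA : v (4 * x + W.b₂) < 1 := by
    have e : (4 * x + W.b₂) * x ^ 2 = ψ ^ 2 + (-(2 * W.b₄ * x) + -W.b₆) := by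
      rw [e1]; ring
    have h1 : v ((4 * x + W.b₂) * x ^ 2) < 1 := by
      rw [e]
      refine v.map_add_lt ?_ (v.map_add_lt ?_ ?_)
      · rw [map_pow]; exact pow_lt_one₀ zero_le hψlt (by norm_num)
      · rw [Valuation.map_neg, mul_comm 2, mul_assoc]
        exact val_mul_lt_one_of_left v hb₄ (val_mul_le_one v h2le hxle)
      · rw [Valuation.map_neg]; exact hb₆
    rwa [map_mul, hx2, mul_one] at h1
  -- `M` is integral or not: in both cases get the contradiction from `2M`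
  have hMle : v M ≤ 1 ∨ 1 < v M := le_or_gt _ _
  rcases hMle with hMle | hMgt
  · have hMlt : v M < 1 := lt_of_le_of_ne hMle hMne
    have hB : v (6 * x + W.b₂) < 1 := by
      have e : (6 * x + W.b₂) * x = 2 * M + W.a₁ * ψ + -W.b₄ := by
        rw [e2]; ring
      have h1 : v ((6 * x + W.b₂) * x) < 1 := by
        rw [e]
        refine v.map_add_lt (v.map_add_lt ?_ ?_) ?_
        · rw [mul_comm]; exact val_mul_lt_one_of_left v hMlt h2le
        · rw [mul_comm]; exact val_mul_lt_one_of_left v hψlt h₁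
        · rw [Valuation.map_neg]; exact hb₄
      rwa [map_mul, hx, mul_one] at h1
    have h2x : v (2 * x) < 1 := by
      have e : 2 * x = (6 * x + W.b₂) - (4 * x + W.b₂) := by ring
      rw [e]; exact v.map_sub_lt hB hA
    have h2lt : v (2 : K) < 1 := by rwa [map_mul, hx, mul_one] at h2x
    have hb : v W.b₂ < 1 := by
      have e : W.b₂ = (4 * x + W.b₂) - 2 * (2 * x) := by ring
      rw [e]
      refine v.map_sub_lt hA ?_
      exact val_mul_lt_one_of_left v h2lt h2x.le
    exact absurd hb₂ hb.ne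
  · -- `1 < v M` is impossible when `2` is a unit; when `v 2 < 1` we conclude directly
    by_cases h2 : v (2 : K) = 1
    · have h2M : 1 < v (2 * M) := by rw [map_mul, h2, one_mul]; exact hMgt
      have hle : v (2 * M) ≤ 1 := by
        have e : 2 * M = (6 * x ^ 2 + W.b₂ * x + W.b₄) + -(W.a₁ * ψ) := by
          rw [← e2]; ring
        rw [e]
        refine v.map_add_le (v.map_add_le (v.map_add_le ?_ ?_) hb₄.le) ?_
        · exact val_mul_le_one v h6le hx2.le
        · exact val_mul_le_one v hb₂.le hxle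
        · rw [Valuation.map_neg]; exact val_mul_le_one v h₁ hψle
      exact absurd hle (not_le.mpr h2M)
    · have h2lt : v (2 : K) < 1 := lt_of_le_of_ne h2le h2
      have hb : v W.b₂ < 1 := by
        have e : W.b₂ = (4 * x + W.b₂) - 2 * (2 * x) := by ring
        rw [e]
        refine v.map_sub_lt hA ?_
        exact val_mul_lt_one_of_left v h2lt (val_mul_le_one v h2le hxle)
      exact absurd hb₂ hb.ne

/-- **F3a on `E₀`** for a node model (`b₂` unit, `b₄, b₆` in the maximal ideal, integral `aᵢ`):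
if `σ` preserves `v` and is trivial on the residue field, then for a point `T = (x, y)` of
`E₀` (`1 ≤ v x`), the difference `T - σ T` lies in `E₁`. Any residue characteristic. -/
theorem inE1_sub_of_inE0 (W : WeierstrassCurve K) (h₁ : v W.a₁ ≤ 1) (h₂ : v W.a₂ ≤ 1)
    (h₃ : v W.a₃ ≤ 1) (h₄ : v W.a₄ ≤ 1) (h₆ : v W.a₆ ≤ 1)
    (hb₂ : v W.b₂ = 1) (hb₄ : v W.b₄ < 1) (hb₆ : v W.b₆ < 1)
    (σ : K → K) (hσ : ∀ z : K, v z ≤ 1 → v (z - σ z) < 1) (hσv : ∀ z : K, v (σ z) = v z)
    {x y : K} (h : W.toAffine.Nonsingular x y) (h' : W.toAffine.Nonsingular (σ x) (σ y))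
    (hx : 1 ≤ v x) :
    H18.InE1 v (Point.some x y h - Point.some (σ x) (σ y) h') := by
  rcases lt_or_eq_of_le hx with hlt | heq1
  · obtain ⟨c₂, c₄, c₆, c₈⟩ := val_b_le_one v W h₁ h₂ h₃ h₄ h₆
    refine inE1_sub v W c₂ c₄ c₆ c₈ ?_ ?_
    · rw [H18.inE1_some]; exact hlt
    · rw [H18.inE1_some, hσv]; exact hlt
  · have hx1 : v x = 1 := heq1.symm
    have hy : v y ≤ 1 := val_y_le_one v W h₁ h₂ h₃ h₄ h₆ h.1 hx1.le
    exact inE1_sub_of_close v W h₁ h₂ h₃ h h' hx1.le hy (hσ x hx1.le) (hσ y hy)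
      (nonsing_red_of_unit_x v W h₁ hb₂ hb₄ hb₆ h.1 hx1)

/-- Consequence: prime-to-residue-characteristic torsion points of `E₀` of a node model are fixed
by inertia (coordinatewise). -/
theorem coords_fixed_of_inE0 (W : WeierstrassCurve K) (h₁ : v W.a₁ ≤ 1) (h₂ : v W.a₂ ≤ 1)
    (h₃ : v W.a₃ ≤ 1) (h₄ : v W.a₄ ≤ 1) (h₆ : v W.a₆ ≤ 1)
    (hb₂ : v W.b₂ = 1) (hb₄ : v W.b₄ < 1) (hb₆ : v W.b₆ < 1) {n : ℕ} (hn : v (n : K) = 1)
    (φ : W.toAffine.Point →+ W.toAffine.Point) (σ : K → K)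
    (hφ : ∀ (x y : K) (h : W.toAffine.Nonsingular x y),
      ∃ h' : W.toAffine.Nonsingular (σ x) (σ y), φ (Point.some x y h) = Point.some _ _ h')
    (hσ : ∀ z : K, v z ≤ 1 → v (z - σ z) < 1) (hσv : ∀ z : K, v (σ z) = v z)
    {x y : K} (h : W.toAffine.Nonsingular x y) (hT : n • Point.some x y h = 0)
    (hx : 1 ≤ v x) : σ x = x ∧ σ y = y := by
  obtain ⟨c₂, c₄, c₆, c₈⟩ := val_b_le_one v W h₁ h₂ h₃ h₄ h₆
  have hF1 := noTorsionInE1 v W c₂ c₄ c₆ c₈ hn
  obtain ⟨h', hφT⟩ := hφ x y h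
  have hE : H18.InE1 v (Point.some x y h - φ (Point.some x y h)) := by
    rw [hφT]
    exact inE1_sub_of_inE0 v W h₁ h₂ h₃ h₄ h₆ hb₂ hb₄ hb₆ σ hσ hσv h h' hx
  have := H18.eq_of_inE1_sub v hF1 φ hT hE
  rw [hφT, Point.some.injEq] at this
  exact this

end close

end Fermat.Agent.S13.H89
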