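import Mathlib
import Fermat.Agent.S05.H67_XF

/-!
# The group `E₀` on a node model (package LOC2-G of project S13)

`K` a field with a valuation `v` (ANY residue characteristic; only `v 2 ≤ 1` is used),
`W` a Weierstrass curve over `K` with `a₃ = a₆ = 0`, integral `a₁, a₂`, `v a₄ < 1`, `a₄ ≠ 0` and
`v b₂ = 1`: the reduction has a node at the origin with distinct tangents.

* `InE0 v P` : `P = 0` or `1 ≤ v (x P)` (points with nonsingular reduction).
* `inE0_add`, `inE0_neg`, `inE0_sub`, `inE0_nsmul` : `E₀` is a subgroup  (G0).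
* `not_inE0_add_of_inE0`, `not_inE0_sub_of_inE0` : `A ∈ E₀`, `C ∉ E₀` ⟹ `A ± C ∉ E₀`.
* `lt_val_of_odd_torsion` : torsion points of odd order outside `E₀` are never deep (DEEP).
* `inE0_sub_of_same_branch` : the branch lemma (BR).
* `inE0_map_sub` : a residually trivial valuation preserving `σ` moves torsion points of odd
  order only inside their `E₀`-coset (G1).
-/

set_option autoImplicit false
set_option linter.unusedSectionVars false

namespace Fermat.Agent.S13.H77

open WeierstrassCurve WeierstrassCurve.Affine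
open Fermat.Agent.S05

variable {K : Type*} [Field K] [DecidableEq K]
variable {Γ₀ : Type*} [LinearOrderedCommGroupWithZero Γ₀] (v : Valuation K Γ₀)

/-- A Weierstrass model whose reduction has a node at the origin with distinct tangent
directions. -/
structure NodeModel (W : WeierstrassCurve K) : Prop where
  a₁ : v W.a₁ ≤ 1
  a₂ : v W.a₂ ≤ 1
  a₃ : W.a₃ = 0
  a₆ : W.a₆ = 0
  a₄ : v W.a₄ < 1
  a₄_ne : W.a₄ ≠ 0
  b₂ : v W.b₂ = 1

section basic

variable {v} {W : WeierstrassCurve K}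

omit [DecidableEq K] in
lemma val_two_le_one : v (2 : K) ≤ 1 := by
  have : (2 : K) = 1 + 1 := by norm_num
  rw [this]
  exact v.map_add_le (le_of_eq v.map_one) (le_of_eq v.map_one)

omit [DecidableEq K] in
lemma val_four_le_one : v (4 : K) ≤ 1 := by
  have : (4 : K) = 2 * 2 := by norm_num
  rw [this, map_mul]
  exact mul_le_one' val_two_le_one val_two_le_one

namespace NodeModel

variable (hW : NodeModel v W)
include hW

omit [DecidableEq K] in
lemma b₄_eq : W.b₄ = 2 * W.a₄ := by simp [WeierstrassCurve.b₄, hW.a₃]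
omit [DecidableEq K] in
lemma b₆_eq : W.b₆ = 0 := by simp [WeierstrassCurve.b₆, hW.a₃, hW.a₆]
omit [DecidableEq K] in
lemma b₈_eq : W.b₈ = -W.a₄ ^ 2 := by
  simp [WeierstrassCurve.b₈, hW.a₃, hW.a₆]

omit [DecidableEq K] in
lemma prodNum_eq (x₁ x₂ : K) : H67.prodNum W x₁ x₂ = (x₁ * x₂ - W.a₄) ^ 2 := by
  simp only [H67.prodNum, hW.b₄_eq, hW.b₆_eq, hW.b₈_eq]; ring

omit [DecidableEq K] in
lemma sumNum_eq (x₁ x₂ : K) : H67.sumNum W x₁ x₂ =
    2 * (x₁ + x₂) * (x₁ * x₂) + W.b₂ * (x₁ * x₂) + 2 * W.a₄ * (x₁ + x₂) := by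
  simp only [H67.sumNum, hW.b₄_eq, hW.b₆_eq]; ring

omit [DecidableEq K] in
lemma dblNum_eq (x : K) : H67.dblNum W x = (x ^ 2 - W.a₄) ^ 2 := by
  simp only [H67.dblNum, hW.b₄_eq, hW.b₆_eq, hW.b₈_eq]; ring

omit [DecidableEq K] in
lemma dblDen_eq' (x : K) : H67.dblDen W x = x * (4 * x ^ 2 + W.b₂ * x + 4 * W.a₄) := by
  simp only [H67.dblDen, hW.b₄_eq, hW.b₆_eq]; ring

omit [DecidableEq K] in
lemma val_a₄_pos : 0 < v W.a₄ := zero_lt_iff.mpr ((map_ne_zero v).mpr hW.a₄_ne)

omit [DecidableEq K] in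
lemma negY_eq (x y : K) : W.toAffine.negY x y = -y - W.a₁ * x := by
  simp [Affine.negY, hW.a₃]

omit [DecidableEq K] in
lemma equation_iff (x y : K) :
    W.toAffine.Equation x y ↔ y ^ 2 + W.a₁ * x * y = x ^ 3 + W.a₂ * x ^ 2 + W.a₄ * x := by
  rw [Affine.equation_iff, hW.a₃, hW.a₆]; simp

end NodeModel

end basic

/-- points with nonsingular reduction -/
def InE0 {W : WeierstrassCurve K} : W.toAffine.Point → Prop
  | .zero => True
  | .some X _ _ => 1 ≤ v X

section E0

variable {v} {W : WeierstrassCurve K}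

@[simp] lemma inE0_zero : InE0 v (0 : W.toAffine.Point) := trivial

@[simp] lemma inE0_some {X Y : K} (h : W.toAffine.Nonsingular X Y) :
    InE0 v (Point.some X Y h) ↔ 1 ≤ v X := Iff.rfl

lemma inE0_iff (P : W.toAffine.Point) : InE0 v P ↔ P = 0 ∨ 1 ≤ v (H67.xCoord W P) := by
  cases P with
  | zero => exact ⟨fun _ => Or.inl rfl, fun _ => trivial⟩
  | some x y h =>
    simp only [inE0_some, H67.xCoord_some]
    constructor
    · intro h1; exact Or.inr h1
    · rintro (h0 | h1)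
      · exact absurd h0 (Point.some_ne_zero h)
      · exact h1

lemma inE0_neg {P : W.toAffine.Point} : InE0 v (-P) ↔ InE0 v P := by
  cases P with
  | zero => exact Iff.rfl
  | some x y h => rw [Point.neg_some]; exact Iff.rfl

end E0

section outer

variable {v} {W : WeierstrassCurve K}

/-- **Outer estimate.**  If `x₁` lies outside the node disc and `x₂` inside, then the two numbers
`X, Y` with the prescribed product and sum (the abscissas of `A + C`, `A - C`) lie inside. -/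
theorem val_lt_one_of_outer (hW : NodeModel v W) {x₁ x₂ X Y : K} (hx₁ : 1 ≤ v x₁)
    (hx₂ : v x₂ < 1)
    (hprod : X * Y * (x₁ - x₂) ^ 2 = H67.prodNum W x₁ x₂)
    (hsum : (X + Y) * (x₁ - x₂) ^ 2 = H67.sumNum W x₁ x₂) : v X < 1 ∧ v Y < 1 := by
  have h1pos : (0 : Γ₀) < 1 := zero_lt_one
  have hx₁pos : 0 < v x₁ := lt_of_lt_of_le h1pos hx₁
  have hD : v (x₁ - x₂) = v x₁ :=
    Valuation.map_sub_eq_of_lt_left v (lt_of_lt_of_le hx₂ hx₁)
  have hD2pos : 0 < v x₁ ^ 2 := pow_pos hx₁pos 2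
  set M := max (v x₂) (v W.a₄) with hM
  have hM1 : M < 1 := max_lt hx₂ hW.a₄
  have hx₂M : v x₂ ≤ M := le_max_left _ _
  have ha₄M : v W.a₄ ≤ M := le_max_right _ _
  have h2 : v (2 : K) ≤ 1 := val_two_le_one
  -- the product
  have hP : v (X * Y) ≤ M ^ 2 := by
    have h1 : v (x₁ * x₂ - W.a₄) ≤ v x₁ * M := by
      refine le_trans (Valuation.map_sub _ _ _) (max_le ?_ ?_)
      · rw [map_mul]; exact mul_le_mul' le_rfl hx₂M
      · calc v W.a₄ ≤ M := ha₄M
          _ = 1 * M := (one_mul _).symm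
          _ ≤ v x₁ * M := mul_le_mul' hx₁ le_rfl
    have h2' : v (X * Y) * v x₁ ^ 2 ≤ M ^ 2 * v x₁ ^ 2 := by
      have := congrArg v hprod
      rw [map_mul, map_pow, hD, hW.prodNum_eq, map_pow] at this
      rw [this]
      calc v (x₁ * x₂ - W.a₄) ^ 2 ≤ (v x₁ * M) ^ 2 := pow_le_pow_left' h1 2
        _ = M ^ 2 * v x₁ ^ 2 := by rw [mul_pow, mul_comm]
    exact le_of_mul_le_mul_right h2' hD2pos
  -- the sum
  have hS : v (X + Y) ≤ M := by
    have hx12 : v (x₁ + x₂) ≤ v x₁ :=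
      le_trans (v.map_add _ _) (max_le le_rfl (le_of_lt (lt_of_lt_of_le hx₂ hx₁)))
    have h1 : v (H67.sumNum W x₁ x₂) ≤ M * v x₁ ^ 2 := by
      rw [hW.sumNum_eq]
      refine le_trans (v.map_add _ _) (max_le (le_trans (v.map_add _ _) (max_le ?_ ?_)) ?_)
      · -- 2 (x₁+x₂) x₁ x₂
        rw [map_mul, map_mul, map_mul]
        calc v 2 * v (x₁ + x₂) * (v x₁ * v x₂) ≤ 1 * v x₁ * (v x₁ * M) :=
              mul_le_mul' (mul_le_mul' h2 hx12) (mul_le_mul' le_rfl hx₂M)
          _ = M * v x₁ ^ 2 := by rw [one_mul, sq, mul_comm (v x₁) M, mul_left_comm]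
      · -- b₂ x₁ x₂
        rw [map_mul, map_mul, hW.b₂, one_mul]
        calc v x₁ * v x₂ ≤ v x₁ * M := mul_le_mul' le_rfl hx₂M
          _ = M * v x₁ * 1 := by rw [mul_one, mul_comm]
          _ ≤ M * v x₁ * v x₁ := mul_le_mul' le_rfl hx₁
          _ = M * v x₁ ^ 2 := by rw [sq, mul_assoc]
      · -- 2 a₄ (x₁+x₂)
        rw [map_mul, map_mul]
        calc v 2 * v W.a₄ * v (x₁ + x₂) ≤ 1 * M * v x₁ :=
              mul_le_mul' (mul_le_mul' h2 ha₄M) hx12
          _ = M * v x₁ * 1 := by rw [one_mul, mul_one]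
          _ ≤ M * v x₁ * v x₁ := mul_le_mul' le_rfl hx₁
          _ = M * v x₁ ^ 2 := by rw [sq, mul_assoc]
    have h2' : v (X + Y) * v x₁ ^ 2 ≤ M * v x₁ ^ 2 := by
      have := congrArg v hsum
      rw [map_mul, map_pow, hD] at this
      rw [this]; exact h1
    exact le_of_mul_le_mul_right h2' hD2pos
  have hM2 : M ^ 2 < 1 := by
    rw [sq]; exact Left.mul_lt_one' hM1 hM1
  have key : ∀ {X Y : K}, v (X * Y) ≤ M ^ 2 → v (X + Y) ≤ M → v X < 1 := by
    intro X Y hP hS
    by_contra hX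
    rw [not_lt] at hX
    have hXpos : 0 < v X := lt_of_lt_of_le h1pos hX
    have hY : v Y < 1 := by
      by_contra hY
      rw [not_lt] at hY
      have : (1 : Γ₀) ≤ v (X * Y) := by
        rw [map_mul]; exact one_le_mul_of_one_le_of_one_le hX hY
      exact absurd (lt_of_le_of_lt (le_trans this hP) hM2) (lt_irrefl _)
    have : v (X + Y) = v X := Valuation.map_add_eq_of_lt_left v (lt_of_lt_of_le hY hX)
    rw [this] at hS
    exact absurd (lt_of_le_of_lt (le_trans hX hS) hM1) (lt_irrefl _)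
  refine ⟨key hP hS, ?_⟩
  rw [mul_comm] at hP
  rw [add_comm] at hS
  exact key hP hS

end outer

section group

variable {v} {W : WeierstrassCurve K}

lemma not_inE0_iff {P : W.toAffine.Point} :
    ¬ InE0 v P ↔ P ≠ 0 ∧ v (H67.xCoord W P) < 1 := by
  rw [inE0_iff, not_or, not_le]

/-- `A ∈ E₀` affine, `C ∉ E₀` ⟹ `A + C ∉ E₀` and `A - C ∉ E₀`. -/
theorem not_inE0_add_sub_of_inE0 (hW : NodeModel v W) {A C : W.toAffine.Point}
    (hA : InE0 v A) (hA0 : A ≠ 0) (hC : ¬ InE0 v C) :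
    ¬ InE0 v (A + C) ∧ ¬ InE0 v (A - C) := by
  obtain ⟨hC0, hxC⟩ := not_inE0_iff.mp hC
  have hxA : 1 ≤ v (H67.xCoord W A) := by
    rcases (inE0_iff A).mp hA with h | h
    · exact absurd h hA0
    · exact h
  have hne : H67.xCoord W A ≠ H67.xCoord W C := by
    intro h
    rw [h] at hxA
    exact absurd (lt_of_le_of_lt hxA hxC) (lt_irrefl _)
  obtain ⟨hadd, hsub⟩ := H67.add_ne_zero_and_sub_ne_zero W hA0 hC0 hne
  have hprod := H67.xCoord_add_mul_xCoord_sub W hA0 hC0 hne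
  have hsum := H67.xCoord_add_add_xCoord_sub W hA0 hC0 hne
  obtain ⟨h1, h2⟩ := val_lt_one_of_outer hW hxA hxC hprod hsum
  exact ⟨not_inE0_iff.mpr ⟨hadd, h1⟩, not_inE0_iff.mpr ⟨hsub, h2⟩⟩

/-- **G0**: `E₀` is closed under addition. -/
theorem inE0_add (hW : NodeModel v W) {A B : W.toAffine.Point}
    (hA : InE0 v A) (hB : InE0 v B) : InE0 v (A + B) := by
  by_contra hC
  by_cases hA0 : A = 0
  · rw [hA0, zero_add] at hC; exact hC hB
  · have h := (not_inE0_add_sub_of_inE0 hW hA hA0 hC).2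
    have e : A - (A + B) = -B := by abel
    rw [e, inE0_neg] at h
    exact h hB

theorem inE0_sub (hW : NodeModel v W) {A B : W.toAffine.Point}
    (hA : InE0 v A) (hB : InE0 v B) : InE0 v (A - B) := by
  rw [sub_eq_add_neg]
  exact inE0_add hW hA (inE0_neg.mpr hB)

theorem inE0_nsmul (hW : NodeModel v W) {A : W.toAffine.Point} (hA : InE0 v A) (n : ℕ) :
    InE0 v (n • A) := by
  induction n with
  | zero => rw [zero_smul]; exact inE0_zero
  | succ k ih => rw [succ_nsmul]; exact inE0_add hW ih hA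

theorem inE0_zsmul (hW : NodeModel v W) {A : W.toAffine.Point} (hA : InE0 v A) (n : ℤ) :
    InE0 v (n • A) := by
  cases n with
  | ofNat k => rw [Int.ofNat_eq_natCast, natCast_zsmul]; exact inE0_nsmul hW hA k
  | negSucc k => rw [negSucc_zsmul, inE0_neg]; exact inE0_nsmul hW hA (k + 1)

/-- `A ∈ E₀`, `C ∉ E₀` ⟹ `A + C ∉ E₀` (no hypothesis `A ≠ 0`). -/
theorem not_inE0_add_of_inE0 (hW : NodeModel v W) {A C : W.toAffine.Point}
    (hA : InE0 v A) (hC : ¬ InE0 v C) : ¬ InE0 v (A + C) := by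
  intro h
  apply hC
  have e : C = (A + C) - A := by abel
  rw [e]
  exact inE0_sub hW h hA

theorem not_inE0_sub_of_inE0 (hW : NodeModel v W) {A C : W.toAffine.Point}
    (hA : InE0 v A) (hC : ¬ InE0 v C) : ¬ InE0 v (A - C) := by
  intro h
  apply hC
  have e : C = A - (A - C) := by abel
  rw [e]
  exact inE0_sub hW hA h

/-- `E₀` as an additive subgroup. -/
def E0 (hW : NodeModel v W) : AddSubgroup W.toAffine.Point where
  carrier := {P | InE0 v P}
  add_mem' := fun hA hB => inE0_add hW hA hB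
  zero_mem' := (inE0_zero : InE0 v (0 : W.toAffine.Point))
  neg_mem' := fun hA => inE0_neg.mpr hA

@[simp] lemma mem_E0 (hW : NodeModel v W) {P : W.toAffine.Point} : P ∈ E0 hW ↔ InE0 v P :=
  Iff.rfl

end group

section deep

variable {v} {W : WeierstrassCurve K}

/-- **DEEP**: a torsion point of odd order outside `E₀` is never deep: `v a₄ < v (x T)`. -/
theorem val_a₄_lt_of_odd_torsion (hW : NodeModel v W) {n : ℕ} (hn : Odd n)
    {T : W.toAffine.Point} (hT : n • T = 0) (hT0 : ¬ InE0 v T) :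
    v W.a₄ < v (H67.xCoord W T) := by
  obtain ⟨hTne, hx1⟩ := not_inE0_iff.mp hT0
  obtain ⟨k, hk⟩ := hn
  by_contra hcon
  rw [not_lt] at hcon
  set x := H67.xCoord W T with hx
  -- `2 • T ≠ 0`
  have h2T : 2 • T ≠ 0 := by
    intro h2
    apply hTne
    have : n • T = k • (2 • T) + T := by
      rw [hk, smul_smul, add_smul, one_smul, mul_comm k 2]
    rw [hT, h2, smul_zero, zero_add] at this
    exact this.symm
  have hden0 : H67.dblDen W x ≠ 0 := fun h0 => h2T ((H67.two_nsmul_eq_zero_iff W hTne).mpr h0)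
  have hdbl := H67.xCoord_two_nsmul W hTne h2T
  rw [← hx, hW.dblNum_eq] at hdbl
  have ha₄pos := hW.val_a₄_pos
  -- numerator
  have hnum : v (x ^ 2 - W.a₄) = v W.a₄ := by
    have hlt : v (x ^ 2) < v W.a₄ := by
      rw [map_pow, sq]
      calc v x * v x ≤ v W.a₄ * v x := mul_le_mul' hcon le_rfl
        _ < v W.a₄ * 1 := mul_lt_mul_of_pos_left hx1 ha₄pos
        _ = v W.a₄ := mul_one _
    exact Valuation.map_sub_eq_of_lt_right v hlt
  -- denominator
  have hden : v (H67.dblDen W x) ≤ v W.a₄ * v W.a₄ := by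
    rw [hW.dblDen_eq', map_mul]
    refine mul_le_mul' hcon ?_
    refine le_trans (v.map_add _ _) (max_le (le_trans (v.map_add _ _) (max_le ?_ ?_)) ?_)
    · rw [map_mul, map_pow, sq]
      calc v 4 * (v x * v x) ≤ 1 * (v W.a₄ * 1) :=
            mul_le_mul' val_four_le_one (mul_le_mul' hcon hx1.le)
        _ = v W.a₄ := by rw [one_mul, mul_one]
    · rw [map_mul, hW.b₂, one_mul]; exact hcon
    · rw [map_mul]
      calc v 4 * v W.a₄ ≤ 1 * v W.a₄ := mul_le_mul' val_four_le_one le_rfl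
        _ = v W.a₄ := one_mul _
  have hdenpos : 0 < v (H67.dblDen W x) := zero_lt_iff.mpr ((map_ne_zero v).mpr hden0)
  have hx₂ : 1 ≤ v (H67.xCoord W (2 • T)) := by
    by_contra hlt
    rw [not_le] at hlt
    have hprod : v (H67.xCoord W (2 • T)) * v (H67.dblDen W x) = v W.a₄ * v W.a₄ := by
      have := congrArg v hdbl
      rwa [map_mul, map_pow, hnum, sq] at this
    have : v (H67.xCoord W (2 • T)) * v (H67.dblDen W x) < v W.a₄ * v W.a₄ :=
      calc v (H67.xCoord W (2 • T)) * v (H67.dblDen W x) < 1 * v (H67.dblDen W x) :=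
            mul_lt_mul_of_pos_right hlt hdenpos
        _ = v (H67.dblDen W x) := one_mul _
        _ ≤ v W.a₄ * v W.a₄ := hden
    exact absurd hprod this.ne
  have h2E0 : InE0 v (2 • T) := (inE0_iff _).mpr (Or.inr hx₂)
  have hTE0 : InE0 v ((k + 1) • (2 • T)) := inE0_nsmul hW h2E0 (k + 1)
  have e : (k + 1) • (2 • T) = T := by
    rw [smul_smul]
    have : (k + 1) * 2 = n + 1 := by omega
    rw [this, add_smul, hT, zero_add, one_smul]
  rw [e] at hTE0
  exact hT0 hTE0

end deep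

section branch

variable {v} {W : WeierstrassCurve K}

/-- Slope data of a point in the node region `v a₄ < v x < 1`: `t = y / x` is integral, is a root
of `t² + a₁ t - a₂` modulo the maximal ideal, and `2 t + a₁` is a unit. -/
lemma node_slope (hW : NodeModel v W) {x y : K} (heq : W.toAffine.Equation x y)
    (hx : v W.a₄ < v x) (hx' : v x < 1) :
    v (y / x) ≤ 1 ∧ (y / x) ^ 2 + W.a₁ * (y / x) - W.a₂ = x + W.a₄ / x ∧
      v (x + W.a₄ / x) < 1 ∧ v (2 * (y / x) + W.a₁) = 1 := by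
  have hvx0 : 0 < v x := lt_trans hW.val_a₄_pos hx
  have hx0 : x ≠ 0 := (map_ne_zero v).mp hvx0.ne'
  have e := (hW.equation_iff x y).mp heq
  have hslope : (y / x) ^ 2 + W.a₁ * (y / x) - W.a₂ = x + W.a₄ / x := by
    field_simp
    linear_combination e
  have hsmall : v (x + W.a₄ / x) < 1 := by
    refine lt_of_le_of_lt (v.map_add _ _) (max_lt hx' ?_)
    rw [map_div₀]
    exact (div_lt_one₀ hvx0).mpr hx
  have ht : v (y / x) ≤ 1 := by
    by_contra hcon
    rw [not_le] at hcon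
    set t := y / x with ht
    have htpos : 0 < v t := lt_trans zero_lt_one hcon
    have h1 : v t < v (t ^ 2) := by
      rw [map_pow, sq]
      calc v t = v t * 1 := (mul_one _).symm
        _ < v t * v t := mul_lt_mul_of_pos_left hcon htpos
    have h2 : v (W.a₁ * t) < v (t ^ 2) := by
      rw [map_mul]
      calc v W.a₁ * v t ≤ 1 * v t := mul_le_mul' hW.a₁ le_rfl
        _ = v t := one_mul _
        _ < v (t ^ 2) := h1
    have h3 : v (t ^ 2 + W.a₁ * t) = v (t ^ 2) := Valuation.map_add_eq_of_lt_left v h2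
    have h4 : v W.a₂ < v (t ^ 2 + W.a₁ * t) := by
      rw [h3]; exact lt_of_le_of_lt hW.a₂ (lt_trans hcon h1)
    have h5 : v (t ^ 2 + W.a₁ * t - W.a₂) = v (t ^ 2) := by
      rw [Valuation.map_sub_eq_of_lt_left v h4, h3]
    rw [hslope] at h5
    rw [h5] at hsmall
    exact absurd (lt_trans (lt_trans hcon h1) hsmall) (lt_irrefl _)
  refine ⟨ht, hslope, hsmall, ?_⟩
  have hsq : (2 * (y / x) + W.a₁) ^ 2 = W.b₂ + 4 * (x + W.a₄ / x) := by
    rw [← hslope, WeierstrassCurve.b₂]; ring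
  have h4 : v (4 * (x + W.a₄ / x)) < v W.b₂ := by
    rw [hW.b₂, map_mul]
    exact Right.mul_lt_one_of_le_of_lt val_four_le_one hsmall
  have : v ((2 * (y / x) + W.a₁) ^ 2) = 1 := by
    rw [hsq, Valuation.map_add_eq_of_lt_left v h4, hW.b₂]
  rw [map_pow] at this
  exact sq_eq_one.mp this

end branch

section branchLemma

variable {v} {W : WeierstrassCurve K}

/-- **BR (branch lemma).**  Two points in the node region with abscissas of the same valuation and
lying on the same branch of the node (`y₁ / x₁ ≡ y₂ / x₂` modulo the maximal ideal) differ by an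
element of `E₀`. -/
theorem inE0_sub_of_same_branch (hW : NodeModel v W) {x₁ y₁ x₂ y₂ : K}
    (h₁ : W.toAffine.Nonsingular x₁ y₁) (h₂ : W.toAffine.Nonsingular x₂ y₂)
    (hx₁ : v W.a₄ < v x₁) (hx₁' : v x₁ < 1) (hx : v x₂ = v x₁)
    (hbr : v (y₁ / x₁ - y₂ / x₂) < 1) :
    InE0 v (Point.some x₁ y₁ h₁ - Point.some x₂ y₂ h₂) := by
  have hx₂ : v W.a₄ < v x₂ := hx ▸ hx₁
  have hx₂' : v x₂ < 1 := hx ▸ hx₁'
  obtain ⟨ht₁, hs₁, he₁, hu₁⟩ := node_slope hW h₁.1 hx₁ hx₁'
  obtain ⟨ht₂, hs₂, he₂, hu₂⟩ := node_slope hW h₂.1 hx₂ hx₂'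
  have hδpos : 0 < v x₁ := lt_trans hW.val_a₄_pos hx₁
  have hx₁0 : x₁ ≠ 0 := (map_ne_zero v).mp hδpos.ne'
  have hx₂0 : x₂ ≠ 0 := (map_ne_zero v).mp (hx ▸ hδpos).ne'
  by_cases hxx : x₁ = x₂
  · rcases Affine.Y_eq_of_X_eq h₁.1 h₂.1 hxx with hy | hy
    · subst hxx; subst hy
      rw [sub_self]; exact inE0_zero
    · exfalso
      rw [hW.negY_eq] at hy
      have e : y₁ / x₁ - y₂ / x₂ = -(2 * (y₂ / x₂) + W.a₁) := by
        rw [hxx, hy]; field_simp; ring
      rw [e, Valuation.map_neg, hu₂] at hbr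
      exact lt_irrefl _ hbr
  · have hne := H67.some_sub_some_ne_zero W h₁ h₂ hxx
    have hX := H67.xCoord_some_sub_some W h₁ h₂ hxx
    rw [inE0_iff]
    right
    rw [hX]
    have hD0 : x₁ - x₂ ≠ 0 := sub_ne_zero.mpr hxx
    have hy₁ : y₁ = y₁ / x₁ * x₁ := by field_simp
    have hy₂ : y₂ = y₂ / x₂ * x₂ := by field_simp
    generalize ht₁def : y₁ / x₁ = t₁ at *
    generalize ht₂def : y₂ / x₂ = t₂ at *
    -- the numerator of the slope
    have hn : y₁ - W.toAffine.negY x₂ y₂ = t₁ * x₁ + (t₂ + W.a₁) * x₂ := by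
      rw [hW.negY_eq]
      rw [hy₁, hy₂]; ring
    -- the key identity
    have hkey : W.toAffine.addX x₁ x₂ ((y₁ - W.toAffine.negY x₂ y₂) / (x₁ - x₂)) * (x₁ - x₂) ^ 2
        = (t₁ + t₂ + W.a₁) ^ 2 * (x₁ * x₂)
          + ((t₁ - t₂) * (t₁ * x₁ + (t₂ + W.a₁) * x₂) * (x₁ - x₂)
          + ((x₁ + W.a₄ / x₁) - t₁ * (t₁ - t₂)) * (x₁ - x₂) ^ 2
          - (x₁ + x₂) * (x₁ - x₂) ^ 2) := by
      rw [hn, ← hs₁]
      simp only [Affine.addX]
      field_simp
      ring
    set δ := v x₁ with hδ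
    have hδ2pos : 0 < δ * δ := mul_pos hδpos hδpos
    have hvD : v (x₁ - x₂) ≤ δ := by
      refine le_trans (Valuation.map_sub _ _ _) (max_le le_rfl ?_)
      rw [hx]
    have hvD2 : v ((x₁ - x₂) ^ 2) ≤ δ * δ := by
      rw [map_pow, sq]; exact mul_le_mul' hvD hvD
    have hε : v (t₁ - t₂) < 1 := hbr
    have hu : v (t₁ + t₂ + W.a₁) = 1 := by
      have e : t₁ + t₂ + W.a₁ = (2 * t₁ + W.a₁) - (t₁ - t₂) := by ring
      rw [e, Valuation.map_sub_eq_of_lt_left v (by rw [hu₁]; exact hε), hu₁]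
    have hta : v (t₂ + W.a₁) ≤ 1 := le_trans (v.map_add _ _) (max_le ht₂ hW.a₁)
    have hvn : v (t₁ * x₁ + (t₂ + W.a₁) * x₂) ≤ δ := by
      refine le_trans (v.map_add _ _) (max_le ?_ ?_)
      · rw [map_mul]
        calc v t₁ * v x₁ ≤ 1 * δ := mul_le_mul' ht₁ le_rfl
          _ = δ := one_mul _
      · rw [map_mul, hx]
        calc v (t₂ + W.a₁) * δ ≤ 1 * δ := mul_le_mul' hta le_rfl
          _ = δ := one_mul _
    have hmain : v ((t₁ + t₂ + W.a₁) ^ 2 * (x₁ * x₂)) = δ * δ := by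
      rw [map_mul, map_pow, hu, one_pow, one_mul, map_mul, hx]
    have hsmall : v ((t₁ - t₂) * (t₁ * x₁ + (t₂ + W.a₁) * x₂) * (x₁ - x₂)
          + ((x₁ + W.a₄ / x₁) - t₁ * (t₁ - t₂)) * (x₁ - x₂) ^ 2
          - (x₁ + x₂) * (x₁ - x₂) ^ 2) < δ * δ := by
      refine lt_of_le_of_lt (Valuation.map_sub _ _ _) (max_lt
        (lt_of_le_of_lt (v.map_add _ _) (max_lt ?_ ?_)) ?_)
      · rw [map_mul, map_mul]
        calc v (t₁ - t₂) * v (t₁ * x₁ + (t₂ + W.a₁) * x₂) * v (x₁ - x₂)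
            ≤ v (t₁ - t₂) * δ * δ := mul_le_mul' (mul_le_mul' le_rfl hvn) hvD
          _ = v (t₁ - t₂) * (δ * δ) := mul_assoc _ _ _
          _ < 1 * (δ * δ) := mul_lt_mul_of_pos_right hε hδ2pos
          _ = δ * δ := one_mul _
      · have h1 : v ((x₁ + W.a₄ / x₁) - t₁ * (t₁ - t₂)) < 1 := by
          refine lt_of_le_of_lt (Valuation.map_sub _ _ _) (max_lt he₁ ?_)
          rw [map_mul]
          exact Right.mul_lt_one_of_le_of_lt ht₁ hε
        rw [map_mul]
        calc v ((x₁ + W.a₄ / x₁) - t₁ * (t₁ - t₂)) * v ((x₁ - x₂) ^ 2)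
            ≤ v ((x₁ + W.a₄ / x₁) - t₁ * (t₁ - t₂)) * (δ * δ) := mul_le_mul' le_rfl hvD2
          _ < 1 * (δ * δ) := mul_lt_mul_of_pos_right h1 hδ2pos
          _ = δ * δ := one_mul _
      · have h1 : v (x₁ + x₂) < 1 :=
          lt_of_le_of_lt (v.map_add _ _) (max_lt hx₁' hx₂')
        rw [map_mul]
        calc v (x₁ + x₂) * v ((x₁ - x₂) ^ 2) ≤ v (x₁ + x₂) * (δ * δ) := mul_le_mul' le_rfl hvD2
          _ < 1 * (δ * δ) := mul_lt_mul_of_pos_right h1 hδ2pos
          _ = δ * δ := one_mul _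
    have htotal : v (W.toAffine.addX x₁ x₂ ((y₁ - W.toAffine.negY x₂ y₂) / (x₁ - x₂)) *
        (x₁ - x₂) ^ 2) = δ * δ := by
      rw [hkey, Valuation.map_add_eq_of_lt_left v (by rw [hmain]; exact hsmall), hmain]
    rw [map_mul] at htotal
    have hD2pos : 0 < v ((x₁ - x₂) ^ 2) :=
      zero_lt_iff.mpr ((map_ne_zero v).mpr (pow_ne_zero 2 hD0))
    by_contra hlt
    rw [not_le] at hlt
    have : v (W.toAffine.addX x₁ x₂ ((y₁ - W.toAffine.negY x₂ y₂) / (x₁ - x₂))) *
        v ((x₁ - x₂) ^ 2) < δ * δ :=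
      calc _ < 1 * v ((x₁ - x₂) ^ 2) := mul_lt_mul_of_pos_right hlt hD2pos
        _ = v ((x₁ - x₂) ^ 2) := one_mul _
        _ ≤ δ * δ := hvD2
    exact absurd htotal this.ne

end branchLemma

section inertia

variable {W : WeierstrassCurve K}

/-- The data of a coordinatewise action on the points of `W`. -/
structure CoordAction (W : WeierstrassCurve K) (σ : K →+* K)
    (φ : W.toAffine.Point →+ W.toAffine.Point) : Prop where
  map_some : ∀ (x y : K) (h : W.toAffine.Nonsingular x y),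
      ∃ h' : W.toAffine.Nonsingular (σ x) (σ y), φ (Point.some x y h) = Point.some _ _ h'

/-- `σ` acts trivially modulo the maximal ideal. -/
def ResTrivial (σ : K →+* K) : Prop := ∀ z : K, v z ≤ 1 → v (σ z - z) < 1

variable {v}

/-- a valuation preserving coordinatewise action preserves `E₀` -/
theorem inE0_map_iff {σ : K →+* K} {φ : W.toAffine.Point →+ W.toAffine.Point}
    (hφ : CoordAction W σ φ) (hσv : ∀ z : K, v (σ z) = v z) (T : W.toAffine.Point) :
    InE0 v (φ T) ↔ InE0 v T := by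
  cases T with
  | zero =>
    have : φ (Point.zero : W.toAffine.Point) = 0 := map_zero φ
    rw [this]; exact Iff.rfl
  | some x y h =>
    obtain ⟨h', e⟩ := hφ.map_some x y h
    rw [e, inE0_some, inE0_some, hσv]

/-- **G1**, node region version: a residually trivial, valuation preserving `σ` moves a point of the
node region inside its `E₀`-coset. -/
theorem inE0_map_sub_of_node (hW : NodeModel v W) {σ : K →+* K}
    {φ : W.toAffine.Point →+ W.toAffine.Point}
    (hφ : CoordAction W σ φ) (hσv : ∀ z : K, v (σ z) = v z) (hσ : ResTrivial v σ)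
    {x y : K} (h : W.toAffine.Nonsingular x y) (hx : v W.a₄ < v x) (hx' : v x < 1) :
    InE0 v (φ (Point.some x y h) - Point.some x y h) := by
  obtain ⟨h', e⟩ := hφ.map_some x y h
  rw [e]
  obtain ⟨ht, -, -, -⟩ := node_slope hW h.1 hx hx'
  refine inE0_sub_of_same_branch hW h' h (by rw [hσv]; exact hx) (by rw [hσv]; exact hx')
    (hσv x).symm ?_
  rw [← map_div₀]
  exact hσ _ ht

/-- **G1**: a residually trivial, valuation preserving `σ` moves a torsion point of odd order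
inside its `E₀`-coset. -/
theorem inE0_map_sub (hW : NodeModel v W) {σ : K →+* K}
    {φ : W.toAffine.Point →+ W.toAffine.Point}
    (hφ : CoordAction W σ φ) (hσv : ∀ z : K, v (σ z) = v z) (hσ : ResTrivial v σ)
    {n : ℕ} (hn : Odd n) {T : W.toAffine.Point} (hT : n • T = 0) :
    InE0 v (φ T - T) := by
  by_cases hE : InE0 v T
  · exact inE0_sub hW ((inE0_map_iff hφ hσv T).mpr hE) hE
  · have hdeep := val_a₄_lt_of_odd_torsion hW hn hT hE
    obtain ⟨hT0, hx1⟩ := not_inE0_iff.mp hE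
    obtain ⟨x, y, h, rfl⟩ := H67.exists_of_ne_zero W hT0
    rw [H67.xCoord_some] at hdeep hx1
    exact inE0_map_sub_of_node hW hφ hσv hσ h hdeep hx1

end inertia

end Fermat.Agent.S13.H77
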