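/-
helper89, project S13, package LOC-GF1: the kernel of reduction of a GENERAL integral Weierstrass
curve over a valuation ring (any residue characteristic) has no `n`-torsion for `n` a unit.
-/
import Mathlib
import Fermat.Agent.S05.H67_XF
import Fermat.Agent.S05.H89_F1

set_option autoImplicit false

namespace Fermat.Agent.S13.H89

open WeierstrassCurve Fermat.Agent.S05.H67
open Fermat.Agent.S05.H89 (one_sub_ne_zero inv_one_sub_mem mem_of_quadratic nonunits_mul_mem)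

variable {K : Type*} [Field K]

section val

variable (A : ValuationSubring K)

/-- Algebraic core of the generic case of the quasi-parallelogram law (general `b`-invariants). -/
lemma generic_core {b₂ b₄ b₆ b₈ ζ x₁ x₂ Xp Xm : K} (hb₂ : b₂ ∈ A) (hb₄ : b₄ ∈ A) (hb₆ : b₆ ∈ A)
    (hb₈ : b₈ ∈ A) (hζ : ζ ∈ A.nonunits)
    (hζ0 : ζ ≠ 0) (hx₁ : x₁ ≠ 0) (hx₂ : x₂ ≠ 0) (ha₁ : x₁⁻¹ / ζ ∈ A) (ha₂ : x₂⁻¹ / ζ ∈ A)
    (hx : x₁ ≠ x₂)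
    (hprod : Xp * Xm * (x₁ - x₂) ^ 2 = (x₁ * x₂) ^ 2 - b₄ * (x₁ * x₂) - b₆ * (x₁ + x₂) - b₈)
    (hsum : (Xp + Xm) * (x₁ - x₂) ^ 2 =
      2 * (x₁ + x₂) * (x₁ * x₂) + b₂ * (x₁ * x₂) + b₄ * (x₁ + x₂) + b₆) :
    Xp ≠ 0 ∧ Xm ≠ 0 ∧ Xp⁻¹ / ζ ∈ A ∧ Xm⁻¹ / ζ ∈ A ∧
      (Xp⁻¹ + Xm⁻¹ - 2 * x₁⁻¹ - 2 * x₂⁻¹) / ζ ^ 2 ∈ A := by
  set a₁ := x₁⁻¹ / ζ with ha₁def
  set a₂ := x₂⁻¹ / ζ with ha₂def
  have ha₁0 : a₁ ≠ 0 := by
    rw [ha₁def]; exact div_ne_zero (inv_ne_zero hx₁) hζ0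
  have ha₂0 : a₂ ≠ 0 := by
    rw [ha₂def]; exact div_ne_zero (inv_ne_zero hx₂) hζ0
  have e₁ : x₁ = (ζ * a₁)⁻¹ := by
    rw [ha₁def]; field_simp
  have e₂ : x₂ = (ζ * a₂)⁻¹ := by
    rw [ha₂def]; field_simp
  have hne : a₁ ≠ a₂ := by
    intro h; apply hx; rw [e₁, e₂, h]
  have hne' : a₁ - a₂ ≠ 0 := sub_ne_zero.mpr hne
  have hζA : ζ ∈ A := A.nonunits_subset hζ
  have h2A : (2 : K) ∈ A := Fermat.Agent.S05.H89.ofNat_mem A 2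
  -- the unit D
  set E := b₄ * ζ * a₁ * a₂ + b₆ * ζ ^ 2 * a₁ * a₂ * (a₁ + a₂) + b₈ * ζ ^ 3 * a₁ ^ 2 * a₂ ^ 2
    with hEdef
  have hEA : E ∈ A := by
    rw [hEdef]
    refine A.add_mem _ _ (A.add_mem _ _ ?_ ?_) ?_
    · exact A.mul_mem _ _ (A.mul_mem _ _ (A.mul_mem _ _ hb₄ hζA) ha₁) ha₂
    · exact A.mul_mem _ _ (A.mul_mem _ _ (A.mul_mem _ _ (A.mul_mem _ _ hb₆ (pow_mem hζA 2)) ha₁) ha₂)
        (A.add_mem _ _ ha₁ ha₂)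
    · exact A.mul_mem _ _ (A.mul_mem _ _ (A.mul_mem _ _ hb₈ (pow_mem hζA 3)) (pow_mem ha₁ 2))
        (pow_mem ha₂ 2)
  have hm : ζ * E ∈ A.nonunits := nonunits_mul_mem A hζ hEA
  have hD0 : 1 - ζ * E ≠ 0 := one_sub_ne_zero A hm
  have hDinv : (1 - ζ * E)⁻¹ ∈ A := inv_one_sub_mem A hm
  set D := 1 - ζ * E with hDdef
  set N := 2 * (a₁ + a₂) + b₂ * ζ * a₁ * a₂ + b₄ * ζ ^ 2 * a₁ * a₂ * (a₁ + a₂)
    + b₆ * ζ ^ 3 * a₁ ^ 2 * a₂ ^ 2 with hNdef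
  have hNA : N ∈ A := by
    rw [hNdef]
    refine A.add_mem _ _ (A.add_mem _ _ (A.add_mem _ _ ?_ ?_) ?_) ?_
    · exact A.mul_mem _ _ h2A (A.add_mem _ _ ha₁ ha₂)
    · exact A.mul_mem _ _ (A.mul_mem _ _ (A.mul_mem _ _ hb₂ hζA) ha₁) ha₂
    · exact A.mul_mem _ _ (A.mul_mem _ _ (A.mul_mem _ _ (A.mul_mem _ _ hb₄ (pow_mem hζA 2)) ha₁) ha₂)
        (A.add_mem _ _ ha₁ ha₂)
    · exact A.mul_mem _ _ (A.mul_mem _ _ (A.mul_mem _ _ hb₆ (pow_mem hζA 3)) (pow_mem ha₁ 2))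
        (pow_mem ha₂ 2)
  have hd : x₁ - x₂ ≠ 0 := sub_ne_zero.mpr hx
  have h3 : (ζ * a₁)⁻¹ - (ζ * a₂)⁻¹ ≠ 0 := by rw [← e₁, ← e₂]; exact hd
  have hM : Xp * Xm = D / (ζ ^ 2 * (a₁ - a₂) ^ 2) := by
    have : Xp * Xm = ((x₁ * x₂) ^ 2 - b₄ * (x₁ * x₂) - b₆ * (x₁ + x₂) - b₈) / (x₁ - x₂) ^ 2 := by
      field_simp; linear_combination hprod
    rw [this, e₁, e₂, hDdef, hEdef]
    field_simp
    ring
  have hS : Xp + Xm = N / (ζ * (a₁ - a₂) ^ 2) := by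
    have : Xp + Xm =
        (2 * (x₁ + x₂) * (x₁ * x₂) + b₂ * (x₁ * x₂) + b₄ * (x₁ + x₂) + b₆) / (x₁ - x₂) ^ 2 := by
      field_simp; linear_combination hsum
    rw [this, e₁, e₂, hNdef]
    field_simp
    ring
  have hM0 : Xp * Xm ≠ 0 := by
    rw [hM]; positivity
  have hXp0 : Xp ≠ 0 := left_ne_zero_of_mul hM0
  have hXm0 : Xm ≠ 0 := right_ne_zero_of_mul hM0
  set σ' := N * D⁻¹ with hσdef
  set π' := (a₁ - a₂) ^ 2 * D⁻¹ with hπdef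
  have hσA : σ' ∈ A := A.mul_mem _ _ hNA hDinv
  have hπA : π' ∈ A := A.mul_mem _ _ (pow_mem (A.sub_mem ha₁ ha₂) 2) hDinv
  have hsumz : Xp⁻¹ / ζ + Xm⁻¹ / ζ = σ' := by
    have : Xp⁻¹ / ζ + Xm⁻¹ / ζ = (Xp + Xm) / (Xp * Xm) / ζ := by
      field_simp; ring
    rw [this, hM, hS, hσdef]
    field_simp
  have hprodz : (Xp⁻¹ / ζ) * (Xm⁻¹ / ζ) = π' := by
    have : (Xp⁻¹ / ζ) * (Xm⁻¹ / ζ) = 1 / (Xp * Xm) / ζ ^ 2 := by
      field_simp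
    rw [this, hM, hπdef]
    field_simp
  have hzp : Xp⁻¹ / ζ ∈ A := by
    apply mem_of_quadratic A hσA hπA
    rw [← hsumz, ← hprodz]; ring
  have hzm : Xm⁻¹ / ζ ∈ A := by
    apply mem_of_quadratic A hσA hπA
    rw [← hsumz, ← hprodz]; ring
  refine ⟨hXp0, hXm0, hzp, hzm, ?_⟩
  set R := b₂ * a₁ * a₂ + b₄ * ζ * a₁ * a₂ * (a₁ + a₂) + b₆ * ζ ^ 2 * a₁ ^ 2 * a₂ ^ 2
    + 2 * (a₁ + a₂) * E with hRdef
  have hRA : R ∈ A := by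
    rw [hRdef]
    refine A.add_mem _ _ (A.add_mem _ _ (A.add_mem _ _ ?_ ?_) ?_) ?_
    · exact A.mul_mem _ _ (A.mul_mem _ _ hb₂ ha₁) ha₂
    · exact A.mul_mem _ _ (A.mul_mem _ _ (A.mul_mem _ _ (A.mul_mem _ _ hb₄ hζA) ha₁) ha₂)
        (A.add_mem _ _ ha₁ ha₂)
    · exact A.mul_mem _ _ (A.mul_mem _ _ (A.mul_mem _ _ hb₆ (pow_mem hζA 2)) (pow_mem ha₁ 2))
        (pow_mem ha₂ 2)
    · exact A.mul_mem _ _ (A.mul_mem _ _ h2A (A.add_mem _ _ ha₁ ha₂)) hEA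
  have : (Xp⁻¹ + Xm⁻¹ - 2 * x₁⁻¹ - 2 * x₂⁻¹) / ζ ^ 2 = R * D⁻¹ := by
    have h1 : (Xp⁻¹ + Xm⁻¹ - 2 * x₁⁻¹ - 2 * x₂⁻¹) / ζ ^ 2 =
        ((Xp⁻¹ / ζ + Xm⁻¹ / ζ) - 2 * a₁ - 2 * a₂) / ζ := by
      rw [ha₁def, ha₂def]; field_simp
    rw [h1, hsumz, hσdef]
    field_simp
    rw [hDdef, hNdef, hRdef]
    ring
  rw [this]
  exact A.mul_mem _ _ hRA hDinv

/-- Algebraic core of the doubling case (general `b`-invariants, `2P ≠ 0`). -/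
lemma dbl_core {b₂ b₄ b₆ b₈ ζ x X : K} (hb₂ : b₂ ∈ A) (hb₄ : b₄ ∈ A) (hb₆ : b₆ ∈ A)
    (hb₈ : b₈ ∈ A) (hζ : ζ ∈ A.nonunits) (hζ0 : ζ ≠ 0) (hx : x ≠ 0) (ha : x⁻¹ / ζ ∈ A)
    (hden : 4 * x ^ 3 + b₂ * x ^ 2 + 2 * b₄ * x + b₆ ≠ 0)
    (hX : X * (4 * x ^ 3 + b₂ * x ^ 2 + 2 * b₄ * x + b₆) = x ^ 4 - b₄ * x ^ 2 - 2 * b₆ * x - b₈) :
    X ≠ 0 ∧ X⁻¹ / ζ ∈ A ∧ (X⁻¹ - 4 * x⁻¹) / ζ ^ 2 ∈ A := by
  set a := x⁻¹ / ζ with hadef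
  have hζA : ζ ∈ A := A.nonunits_subset hζ
  have h2A : (2 : K) ∈ A := Fermat.Agent.S05.H89.ofNat_mem A 2
  have h4A : (4 : K) ∈ A := Fermat.Agent.S05.H89.ofNat_mem A 4
  have e : x = (ζ * a)⁻¹ := by rw [hadef]; field_simp
  have ha0 : a ≠ 0 := by rw [hadef]; exact div_ne_zero (inv_ne_zero hx) hζ0
  set E := b₄ * ζ * a ^ 2 + 2 * b₆ * ζ ^ 2 * a ^ 3 + b₈ * ζ ^ 3 * a ^ 4 with hEdef
  have hEA : E ∈ A := by
    rw [hEdef]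
    refine A.add_mem _ _ (A.add_mem _ _ ?_ ?_) ?_
    · exact A.mul_mem _ _ (A.mul_mem _ _ hb₄ hζA) (pow_mem ha 2)
    · exact A.mul_mem _ _ (A.mul_mem _ _ (A.mul_mem _ _ h2A hb₆) (pow_mem hζA 2)) (pow_mem ha 3)
    · exact A.mul_mem _ _ (A.mul_mem _ _ hb₈ (pow_mem hζA 3)) (pow_mem ha 4)
  have hm : ζ * E ∈ A.nonunits := nonunits_mul_mem A hζ hEA
  have hD0 : 1 - ζ * E ≠ 0 := one_sub_ne_zero A hm
  have hDinv : (1 - ζ * E)⁻¹ ∈ A := inv_one_sub_mem A hm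
  set D := 1 - ζ * E with hDdef
  set U := 4 + b₂ * ζ * a + 2 * b₄ * ζ ^ 2 * a ^ 2 + b₆ * ζ ^ 3 * a ^ 3 with hUdef
  have hUA : U ∈ A := by
    rw [hUdef]
    refine A.add_mem _ _ (A.add_mem _ _ (A.add_mem _ _ h4A ?_) ?_) ?_
    · exact A.mul_mem _ _ (A.mul_mem _ _ hb₂ hζA) ha
    · exact A.mul_mem _ _ (A.mul_mem _ _ (A.mul_mem _ _ h2A hb₄) (pow_mem hζA 2)) (pow_mem ha 2)
    · exact A.mul_mem _ _ (A.mul_mem _ _ hb₆ (pow_mem hζA 3)) (pow_mem ha 3)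
  have hden' : 4 * x ^ 3 + b₂ * x ^ 2 + 2 * b₄ * x + b₆ = U / (ζ * a) ^ 3 := by
    rw [e, hUdef]; field_simp
  have hU0 : U ≠ 0 := by
    intro h
    apply hden
    rw [hden', h, zero_div]
  have hnum' : x ^ 4 - b₄ * x ^ 2 - 2 * b₆ * x - b₈ = D / (ζ * a) ^ 4 := by
    rw [e, hDdef, hEdef]; field_simp; ring
  have hXe : X = D / (ζ * a * U) := by
    have : X = (x ^ 4 - b₄ * x ^ 2 - 2 * b₆ * x - b₈) /
        (4 * x ^ 3 + b₂ * x ^ 2 + 2 * b₄ * x + b₆) := eq_div_of_mul_eq hden hX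
    rw [this, hden', hnum']
    field_simp
  have hX0 : X ≠ 0 := by rw [hXe]; positivity
  refine ⟨hX0, ?_, ?_⟩
  · have : X⁻¹ / ζ = a * U * D⁻¹ := by
      rw [hXe]; field_simp
    rw [this]
    exact A.mul_mem _ _ (A.mul_mem _ _ ha hUA) hDinv
  · set R := b₂ * a + 2 * b₄ * ζ * a ^ 2 + b₆ * ζ ^ 2 * a ^ 3 + 4 * E with hRdef
    have hRA : R ∈ A := by
      rw [hRdef]
      refine A.add_mem _ _ (A.add_mem _ _ (A.add_mem _ _ ?_ ?_) ?_) ?_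
      · exact A.mul_mem _ _ hb₂ ha
      · exact A.mul_mem _ _ (A.mul_mem _ _ (A.mul_mem _ _ h2A hb₄) hζA) (pow_mem ha 2)
      · exact A.mul_mem _ _ (A.mul_mem _ _ hb₆ (pow_mem hζA 2)) (pow_mem ha 3)
      · exact A.mul_mem _ _ h4A hEA
    have : (X⁻¹ - 4 * x⁻¹) / ζ ^ 2 = a * R * D⁻¹ := by
      rw [hXe, e]
      field_simp
      rw [hDdef, hUdef, hRdef]
      ring
    rw [this]
    exact A.mul_mem _ _ (A.mul_mem _ _ ha hRA) hDinv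

/-- The doubling case when `2P = 0` (possible inside the kernel of reduction in residue
characteristic `2`): then `4 / x ∈ ζ² A`. -/
lemma dbl_core_zero {b₂ b₄ b₆ ζ x : K} (hb₂ : b₂ ∈ A) (hb₄ : b₄ ∈ A) (hb₆ : b₆ ∈ A)
    (hζ : ζ ∈ A.nonunits) (hζ0 : ζ ≠ 0) (hx : x ≠ 0) (ha : x⁻¹ / ζ ∈ A)
    (hden : 4 * x ^ 3 + b₂ * x ^ 2 + 2 * b₄ * x + b₆ = 0) :
    (0 - 4 * x⁻¹) / ζ ^ 2 ∈ A := by
  set a := x⁻¹ / ζ with hadef
  have hζA : ζ ∈ A := A.nonunits_subset hζ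
  have h2A : (2 : K) ∈ A := Fermat.Agent.S05.H89.ofNat_mem A 2
  have e : x = (ζ * a)⁻¹ := by rw [hadef]; field_simp
  have ha0 : a ≠ 0 := by rw [hadef]; exact div_ne_zero (inv_ne_zero hx) hζ0
  have h4 : (4 : K) = -(b₂ * ζ * a + 2 * b₄ * ζ ^ 2 * a ^ 2 + b₆ * ζ ^ 3 * a ^ 3) := by
    rw [e] at hden
    field_simp at hden
    linear_combination hden
  have : (0 - 4 * x⁻¹) / ζ ^ 2 = a ^ 2 * (b₂ + 2 * b₄ * ζ * a + b₆ * ζ ^ 2 * a ^ 2) := by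
    rw [e, h4]
    field_simp
    ring
  rw [this]
  refine A.mul_mem _ _ (pow_mem ha 2) (A.add_mem _ _ (A.add_mem _ _ hb₂ ?_) ?_)
  · exact A.mul_mem _ _ (A.mul_mem _ _ (A.mul_mem _ _ h2A hb₄) hζA) ha
  · exact A.mul_mem _ _ (A.mul_mem _ _ hb₆ (pow_mem hζA 2)) (pow_mem ha 2)

end val

section points

variable (W : WeierstrassCurve K) (A : ValuationSubring K)

/-- inverse of the `x`-coordinate (`0` at infinity). -/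
noncomputable def xi (P : W.toAffine.Point) : K := (xCoord W P)⁻¹

/-- `P` is at level `ζ`: `P = O`, or `x ≠ 0` and `1/x ∈ ζ A`. -/
def Lev (ζ : K) (P : W.toAffine.Point) : Prop :=
  P = 0 ∨ (xCoord W P ≠ 0 ∧ (xCoord W P)⁻¹ / ζ ∈ A)

@[simp] lemma xi_zero : xi W (0 : W.toAffine.Point) = 0 := by simp [xi]

lemma xi_neg (P : W.toAffine.Point) : xi W (-P) = xi W P := by simp [xi]

@[simp] lemma lev_zero (ζ : K) : Lev W A ζ (0 : W.toAffine.Point) := Or.inl rfl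

lemma lev_neg {ζ : K} {P : W.toAffine.Point} (h : Lev W A ζ P) : Lev W A ζ (-P) := by
  rcases h with h | h
  · exact Or.inl (by rw [h]; exact WeierstrassCurve.Affine.Point.neg_zero)
  · right; rwa [xCoord_neg]

variable [DecidableEq K]

/-- doubling on the level-`ζ` part. -/
theorem lev_dbl {ζ : K} (hb₂ : W.b₂ ∈ A) (hb₄ : W.b₄ ∈ A) (hb₆ : W.b₆ ∈ A) (hb₈ : W.b₈ ∈ A)
    (hζ : ζ ∈ A.nonunits) (hζ0 : ζ ≠ 0) {P : W.toAffine.Point} (hP : Lev W A ζ P) :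
    Lev W A ζ (P + P) ∧ (xi W (P + P) - 4 * xi W P) / ζ ^ 2 ∈ A := by
  rcases hP with hP | ⟨hx, ha⟩
  · subst hP
    rw [add_zero, xi_zero]
    refine ⟨lev_zero W A ζ, ?_⟩
    have : ((0 : K) - 4 * 0) / ζ ^ 2 = 0 := by ring
    rw [this]; exact A.zero_mem
  · have hP0 : P ≠ 0 := by
      rintro rfl; exact hx rfl
    by_cases h2 : 2 • P = 0
    · have hden := (two_nsmul_eq_zero_iff W hP0).mp h2
      rw [two_nsmul] at h2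
      rw [h2, xi_zero]
      refine ⟨lev_zero W A ζ, ?_⟩
      simp only [dblDen] at hden
      exact dbl_core_zero A hb₂ hb₄ hb₆ hζ hζ0 hx ha hden
    · have hden : dblDen W (xCoord W P) ≠ 0 := fun h => h2 ((two_nsmul_eq_zero_iff W hP0).mpr h)
      have hX := xCoord_two_nsmul W hP0 h2
      rw [two_nsmul] at hX h2
      simp only [dblDen, dblNum] at hden hX
      obtain ⟨c1, c2, c3⟩ := dbl_core A hb₂ hb₄ hb₆ hb₈ hζ hζ0 hx ha hden hX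
      exact ⟨Or.inr ⟨c1, c2⟩, c3⟩

/-- The quasi-parallelogram law on the level-`ζ` part of the kernel of reduction. -/
theorem lev_add_sub {ζ : K} (hb₂ : W.b₂ ∈ A) (hb₄ : W.b₄ ∈ A) (hb₆ : W.b₆ ∈ A) (hb₈ : W.b₈ ∈ A)
    (hζ : ζ ∈ A.nonunits) (hζ0 : ζ ≠ 0) {P₁ P₂ : W.toAffine.Point} (hP₁ : Lev W A ζ P₁)
    (hP₂ : Lev W A ζ P₂) :
    Lev W A ζ (P₁ + P₂) ∧ Lev W A ζ (P₁ - P₂) ∧
      (xi W (P₁ + P₂) + xi W (P₁ - P₂) - 2 * xi W P₁ - 2 * xi W P₂) / ζ ^ 2 ∈ A := by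
  by_cases h₁ : P₁ = 0
  · subst h₁
    rw [zero_add, zero_sub, xi_neg, xi_zero]
    refine ⟨hP₂, lev_neg W A hP₂, ?_⟩
    have : (xi W P₂ + xi W P₂ - 2 * 0 - 2 * xi W P₂) / ζ ^ 2 = 0 := by ring
    rw [this]; exact A.zero_mem
  by_cases h₂ : P₂ = 0
  · subst h₂
    rw [add_zero, sub_zero, xi_zero]
    refine ⟨hP₁, hP₁, ?_⟩
    have : (xi W P₁ + xi W P₁ - 2 * xi W P₁ - 2 * 0) / ζ ^ 2 = 0 := by ring
    rw [this]; exact A.zero_mem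
  have hl₁ := hP₁
  have hl₂ := hP₂
  rcases hP₁ with hP₁ | ⟨hx₁, ha₁⟩
  · exact absurd hP₁ h₁
  rcases hP₂ with hP₂ | ⟨hx₂, ha₂⟩
  · exact absurd hP₂ h₂
  by_cases hx : xCoord W P₁ = xCoord W P₂
  · obtain ⟨d1, d2⟩ := lev_dbl W A hb₂ hb₄ hb₆ hb₈ hζ hζ0 hl₁
    rcases (xCoord_eq_iff W h₁ h₂).mp hx with hPP | hPP
    · rw [← hPP, sub_self, xi_zero]
      refine ⟨d1, lev_zero W A ζ, ?_⟩
      have : (xi W (P₁ + P₁) + 0 - 2 * xi W P₁ - 2 * xi W P₁) / ζ ^ 2 =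
          (xi W (P₁ + P₁) - 4 * xi W P₁) / ζ ^ 2 := by ring
      rw [this]; exact d2
    · have hPP' : P₂ = -P₁ := by rw [hPP, neg_neg]
      rw [hPP', add_neg_cancel, sub_neg_eq_add, xi_zero, xi_neg]
      refine ⟨lev_zero W A ζ, d1, ?_⟩
      have : (0 + xi W (P₁ + P₁) - 2 * xi W P₁ - 2 * xi W P₁) / ζ ^ 2 =
          (xi W (P₁ + P₁) - 4 * xi W P₁) / ζ ^ 2 := by ring
      rw [this]; exact d2
  · have hp := xCoord_add_mul_xCoord_sub W h₁ h₂ hx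
    have hs := xCoord_add_add_xCoord_sub W h₁ h₂ hx
    simp only [prodNum, sumNum] at hp hs
    obtain ⟨c1, c2, c3, c4, c5⟩ :=
      generic_core A hb₂ hb₄ hb₆ hb₈ hζ hζ0 hx₁ hx₂ ha₁ ha₂ hx hp hs
    exact ⟨Or.inr ⟨c1, c3⟩, Or.inr ⟨c2, c4⟩, c5⟩

/-- multiples of a point of level `ζ` with `1/x = ζ`: `ξ(nT) ≡ n² ζ mod ζ² A`. -/
theorem lev_nsmul {ζ : K} (hb₂ : W.b₂ ∈ A) (hb₄ : W.b₄ ∈ A) (hb₆ : W.b₆ ∈ A) (hb₈ : W.b₈ ∈ A)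
    (hζ : ζ ∈ A.nonunits) (hζ0 : ζ ≠ 0) {T : W.toAffine.Point} (hT : Lev W A ζ T)
    (hTx : xi W T = ζ) (n : ℕ) :
    Lev W A ζ (n • T) ∧ (xi W (n • T) - (n : K) ^ 2 * ζ) / ζ ^ 2 ∈ A := by
  suffices H : ∀ n : ℕ, (Lev W A ζ (n • T) ∧ (xi W (n • T) - (n : K) ^ 2 * ζ) / ζ ^ 2 ∈ A) ∧
      (Lev W A ζ ((n + 1) • T) ∧
        (xi W ((n + 1) • T) - ((n + 1 : ℕ) : K) ^ 2 * ζ) / ζ ^ 2 ∈ A) from (H n).1
  intro n
  induction n with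
  | zero =>
    refine ⟨⟨by simp, ?_⟩, ⟨by simpa using hT, ?_⟩⟩
    · have : (xi W ((0 : ℕ) • T) - ((0 : ℕ) : K) ^ 2 * ζ) / ζ ^ 2 = 0 := by simp
      rw [this]; exact A.zero_mem
    · have : (xi W ((0 + 1) • T) - ((0 + 1 : ℕ) : K) ^ 2 * ζ) / ζ ^ 2 = 0 := by
        simp [hTx]
      rw [this]; exact A.zero_mem
  | succ n ih =>
    obtain ⟨⟨l0, c0⟩, ⟨l1, c1⟩⟩ := ih
    refine ⟨⟨l1, c1⟩, ?_⟩
    obtain ⟨la, ls, cc⟩ := lev_add_sub W A hb₂ hb₄ hb₆ hb₈ hζ hζ0 l1 hT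
    have e1 : (n + 1) • T + T = (n + 1 + 1) • T := (succ_nsmul T (n + 1)).symm
    have e2 : (n + 1) • T - T = n • T := by
      rw [succ_nsmul T n]; abel
    rw [e1, e2, hTx] at cc
    rw [e1] at la
    refine ⟨la, ?_⟩
    have : (xi W ((n + 1 + 1) • T) - ((n + 1 + 1 : ℕ) : K) ^ 2 * ζ) / ζ ^ 2 =
        (xi W ((n + 1 + 1) • T) + xi W (n • T) - 2 * xi W ((n + 1) • T) - 2 * ζ) / ζ ^ 2
        - (xi W (n • T) - (n : K) ^ 2 * ζ) / ζ ^ 2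
        + 2 * ((xi W ((n + 1) • T) - ((n + 1 : ℕ) : K) ^ 2 * ζ) / ζ ^ 2) := by
      push_cast
      field_simp
      ring
    rw [this]
    exact A.add_mem _ _ (A.sub_mem cc c0) (A.mul_mem _ _ (Fermat.Agent.S05.H89.ofNat_mem A 2) c1)

/-- **General F1**: the kernel of reduction `{x ∉ A}` of a Weierstrass curve with `b`-invariants
in the valuation ring `A` (any residue characteristic) contains no nonzero point killed by an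
integer `n` which is a unit of `A`. -/
theorem xCoord_mem_of_nsmul_eq_zero (hb₂ : W.b₂ ∈ A) (hb₄ : W.b₄ ∈ A) (hb₆ : W.b₆ ∈ A)
    (hb₈ : W.b₈ ∈ A) {n : ℕ} (hn : (n : K)⁻¹ ∈ A) (hn0 : (n : K) ≠ 0)
    {T : W.toAffine.Point} (hT : n • T = 0) : xCoord W T ∈ A := by
  by_contra hxA
  set x := xCoord W T with hxdef
  have hx0 : x ≠ 0 := by
    intro h0; apply hxA; rw [h0]; exact A.zero_mem
  have hζ : x⁻¹ ∈ A.nonunits := by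
    rw [ValuationSubring.inv_mem_nonunits_iff]; exact Or.inr hxA
  have hζ0 : x⁻¹ ≠ 0 := inv_ne_zero hx0
  have hlev : Lev W A x⁻¹ T := by
    refine Or.inr ⟨hx0, ?_⟩
    rw [← hxdef, div_self hζ0]; exact A.one_mem
  obtain ⟨-, c⟩ := lev_nsmul W A hb₂ hb₄ hb₆ hb₈ hζ hζ0 hlev rfl n
  rw [hT, xi_zero] at c
  have h1 : (n : K) ^ 2 = x⁻¹ * (-((0 - (n : K) ^ 2 * x⁻¹) / x⁻¹ ^ 2)) := by
    field_simp
    ring
  have h3 : (n : K) ^ 2 ∈ A.nonunits := by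
    rw [h1]; exact nonunits_mul_mem A hζ (A.neg_mem _ c)
  have h4 : (1 : K) ∈ A.nonunits := by
    have : (1 : K) = (n : K) ^ 2 * ((n : K)⁻¹) ^ 2 := by field_simp
    rw [this]; exact nonunits_mul_mem A h3 (pow_mem hn 2)
  rw [ValuationSubring.mem_nonunits_iff_or] at h4
  rcases h4 with h0 | h0
  · exact one_ne_zero h0
  · exact h0 (by simp [A.one_mem])

/-- The kernel of reduction: `O` together with the points whose `x`-coordinate is not in `A`. -/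
def InKer (P : W.toAffine.Point) : Prop := P = 0 ∨ xCoord W P ∉ A

omit [DecidableEq K] in
@[simp] lemma inKer_zero : InKer W A (0 : W.toAffine.Point) := Or.inl rfl

omit [DecidableEq K] in
lemma inKer_iff_of_ne_zero {P : W.toAffine.Point} (hP : P ≠ 0) :
    InKer W A P ↔ xCoord W P ∉ A := by
  unfold InKer
  constructor
  · rintro (h | h)
    · exact absurd h hP
    · exact h
  · exact Or.inr

omit [DecidableEq K] in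
lemma inKer_neg {P : W.toAffine.Point} (h : InKer W A P) : InKer W A (-P) := by
  rcases h with h | h
  · exact Or.inl (by rw [h]; exact WeierstrassCurve.Affine.Point.neg_zero)
  · right; rwa [xCoord_neg]

omit [DecidableEq K] in
lemma inKer_of_lev {ζ : K} (hζ : ζ ∈ A.nonunits) (hζ0 : ζ ≠ 0)
    {P : W.toAffine.Point} (hP : Lev W A ζ P) : InKer W A P := by
  rcases hP with hP | ⟨hx, ha⟩
  · exact Or.inl hP
  · right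
    intro hxA
    have h1 : (xCoord W P)⁻¹ ∈ A.nonunits := by
      have : (xCoord W P)⁻¹ = ζ * ((xCoord W P)⁻¹ / ζ) := by field_simp
      rw [this]; exact nonunits_mul_mem A hζ ha
    rw [ValuationSubring.inv_mem_nonunits_iff] at h1
    rcases h1 with h0 | h0
    · exact hx h0
    · exact h0 hxA

omit [DecidableEq K] in
/-- a nonzero point of the kernel of reduction has level `1/x`. -/
lemma lev_inv_of_inKer {P : W.toAffine.Point} (hP : InKer W A P) (hP0 : P ≠ 0) :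
    xCoord W P ≠ 0 ∧ (xCoord W P)⁻¹ ∈ A.nonunits ∧ (xCoord W P)⁻¹ ≠ 0 ∧
      Lev W A (xCoord W P)⁻¹ P := by
  have hx : xCoord W P ∉ A := (inKer_iff_of_ne_zero W A hP0).mp hP
  have hx0 : xCoord W P ≠ 0 := by
    intro h0; apply hx; rw [h0]; exact A.zero_mem
  have hi0 : (xCoord W P)⁻¹ ≠ 0 := inv_ne_zero hx0
  refine ⟨hx0, ?_, hi0, Or.inr ⟨hx0, ?_⟩⟩
  · rw [ValuationSubring.inv_mem_nonunits_iff]; exact Or.inr hx
  · rw [div_self hi0]; exact A.one_mem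

omit [DecidableEq K] in
/-- two points of the kernel of reduction have a common level. -/
lemma exists_common_lev {P₁ P₂ : W.toAffine.Point} (h₁ : InKer W A P₁)
    (h₂ : InKer W A P₂) (hne : P₁ ≠ 0 ∨ P₂ ≠ 0) :
    ∃ ζ : K, ζ ∈ A.nonunits ∧ ζ ≠ 0 ∧ Lev W A ζ P₁ ∧ Lev W A ζ P₂ := by
  by_cases e₁ : P₁ = 0
  · have e₂ : P₂ ≠ 0 := hne.resolve_left (not_not.mpr e₁)
    obtain ⟨-, b, c, d⟩ := lev_inv_of_inKer W A h₂ e₂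
    exact ⟨_, b, c, Or.inl e₁, d⟩
  by_cases e₂ : P₂ = 0
  · obtain ⟨-, b, c, d⟩ := lev_inv_of_inKer W A h₁ e₁
    exact ⟨_, b, c, d, Or.inl e₂⟩
  obtain ⟨a₁, b₁, c₁, d₁⟩ := lev_inv_of_inKer W A h₁ e₁
  obtain ⟨a₂, b₂, c₂, d₂⟩ := lev_inv_of_inKer W A h₂ e₂
  rcases A.mem_or_inv_mem ((xCoord W P₁)⁻¹ / (xCoord W P₂)⁻¹) with hm | hm
  · exact ⟨_, b₂, c₂, Or.inr ⟨a₁, hm⟩, d₂⟩
  · refine ⟨_, b₁, c₁, d₁, Or.inr ⟨a₂, ?_⟩⟩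
    rwa [inv_div] at hm

/-- the kernel of reduction is closed under addition. -/
theorem inKer_add (hb₂ : W.b₂ ∈ A) (hb₄ : W.b₄ ∈ A) (hb₆ : W.b₆ ∈ A) (hb₈ : W.b₈ ∈ A)
    {P₁ P₂ : W.toAffine.Point} (h₁ : InKer W A P₁) (h₂ : InKer W A P₂) :
    InKer W A (P₁ + P₂) := by
  by_cases hne : P₁ ≠ 0 ∨ P₂ ≠ 0
  · obtain ⟨ζ, hζ, hζ0, l₁, l₂⟩ := exists_common_lev W A h₁ h₂ hne
    exact inKer_of_lev W A hζ hζ0 (lev_add_sub W A hb₂ hb₄ hb₆ hb₈ hζ hζ0 l₁ l₂).1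
  · push Not at hne
    rw [hne.1, hne.2, add_zero]; exact inKer_zero W A

/-- the kernel of reduction is closed under subtraction. -/
theorem inKer_sub (hb₂ : W.b₂ ∈ A) (hb₄ : W.b₄ ∈ A) (hb₆ : W.b₆ ∈ A) (hb₈ : W.b₈ ∈ A)
    {P₁ P₂ : W.toAffine.Point} (h₁ : InKer W A P₁) (h₂ : InKer W A P₂) :
    InKer W A (P₁ - P₂) := by
  rw [sub_eq_add_neg]; exact inKer_add W A hb₂ hb₄ hb₆ hb₈ h₁ (inKer_neg W A h₂)

/-- the kernel of reduction is closed under natural multiples. -/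
theorem inKer_nsmul (hb₂ : W.b₂ ∈ A) (hb₄ : W.b₄ ∈ A) (hb₆ : W.b₆ ∈ A) (hb₈ : W.b₈ ∈ A)
    {P : W.toAffine.Point} (h : InKer W A P) (n : ℕ) : InKer W A (n • P) := by
  induction n with
  | zero => rw [zero_nsmul]; exact inKer_zero W A
  | succ n ih => rw [succ_nsmul]; exact inKer_add W A hb₂ hb₄ hb₆ hb₈ ih h

/-- **General F1**, second form: a point of the kernel of reduction killed by an integer `n`
which is a unit of `A` is zero. -/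
theorem eq_zero_of_inKer_of_nsmul_eq_zero (hb₂ : W.b₂ ∈ A) (hb₄ : W.b₄ ∈ A) (hb₆ : W.b₆ ∈ A)
    (hb₈ : W.b₈ ∈ A) {n : ℕ} (hn : (n : K)⁻¹ ∈ A) (hn0 : (n : K) ≠ 0)
    {T : W.toAffine.Point} (hT : InKer W A T) (hnT : n • T = 0) : T = 0 := by
  by_contra h0
  exact (inKer_iff_of_ne_zero W A h0).mp hT
    (xCoord_mem_of_nsmul_eq_zero W A hb₂ hb₄ hb₆ hb₈ hn hn0 hnT)

/-- **General F1**, injectivity form: two `n`-torsion points (`n` a unit of `A`) which are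
congruent modulo the kernel of reduction are equal. -/
theorem eq_of_inKer_sub_of_nsmul_eq_zero (hb₂ : W.b₂ ∈ A) (hb₄ : W.b₄ ∈ A) (hb₆ : W.b₆ ∈ A)
    (hb₈ : W.b₈ ∈ A) {n : ℕ} (hn : (n : K)⁻¹ ∈ A) (hn0 : (n : K) ≠ 0)
    {S T : W.toAffine.Point} (hS : n • S = 0) (hT : n • T = 0) (hST : InKer W A (S - T)) :
    S = T := by
  have h : n • (S - T) = 0 := by rw [nsmul_sub, hS, hT, sub_zero]
  exact sub_eq_zero.mp
    (eq_zero_of_inKer_of_nsmul_eq_zero W A hb₂ hb₄ hb₆ hb₈ hn hn0 hST h)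

omit [DecidableEq K] in
/-- integrality of the `a`-invariants gives integrality of the `b`-invariants. -/
lemma b_mem_of_a_mem (h₁ : W.a₁ ∈ A) (h₂ : W.a₂ ∈ A) (h₃ : W.a₃ ∈ A) (h₄ : W.a₄ ∈ A)
    (h₆ : W.a₆ ∈ A) : W.b₂ ∈ A ∧ W.b₄ ∈ A ∧ W.b₆ ∈ A ∧ W.b₈ ∈ A := by
  have h2A : (2 : K) ∈ A := Fermat.Agent.S05.H89.ofNat_mem A 2
  have h4A : (4 : K) ∈ A := Fermat.Agent.S05.H89.ofNat_mem A 4
  refine ⟨?_, ?_, ?_, ?_⟩
  · simp only [WeierstrassCurve.b₂]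
    exact A.add_mem _ _ (pow_mem h₁ 2) (A.mul_mem _ _ h4A h₂)
  · simp only [WeierstrassCurve.b₄]
    exact A.add_mem _ _ (A.mul_mem _ _ h2A h₄) (A.mul_mem _ _ h₁ h₃)
  · simp only [WeierstrassCurve.b₆]
    exact A.add_mem _ _ (pow_mem h₃ 2) (A.mul_mem _ _ h4A h₆)
  · simp only [WeierstrassCurve.b₈]
    refine A.sub_mem (A.add_mem _ _ (A.sub_mem (A.add_mem _ _ ?_ ?_) ?_) ?_) ?_
    · exact A.mul_mem _ _ (pow_mem h₁ 2) h₆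
    · exact A.mul_mem _ _ (A.mul_mem _ _ h4A h₂) h₆
    · exact A.mul_mem _ _ (A.mul_mem _ _ h₁ h₃) h₄
    · exact A.mul_mem _ _ h₂ (pow_mem h₃ 2)
    · exact pow_mem h₄ 2

end points

end Fermat.Agent.S13.H89
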