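import Mathlib
import Fermat.Agent.S05.H60_F2
import Fermat.Agent.S05.H67_XF
import Fermat.Agent.S13.H11_MS2

/-!
# The delta-law for node models `a₃ = a₆ = 0`, `v b₂ = 1` (project S13, package RATPT)

For a torsion point `T` of odd prime order `2k+1` strictly inside the node region
`v a₄ < v x(T) < 1` we get `v x(T) ^ (2k+1) = v a₄ ^ (2j)` for some integer `j`.
No hypothesis on `v 2`.
-/

set_option autoImplicit false

namespace Fermat.Agent.S13.H11

open WeierstrassCurve WeierstrassCurve.Affine Fermat.Agent.S05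

/-- node model: `a₃ = a₆ = 0` -/
structure IsNodeForm {F : Type*} [CommRing F] (W : WeierstrassCurve F) : Prop where
  a₃ : W.a₃ = 0
  a₆ : W.a₆ = 0

namespace IsNodeForm

variable {F : Type*} [Field F] {W : WeierstrassCurve F} (hW : IsNodeForm W)
include hW

lemma b₄_eq : W.b₄ = 2 * W.a₄ := by simp [WeierstrassCurve.b₄, hW.a₃]
lemma b₆_eq : W.b₆ = 0 := by simp [WeierstrassCurve.b₆, hW.a₃, hW.a₆]
lemma b₈_eq : W.b₈ = -W.a₄ ^ 2 := by simp [WeierstrassCurve.b₈, hW.a₃, hW.a₆]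

lemma prodNum_eq (x₁ x₂ : F) : H67.prodNum W x₁ x₂ = (x₁ * x₂ - W.a₄) ^ 2 := by
  simp only [H67.prodNum, hW.b₄_eq, hW.b₆_eq, hW.b₈_eq]; ring

lemma sumNum_eq (x₁ x₂ : F) :
    H67.sumNum W x₁ x₂ = 2 * ((x₁ + x₂) * (x₁ * x₂ + W.a₄)) + W.b₂ * (x₁ * x₂) := by
  simp only [H67.sumNum, hW.b₄_eq, hW.b₆_eq]; ring

lemma dblNum_eq (x : F) : H67.dblNum W x = (x ^ 2 - W.a₄) ^ 2 := by
  simp only [H67.dblNum, hW.b₄_eq, hW.b₆_eq, hW.b₈_eq]; ring

lemma dblDen_eq (x : F) : H67.dblDen W x = 4 * x ^ 3 + W.b₂ * x ^ 2 + 4 * W.a₄ * x := by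
  simp only [H67.dblDen, hW.b₄_eq, hW.b₆_eq]; ring

end IsNodeForm

section Node

variable {K : Type*} [Field K] [DecidableEq K] {G : Type*} [LinearOrderedCommGroupWithZero G]
  (v : Valuation K G)

lemma nsmul_ne_zero_of_prime' {A : Type*} [AddGroup A] {T : A} {p : ℕ} (hp : p.Prime)
    (hT0 : T ≠ 0) (hpT : p • T = 0) {n : ℕ} (hn0 : 0 < n) (hnp : n < p) : n • T ≠ 0 := by
  intro h
  have h1 : addOrderOf T ∣ p := addOrderOf_dvd_of_nsmul_eq_zero hpT
  have h2 : addOrderOf T ∣ n := addOrderOf_dvd_of_nsmul_eq_zero h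
  rcases (Nat.dvd_prime hp).mp h1 with h3 | h3
  · exact hT0 (AddMonoid.addOrderOf_eq_one_iff.mp h3)
  · rw [h3] at h2
    exact absurd (Nat.le_of_dvd hn0 h2) (not_le.mpr hnp)

open scoped Classical in
/-- the truncated valuations of the abscissae of the multiples of `T` (value `1` at `O`) -/
noncomputable def deltaFn2 (W : WeierstrassCurve K) (T : W.toAffine.Point) (n : ℕ) : G :=
  if n • T = 0 then 1 else H73.trunc v W.a₄ (H67.xCoord W (n • T))

variable {W : WeierstrassCurve K}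

lemma deltaFn2_of_eq_zero {T : W.toAffine.Point} {n : ℕ}
    (h : n • T = 0) : deltaFn2 v W T n = 1 := by
  unfold deltaFn2; exact if_pos h

lemma deltaFn2_of_ne_zero {T : W.toAffine.Point} {n : ℕ}
    (h : n • T ≠ 0) :
    deltaFn2 v W T n = H73.trunc v W.a₄ (H67.xCoord W (n • T)) := by
  unfold deltaFn2; exact if_neg h

lemma deltaFn2_zero (T : W.toAffine.Point) : deltaFn2 v W T 0 = 1 :=
  deltaFn2_of_eq_zero v (zero_nsmul T)

lemma deltaFn2_one {x y : K} (h : W.toAffine.Nonsingular x y)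
    (hsx : v W.a₄ < v x) (hx1 : v x < 1) : deltaFn2 v W (Point.some x y h) 1 = v x := by
  rw [deltaFn2_of_ne_zero v (by rw [one_nsmul]; exact Point.some_ne_zero h), one_nsmul,
    H67.xCoord_some]
  exact H73.trunc_eq_of_mem v rfl hsx.le hx1.le

lemma deltaFn2_half (T : W.toAffine.Point) {k : ℕ}
    (hT : (2 * k + 1) • T = 0) : deltaFn2 v W T k = deltaFn2 v W T (k + 1) := by
  have hneg : (k + 1) • T = -(k • T) := by
    have h1 : k • T + (k + 1) • T = 0 := by
      rw [← add_nsmul, show k + (k + 1) = 2 * k + 1 by ring]; exact hT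
    exact (neg_eq_of_add_eq_zero_right h1).symm
  by_cases h0 : k • T = 0
  · rw [deltaFn2_of_eq_zero v h0, deltaFn2_of_eq_zero v (by rw [hneg, h0, neg_zero])]
  · rw [deltaFn2_of_ne_zero v h0, deltaFn2_of_ne_zero v (by rw [hneg]; exact neg_ne_zero.mpr h0),
      hneg, H67.xCoord_neg]

/-- the multiset law for the multiples of a torsion point `T` of odd prime order `2k+1` lying
strictly inside the node region. -/
theorem deltaFn2_law (hW : IsNodeForm W) (hb : v W.b₂ = 1) (hs0 : W.a₄ ≠ 0)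
    {k : ℕ} (hp : (2 * k + 1).Prime) {x y : K}
    (h : W.toAffine.Nonsingular x y)
    (T : W.toAffine.Point) (hTeq : T = Point.some x y h)
    (hT : (2 * k + 1) • T = 0) (hsx : v W.a₄ < v x) (hx1 : v x < 1)
    (n : ℕ) (hn1 : 1 ≤ n) (hnk : n ≤ k) :
    (deltaFn2 v W T (n + 1) =
        max (deltaFn2 v W T n * v x) (v W.a₄ ^ 2 / (deltaFn2 v W T n * v x)) ∧
      deltaFn2 v W T (n - 1) = min (deltaFn2 v W T n / v x) (v x / deltaFn2 v W T n)) ∨
    (deltaFn2 v W T (n + 1) = min (deltaFn2 v W T n / v x) (v x / deltaFn2 v W T n) ∧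
      deltaFn2 v W T (n - 1) =
        max (deltaFn2 v W T n * v x) (v W.a₄ ^ 2 / (deltaFn2 v W T n * v x))) := by
  have hT0 : T ≠ 0 := by rw [hTeq]; exact Point.some_ne_zero h
  have hne : ∀ m : ℕ, 0 < m → m < 2 * k + 1 → m • T ≠ 0 := fun m hm0 hm =>
    nsmul_ne_zero_of_prime' hp hT0 hT hm0 hm
  have hvx0 : v x ≠ 0 := by
    intro h0; rw [h0] at hsx; exact not_lt_zero hsx
  have hxT : H67.xCoord W T = x := by rw [hTeq]; rfl
  rcases Nat.lt_or_ge n 2 with hlt | hge
  · -- `n = 1`: the doubling formula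
    obtain rfl : n = 1 := by omega
    left
    have h2T : 2 • T ≠ 0 := hne 2 (by norm_num) (by omega)
    have hden0 : H67.dblDen W x ≠ 0 := by
      intro h0
      apply h2T
      rw [H67.two_nsmul_eq_zero_iff W hT0, hxT]
      exact h0
    have hdbl := H67.xCoord_two_nsmul W hT0 h2T
    rw [hxT] at hdbl
    have hX : H67.xCoord W (2 • T) =
        (x ^ 2 - W.a₄) ^ 2 / (4 * x ^ 3 + W.b₂ * x ^ 2 + 4 * W.a₄ * x) := by
      rw [← hW.dblNum_eq, ← hW.dblDen_eq, eq_div_iff hden0]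
      exact hdbl
    have hd1 : deltaFn2 v W T 1 = v x := by rw [hTeq]; exact deltaFn2_one v h hsx hx1
    have hd2 : deltaFn2 v W T (1 + 1) = H73.trunc v W.a₄ (H67.xCoord W (2 • T)) :=
      deltaFn2_of_ne_zero v h2T
    refine ⟨?_, ?_⟩
    · rw [hd2, hd1]
      exact ms_double2 v hb hs0 hsx hx1 hX
    · rw [hd1, show 1 - 1 = 0 from rfl, deltaFn2_zero, div_self hvx0, min_self]
  · -- `n ≥ 2`: the addition formulas for `n • T` and `T`
    have hP : n • T ≠ 0 := hne n (by omega) (by omega)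
    have hPp : (n + 1) • T ≠ 0 := hne (n + 1) (by omega) (by omega)
    have hPm : (n - 1) • T ≠ 0 := hne (n - 1) (by omega) (by omega)
    have hadd : n • T + T = (n + 1) • T := (succ_nsmul T n).symm
    have hsub : n • T - T = (n - 1) • T := by
      rw [sub_eq_iff_eq_add, ← succ_nsmul, show n - 1 + 1 = n by omega]
    have hx12 : H67.xCoord W (n • T) ≠ H67.xCoord W T := by
      intro e
      rcases (H67.xCoord_eq_iff W hP hT0).mp e with e1 | e1
      · apply hPm
        rw [← hsub, e1, sub_self]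
      · apply hPp
        rw [← hadd, e1, neg_add_cancel]
    have hprod := H67.xCoord_add_mul_xCoord_sub W hP hT0 hx12
    have hsum := H67.xCoord_add_add_xCoord_sub W hP hT0 hx12
    rw [hadd, hsub, hW.prodNum_eq] at hprod
    rw [hadd, hsub, hW.sumNum_eq] at hsum
    rw [hxT] at hprod hsum
    have hx12' : H67.xCoord W (n • T) ≠ x := by rw [← hxT]; exact hx12
    have hden : (H67.xCoord W (n • T) - x) ^ 2 ≠ 0 :=
      pow_ne_zero 2 (sub_ne_zero.mpr hx12')
    have key := ms_pair2 v hb hs0 hx12' hsx hx1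
      (X := H67.xCoord W ((n + 1) • T))
      (Y := H67.xCoord W ((n - 1) • T))
      (by rw [eq_div_iff hden]; exact hprod)
      (by rw [eq_div_iff hden]; exact hsum)
    rw [deltaFn2_of_ne_zero v hP, deltaFn2_of_ne_zero v hPp, deltaFn2_of_ne_zero v hPm]
    exact key.imp id And.symm

/-- In the node region the abscissa `x` of a torsion point of odd prime order `2k+1` satisfies
`v x ^ (2k+1) = v a₄ ^ (2j)`. -/
theorem exists_zpow_eq_of_node (hW : IsNodeForm W) (hb : v W.b₂ = 1) (hs0 : W.a₄ ≠ 0)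
    {k : ℕ} (hp : (2 * k + 1).Prime) {x y : K}
    (h : W.toAffine.Nonsingular x y)
    (hT : (2 * k + 1) • Point.some x y h = 0) (hsx : v W.a₄ < v x) (hx1 : v x < 1) :
    ∃ j : ℤ, v x ^ (2 * k + 1) = v W.a₄ ^ (2 * j) := by
  have hS0 : 0 < v W.a₄ := zero_lt_iff.mpr ((map_ne_zero v).mpr hs0)
  exact H60.exists_zpow_eq_pow_of_law (v W.a₄) (v x) hS0 hsx hx1
    (deltaFn2 v W (Point.some x y h)) k (deltaFn2_zero v _) (deltaFn2_one v h hsx hx1)
    (deltaFn2_half v _ hT)
    (fun n hn1 hnk => deltaFn2_law v hW hb hs0 hp h _ rfl hT hsx hx1 n hn1 hnk)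

end Node

end Fermat.Agent.S13.H11
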