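import Mathlib
import Fermat.Prelude.Def_FLTPrelim_FreyPackage
import Fermat.Agent.S13.H11_Delta

/-!
# No rational point of order `p` on the Frey curve (project S13, package RATPT)

General part: a node model `a₃ = a₆ = 0`, `v b₂ = 1`, `v a₄ < 1` over a valued field whose residue
field has two elements (`hres`), with no `p`-torsion in the kernel of reduction (`hF1`), has no
point of prime order `p ≥ 5` unless `v x ^ p = v a₄ ^ (2 j)` for an abscissa strictly inside the
node region.  Frey part: for `v = Rat.padicValuation 2` this is impossible because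
`v a₄ = exp (-(p e - 4))`.
-/

set_option autoImplicit false

namespace Fermat.Agent.S13.H11

open WeierstrassCurve WeierstrassCurve.Affine Fermat.Agent.S05

section General

variable {K : Type*} [Field K] [DecidableEq K] {G : Type*} [LinearOrderedCommGroupWithZero G]

/-- the hypotheses of the local argument -/
structure NodeData (v : Valuation K G) (W : WeierstrassCurve K) (p : ℕ) : Prop where
  node : IsNodeForm W
  hb : v W.b₂ = 1
  ha0 : W.a₄ ≠ 0
  ha1 : v W.a₄ < 1
  hp : p.Prime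
  hp5 : 5 ≤ p
  hF1 : ∀ Q : W.toAffine.Point, Q ≠ 0 → p • Q = 0 → v (H67.xCoord W Q) ≤ 1
  hres : ∀ u w : K, v u = 1 → v w = 1 → v (u - w) < 1

variable {v : Valuation K G} {W : WeierstrassCurve K} {p : ℕ}

omit [DecidableEq K] in
lemma val_four_le_one (v : Valuation K G) : v (4 : K) ≤ 1 := by
  rw [show (4 : K) = 2 * 2 by norm_num]
  exact (val_two_mul_le v 2).trans (val_two_le_one' v)

/-- a torsion point of order `p` with unit abscissa is impossible -/
theorem unit_false (D : NodeData v W p) {T : W.toAffine.Point} (hT0 : T ≠ 0) (hT : p • T = 0)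
    (hx : v (H67.xCoord W T) = 1) : False := by
  have hne : ∀ m : ℕ, 0 < m → m < p → m • T ≠ 0 := fun m hm0 hm =>
    nsmul_ne_zero_of_prime' D.hp hT0 hT hm0 hm
  have hp5 := D.hp5
  have h2T : 2 • T ≠ 0 := hne 2 (by norm_num) (by omega)
  have h3T : 3 • T ≠ 0 := hne 3 (by norm_num) (by omega)
  set x := H67.xCoord W T with hxdef
  set x₂ := H67.xCoord W (2 • T) with hx2def
  have ha0' : 0 < v W.a₄ := zero_lt_iff.mpr ((map_ne_zero v).mpr D.ha0)
  -- doubling
  have hden0 : H67.dblDen W x ≠ 0 := by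
    intro h0
    exact h2T ((H67.two_nsmul_eq_zero_iff W hT0).mpr h0)
  have hdbl : x₂ * H67.dblDen W x = H67.dblNum W x := H67.xCoord_two_nsmul W hT0 h2T
  have hvx2 : v (x ^ 2) = 1 := by rw [map_pow, hx, one_pow]
  have hnum : v (H67.dblNum W x) = 1 := by
    rw [D.node.dblNum_eq, map_pow]
    have : v (x ^ 2 - W.a₄) = 1 := by
      rw [← hvx2]
      exact Valuation.map_sub_eq_of_lt_left v (by rw [hvx2]; exact D.ha1)
    rw [this, one_pow]
  have hden : v (H67.dblDen W x) ≤ 1 := by
    rw [D.node.dblDen_eq]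
    refine v.map_add_le (v.map_add_le ?_ ?_) ?_
    · rw [map_mul, map_pow, hx, one_pow, mul_one]; exact val_four_le_one v
    · rw [map_mul, D.hb, one_mul, hvx2]
    · rw [map_mul, map_mul, hx, mul_one]
      calc v 4 * v W.a₄ ≤ 1 * 1 := by
            gcongr
            · exact val_four_le_one v
            · exact D.ha1.le
        _ = 1 := one_mul 1
  have hden_pos : 0 < v (H67.dblDen W x) := zero_lt_iff.mpr ((map_ne_zero v).mpr hden0)
  have hx₂ge : 1 ≤ v x₂ := by
    have h1 : v x₂ * v (H67.dblDen W x) = 1 := by rw [← map_mul, hdbl, hnum]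
    by_contra hlt
    rw [not_le] at hlt
    have : v x₂ * v (H67.dblDen W x) < 1 := by
      calc v x₂ * v (H67.dblDen W x) < 1 * v (H67.dblDen W x) := by gcongr
        _ = v (H67.dblDen W x) := one_mul _
        _ ≤ 1 := hden
    exact this.ne h1
  have hT2 : p • (2 • T) = 0 := by rw [smul_comm, hT, smul_zero]
  have hx₂ : v x₂ = 1 := le_antisymm (D.hF1 _ h2T hT2) hx₂ge
  -- `x₂ ≠ x`
  have hx12 : x₂ ≠ x := by
    intro e
    rcases (H67.xCoord_eq_iff W h2T hT0).mp e with e1 | e1
    · apply hT0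
      have : 2 • T - T = 0 := by rw [e1, sub_self]
      rwa [two_nsmul, add_sub_cancel_right] at this
    · apply h3T
      have : 2 • T + T = 0 := by rw [e1, neg_add_cancel]
      rwa [← succ_nsmul] at this
  have hprod := H67.xCoord_add_mul_xCoord_sub W h2T hT0 hx12
  have hadd : 2 • T + T = 3 • T := (succ_nsmul T 2).symm
  have hsub : 2 • T - T = T := by rw [two_nsmul, add_sub_cancel_right]
  rw [hadd, hsub, D.node.prodNum_eq] at hprod
  have hval := congrArg v hprod
  rw [map_mul, map_mul, map_pow, map_pow] at hval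
  have hc : v (x₂ * x - W.a₄) = 1 := by
    have h1 : v (x₂ * x) = 1 := by rw [map_mul, hx₂, hx, one_mul]
    rw [← h1]
    exact Valuation.map_sub_eq_of_lt_left v (by rw [h1]; exact D.ha1)
  rw [hc, one_pow, hx, mul_one] at hval
  have hdlt : v (x₂ - x) < 1 := D.hres _ _ hx₂ hx
  have hd0 : 0 < v (x₂ - x) := zero_lt_iff.mpr ((map_ne_zero v).mpr (sub_ne_zero.mpr hx12))
  have hT3 : p • (3 • T) = 0 := by rw [smul_comm, hT, smul_zero]
  have h3le : v (H67.xCoord W (3 • T)) ≤ 1 := D.hF1 _ h3T hT3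
  have : v (H67.xCoord W (3 • T)) * v (x₂ - x) ^ 2 < 1 := by
    calc v (H67.xCoord W (3 • T)) * v (x₂ - x) ^ 2 ≤ 1 * v (x₂ - x) ^ 2 := by gcongr
      _ = v (x₂ - x) ^ 2 := one_mul _
      _ < 1 := pow_lt_one₀ zero_le hdlt two_ne_zero
  exact this.ne hval

/-- a torsion point of order `p` deep inside the node region is impossible -/
theorem deep_false (D : NodeData v W p) {T : W.toAffine.Point} (hT0 : T ≠ 0) (hT : p • T = 0)
    (hx : v (H67.xCoord W T) ≤ v W.a₄) : False := by
  have hne : ∀ m : ℕ, 0 < m → m < p → m • T ≠ 0 := fun m hm0 hm =>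
    nsmul_ne_zero_of_prime' D.hp hT0 hT hm0 hm
  have hp5 := D.hp5
  have h2T : 2 • T ≠ 0 := hne 2 (by norm_num) (by omega)
  set x := H67.xCoord W T with hxdef
  set x₂ := H67.xCoord W (2 • T) with hx2def
  have ha0' : 0 < v W.a₄ := zero_lt_iff.mpr ((map_ne_zero v).mpr D.ha0)
  have ha1 := D.ha1
  have hden0 : H67.dblDen W x ≠ 0 := by
    intro h0
    exact h2T ((H67.two_nsmul_eq_zero_iff W hT0).mpr h0)
  have hdbl : x₂ * H67.dblDen W x = H67.dblNum W x := H67.xCoord_two_nsmul W hT0 h2T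
  have hx1 : v x ≤ 1 := hx.trans ha1.le
  have hxx : v (x ^ 2) < v W.a₄ := by
    rw [map_pow, sq]
    calc v x * v x ≤ v W.a₄ * v W.a₄ := by gcongr
      _ < v W.a₄ * 1 := by gcongr
      _ = v W.a₄ := mul_one _
  have hnum : v (H67.dblNum W x) = v W.a₄ ^ 2 := by
    rw [D.node.dblNum_eq, map_pow, Valuation.map_sub_eq_of_lt_right v hxx]
  have hden : v (H67.dblDen W x) ≤ v W.a₄ ^ 2 := by
    rw [D.node.dblDen_eq]
    refine v.map_add_le (v.map_add_le ?_ ?_) ?_
    · rw [map_mul, map_pow]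
      calc v 4 * v x ^ 3 ≤ 1 * v x ^ 3 := by gcongr; exact val_four_le_one v
        _ = v x * v x * v x := by rw [one_mul, pow_succ, pow_succ, pow_one]
        _ ≤ v W.a₄ * v W.a₄ * 1 := by gcongr
        _ = v W.a₄ ^ 2 := by rw [mul_one, sq]
    · rw [map_mul, D.hb, one_mul, map_pow, sq, sq]
      gcongr
    · rw [map_mul, map_mul, sq]
      calc v 4 * v W.a₄ * v x ≤ 1 * v W.a₄ * v W.a₄ := by
            gcongr
            exact val_four_le_one v
        _ = v W.a₄ * v W.a₄ := by rw [one_mul]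
  have hden_pos : 0 < v (H67.dblDen W x) := zero_lt_iff.mpr ((map_ne_zero v).mpr hden0)
  have hx₂ge : 1 ≤ v x₂ := by
    have h1 : v x₂ * v (H67.dblDen W x) = v W.a₄ ^ 2 := by rw [← map_mul, hdbl, hnum]
    by_contra hlt
    rw [not_le] at hlt
    have : v x₂ * v (H67.dblDen W x) < v W.a₄ ^ 2 := by
      calc v x₂ * v (H67.dblDen W x) < 1 * v (H67.dblDen W x) := by gcongr
        _ = v (H67.dblDen W x) := one_mul _
        _ ≤ v W.a₄ ^ 2 := hden
    exact this.ne h1
  have hT2 : p • (2 • T) = 0 := by rw [smul_comm, hT, smul_zero]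
  have hx₂ : v x₂ = 1 := le_antisymm (D.hF1 _ h2T hT2) hx₂ge
  exact unit_false D h2T hT2 hx₂

/-- **Local theorem.** If no abscissa valuation strictly inside the node region satisfies
`d ^ p = v a₄ ^ (2 j)`, there is no nonzero point killed by `p`. -/
theorem eq_zero_of_nsmul_eq_zero (D : NodeData v W p)
    (harith : ∀ d : G, v W.a₄ < d → d < 1 → ∀ j : ℤ, d ^ p ≠ v W.a₄ ^ (2 * j))
    {T : W.toAffine.Point} (hT : p • T = 0) : T = 0 := by
  by_contra hT0
  have hx1 : v (H67.xCoord W T) ≤ 1 := D.hF1 T hT0 hT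
  rcases hx1.eq_or_lt with h1 | h1
  · exact unit_false D hT0 hT h1
  rcases le_or_gt (v (H67.xCoord W T)) (v W.a₄) with h2 | h2
  · exact deep_false D hT0 hT h2
  obtain ⟨x, y, h, rfl⟩ := H67.exists_of_ne_zero W hT0
  rw [H67.xCoord_some] at h1 h2
  obtain ⟨k, hk⟩ : ∃ k, p = 2 * k + 1 := by
    rcases D.hp.eq_two_or_odd' with h2' | ⟨k, hk⟩
    · have := D.hp5; omega
    · exact ⟨k, hk⟩
  subst hk
  obtain ⟨j, hj⟩ := exists_zpow_eq_of_node v D.node D.hb D.ha0 D.hp h hT h2 h1
  exact harith (v x) h2 h1 j hj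

end General

end Fermat.Agent.S13.H11
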