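import Mathlib
import Fermat.Prelude.Def_FLTPrelim_FreyPackage
import Fermat.Agent.S13.H11_RatPt

/-!
# The Frey curve at `2`: no rational point of order `p` (project S13, package RATPT)
-/

set_option autoImplicit false

namespace Fermat.Agent.S13.H11

open WeierstrassCurve WeierstrassCurve.Affine Fermat.Agent.S05 WithZero

section TwoAdic

/-- a `2`-adic unit of `ℚ` is congruent to `1` modulo `2` -/
lemma unit_sub_one_lt {u : ℚ} (hu : Rat.padicValuation 2 u = 1) :
    Rat.padicValuation 2 (u - 1) < 1 := by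
  have hd : ¬ (2 : ℕ) ∣ u.den := Rat.padicValuation_le_one_iff.mp hu.le
  have hdz : ¬ ((2 : ℕ) : ℤ) ∣ (u.den : ℤ) := by rwa [Int.natCast_dvd_natCast]
  have hvd : Rat.padicValuation 2 (u.den : ℚ) = 1 := by
    rw [← Int.cast_natCast, Rat.padicValuation_cast]
    exact Int.padicValuation_eq_one_iff.mpr hdz
  have h1 : Rat.padicValuation 2 ((u.num : ℚ) / (u.den : ℚ)) = 1 := by
    rw [Rat.num_div_den]; exact hu
  rw [map_div₀, hvd, div_one, Rat.padicValuation_cast] at h1
  have hn : ¬ ((2 : ℕ) : ℤ) ∣ u.num := Int.padicValuation_eq_one_iff.mp h1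
  have hd0 : (u.den : ℚ) ≠ 0 := by exact_mod_cast u.den_ne_zero
  have h2 : u - 1 = ((u.num - (u.den : ℤ) : ℤ) : ℚ) / (u.den : ℚ) := by
    rw [eq_div_iff hd0, sub_mul, one_mul, Rat.mul_den_eq_num]
    push_cast
    ring
  rw [h2, map_div₀, hvd, div_one, Rat.padicValuation_cast, Int.padicValuation_lt_one_iff]
  have e2 : ((2 : ℕ) : ℤ) = 2 := by norm_num
  rw [e2] at hn hdz ⊢
  omega

lemma res_two (u w : ℚ) (hu : Rat.padicValuation 2 u = 1) (hw : Rat.padicValuation 2 w = 1) :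
    Rat.padicValuation 2 (u - w) < 1 := by
  have e : u - w = (u - 1) - (w - 1) := by ring
  rw [e]
  exact Valuation.map_sub_lt _ (unit_sub_one_lt hu) (unit_sub_one_lt hw)

/-- the arithmetic contradiction in `ℤᵐ⁰` -/
lemma arith_false {D S : ℤᵐ⁰} {p : ℕ} (hp : p.Prime) (hp2 : p ≠ 2) {m : ℤ}
    (hS : S = exp (-m)) (hpm : ¬ (p : ℤ) ∣ m) (hSD : S < D) (hD1 : D < 1) (j : ℤ)
    (h : D ^ p = S ^ (2 * j)) : False := by
  have hS0 : S ≠ 0 := by rw [hS]; exact exp_ne_zero
  have hD0 : D ≠ 0 := (lt_of_le_of_lt zero_le hSD).ne'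
  have hlog := congrArg log h
  rw [log_pow, log_zpow, hS, log_exp] at hlog
  have h1 : -m < log D := by
    have := (log_lt_log hS0 hD0).mpr hSD
    rwa [hS, log_exp] at this
  have h2 : log D < 0 := by
    have := (log_lt_log hD0 one_ne_zero).mpr hD1
    rwa [log_one] at this
  simp only [nsmul_eq_mul, smul_eq_mul] at hlog
  -- hlog : p * log D = 2 * j * -m
  have hpp : Prime (p : ℤ) := Nat.prime_iff_prime_int.mp hp
  have hdvd : (p : ℤ) ∣ 2 * j * m := by
    refine ⟨-log D, ?_⟩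
    linarith
  have hp2' : ¬ (p : ℤ) ∣ 2 := by
    intro hd
    have : p ∣ 2 := by exact_mod_cast hd
    have := (Nat.prime_dvd_prime_iff_eq hp Nat.prime_two).mp this
    exact hp2 this
  have hj : (p : ℤ) ∣ j := by
    rcases hpp.dvd_or_dvd hdvd with h3 | h3
    · rcases hpp.dvd_or_dvd h3 with h4 | h4
      · exact absurd h4 hp2'
      · exact h4
    · exact absurd h3 hpm
  obtain ⟨j', rfl⟩ := hj
  have hp0 : (p : ℤ) ≠ 0 := by exact_mod_cast hp.ne_zero
  have hl : log D = -(2 * j' * m) := by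
    have : (p : ℤ) * log D = p * (-(2 * j' * m)) := by rw [hlog]; ring
    exact mul_left_cancel₀ hp0 this
  rw [hl] at h1 h2
  have hm : 0 < m := by linarith
  -- -m < -(2 j' m) < 0 : 0 < 2 j' m < m
  have h3 : 0 < 2 * j' * m := by linarith
  have h4 : 2 * j' * m < m := by linarith
  have hj'pos : 0 < j' := by
    by_contra hle
    rw [not_lt] at hle
    have : 2 * j' * m ≤ 0 := by
      have : 2 * j' ≤ 0 := by linarith
      exact mul_nonpos_of_nonpos_of_nonneg this hm.le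
    linarith
  have : m ≤ 2 * j' * m := by
    have : (1 : ℤ) ≤ 2 * j' := by linarith
    calc m = 1 * m := (one_mul m).symm
      _ ≤ 2 * j' * m := by gcongr
  linarith

end TwoAdic

section Frey

variable (P : FreyPackage)

lemma frey_even_b : (2 : ℤ) ∣ P.b :=
  (ZMod.intCast_zmod_eq_zero_iff_dvd P.b 2).1 P.hb2

lemma frey_odd_a : ¬ (2 : ℤ) ∣ P.a := by
  have h : ((P.a : ℤ) : ZMod 4) = ((3 : ℤ) : ZMod 4) := by
    rw [P.ha4]; norm_num
  rw [ZMod.intCast_eq_intCast_iff_dvd_sub] at h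
  intro h2
  omega

lemma frey_b₂ : P.freyCurve.b₂ = ((P.b ^ P.p - P.a ^ P.p : ℤ) : ℚ) := by
  simp only [WeierstrassCurve.b₂, FreyPackage.freyCurve]
  push_cast
  ring

lemma frey_val_b₂ : Rat.padicValuation 2 P.freyCurve.b₂ = 1 := by
  rw [frey_b₂, Rat.padicValuation_cast, Int.padicValuation_eq_one_iff]
  have e2 : ((2 : ℕ) : ℤ) = 2 := by norm_num
  rw [e2]
  intro h
  have hb : (2 : ℤ) ∣ P.b ^ P.p := dvd_pow (frey_even_b P) P.hp0
  have ha : (2 : ℤ) ∣ P.a ^ P.p := by
    have := dvd_sub hb h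
    rwa [sub_sub_cancel] at this
  exact frey_odd_a P (Int.prime_two.dvd_of_dvd_pow ha)

lemma frey_val_a : Rat.padicValuation 2 (P.a : ℚ) = 1 := by
  rw [Rat.padicValuation_cast, Int.padicValuation_eq_one_iff]
  have e2 : ((2 : ℕ) : ℤ) = 2 := by norm_num
  rw [e2]
  exact frey_odd_a P

lemma frey_val_b : Rat.padicValuation 2 (P.b : ℚ) = exp (-padicValRat 2 (P.b : ℚ)) := by
  have hb0 : (P.b : ℚ) ≠ 0 := by exact_mod_cast P.hb0
  simp [Rat.padicValuation, hb0]

lemma frey_e_pos : 0 < padicValRat 2 (P.b : ℚ) := by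
  have h1 : Rat.padicValuation 2 (P.b : ℚ) < 1 := by
    rw [Rat.padicValuation_cast, Int.padicValuation_lt_one_iff]
    have e2 : ((2 : ℕ) : ℤ) = 2 := by norm_num
    rw [e2]
    exact frey_even_b P
  rw [frey_val_b, ← exp_zero, exp_lt_exp] at h1
  linarith

lemma frey_val_a₄ : Rat.padicValuation 2 P.freyCurve.a₄ =
    exp (-((P.p : ℤ) * padicValRat 2 (P.b : ℚ) - 4)) := by
  have h16 : Rat.padicValuation 2 (16 : ℚ) = exp (-4) := by
    have h2 : Rat.padicValuation 2 (2 : ℚ) = exp (-1) := by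
      have := Rat.padicValuation_self 2
      simpa using this
    rw [show (16 : ℚ) = 2 ^ 4 by norm_num, map_pow, h2, ← exp_nsmul]
    norm_num
  have ha4 : P.freyCurve.a₄ = -((P.a : ℚ) ^ P.p) * ((P.b : ℚ) ^ P.p) / 16 := rfl
  rw [ha4, map_div₀, map_mul, Valuation.map_neg, map_pow, map_pow, frey_val_a, one_pow, one_mul,
    frey_val_b, h16, ← exp_nsmul, ← exp_sub]
  congr 1
  simp only [nsmul_eq_mul]
  ring

lemma frey_a₄_ne_zero : P.freyCurve.a₄ ≠ 0 := by
  intro h
  have := frey_val_a₄ P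
  rw [h, map_zero] at this
  exact exp_ne_zero this.symm

lemma frey_val_a₄_lt_one : Rat.padicValuation 2 P.freyCurve.a₄ < 1 := by
  rw [frey_val_a₄, ← exp_zero, exp_lt_exp]
  have he := frey_e_pos P
  have hp : (5 : ℤ) ≤ (P.p : ℤ) := by exact_mod_cast P.hp5
  nlinarith

lemma frey_not_dvd : ¬ ((P.p : ℤ) ∣ (P.p : ℤ) * padicValRat 2 (P.b : ℚ) - 4) := by
  intro h
  have h4 : (P.p : ℤ) ∣ 4 := by
    have := dvd_sub (dvd_mul_right (P.p : ℤ) (padicValRat 2 (P.b : ℚ))) h
    rwa [sub_sub_cancel] at this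
  have : P.p ∣ 4 := by exact_mod_cast h4
  have := Nat.le_of_dvd (by norm_num) this
  have := P.hp5
  omega

/-- **RATPT.** The Frey curve has no nonzero rational point killed by `p`, provided the kernel of
reduction at `2` has no `p`-torsion (`hF1`, = the general F1). -/
theorem frey_no_rat_torsion
    (hF1 : ∀ Q : P.freyCurve.toAffine.Point, Q ≠ 0 → P.p • Q = 0 →
      Rat.padicValuation 2 (H67.xCoord P.freyCurve Q) ≤ 1)
    (T : P.freyCurve.toAffine.Point) (hT : P.p • T = 0) : T = 0 := by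
  have D : NodeData (Rat.padicValuation 2) P.freyCurve P.p :=
    { node := ⟨rfl, rfl⟩
      hb := frey_val_b₂ P
      ha0 := frey_a₄_ne_zero P
      ha1 := frey_val_a₄_lt_one P
      hp := P.pp
      hp5 := P.hp5
      hF1 := hF1
      hres := res_two }
  refine eq_zero_of_nsmul_eq_zero D ?_ hT
  intro d hd1 hd2 j hj
  have hp2 : P.p ≠ 2 := by have := P.hp5; omega
  exact arith_false P.pp hp2 (frey_val_a₄ P) (frey_not_dvd P) hd1 hd2 j hj

end Frey

end Fermat.Agent.S13.H11
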