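import Mathlib
import Fermat.Agent.S05.H18_F3
import Fermat.Agent.S05.H67_XF
import Fermat.Agent.S05.H5_Loc

/-!
# The node model `y² + x y = x³ + a₂ x² + a₄ x` in residue characteristic `2`
(package LOC2 of project S13: basics and the closeness lemma F3').

`nodeW a₂ a₄ = ⟨1, a₂, 0, a₄, 0⟩`. The Frey curve is literally of this shape. Over a valued
field with `v 2 < 1`, `v a₂ ≤ 1`, `v a₄ < 1` the reduction is a nodal cubic with node `(0,0)`,
`b₂ = 1 + 4 a₂` is a unit, and an integral point has nonsingular reduction iff its abscissa is a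
unit (because `∂F/∂y = 2 y + x ≡ x`).
-/

set_option autoImplicit false

namespace Fermat.Agent.S13.H70

open WeierstrassCurve WeierstrassCurve.Affine
open Fermat.Agent.S05

variable {K : Type*} [Field K]

/-- The node model `y² + x y = x³ + a₂ x² + a₄ x`. -/
def nodeW (a₂ a₄ : K) : WeierstrassCurve K := ⟨1, a₂, 0, a₄, 0⟩

@[simp] lemma nodeW_a₁ (a₂ a₄ : K) : (nodeW a₂ a₄).a₁ = 1 := rfl
@[simp] lemma nodeW_a₂ (a₂ a₄ : K) : (nodeW a₂ a₄).a₂ = a₂ := rfl
@[simp] lemma nodeW_a₃ (a₂ a₄ : K) : (nodeW a₂ a₄).a₃ = 0 := rfl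
@[simp] lemma nodeW_a₄ (a₂ a₄ : K) : (nodeW a₂ a₄).a₄ = a₄ := rfl
@[simp] lemma nodeW_a₆ (a₂ a₄ : K) : (nodeW a₂ a₄).a₆ = 0 := rfl

lemma nodeW_equation_iff (a₂ a₄ x y : K) :
    (nodeW a₂ a₄).toAffine.Equation x y ↔ y ^ 2 + x * y = x ^ 3 + a₂ * x ^ 2 + a₄ * x := by
  rw [Affine.equation_iff]
  simp

lemma nodeW_negY (a₂ a₄ x y : K) : (nodeW a₂ a₄).toAffine.negY x y = -y - x := by
  simp [Affine.negY]

lemma nodeW_b₂ (a₂ a₄ : K) : (nodeW a₂ a₄).b₂ = 1 + 4 * a₂ := by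
  simp [WeierstrassCurve.b₂]

lemma nodeW_b₄ (a₂ a₄ : K) : (nodeW a₂ a₄).b₄ = 2 * a₄ := by
  simp [WeierstrassCurve.b₄]

lemma nodeW_b₆ (a₂ a₄ : K) : (nodeW a₂ a₄).b₆ = 0 := by
  simp [WeierstrassCurve.b₆]

lemma nodeW_b₈ (a₂ a₄ : K) : (nodeW a₂ a₄).b₈ = -a₄ ^ 2 := by
  simp [WeierstrassCurve.b₈]

/-! ### The `x`-only formulas of `H67_XF` on the node model -/

lemma prodNum_nodeW (a₂ a₄ x₁ x₂ : K) :
    H67.prodNum (nodeW a₂ a₄) x₁ x₂ = (x₁ * x₂ - a₄) ^ 2 := by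
  simp only [H67.prodNum, nodeW_b₄, nodeW_b₆, nodeW_b₈]; ring

lemma sumNum_nodeW (a₂ a₄ x₁ x₂ : K) :
    H67.sumNum (nodeW a₂ a₄) x₁ x₂ =
      2 * (x₁ + x₂) * (x₁ * x₂ + a₄) + (1 + 4 * a₂) * (x₁ * x₂) := by
  simp only [H67.sumNum, nodeW_b₂, nodeW_b₄, nodeW_b₆]; ring

lemma dblNum_nodeW (a₂ a₄ x : K) :
    H67.dblNum (nodeW a₂ a₄) x = (x ^ 2 - a₄) ^ 2 := by
  simp only [H67.dblNum, nodeW_b₄, nodeW_b₆, nodeW_b₈]; ring

lemma dblDen_nodeW (a₂ a₄ x : K) :
    H67.dblDen (nodeW a₂ a₄) x = 4 * x ^ 3 + (1 + 4 * a₂) * x ^ 2 + 4 * a₄ * x := by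
  simp only [H67.dblDen, nodeW_b₂, nodeW_b₄, nodeW_b₆]; ring

section Valuation

variable {Γ₀ : Type*} [LinearOrderedCommGroupWithZero Γ₀] (v : Valuation K Γ₀)

lemma val_four_lt_one (h2 : v (2 : K) < 1) : v (4 : K) < 1 := by
  have : (4 : K) = 2 * 2 := by norm_num
  rw [this, map_mul]
  calc v 2 * v 2 ≤ v 2 * 1 := by gcongr
    _ = v 2 := mul_one _
    _ < 1 := h2

/-- `b₂ = 1 + 4 a₂` is a unit. -/
lemma val_b₂_eq_one (h2 : v (2 : K) < 1) {a₂ : K} (ha₂ : v a₂ ≤ 1) : v (1 + 4 * a₂) = 1 := by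
  have h : v (4 * a₂) < 1 := by
    rw [map_mul]
    calc v 4 * v a₂ ≤ v 4 * 1 := by gcongr
      _ = v 4 := mul_one _
      _ < 1 := val_four_lt_one v h2
  rw [Valuation.map_add_eq_of_lt_left v (by rwa [map_one]), map_one]

/-- the ordinate of an integral point is integral -/
lemma val_y_le_one {a₂ a₄ x y : K} (ha₂ : v a₂ ≤ 1) (ha₄ : v a₄ ≤ 1) (hx : v x ≤ 1)
    (heq : y ^ 2 + x * y = x ^ 3 + a₂ * x ^ 2 + a₄ * x) : v y ≤ 1 := by
  by_contra hlt
  rw [not_le] at hlt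
  have h1 : v (y ^ 2 + x * y) ≤ 1 := by
    rw [heq]
    refine v.map_add_le (v.map_add_le ?_ ?_) ?_
    · rw [map_pow]; exact pow_le_one₀ zero_le hx
    · rw [map_mul, map_pow]; exact mul_le_one' ha₂ (pow_le_one₀ zero_le hx)
    · rw [map_mul]; exact mul_le_one' ha₄ hx
  have h2 : v (x * y) < v (y ^ 2) := by
    rw [map_mul, map_pow, sq]
    have hy0 : 0 < v y := lt_trans zero_lt_one hlt
    calc v x * v y ≤ 1 * v y := by gcongr
      _ < v y * v y := by rw [one_mul]; exact lt_mul_of_one_lt_left hy0 hlt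
  rw [Valuation.map_add_eq_of_lt_left v h2, map_pow] at h1
  exact absurd h1 (not_le.mpr (one_lt_pow₀ hlt two_ne_zero))

/-- in residue characteristic `2`, `∂F/∂y = 2 y + x` is a unit as soon as `x` is -/
lemma val_two_mul_add_eq_one (h2 : v (2 : K) < 1) {x y : K} (hx : v x = 1) (hy : v y ≤ 1) :
    v (2 * y + x) = 1 := by
  have h : v (2 * y) < 1 := by
    rw [map_mul]
    calc v 2 * v y ≤ v 2 * 1 := by gcongr
      _ = v 2 := mul_one _
      _ < 1 := h2
  rw [Valuation.map_add_eq_of_lt_right v (by rwa [hx]), hx]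

/-- If the slope is non-integral then so is the `x`-coordinate of the sum. -/
lemma one_lt_addX {a₂ a₄ x x' ℓ : K} (ha₂ : v a₂ ≤ 1) (hx : v x ≤ 1) (hx' : v x' ≤ 1)
    (hℓ : 1 < v ℓ) : 1 < v ((nodeW a₂ a₄).toAffine.addX x x' ℓ) := by
  have h1 : (nodeW a₂ a₄).toAffine.addX x x' ℓ = ℓ ^ 2 + (ℓ + (-(a₂ + x + x'))) := by
    simp [Affine.addX]; ring
  have h2 : v (-(a₂ + x + x')) ≤ 1 := by
    rw [Valuation.map_neg]
    exact (v.map_add_le (v.map_add_le ha₂ hx) hx')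
  have h3 : 1 < v (ℓ ^ 2) := by
    rw [map_pow]
    exact one_lt_pow₀ hℓ (by norm_num)
  have h4 : v ℓ < v (ℓ ^ 2) := by
    rw [map_pow, sq]
    exact lt_mul_of_one_lt_left (lt_trans zero_lt_one hℓ) hℓ
  have h5 : v (ℓ + (-(a₂ + x + x'))) < v (ℓ ^ 2) :=
    lt_of_le_of_lt (v.map_add _ _) (max_lt h4 (lt_of_le_of_lt h2 h3))
  rw [h1, Valuation.map_add_eq_of_lt_left v h5]
  exact h3

variable [DecidableEq K]

/-- **F3'**. Two integral affine points of the node model which are congruent modulo the maximal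
ideal and at which `∂F/∂y = 2 y + x` is a unit differ by an element of the kernel of
reduction. -/
theorem inE1_sub_of_close {a₂ a₄ : K} (ha₂ : v a₂ ≤ 1)
    {x y x' y' : K} (h : (nodeW a₂ a₄).toAffine.Nonsingular x y)
    (h' : (nodeW a₂ a₄).toAffine.Nonsingular x' y')
    (hx : v x ≤ 1) (hxx : v (x - x') < 1) (hyy : v (y - y') < 1)
    (hns : v (2 * y + x) = 1) :
    H18.InE1 v (Point.some x y h - Point.some x' y' h') := by
  have hx' : v x' ≤ 1 := by
    have : x' = x - (x - x') := by ring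
    rw [this]
    exact v.map_sub_le hx hxx.le
  rw [sub_eq_add_neg, Point.neg_some]
  by_cases hxe : x = x'
  · subst hxe
    by_cases hye : y = y'
    · subst hye
      rw [Point.add_of_Y_eq rfl (Affine.negY_negY ..).symm]
      exact H18.inE1_zero v
    · exfalso
      have hy : y = -y' - x := by
        have := (Affine.Y_eq_of_X_eq h.1 h'.1 rfl).resolve_left hye
        rwa [nodeW_negY] at this
      have : y - y' = 2 * y + x := by rw [hy]; ring
      rw [this, hns] at hyy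
      exact lt_irrefl _ hyy
  · rw [Point.add_of_X_ne hxe, H18.inE1_some]
    apply one_lt_addX v ha₂ hx hx'
    rw [Affine.slope_of_X_ne hxe, nodeW_negY, map_div₀]
    have hxne : x - x' ≠ 0 := sub_ne_zero.mpr hxe
    have hpos : 0 < v (x - x') := zero_lt_iff.mpr ((map_ne_zero v).mpr hxne)
    have hnum : v (y - (-y' - x')) = 1 := by
      have e : y - (-y' - x') = (2 * y + x) + (-(y - y') + -(x - x')) := by ring
      have hsmall : v (-(y - y') + -(x - x')) < 1 :=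
        lt_of_le_of_lt (v.map_add _ _)
          (max_lt (by rwa [Valuation.map_neg]) (by rwa [Valuation.map_neg]))
      rw [e, Valuation.map_add_eq_of_lt_left v (by rwa [hns]), hns]
    rw [hnum]
    exact (one_lt_div₀ hpos).mpr hxx

/-- Coordinatewise action on the points of the node model. -/
structure CoordAction (a₂ a₄ : K) (σ : K →+* K)
    (φ : (nodeW a₂ a₄).toAffine.Point →+ (nodeW a₂ a₄).toAffine.Point) : Prop where
  map_some : ∀ (x y : K) (h : (nodeW a₂ a₄).toAffine.Nonsingular x y),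
      ∃ h' : (nodeW a₂ a₄).toAffine.Nonsingular (σ x) (σ y),
        φ (Point.some x y h) = Point.some _ _ h'

lemma CoordAction.fixed_iff {a₂ a₄ : K} {σ : K →+* K}
    {φ : (nodeW a₂ a₄).toAffine.Point →+ (nodeW a₂ a₄).toAffine.Point}
    (hφ : CoordAction a₂ a₄ σ φ) {x y : K} (h : (nodeW a₂ a₄).toAffine.Nonsingular x y) :
    φ (Point.some x y h) = Point.some x y h ↔ σ x = x ∧ σ y = y := by
  obtain ⟨h', e⟩ := hφ.map_some x y h
  rw [e, Point.some.injEq]

/-- **F3' (fixed points)**. A torsion point with unit abscissa is fixed by a residually trivial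
coordinatewise action, provided the kernel of reduction has no such torsion. -/
theorem fixed_of_unit_x {a₂ a₄ : K} (h2 : v (2 : K) < 1) (ha₂ : v a₂ ≤ 1) (ha₄ : v a₄ ≤ 1)
    {n : ℕ} (hF1 : H18.NoTorsionInE1 v (nodeW a₂ a₄).toAffine n)
    {σ : K →+* K} {φ : (nodeW a₂ a₄).toAffine.Point →+ (nodeW a₂ a₄).toAffine.Point}
    (hσ : H5.ResTrivial v σ) (hφ : CoordAction a₂ a₄ σ φ)
    {x y : K} (h : (nodeW a₂ a₄).toAffine.Nonsingular x y)
    (hT : n • Point.some x y h = 0) (hx : v x = 1) :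
    φ (Point.some x y h) = Point.some x y h := by
  have heq := (nodeW_equation_iff a₂ a₄ x y).mp h.1
  have hy : v y ≤ 1 := val_y_le_one v ha₂ ha₄ hx.le heq
  obtain ⟨h', hφT⟩ := hφ.map_some x y h
  have hE : H18.InE1 v (Point.some x y h - φ (Point.some x y h)) := by
    rw [hφT]
    exact inE1_sub_of_close v ha₂ h h' hx.le (hσ.sub_swap hx.le) (hσ.sub_swap hy)
      (val_two_mul_add_eq_one v h2 hx hy)
  exact H18.eq_of_inE1_sub v hF1 φ hT hE

end Valuation

end Fermat.Agent.S13.H70
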