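import Mathlib
import Fermat.Agent.S13.H70_Node

/-!
# Unipotence of residually trivial automorphisms on the torsion of the node model
(package LOC2-INERTIA of project S13).

Setting: a valued field `(K, v)` with `v 2 < 1`, the node model
`W : y² + x y = x³ + a₂ x² + a₄ x` with `v a₂ ≤ 1`, `0 < v a₄ < 1`, an odd prime `p` such that
the kernel of reduction of `W` has no `p`-torsion (package F1'), a ring endomorphism `σ` of `K`
which preserves `v` and is trivial modulo the maximal ideal, and an additive endomorphism `φ` of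
`W(K)` acting on coordinates through `σ`.

Main result `unipotent`: for every `p`-torsion point `Q`, `φ (φ Q - Q) = φ Q - Q`.

* points with unit abscissa are fixed (`fixed_of_unit_x`, F3');
* points deep inside the node region (`v x ≤ v a₄`) are fixed (their double has unit abscissa);
* for `Q` strictly inside the node region (`v a₄ < v x < 1`), `φ Q - Q` is zero or has unit
  abscissa: `σ` preserves the branch `y / x mod 𝔪` of the node (the two branches `t`, `-1 - t`
  differ by the unit `2 t + 1`), and the chord through `φ Q` and `-Q` (which lies on the other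
  branch) meets the curve in a third point with `v x = (v x(Q) / v (σ x - x))² ≥ 1`.
-/

set_option autoImplicit false

namespace Fermat.Agent.S13.H70

open WeierstrassCurve WeierstrassCurve.Affine
open Fermat.Agent.S05

variable {K : Type*} [Field K] [DecidableEq K]
variable {Γ₀ : Type*} [LinearOrderedCommGroupWithZero Γ₀] (v : Valuation K Γ₀)

section regions

variable {a₂ a₄ : K} {σ : K →+* K}
  {φ : (nodeW a₂ a₄).toAffine.Point →+ (nodeW a₂ a₄).toAffine.Point}

omit [DecidableEq K] in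
/-- the abscissa of a torsion point is integral -/
lemma val_x_le_one_of_torsion [DecidableEq K] {p : ℕ}
    (hF1 : H18.NoTorsionInE1 v (nodeW a₂ a₄).toAffine p)
    {x y : K} (h : (nodeW a₂ a₄).toAffine.Nonsingular x y)
    (hT : p • Point.some x y h = 0) : v x ≤ 1 := by
  by_contra hlt
  rw [not_le] at hlt
  exact Point.some_ne_zero h (hF1 _ hT hlt)

omit [DecidableEq K] in
/-- inside the node region the ordinate is at most as big as the abscissa -/
lemma val_y_le_val_x {x y : K} (ha₂ : v a₂ ≤ 1) (hx1 : v x ≤ 1) (hax : v a₄ ≤ v x)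
    (heq : y ^ 2 + x * y = x ^ 3 + a₂ * x ^ 2 + a₄ * x) : v y ≤ v x := by
  by_contra hlt
  rw [not_le] at hlt
  have hy0 : 0 < v y := lt_of_le_of_lt zero_le hlt
  have h1 : v (y ^ 2 + x * y) ≤ v x * v x := by
    rw [heq]
    refine v.map_add_le (v.map_add_le ?_ ?_) ?_
    · rw [map_pow, pow_succ, sq]
      calc v x * v x * v x ≤ v x * v x * 1 := by gcongr
        _ = v x * v x := mul_one _
    · rw [map_mul, map_pow, sq]
      calc v a₂ * (v x * v x) ≤ 1 * (v x * v x) := by gcongr
        _ = v x * v x := one_mul _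
    · rw [map_mul]
      gcongr
  have h2 : v (x * y) < v (y ^ 2) := by
    rw [map_mul, map_pow, sq]
    gcongr
  rw [Valuation.map_add_eq_of_lt_left v h2, map_pow, sq] at h1
  have : v x * v x < v y * v y := by
    calc v x * v x ≤ v x * v y := by gcongr
      _ < v y * v y := by gcongr
  exact absurd h1 (not_le.mpr this)

/-- torsion points deep inside the node region (`v x ≤ v a₄`) are fixed -/
theorem fixed_of_deep (h2 : v (2 : K) < 1) (ha₂ : v a₂ ≤ 1) (ha₄ : v a₄ < 1) (ha₄0 : a₄ ≠ 0)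
    {p : ℕ} (hp : p.Prime) (hp2 : p ≠ 2)
    (hF1 : H18.NoTorsionInE1 v (nodeW a₂ a₄).toAffine p)
    (hσ : H5.ResTrivial v σ) (hφ : CoordAction a₂ a₄ σ φ)
    {x y : K} (h : (nodeW a₂ a₄).toAffine.Nonsingular x y)
    (hT : p • Point.some x y h = 0) (hxs : v x ≤ v a₄) :
    φ (Point.some x y h) = Point.some x y h := by
  have hT0 : Point.some x y h ≠ 0 := Point.some_ne_zero h
  have h2T : 2 • Point.some x y h ≠ 0 := H5.two_nsmul_ne_zero hp hp2 hT0 hT
  obtain ⟨x₂, y₂, h₂, e⟩ := H67.exists_of_ne_zero _ h2T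
  have hdbl : x₂ * (4 * x ^ 3 + (1 + 4 * a₂) * x ^ 2 + 4 * a₄ * x) = (x ^ 2 - a₄) ^ 2 := by
    have := H67.xCoord_two_nsmul (nodeW a₂ a₄) hT0 h2T
    rwa [e, H67.xCoord_some, H67.xCoord_some, dblDen_nodeW, dblNum_nodeW] at this
  have hvs0 : v a₄ ≠ 0 := (map_ne_zero v).mpr ha₄0
  have hvs_pos : 0 < v a₄ := zero_lt_iff.mpr hvs0
  have hx1 : v x < 1 := lt_of_le_of_lt hxs ha₄
  have hv4 : v (4 : K) ≤ 1 := (val_four_lt_one v h2).le
  -- `v (x^2 - a₄) = v a₄`
  have hnum : v (x ^ 2 - a₄) = v a₄ := by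
    have hlt : v (x ^ 2) < v a₄ := by
      rw [map_pow]
      calc v x ^ 2 = v x * v x := sq _
        _ ≤ v a₄ * v x := by gcongr
        _ < v a₄ * 1 := mul_lt_mul_of_pos_left hx1 hvs_pos
        _ = v a₄ := mul_one _
    rw [sub_eq_add_neg, Valuation.map_add_eq_of_lt_right v (by rwa [Valuation.map_neg]),
      Valuation.map_neg]
  -- `v (dblDen) ≤ v a₄ ^ 2`
  have hden : v (4 * x ^ 3 + (1 + 4 * a₂) * x ^ 2 + 4 * a₄ * x) ≤ v a₄ ^ 2 := by
    have hxx : v x * v x ≤ v a₄ ^ 2 := by
      rw [sq]; gcongr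
    refine v.map_add_le (v.map_add_le ?_ ?_) ?_
    · rw [map_mul, map_pow, pow_succ, sq]
      calc v 4 * (v x * v x * v x) ≤ 1 * (v x * v x * 1) := by gcongr
        _ = v x * v x := by rw [one_mul, mul_one]
        _ ≤ v a₄ ^ 2 := hxx
    · rw [map_mul, map_pow, val_b₂_eq_one v h2 ha₂, one_mul, sq]
      exact hxx
    · rw [map_mul, map_mul, sq]
      calc v 4 * v a₄ * v x ≤ 1 * v a₄ * v a₄ := by gcongr
        _ = v a₄ * v a₄ := by rw [one_mul]
  have hprod : v x₂ * v (4 * x ^ 3 + (1 + 4 * a₂) * x ^ 2 + 4 * a₄ * x) = v a₄ ^ 2 := by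
    have := congrArg v hdbl
    rwa [map_mul, map_pow _ (x ^ 2 - a₄), hnum] at this
  have hdenpos : 0 < v (4 * x ^ 3 + (1 + 4 * a₂) * x ^ 2 + 4 * a₄ * x) := by
    rw [zero_lt_iff]
    intro h0
    rw [h0, mul_zero] at hprod
    exact (pow_ne_zero 2 hvs0) hprod.symm
  -- `1 ≤ v x₂`
  have hx₂ge : 1 ≤ v x₂ := by
    by_contra hlt
    rw [not_le] at hlt
    have : v x₂ * v (4 * x ^ 3 + (1 + 4 * a₂) * x ^ 2 + 4 * a₄ * x) < v a₄ ^ 2 := by
      calc v x₂ * v (4 * x ^ 3 + (1 + 4 * a₂) * x ^ 2 + 4 * a₄ * x)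
          < 1 * v (4 * x ^ 3 + (1 + 4 * a₂) * x ^ 2 + 4 * a₄ * x) :=
            mul_lt_mul_of_pos_right hlt hdenpos
        _ = v (4 * x ^ 3 + (1 + 4 * a₂) * x ^ 2 + 4 * a₄ * x) := one_mul _
        _ ≤ v a₄ ^ 2 := hden
    exact this.ne hprod
  have hT2 : p • Point.some x₂ y₂ h₂ = 0 := by
    rw [← e, smul_comm, hT, smul_zero]
  have hx₂le : v x₂ ≤ 1 := val_x_le_one_of_torsion v hF1 h₂ hT2
  have hx₂ : v x₂ = 1 := le_antisymm hx₂le hx₂ge
  have hφ2 : φ (2 • Point.some x y h) = 2 • Point.some x y h := by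
    rw [e]
    exact fixed_of_unit_x v h2 ha₂ ha₄.le hF1 hσ hφ h₂ hT2 hx₂
  obtain ⟨k, hk⟩ := H5.half_smul hp hp2 hT
  conv_lhs => rw [← hk]
  rw [map_nsmul, hφ2, hk]

omit [DecidableEq K] in
/-- the key polynomial identity behind the chord computation -/
lemma chord_identity {x x' t t' : K}
    (hE' : x' * (t' ^ 2 + t') = x' ^ 2 + a₂ * x' + a₄) :
    x' * ((t' * x' + (t + 1) * x) ^ 2 + (t' * x' + (t + 1) * x) * (x' - x)
        - (a₂ + x' + x) * (x' - x) ^ 2) =
      x' * x * (t + 1 + t') * ((2 * t' + 1) * x' + (t - t') * x) + (a₄ - x * x') * (x' - x) ^ 2 := by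
  linear_combination ((x' - x) ^ 2) * hE'

/-- **Node region.** For a torsion point `Q` strictly inside the node region, `φ Q - Q` is zero or
has unit abscissa. -/
theorem sub_eq_zero_or_unit_x (h2 : v (2 : K) < 1) (ha₂ : v a₂ ≤ 1)
    {p : ℕ} (hF1 : H18.NoTorsionInE1 v (nodeW a₂ a₄).toAffine p)
    (hσ : H5.ResTrivial v σ) (hσv : ∀ z : K, v (σ z) = v z) (hφ : CoordAction a₂ a₄ σ φ)
    {x y : K} (h : (nodeW a₂ a₄).toAffine.Nonsingular x y)
    (hT : p • Point.some x y h = 0) (hsx : v a₄ < v x) (hx1 : v x < 1) :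
    φ (Point.some x y h) - Point.some x y h = 0 ∨
      ∃ (X Y : K) (hXY : (nodeW a₂ a₄).toAffine.Nonsingular X Y),
        φ (Point.some x y h) - Point.some x y h = Point.some X Y hXY ∧ v X = 1 := by
  have heq := (nodeW_equation_iff a₂ a₄ x y).mp h.1
  have hvx0 : v x ≠ 0 := fun h0 => by rw [h0] at hsx; exact not_lt_zero hsx
  have hvxpos : 0 < v x := zero_lt_iff.mpr hvx0
  have hx0 : x ≠ 0 := (map_ne_zero v).mp hvx0
  have hvy : v y ≤ v x := val_y_le_val_x v ha₂ hx1.le hsx.le heq
  obtain ⟨h', hφQ⟩ := hφ.map_some x y h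
  have heq' := (nodeW_equation_iff a₂ a₄ (σ x) (σ y)).mp h'.1
  -- branch coordinate
  set t := y / x with ht
  have hyt : y = t * x := by rw [ht]; field_simp
  have hvt : v t ≤ 1 := by
    rw [ht, map_div₀]
    exact (div_le_one₀ hvxpos).mpr hvy
  have hσy : σ y = σ t * σ x := by rw [hyt, map_mul]
  have hvtt : v (σ t - t) < 1 := hσ t hvt
  have hvσt : v (σ t) ≤ 1 := by rw [hσv]; exact hvt
  have hvσx : v (σ x) = v x := hσv x
  have hσx0 : σ x ≠ 0 := (map_ne_zero v).mp (by rw [hvσx]; exact hvx0)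
  have hv2t : ∀ s : K, v s ≤ 1 → v (2 * s) < 1 := by
    intro s hs
    rw [map_mul]
    calc v 2 * v s ≤ v 2 * 1 := by gcongr
      _ = v 2 := mul_one _
      _ < 1 := h2
  by_cases hxe : σ x = x
  · -- same abscissa
    by_cases hye : σ y = y
    · left
      have : Point.some (σ x) (σ y) h' = Point.some x y h := by
        rw [Point.some.injEq]; exact ⟨hxe, hye⟩
      rw [hφQ, this, sub_self]
    · exfalso
      -- `σ y = -y - x`, impossible since `σ` preserves the branch
      have hy' : σ y = -y - x := by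
        have := (Affine.Y_eq_of_X_eq h'.1 h.1 hxe).resolve_left hye
        rwa [nodeW_negY] at this
      have e1 : (σ t - t) * x = -(2 * t + 1) * x := by
        have : σ t * x = -(t * x) - x := by
          rw [← hyt, ← hy', hσy, hxe]
        linear_combination this
      have e2 : σ t - t = -(2 * t + 1) := mul_right_cancel₀ hx0 e1
      have hunit : v (2 * t + 1) = 1 := by
        rw [Valuation.map_add_eq_of_lt_right v (by rw [map_one]; exact hv2t t hvt), map_one]
      rw [e2, Valuation.map_neg, hunit] at hvtt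
      exact lt_irrefl _ hvtt
  · -- different abscissae: the chord through `φ Q` and `-Q`
    right
    rw [hφQ, sub_eq_add_neg, Point.neg_some, Point.add_of_X_ne hxe]
    refine ⟨_, _, _, rfl, ?_⟩
    have hd0 : σ x - x ≠ 0 := sub_ne_zero.mpr hxe
    have hvd0 : v (σ x - x) ≠ 0 := (map_ne_zero v).mpr hd0
    have hvdpos : 0 < v (σ x - x) := zero_lt_iff.mpr hvd0
    have hvd : v (σ x - x) ≤ v x := v.map_sub_le hvσx.le le_rfl
    set X := (nodeW a₂ a₄).toAffine.addX (σ x) x
      ((nodeW a₂ a₄).toAffine.slope (σ x) x (σ y) ((nodeW a₂ a₄).toAffine.negY x y)) with hX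
    -- `X * d² = N² + N d - (a₂ + x' + x) d²`
    have hXd : X * (σ x - x) ^ 2 = (σ t * σ x + (t + 1) * x) ^ 2
        + (σ t * σ x + (t + 1) * x) * (σ x - x) - (a₂ + σ x + x) * (σ x - x) ^ 2 := by
      rw [hX, Affine.slope_of_X_ne hxe, nodeW_negY, hσy]
      simp only [Affine.addX, nodeW_a₁, nodeW_a₂]
      rw [hyt]
      field_simp
      ring
    have hE' : σ x * (σ t ^ 2 + σ t) = σ x ^ 2 + a₂ * σ x + a₄ := by
      have : σ x * (σ x * (σ t ^ 2 + σ t)) = σ x * (σ x ^ 2 + a₂ * σ x + a₄) := by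
        rw [hσy] at heq'
        linear_combination heq'
      exact mul_left_cancel₀ hσx0 this
    have hid := chord_identity (a₂ := a₂) (a₄ := a₄) (x := x) (x' := σ x) (t := t) (t' := σ t) hE'
    rw [← hXd] at hid
    -- valuation of the main term
    have hu1 : v (t + 1 + σ t) = 1 := by
      have e : t + 1 + σ t = 1 + (2 * t + (σ t - t)) := by ring
      have hs : v (2 * t + (σ t - t)) < 1 :=
        lt_of_le_of_lt (v.map_add _ _) (max_lt (hv2t t hvt) hvtt)
      rw [e, Valuation.map_add_eq_of_lt_left v (by rwa [map_one]), map_one]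
    have hu2 : v ((2 * σ t + 1) * σ x + (t - σ t) * x) = v x := by
      have hA : v ((2 * σ t + 1) * σ x) = v x := by
        rw [map_mul, hvσx,
          Valuation.map_add_eq_of_lt_right v (by rw [map_one]; exact hv2t _ hvσt), map_one, one_mul]
      have hB : v ((t - σ t) * x) < v x := by
        rw [map_mul, Valuation.map_sub_swap]
        calc v (σ t - t) * v x < 1 * v x := mul_lt_mul_of_pos_right hvtt hvxpos
          _ = v x := one_mul _
      rw [Valuation.map_add_eq_of_lt_left v (by rwa [hA]), hA]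
    have hmain : v (σ x * x * (t + 1 + σ t) * ((2 * σ t + 1) * σ x + (t - σ t) * x))
        = v x * v x * v x := by
      rw [map_mul, map_mul, map_mul, hvσx, hu1, hu2, mul_one]
    have hrest : v ((a₄ - x * σ x) * (σ x - x) ^ 2) < v x * v x * v x := by
      have h1 : v (a₄ - x * σ x) < v x := by
        refine lt_of_le_of_lt (v.map_sub _ _) (max_lt hsx ?_)
        rw [map_mul, hvσx]
        calc v x * v x < v x * 1 := mul_lt_mul_of_pos_left hx1 hvxpos
          _ = v x := mul_one _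
      rw [map_mul, map_pow, sq]
      calc v (a₄ - x * σ x) * (v (σ x - x) * v (σ x - x))
          ≤ v (a₄ - x * σ x) * (v x * v x) := by gcongr
        _ < v x * (v x * v x) := mul_lt_mul_of_pos_right h1 (mul_pos hvxpos hvxpos)
        _ = v x * v x * v x := (mul_assoc _ _ _).symm
    have hval : v (σ x * (X * (σ x - x) ^ 2)) = v x * v x * v x := by
      rw [hid, Valuation.map_add_eq_of_lt_left v (by rwa [hmain]), hmain]
    have hXval : v X * v (σ x - x) ^ 2 = v x ^ 2 := by
      rw [map_mul, map_mul, hvσx, map_pow, mul_assoc (v x) (v x) (v x)] at hval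
      have := mul_left_cancel₀ hvx0 hval
      rw [this, sq]
    have hXge : 1 ≤ v X := by
      by_contra hlt
      rw [not_le] at hlt
      have : v X * v (σ x - x) ^ 2 < v x ^ 2 := by
        calc v X * v (σ x - x) ^ 2 < 1 * v (σ x - x) ^ 2 :=
              mul_lt_mul_of_pos_right hlt (pow_pos hvdpos 2)
          _ = v (σ x - x) ^ 2 := one_mul _
          _ ≤ v x ^ 2 := by gcongr
      exact this.ne hXval
    -- `φ Q - Q` is torsion, so its abscissa is integral
    refine le_antisymm ?_ hXge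
    have hR : p • (φ (Point.some x y h) - Point.some x y h) = 0 := by
      rw [smul_sub, ← map_nsmul, hT, map_zero, sub_zero]
    rw [hφQ, sub_eq_add_neg, Point.neg_some, Point.add_of_X_ne hxe] at hR
    exact val_x_le_one_of_torsion v hF1 _ hR

end regions

/-- **Unipotence.** For every `p`-torsion point `Q` of the node model, `φ (φ Q - Q) = φ Q - Q`,
i.e. `(φ - 1)² = 0` on the `p`-torsion. -/
theorem unipotent {a₂ a₄ : K} {σ : K →+* K}
    {φ : (nodeW a₂ a₄).toAffine.Point →+ (nodeW a₂ a₄).toAffine.Point}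
    (h2 : v (2 : K) < 1) (ha₂ : v a₂ ≤ 1) (ha₄ : v a₄ < 1) (ha₄0 : a₄ ≠ 0)
    {p : ℕ} (hp : p.Prime) (hp2 : p ≠ 2)
    (hF1 : H18.NoTorsionInE1 v (nodeW a₂ a₄).toAffine p)
    (hσ : H5.ResTrivial v σ) (hσv : ∀ z : K, v (σ z) = v z) (hφ : CoordAction a₂ a₄ σ φ)
    {Q : (nodeW a₂ a₄).toAffine.Point} (hQ : p • Q = 0) :
    φ (φ Q - Q) = φ Q - Q := by
  have hfix : ∀ {T : (nodeW a₂ a₄).toAffine.Point}, φ T = T → φ (φ T - T) = φ T - T := by
    intro T hT
    rw [hT, sub_self, map_zero]
  cases Q with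
  | zero => exact hfix (map_zero φ)
  | some x y h =>
    have hx : v x ≤ 1 := val_x_le_one_of_torsion v hF1 h hQ
    rcases hx.lt_or_eq with hx1 | hx1
    · rcases le_or_gt (v x) (v a₄) with hxs | hxs
      · exact hfix (fixed_of_deep v h2 ha₂ ha₄ ha₄0 hp hp2 hF1 hσ hφ h hQ hxs)
      · rcases sub_eq_zero_or_unit_x v h2 ha₂ hF1 hσ hσv hφ h hQ hxs hx1 with h0 | h1
        · rw [h0, map_zero]
        · obtain ⟨X, Y, hXY, e, hX1⟩ := h1
          have hR : p • (φ (Point.some x y h) - Point.some x y h) = 0 := by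
            rw [smul_sub, ← map_nsmul, hQ, map_zero, sub_zero]
          rw [e] at hR ⊢
          exact fixed_of_unit_x v h2 ha₂ ha₄.le hF1 hσ hφ hXY hR hX1
    · exact hfix (fixed_of_unit_x v h2 ha₂ ha₄.le hF1 hσ hφ h hQ hx1)

end Fermat.Agent.S13.H70
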