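import Mathlib
import Fermat.Agent.S13.H70_Inertia
import Fermat.Agent.S13.H89_GF1
import Fermat.Agent.S05.H5_Final

/-!
# Inertia at `2` acts unipotently on the `p`-torsion of the Frey curve
(package LOC2 of project S13: instantiation of `H70.unipotent` for the frozen Frey curve).

Export (shape (LOC2-a) of the GLUE package):
`frey_unipotent_two : ∀ A over 2, ∀ σ ∈ I_A, ∀ x : E[p], σ • (σ • x - x) = σ • x - x`.
-/

set_option autoImplicit false

namespace Fermat.Agent.S13.H70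

open WeierstrassCurve WeierstrassCurve.Affine WeierstrassCurve.Affine.Point
open Fermat.Agent.S05

section F1bridge

variable {K : Type*} [Field K] [DecidableEq K]

/-- General F1 (helper89's `H89_GF1`) in the shape consumed by `H70_Inertia`. -/
theorem noTorsionInE1_node (A : ValuationSubring K) {a₂ a₄ : K} (ha₂ : A.valuation a₂ ≤ 1)
    (ha₄ : A.valuation a₄ ≤ 1) {n : ℕ} (hn : A.valuation (n : K) = 1) :
    H18.NoTorsionInE1 A.valuation (nodeW a₂ a₄).toAffine n := by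
  intro Q hnQ hQ
  have ha₂' : a₂ ∈ A := (A.valuation_le_one_iff a₂).mp ha₂
  have ha₄' : a₄ ∈ A := (A.valuation_le_one_iff a₄).mp ha₄
  have hn0 : (n : K) ≠ 0 := by
    intro h0
    rw [h0, _root_.map_zero] at hn
    exact zero_ne_one hn
  have hninv : (n : K)⁻¹ ∈ A := by
    rw [← A.valuation_le_one_iff, map_inv₀, hn, inv_one]
  obtain ⟨hb₂, hb₄, hb₆, hb₈⟩ := Fermat.Agent.S13.H89.b_mem_of_a_mem (nodeW a₂ a₄) A
    (by simp [A.one_mem]) (by simpa using ha₂') (by simp [A.zero_mem]) (by simpa using ha₄')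
    (by simp [A.zero_mem])
  have hx := Fermat.Agent.S13.H89.xCoord_mem_of_nsmul_eq_zero (nodeW a₂ a₄) A hb₂ hb₄ hb₆ hb₈
    hninv hn0 hnQ
  cases Q with
  | zero => rfl
  | some x y h =>
    exfalso
    have h1 : (1 : A.ValueGroup) < A.valuation x := hQ
    have h2 : x ∈ A := hx
    exact absurd ((A.valuation_le_one_iff x).mpr h2) (not_le.mpr h1)

end F1bridge

local notation "Qbar" => AlgebraicClosure ℚ

attribute [local instance 10000] AlgebraicClosure.instAlgebra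

section transport

variable (a₂ a₄ : ℚ)

/-- the base change of the rational node model is the node model of the images -/
lemma nodeW_bc : ((nodeW a₂ a₄)⁄Qbar) =
    nodeW (algebraMap ℚ Qbar a₂) (algebraMap ℚ Qbar a₄) := by
  simp only [nodeW, WeierstrassCurve.baseChange, WeierstrassCurve.map, _root_.map_zero,
    _root_.map_one]

/-- the action of `σ` transported to the node model over `Qbar` -/
noncomputable def phiNode (σ : Qbar ≃ₐ[ℚ] Qbar) :
    (nodeW (algebraMap ℚ Qbar a₂) (algebraMap ℚ Qbar a₄)).toAffine.Point →+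
      (nodeW (algebraMap ℚ Qbar a₂) (algebraMap ℚ Qbar a₄)).toAffine.Point :=
  ((H79.pointCongr (nodeW_bc a₂ a₄)).toAddMonoidHom.comp
    (Point.map (W' := (nodeW a₂ a₄).toAffine) σ.toAlgHom)).comp
    (H79.pointCongr (nodeW_bc a₂ a₄)).symm.toAddMonoidHom

lemma pointCongr_symm_some_node {x y : Qbar}
    (h : (nodeW (algebraMap ℚ Qbar a₂) (algebraMap ℚ Qbar a₄)).toAffine.Nonsingular x y) :
    ∃ h', (H79.pointCongr (nodeW_bc a₂ a₄)).symm (Point.some x y h) = Point.some x y h' := by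
  have h' : ((nodeW a₂ a₄)⁄Qbar).toAffine.Nonsingular x y := (nodeW_bc a₂ a₄) ▸ h
  refine ⟨h', ?_⟩
  apply (H79.pointCongr (nodeW_bc a₂ a₄)).injective
  rw [AddEquiv.apply_symm_apply, H79.pointCongr_some]

lemma coordAction_phiNode (σ : Qbar ≃ₐ[ℚ] Qbar) :
    CoordAction (algebraMap ℚ Qbar a₂) (algebraMap ℚ Qbar a₄) (σ : Qbar →+* Qbar)
      (phiNode a₂ a₄ σ) := by
  constructor
  intro x y h
  obtain ⟨h', e⟩ := pointCongr_symm_some_node a₂ a₄ h
  have h'' : ((nodeW a₂ a₄)⁄Qbar).toAffine.Nonsingular (σ x) (σ y) :=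
    H38.nonsingular_apply (nodeW a₂ a₄) σ h'
  refine ⟨(nodeW_bc a₂ a₄) ▸ h'', ?_⟩
  simp only [phiNode, AddMonoidHom.comp_apply, AddEquiv.coe_toAddMonoidHom]
  rw [e]
  erw [Point.map_some]
  exact H79.pointCongr_some _ _

/-- `phiNode` is the Galois action conjugated by `pointCongr` -/
lemma phiNode_pointCongr (σ : Qbar ≃ₐ[ℚ] Qbar) (Q : ((nodeW a₂ a₄)⁄Qbar).Point) :
    phiNode a₂ a₄ σ (H79.pointCongr (nodeW_bc a₂ a₄) Q) =
      H79.pointCongr (nodeW_bc a₂ a₄) (σ • Q) := by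
  simp only [phiNode, AddMonoidHom.comp_apply, AddEquiv.coe_toAddMonoidHom,
    AddEquiv.symm_apply_apply]
  rfl

end transport

section local_theorem

variable (a₂ a₄ : ℚ) {A : ValuationSubring Qbar} {σ : Qbar ≃ₐ[ℚ] Qbar}

/-- **Unipotence of inertia at a place of residue characteristic `2`** on the `p`-torsion of a
rational node model with `a₂` integral and `a₄` in the maximal ideal. -/
theorem node_unipotent (hσ : σ ∈ A.inertiaSubgroupIn ℚ)
    (h2 : A.valuation (2 : Qbar) < 1)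
    (ha₂ : A.valuation (algebraMap ℚ Qbar a₂) ≤ 1)
    (ha₄ : A.valuation (algebraMap ℚ Qbar a₄) < 1) (ha₄0 : a₄ ≠ 0)
    {p : ℕ} (hp : p.Prime) (hp2 : p ≠ 2) (hpv : A.valuation (p : Qbar) = 1)
    (x : Submodule.torsionBy ℤ ((nodeW a₂ a₄)⁄Qbar).Point p) :
    σ • (σ • x - x) = σ • x - x := by
  have ha₄0' : algebraMap ℚ Qbar a₄ ≠ 0 := by
    rwa [Ne, map_eq_zero_iff _ (algebraMap ℚ Qbar).injective]
  have hF1 := noTorsionInE1_node A ha₂ ha₄.le hpv
  obtain ⟨Q, hQ⟩ := x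
  apply Subtype.ext
  change σ • (σ • Q - Q) = σ • Q - Q
  rw [Submodule.mem_torsionBy_iff] at hQ
  set e := H79.pointCongr (nodeW_bc a₂ a₄) with he
  have hQ' : p • e Q = 0 := by
    rw [← map_nsmul, ← natCast_zsmul, hQ, _root_.map_zero]
  have key := unipotent A.valuation h2 ha₂ ha₄ ha₄0' hp hp2 hF1
    (H5.resTrivial_of_mem hσ) (fun z => H38.valuation_apply hσ z)
    (coordAction_phiNode a₂ a₄ σ) hQ'
  rw [phiNode_pointCongr, ← map_sub, phiNode_pointCongr] at key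
  exact e.injective key

end local_theorem

section frey

variable (P : FreyPackage)

/-- the `a₂`-coefficient of the Frey curve -/
def freyA2 : ℚ := ((P.b : ℚ) ^ P.p - 1 - (P.a : ℚ) ^ P.p) / 4

/-- the `a₄`-coefficient of the Frey curve -/
def freyA4 : ℚ := -((P.a : ℚ) ^ P.p) * ((P.b : ℚ) ^ P.p) / 16

lemma freyCurve_eq_nodeW : P.freyCurve = nodeW (freyA2 P) (freyA4 P) := rfl

lemma two_dvd_b : (2 : ℤ) ∣ P.b := (ZMod.intCast_zmod_eq_zero_iff_dvd P.b 2).1 P.hb2

/-- `a₂` is an integer -/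
lemma exists_freyA2_eq : ∃ k : ℤ, freyA2 P = (k : ℚ) := by
  have h4 : (4 : ℤ) ∣ P.b ^ P.p - 1 - P.a ^ P.p := by
    apply (ZMod.intCast_zmod_eq_zero_iff_dvd _ 4).1
    push_cast
    have hb : ((P.b : ZMod 4)) ^ P.p = 0 := by
      obtain ⟨b', hb'⟩ := two_dvd_b P
      obtain ⟨k, hk⟩ : ∃ k, P.p = 2 + k := ⟨P.p - 2, by have := P.hp5; omega⟩
      rw [hb', hk]
      push_cast
      rw [mul_pow, pow_add]
      have : (2 : ZMod 4) ^ 2 = 0 := by decide
      rw [this, zero_mul, zero_mul]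
    have ha : ((P.a : ZMod 4)) ^ P.p = -1 := by
      rw [P.ha4]
      have : (3 : ZMod 4) = -1 := by decide
      rw [this, P.hp_odd.neg_one_pow]
    rw [hb, ha]
    decide
  obtain ⟨k, hk⟩ := h4
  refine ⟨k, ?_⟩
  have : ((P.b : ℚ) ^ P.p - 1 - (P.a : ℚ) ^ P.p) = 4 * (k : ℚ) := by
    have := congrArg (fun z : ℤ => (z : ℚ)) hk
    push_cast at this
    exact this
  rw [freyA2, this]
  field_simp

/-- `a₄` is twice an integer -/
lemma exists_freyA4_eq : ∃ k : ℤ, freyA4 P = 2 * (k : ℚ) := by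
  obtain ⟨b', hb'⟩ := two_dvd_b P
  obtain ⟨k, hk⟩ : ∃ k, P.p = 5 + k := ⟨P.p - 5, by have := P.hp5; omega⟩
  refine ⟨-(P.a ^ P.p) * (2 ^ k * b' ^ P.p), ?_⟩
  have hbq : (P.b : ℚ) = 2 * (b' : ℚ) := by
    have := congrArg (fun z : ℤ => (z : ℚ)) hb'
    push_cast at this
    exact this
  have h2 : (2 : ℚ) ^ P.p = 32 * 2 ^ k := by
    rw [hk, pow_add]; norm_num
  rw [freyA4, hbq, mul_pow, h2]
  push_cast
  ring

lemma freyA4_ne_zero : freyA4 P ≠ 0 := by
  rw [freyA4]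
  have ha : (P.a : ℚ) ≠ 0 := by exact_mod_cast P.ha0
  have hb : (P.b : ℚ) ≠ 0 := by exact_mod_cast P.hb0
  have h1 : (P.a : ℚ) ^ P.p ≠ 0 := pow_ne_zero _ ha
  have h2 : (P.b : ℚ) ^ P.p ≠ 0 := pow_ne_zero _ hb
  exact div_ne_zero (mul_ne_zero (neg_ne_zero.mpr h1) h2) (by norm_num)

/-- **(LOC2-a)** Inertia at `2` acts unipotently on the `p`-torsion of the Frey curve:
`(σ - 1)² = 0`. -/
theorem frey_unipotent_two (A : ValuationSubring Qbar) (hA : A.LiesOverPrime 2)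
    (σ : Qbar ≃ₐ[ℚ] Qbar) (hσ : σ ∈ A.inertiaSubgroupIn ℚ)
    (x : Submodule.torsionBy ℤ (P.freyCurve⁄Qbar).Point P.p) :
    σ • (σ • x - x) = σ • x - x := by
  have h2 : A.valuation (2 : Qbar) < 1 := by
    have := H38.valuation_natCast_lt_one hA
    simpa using this
  have hp2 : P.p ≠ 2 := by have := P.hp5; omega
  have hpv : A.valuation (P.p : Qbar) = 1 :=
    H35.valuation_natCast_eq_one_of_prime_ne Nat.prime_two hA P.pp hp2
  obtain ⟨k₂, hk₂⟩ := exists_freyA2_eq P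
  obtain ⟨k₄, hk₄⟩ := exists_freyA4_eq P
  have ha₂ : A.valuation (algebraMap ℚ Qbar (freyA2 P)) ≤ 1 := by
    rw [hk₂]
    simp
  have ha₄ : A.valuation (algebraMap ℚ Qbar (freyA4 P)) < 1 := by
    rw [hk₄, map_mul, map_mul]
    have h1 : A.valuation (algebraMap ℚ Qbar (k₄ : ℚ)) ≤ 1 := by
      simp
    have h2' : A.valuation (algebraMap ℚ Qbar (2 : ℚ)) < 1 := by
      simpa using h2
    calc A.valuation (algebraMap ℚ Qbar (2 : ℚ)) * A.valuation (algebraMap ℚ Qbar (k₄ : ℚ))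
        ≤ A.valuation (algebraMap ℚ Qbar (2 : ℚ)) * 1 := by gcongr
      _ = A.valuation (algebraMap ℚ Qbar (2 : ℚ)) := mul_one _
      _ < 1 := h2'
  exact node_unipotent (freyA2 P) (freyA4 P) hσ h2 ha₂ ha₄ (freyA4_ne_zero P) P.pp hp2 hpv x

end frey

end Fermat.Agent.S13.H70
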