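import Mathlib
import Fermat.Statements.S13
import Fermat.Agent.S13.H11_Frey2
import Fermat.Agent.S13.H89_GF1
import Fermat.Agent.S13.H70_Frey2

/-!
# S13 / hrat (helper13): no Galois-fixed nonzero `p`-torsion point on the Frey curve

Combines helper11's `H11.frey_no_rat_torsion` (no rational `p`-torsion, given F1 at `2`),
helper89's general F1 (`H89.xCoord_mem_of_nsmul_eq_zero`) and Galois descent.
-/

set_option autoImplicit false

open WeierstrassCurve WeierstrassCurve.Affine WeierstrassCurve.Affine.Point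
open FreyPackage

namespace Fermat.Agent.S13.H13

local notation "Qb" => AlgebraicClosure ℚ

variable (P : FreyPackage)

instance factTwo : Fact (Nat.Prime 2) := ⟨Nat.prime_two⟩

lemma val_intCast_le_one (k : ℤ) : Rat.padicValuation 2 (k : ℚ) ≤ 1 := by
  rw [Rat.padicValuation_cast]
  exact Int.padicValuation_le_one 2 k

/-- F1 at `2` over `ℚ`: rational `p`-torsion points have `2`-integral abscissa. -/
theorem frey_hF1 : ∀ Q : P.freyCurve.toAffine.Point, Q ≠ 0 → P.p • Q = 0 →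
    Rat.padicValuation 2 (Fermat.Agent.S05.H67.xCoord P.freyCurve Q) ≤ 1 := by
  intro Q _ hQ
  set A : ValuationSubring ℚ := (Rat.padicValuation 2).valuationSubring with hA
  have hmem : ∀ z : ℚ, z ∈ A ↔ Rat.padicValuation 2 z ≤ 1 := fun z =>
    Valuation.mem_valuationSubring_iff _ z
  obtain ⟨k2, hk2⟩ := Fermat.Agent.S13.H70.exists_freyA2_eq P
  obtain ⟨k4, hk4⟩ := Fermat.Agent.S13.H70.exists_freyA4_eq P
  have ha₁ : P.freyCurve.a₁ ∈ A := by
    change (1 : ℚ) ∈ A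
    exact A.one_mem
  have ha₂ : P.freyCurve.a₂ ∈ A := by
    change Fermat.Agent.S13.H70.freyA2 P ∈ A
    rw [hk2, hmem]
    exact val_intCast_le_one k2
  have ha₃ : P.freyCurve.a₃ ∈ A := by
    change (0 : ℚ) ∈ A
    exact A.zero_mem
  have ha₄ : P.freyCurve.a₄ ∈ A := by
    change Fermat.Agent.S13.H70.freyA4 P ∈ A
    rw [hk4, hmem]
    have : (2 : ℚ) * (k4 : ℚ) = ((2 * k4 : ℤ) : ℚ) := by push_cast; ring
    rw [this]
    exact val_intCast_le_one _
  have ha₆ : P.freyCurve.a₆ ∈ A := by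
    change (0 : ℚ) ∈ A
    exact A.zero_mem
  obtain ⟨hb₂, hb₄, hb₆, hb₈⟩ :=
    Fermat.Agent.S13.H89.b_mem_of_a_mem P.freyCurve A ha₁ ha₂ ha₃ ha₄ ha₆
  have hp0 : ((P.p : ℕ) : ℚ) ≠ 0 := by exact_mod_cast P.hp0
  have hpv : Rat.padicValuation 2 ((P.p : ℕ) : ℚ) = 1 := by
    have : ((P.p : ℕ) : ℚ) = ((P.p : ℤ) : ℚ) := by push_cast; rfl
    rw [this, Rat.padicValuation_cast, Int.padicValuation_eq_one_iff]
    intro h
    have h2 : (2 : ℕ) ∣ P.p := by exact_mod_cast h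
    have := (Nat.prime_dvd_prime_iff_eq Nat.prime_two P.pp).mp h2
    have := P.hp5
    omega
  have hn : ((P.p : ℕ) : ℚ)⁻¹ ∈ A := by
    rw [hmem, map_inv₀, hpv, inv_one]
  have h := Fermat.Agent.S13.H89.xCoord_mem_of_nsmul_eq_zero P.freyCurve A hb₂ hb₄ hb₆ hb₈
    hn hp0 hQ
  exact (hmem _).mp h

/-- The Frey curve has no nonzero rational point killed by `p`. -/
theorem frey_no_rat (T : P.freyCurve.toAffine.Point) (hT : P.p • T = 0) : T = 0 :=
  Fermat.Agent.S13.H11.frey_no_rat_torsion P (frey_hF1 P) T hT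

/-- An element of `ℚ̄` fixed by all of `Gal(ℚ̄/ℚ)` is rational. -/
theorem exists_rat_of_fixed (x : Qb) (hx : ∀ σ : Qb ≃ₐ[ℚ] Qb, σ x = x) :
    ∃ r : ℚ, algebraMap ℚ Qb r = x := by
  have : IsAlgClosure ℚ Qb := AlgebraicClosure.instIsAlgClosure ℚ
  have : IsGalois ℚ Qb := IsAlgClosure.isGalois ℚ Qb
  exact (InfiniteGalois.mem_range_algebraMap_iff_fixed x).mpr hx

/-- **hrat**: a `p`-torsion point of the Frey curve over `ℚ̄` fixed by all of `G_ℚ` is zero. -/
theorem frey_hrat : ∀ x : Submodule.torsionBy ℤ (P.freyCurve⁄Qb).Point P.p,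
    (∀ σ : Qb ≃ₐ[ℚ] Qb, σ • x = x) → x = 0 := by
  rintro ⟨Q, hQ⟩ hfix
  apply Subtype.ext
  change Q = 0
  rw [Submodule.mem_torsionBy_iff, natCast_zsmul] at hQ
  have hfix' : ∀ σ : Qb ≃ₐ[ℚ] Qb, σ • Q = Q := fun σ => congrArg Subtype.val (hfix σ)
  cases Q with
  | zero => rfl
  | some x₀ y₀ h =>
    exfalso
    have hxy : ∀ σ : Qb ≃ₐ[ℚ] Qb, σ x₀ = x₀ ∧ σ y₀ = y₀ := by
      intro σ
      have h1 := hfix' σ
      rw [algEquiv_smul_def, Point.map_some] at h1
      have h2 := Point.some.inj h1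
      exact ⟨h2.1, h2.2⟩
    obtain ⟨r, hr⟩ := exists_rat_of_fixed x₀ (fun σ => (hxy σ).1)
    obtain ⟨s, hs⟩ := exists_rat_of_fixed y₀ (fun σ => (hxy σ).2)
    subst hr hs
    have h' : (P.freyCurve⁄ℚ).Nonsingular r s :=
      (WeierstrassCurve.Affine.baseChange_nonsingular (W := P.freyCurve)
        (f := Algebra.ofId ℚ Qb) (Algebra.ofId ℚ Qb).injective r s).mp h
    set Q' : (P.freyCurve⁄ℚ).Point := Point.some r s h' with hQ'
    have hmap : Point.map (W' := P.freyCurve) (Algebra.ofId ℚ Qb) Q' = Point.some _ _ h := rfl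
    have hpQ' : P.p • Q' = 0 := by
      apply Point.map_injective (W' := P.freyCurve) (Algebra.ofId ℚ Qb)
      rw [map_nsmul, hmap, hQ, _root_.map_zero]
    have h0 : Q' = 0 := frey_no_rat P Q' hpQ'
    exact Point.some_ne_zero h' h0

end Fermat.Agent.S13.H13
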