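import Mathlib
import Fermat.Agent.S14.H54_Unram
import Fermat.Agent.S05.H38_Gal

/-!
# S13 / MINK : an everywhere unramified finite-level subgroup of `GQ` is everything
-/

set_option autoImplicit false
set_option linter.style.haveILetI false

namespace Fermat.Agent.S13.H32

open Fermat.Agent.S54 Fermat.Agent.S14.H54 NumberField
open scoped Pointwise

attribute [local instance] isAlgebraic_Qbar isAlgClosure_Qbar isGalois_Qbar

/-- A Galois number field all of whose inertia groups are trivial has degree one. -/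
theorem finrank_eq_one_of_inertia_eq_bot {F : Type} [Field F] [NumberField F] [IsGalois ℚ F]
    (h : ∀ (P : Ideal (𝓞 F)) [P.IsPrime], P ≠ ⊥ → P.inertia (F ≃ₐ[ℚ] F) = ⊥) :
    Module.finrank ℚ F = 1 := by
  by_contra hne
  obtain ⟨P, hPmax, hP⟩ := NumberField.exists_not_isUnramifiedAt_int (K := F) (𝒪 := 𝓞 F) hne
  apply hP
  haveI : IsGaloisGroup (F ≃ₐ[ℚ] F) ℤ (𝓞 F) := IsGaloisGroup.of_isFractionRing _ _ _ ℚ F
  have hP0 : P ≠ ⊥ := by
    intro h0
    subst h0
    exact Ring.ne_bot_of_isMaximal_of_not_isField hPmax (RingOfIntegers.not_isField F) rfl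
  haveI : P.IsPrime := hPmax.isPrime
  have hp0 : P.under ℤ ≠ ⊥ := by
    intro h0
    exact hP0 (Ideal.eq_bot_of_comap_eq_bot h0)
  haveI : (P.under ℤ).IsMaximal := Ring.DimensionLEOne.maximalOfPrime hp0 inferInstance
  rw [← Ideal.ramificationIdx_eq_one_iff]
  have h1 := Ideal.card_inertia_eq_ramificationIdxIn (G := F ≃ₐ[ℚ] F) (P.under ℤ) P
  rw [h P hP0] at h1
  rw [← Ideal.ramificationIdxIn_eq_ramificationIdx (P.under ℤ) P (F ≃ₐ[ℚ] F), ← h1]
  simp

/-- **Minkowski for `GQ`, normal case.** A normal subgroup of `GQ` of finite level containing all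
inertia groups is everything. -/
theorem eq_top_of_unramified_of_normal (H : Subgroup GQ) [hN : H.Normal]
    (hfin : ∃ L : IntermediateField ℚ Qbar, FiniteDimensional ℚ L ∧ L.fixingSubgroup ≤ H)
    (hunr : ∀ A : ValuationSubring Qbar, A.inertiaSubgroupIn ℚ ≤ H) : H = ⊤ := by
  obtain ⟨L, hLfin, hLH⟩ := hfin
  have hopen : IsOpen (H : Set GQ) := Subgroup.isOpen_mono hLH L.fixingSubgroup_isOpen
  have hclosed : IsClosed (H : Set GQ) := Subgroup.isClosed_of_isOpen H hopen
  let F : IntermediateField ℚ Qbar := IntermediateField.fixedField H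
  have hFL : F ≤ L := by
    have h1 : IntermediateField.fixedField H ≤ IntermediateField.fixedField L.fixingSubgroup :=
      IntermediateField.fixedField_antitone hLH
    rwa [InfiniteGalois.fixedField_fixingSubgroup] at h1
  haveI : FiniteDimensional ℚ F :=
    Module.Finite.of_injective (IntermediateField.inclusion hFL).toLinearMap
      (IntermediateField.inclusion_injective hFL)
  haveI : NumberField F := { to_charZero := inferInstance, to_finiteDimensional := inferInstance }
  have hHF : F.fixingSubgroup = H := InfiniteGalois.fixingSubgroup_fixedField ⟨H, hclosed⟩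
  haveI : IsGalois ℚ F := by
    have h1 : F.fixingSubgroup.Normal := by rw [hHF]; exact hN
    have h2 := (InfiniteGalois.normal_iff_isGalois F).mp h1
    convert h2
    exact Subsingleton.elim _ _
  have hin : ∀ (P : Ideal (𝓞 F)) [P.IsPrime], P ≠ ⊥ → P.inertia (F ≃ₐ[ℚ] F) = ⊥ := by
    intro P _ hP
    refine inertia_eq_bot (K := ℚ) (L := F) F.val ?_ P hP
    intro A σ hσ _ y
    have hσH : σ ∈ H := hunr A hσ
    exact y.2 ⟨σ, hσH⟩
  have h1 := finrank_eq_one_of_inertia_eq_bot hin
  have hbot : F = ⊥ := IntermediateField.finrank_eq_one_iff.mp h1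
  rw [← hHF, hbot, IntermediateField.fixingSubgroup_bot]

/-! ### Conjugation of inertia groups -/

theorem smul_mem_smul_iff (b : GQ) (A : ValuationSubring Qbar) (x : Qbar) :
    b x ∈ b • A ↔ x ∈ A := by
  rw [ValuationSubring.mem_pointwise_smul_iff_inv_smul_mem]
  have : b⁻¹ • (b x) = x := by
    change b⁻¹ • (b • x) = x
    rw [inv_smul_smul]
  rw [this]

theorem mem_smul_iff (b : GQ) (A : ValuationSubring Qbar) (x : Qbar) :
    x ∈ b • A ↔ b⁻¹ x ∈ A := by
  rw [ValuationSubring.mem_pointwise_smul_iff_inv_smul_mem]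
  rfl

theorem apply_mem_nonunits_smul (b : GQ) (A : ValuationSubring Qbar) {x : Qbar}
    (hx : x ∈ A.nonunits) : b x ∈ (b • A).nonunits := by
  rw [ValuationSubring.mem_nonunits_iff_or] at hx ⊢
  rcases hx with rfl | hx
  · left; simp
  · right
    rw [← map_inv₀, smul_mem_smul_iff]
    exact hx

/-- Conjugating an inertia element gives an inertia element of the translated valuation ring. -/
theorem conj_mem_inertiaSubgroupIn (b : GQ) {A : ValuationSubring Qbar} {σ : GQ}
    (hσ : σ ∈ A.inertiaSubgroupIn ℚ) : b * σ * b⁻¹ ∈ (b • A).inertiaSubgroupIn ℚ := by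
  rw [mem_inertiaSubgroupIn_iff] at hσ ⊢
  obtain ⟨hd, hi⟩ := hσ
  rw [mem_decomposition_iff] at hd
  have key : ∀ x : Qbar, (b * σ * b⁻¹) x = b (σ (b⁻¹ x)) := fun x => rfl
  refine ⟨?_, ?_⟩
  · rw [mem_decomposition_iff]
    intro x
    rw [key, smul_mem_smul_iff, hd, mem_smul_iff]
  · intro x hx
    rw [mem_smul_iff] at hx
    have h1 := hi _ hx
    have h2 := apply_mem_nonunits_smul b A h1
    have h3 : b (σ (b⁻¹ x) - b⁻¹ x) = (b * σ * b⁻¹) x - x := by
      rw [map_sub, key]
      congr 1
      change b • (b⁻¹ • x) = x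
      rw [smul_inv_smul]
    rwa [h3] at h2

/-- **Minkowski for `GQ`.** A subgroup of `GQ` of finite level containing all inertia groups is
everything. -/
theorem eq_top_of_unramified (H : Subgroup GQ)
    (hfin : ∃ L : IntermediateField ℚ Qbar, FiniteDimensional ℚ L ∧ L.fixingSubgroup ≤ H)
    (hunr : ∀ A : ValuationSubring Qbar, A.inertiaSubgroupIn ℚ ≤ H) : H = ⊤ := by
  obtain ⟨L, hLfin, hLH⟩ := hfin
  have hcore : H.normalCore = ⊤ := by
    apply eq_top_of_unramified_of_normal
    · let L' : IntermediateField ℚ Qbar := IntermediateField.normalClosure ℚ L Qbar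
      haveI : FiniteDimensional ℚ L' := normalClosure.is_finiteDimensional ℚ L Qbar
      haveI : IsGalois ℚ L' := IsGalois.normalClosure ℚ L Qbar
      refine ⟨L', inferInstance, ?_⟩
      haveI : L'.fixingSubgroup.Normal := (InfiniteGalois.normal_iff_isGalois L').mpr inferInstance
      rw [Subgroup.normal_le_normalCore]
      exact le_trans (IntermediateField.fixingSubgroup_antitone
        (IntermediateField.le_normalClosure L)) hLH
    · intro A σ hσ
      rw [Subgroup.normalCore, Subgroup.mem_mk]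
      intro b
      exact hunr (b • A) (conj_mem_inertiaSubgroupIn b hσ)
  rw [eq_top_iff, ← hcore]
  exact Subgroup.normalCore_le H

/-! ### Variants -/

/-- The inertia group of the trivial valuation ring is trivial. -/
theorem eq_one_of_mem_inertiaSubgroupIn_top {σ : GQ}
    (hσ : σ ∈ (⊤ : ValuationSubring Qbar).inertiaSubgroupIn ℚ) : σ = 1 := by
  rw [mem_inertiaSubgroupIn_iff] at hσ
  ext x
  have h1 := hσ.2 x trivial
  rw [ValuationSubring.mem_nonunits_iff_or] at h1
  rcases h1 with h1 | h1
  · exact sub_eq_zero.mp h1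
  · exact absurd trivial h1

/-- **Minkowski for `GQ`**, with the inertia hypothesis only at valuation rings over primes. -/
theorem eq_top_of_unramified_at_primes (H : Subgroup GQ)
    (hfin : ∃ L : IntermediateField ℚ Qbar, FiniteDimensional ℚ L ∧ L.fixingSubgroup ≤ H)
    (hunr : ∀ q : ℕ, q.Prime → ∀ A : ValuationSubring Qbar, A.LiesOverPrime q →
      A.inertiaSubgroupIn ℚ ≤ H) : H = ⊤ := by
  apply eq_top_of_unramified H hfin
  intro A
  by_cases hA : A = ⊤
  · subst hA
    intro σ hσ
    rw [eq_one_of_mem_inertiaSubgroupIn_top hσ]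
    exact one_mem _
  · obtain ⟨ℓ, hℓ, hAℓ⟩ := exists_liesOverPrime hA
    exact hunr ℓ hℓ A hAℓ

/-- Character form: a finite-level homomorphism out of `GQ` which is trivial on all inertia
groups is trivial. -/
theorem monoidHom_eq_one_of_unramified {M : Type*} [Group M] (χ : GQ →* M)
    (hfin : ∃ L : IntermediateField ℚ Qbar, FiniteDimensional ℚ L ∧
      ∀ σ ∈ L.fixingSubgroup, χ σ = 1)
    (hunr : ∀ q : ℕ, q.Prime → ∀ A : ValuationSubring Qbar, A.LiesOverPrime q →
      ∀ σ ∈ A.inertiaSubgroupIn ℚ, χ σ = 1) (σ : GQ) : χ σ = 1 := by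
  have h : χ.ker = ⊤ := by
    apply eq_top_of_unramified_at_primes
    · obtain ⟨L, hL, h⟩ := hfin
      exact ⟨L, hL, fun σ hσ => MonoidHom.mem_ker.mpr (h σ hσ)⟩
    · intro q hq A hA σ hσ
      exact MonoidHom.mem_ker.mpr (hunr q hq A hA σ hσ)
  have : σ ∈ χ.ker := by rw [h]; trivial
  exact MonoidHom.mem_ker.mp this

/-- Action form: a finite-level action of `GQ` on which all inertia groups act trivially is
trivial. -/
theorem smul_eq_self_of_unramified {X : Type*} [MulAction GQ X]
    (hfin : ∃ L : IntermediateField ℚ Qbar, FiniteDimensional ℚ L ∧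
      ∀ σ ∈ L.fixingSubgroup, ∀ x : X, σ • x = x)
    (hunr : ∀ q : ℕ, q.Prime → ∀ A : ValuationSubring Qbar, A.LiesOverPrime q →
      ∀ σ ∈ A.inertiaSubgroupIn ℚ, ∀ x : X, σ • x = x) (σ : GQ) (x : X) : σ • x = x := by
  have h : (MulAction.toPermHom GQ X).ker = ⊤ := by
    apply eq_top_of_unramified_at_primes
    · obtain ⟨L, hL, h⟩ := hfin
      refine ⟨L, hL, fun σ hσ => ?_⟩
      rw [MonoidHom.mem_ker]
      ext x
      exact h σ hσ x
    · intro q hq A hA σ hσ
      rw [MonoidHom.mem_ker]
      ext x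
      exact hunr q hq A hA σ hσ x
  have h1 : σ ∈ (MulAction.toPermHom GQ X).ker := by rw [h]; trivial
  rw [MonoidHom.mem_ker] at h1
  have := congrArg (fun f : Equiv.Perm X => f x) h1
  simpa using this

/-! ### Frozen-instance shapes and finite level of points -/

section Frozen

open WeierstrassCurve WeierstrassCurve.Affine WeierstrassCurve.Affine.Point

attribute [local instance 10000] AlgebraicClosure.instAlgebra

/-- `eq_top_of_unramified_at_primes` with the `Algebra ℚ Qbar` instance of the frozen files. -/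
theorem eq_top_of_unramified_at_primes'
    (H : Subgroup (AlgebraicClosure ℚ ≃ₐ[ℚ] AlgebraicClosure ℚ))
    (hfin : ∃ L : IntermediateField ℚ (AlgebraicClosure ℚ),
      FiniteDimensional ℚ L ∧ L.fixingSubgroup ≤ H)
    (hunr : ∀ q : ℕ, q.Prime → ∀ A : ValuationSubring (AlgebraicClosure ℚ), A.LiesOverPrime q →
      A.inertiaSubgroupIn ℚ ≤ H) : H = ⊤ :=
  eq_top_of_unramified_at_primes H hfin hunr

variable (W : WeierstrassCurve ℚ)

/-- Every point of `W` over `Qbar` is fixed by an open subgroup of `GQ`. -/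
theorem exists_finiteDimensional_fixing_point (P : (W⁄(AlgebraicClosure ℚ)).Point) :
    ∃ L : IntermediateField ℚ (AlgebraicClosure ℚ), FiniteDimensional ℚ L ∧
      ∀ σ ∈ L.fixingSubgroup, σ • P = P := by
  cases P with
  | zero => exact ⟨⊥, inferInstance, fun σ _ => rfl⟩
  | some x y h =>
    refine ⟨IntermediateField.adjoin ℚ {x, y}, ?_, ?_⟩
    · apply IntermediateField.finiteDimensional_adjoin
      intro z _
      exact (isAlgebraic_Qbar.isAlgebraic z).isIntegral
    · intro σ hσ
      rw [IntermediateField.mem_fixingSubgroup_iff] at hσ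
      have hx : σ x = x := hσ x (IntermediateField.subset_adjoin ℚ _ (by simp))
      have hy : σ y = y := hσ y (IntermediateField.subset_adjoin ℚ _ (by simp))
      exact Fermat.Agent.S05.H38.smul_some_eq_self W σ h hx hy

/-- A finite Galois-stable set of points is fixed pointwise by an open subgroup. -/
theorem exists_finiteDimensional_fixing_torsion (n : ℕ)
    [Finite (Submodule.torsionBy ℤ (W⁄(AlgebraicClosure ℚ)).Point n)] :
    ∃ L : IntermediateField ℚ (AlgebraicClosure ℚ), FiniteDimensional ℚ L ∧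
      ∀ σ ∈ L.fixingSubgroup, ∀ x : Submodule.torsionBy ℤ (W⁄(AlgebraicClosure ℚ)).Point n,
        σ • x = x := by
  classical
  choose L hL hfix using fun x : Submodule.torsionBy ℤ (W⁄(AlgebraicClosure ℚ)).Point n =>
    exists_finiteDimensional_fixing_point W (x : (W⁄(AlgebraicClosure ℚ)).Point)
  refine ⟨⨆ x, L x, ?_, ?_⟩
  · haveI := hL
    exact IntermediateField.finiteDimensional_iSup_of_finite
  · intro σ hσ x
    apply Subtype.ext
    rw [Fermat.Agent.S05.H38.coe_smul_torsion]
    apply hfix x σ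
    exact IntermediateField.fixingSubgroup_antitone (le_iSup L x) hσ

/-- If all inertia groups fix a submodule `N` of the `n`-torsion pointwise, so does `GQ`. -/
theorem smul_eq_self_of_inertia_fixes (n : ℕ)
    [Finite (Submodule.torsionBy ℤ (W⁄(AlgebraicClosure ℚ)).Point n)]
    (N : Submodule (ZMod n) (Submodule.torsionBy ℤ (W⁄(AlgebraicClosure ℚ)).Point n))
    (hunr : ∀ q : ℕ, q.Prime → ∀ A : ValuationSubring (AlgebraicClosure ℚ), A.LiesOverPrime q →
      ∀ σ ∈ A.inertiaSubgroupIn ℚ, ∀ x ∈ N, σ • x = x)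
    (σ : AlgebraicClosure ℚ ≃ₐ[ℚ] AlgebraicClosure ℚ) :
    ∀ x ∈ N, σ • x = x := by
  let H : Subgroup (AlgebraicClosure ℚ ≃ₐ[ℚ] AlgebraicClosure ℚ) :=
    { carrier := {τ | ∀ x ∈ N, τ • x = x}
      mul_mem' := by
        intro a b ha hb x hx
        rw [mul_smul, hb x hx, ha x hx]
      one_mem' := fun x _ => one_smul _ x
      inv_mem' := by
        intro a ha x hx
        have h1 := ha x hx
        calc a⁻¹ • x = a⁻¹ • (a • x) := by rw [h1]
          _ = x := inv_smul_smul a x }
  have hH : H = ⊤ := by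
    apply eq_top_of_unramified_at_primes'
    · obtain ⟨L, hL, h⟩ := exists_finiteDimensional_fixing_torsion W n
      exact ⟨L, hL, fun τ hτ x _ => h τ hτ x⟩
    · intro q hq A hA τ hτ
      exact hunr q hq A hA τ hτ
  have : σ ∈ H := by rw [hH]; trivial
  exact this

/-- If all inertia groups act trivially on the quotient of the `n`-torsion by a Galois stable
submodule `N`, so does `GQ`. -/
theorem smul_sub_mem_of_inertia (n : ℕ)
    [Finite (Submodule.torsionBy ℤ (W⁄(AlgebraicClosure ℚ)).Point n)]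
    (N : Submodule (ZMod n) (Submodule.torsionBy ℤ (W⁄(AlgebraicClosure ℚ)).Point n))
    (hN : IsGaloisStable ℚ N)
    (hunr : ∀ q : ℕ, q.Prime → ∀ A : ValuationSubring (AlgebraicClosure ℚ), A.LiesOverPrime q →
      ∀ σ ∈ A.inertiaSubgroupIn ℚ,
        ∀ x : Submodule.torsionBy ℤ (W⁄(AlgebraicClosure ℚ)).Point n, σ • x - x ∈ N)
    (σ : AlgebraicClosure ℚ ≃ₐ[ℚ] AlgebraicClosure ℚ) :
    ∀ x : Submodule.torsionBy ℤ (W⁄(AlgebraicClosure ℚ)).Point n, σ • x - x ∈ N := by
  let H : Subgroup (AlgebraicClosure ℚ ≃ₐ[ℚ] AlgebraicClosure ℚ) :=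
    { carrier := {τ | ∀ x : Submodule.torsionBy ℤ (W⁄(AlgebraicClosure ℚ)).Point n, τ • x - x ∈ N}
      mul_mem' := by
        intro a b ha hb x
        have h1 : (a * b) • x - x = a • (b • x - x) + (a • x - x) := by
          rw [mul_smul, smul_sub]; abel
        rw [h1]
        exact N.add_mem (hN a _ (hb x)) (ha x)
      one_mem' := fun x => by rw [one_smul, sub_self]; exact N.zero_mem
      inv_mem' := by
        intro a ha x
        have h1 : a⁻¹ • x - x = -(a⁻¹ • (a • x - x)) := by
          rw [smul_sub, inv_smul_smul]; abel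
        rw [h1]
        exact N.neg_mem (hN a⁻¹ _ (ha x)) }
  have hH : H = ⊤ := by
    apply eq_top_of_unramified_at_primes'
    · obtain ⟨L, hL, h⟩ := exists_finiteDimensional_fixing_torsion W n
      refine ⟨L, hL, fun τ hτ x => ?_⟩
      rw [h τ hτ x, sub_self]
      exact N.zero_mem
    · intro q hq A hA τ hτ
      exact hunr q hq A hA τ hτ
  have : σ ∈ H := by rw [hH]; trivial
  exact this

end Frozen

end Fermat.Agent.S13.H32
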