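import Mathlib
import Fermat.Prelude.Def_FLTPrelim_FreyPackage
import Fermat.Prelude.Def_FLTPrelim_GaloisRep
import Fermat.Prelude.Def_FLTPrelim_Ramification
import Fermat.Prelude.Def_FLTPrelim_CofixedLine

/-!
# S13, package GLUE-abstract (helper35)

The group theoretic endgame of S13 in the frozen vocabulary: if the mod `p` representation of a
Weierstrass curve over `ℚ` is reducible, and the local packages (STRUCT, S05, LOC2, LOCp, MINK,
LEVEL) deliver the hypotheses below, then there is a Galois stable cofixed line.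
-/

set_option autoImplicit false

namespace Fermat.Agent.S13.H35

open Module

section LinAlg

variable {p : ℕ} [Fact p.Prime] {V : Type*} [AddCommGroup V] [Module (ZMod p) V]

/-- a finite `𝔽_p`-space with at most `p ^ 2` elements has dimension at most two -/
theorem finrank_le_two [Finite V] (hcard : Nat.card V ≤ p ^ 2) : finrank (ZMod p) V ≤ 2 := by
  have h := Module.natCard_eq_pow_finrank (K := ZMod p) (V := V)
  rw [Nat.card_zmod] at h
  rw [h] at hcard
  exact (Nat.pow_le_pow_iff_right (Fact.out : p.Prime).one_lt).mp hcard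

variable [Finite V]

theorem finrank_line (hcard : Nat.card V ≤ p ^ 2) {N : Submodule (ZMod p) V}
    (h0 : N ≠ ⊥) (h1 : N ≠ ⊤) : finrank (ZMod p) N = 1 ∧ finrank (ZMod p) V = 2 := by
  have h2 := finrank_le_two hcard
  have hlt := Submodule.finrank_lt h1
  have hpos : 0 < finrank (ZMod p) N := by
    rw [Nat.pos_iff_ne_zero, Ne, Submodule.finrank_eq_zero]
    exact h0
  omega

/-- a proper nonzero subspace is spanned by any of its nonzero vectors -/
theorem eq_span_of_mem (hcard : Nat.card V ≤ p ^ 2) {N : Submodule (ZMod p) V}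
    (h0 : N ≠ ⊥) (h1 : N ≠ ⊤) {x : V} (hx : x ∈ N) (hx0 : x ≠ 0) :
    N = Submodule.span (ZMod p) {x} := by
  symm
  apply Submodule.eq_of_le_of_finrank_eq
  · rwa [Submodule.span_singleton_le_iff_mem]
  · rw [finrank_span_singleton hx0, (finrank_line hcard h0 h1).1]

/-- a vector outside a proper nonzero subspace spans a complement -/
theorem span_sup_eq_top (hcard : Nat.card V ≤ p ^ 2) {N : Submodule (ZMod p) V}
    (h0 : N ≠ ⊥) (h1 : N ≠ ⊤) {x : V} (hx : x ∉ N) :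
    Submodule.span (ZMod p) {x} ⊔ N = ⊤ := by
  obtain ⟨hN, hV⟩ := finrank_line hcard h0 h1
  apply Submodule.eq_top_of_finrank_eq
  have hlt : N < Submodule.span (ZMod p) {x} ⊔ N := by
    refine lt_of_le_of_ne le_sup_right fun h => hx ?_
    rw [h]
    exact Submodule.mem_sup_left (Submodule.mem_span_singleton_self x)
  have h2 := Submodule.finrank_lt_finrank_of_lt hlt
  have h3 := Submodule.finrank_le (Submodule.span (ZMod p) {x} ⊔ N)
  omega

/-- position of a proper subspace relative to a line in a plane -/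
theorem proper_cases (hcard : Nat.card V ≤ p ^ 2) {N T1 : Submodule (ZMod p) V}
    (h0 : N ≠ ⊥) (h1 : N ≠ ⊤) (hT1 : T1 ≠ ⊤) : T1 = ⊥ ∨ T1 = N ∨ T1 ⊓ N = ⊥ := by
  obtain ⟨hN, hV⟩ := finrank_line hcard h0 h1
  by_cases hb : T1 = ⊥
  · exact Or.inl hb
  right
  have hT : finrank (ZMod p) T1 = 1 := by
    have hlt := Submodule.finrank_lt hT1
    have hpos : 0 < finrank (ZMod p) T1 := by
      rw [Nat.pos_iff_ne_zero, Ne, Submodule.finrank_eq_zero]
      exact hb
    omega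
  by_cases hi : T1 ⊓ N = ⊥
  · exact Or.inr hi
  left
  have hI : finrank (ZMod p) (T1 ⊓ N : Submodule (ZMod p) V) = 1 := by
    have hle : finrank (ZMod p) (T1 ⊓ N : Submodule (ZMod p) V) ≤ finrank (ZMod p) N :=
      Submodule.finrank_mono inf_le_right
    have hpos : 0 < finrank (ZMod p) (T1 ⊓ N : Submodule (ZMod p) V) := by
      rw [Nat.pos_iff_ne_zero, Ne, Submodule.finrank_eq_zero]
      exact hi
    omega
  have e1 : T1 ⊓ N = T1 := Submodule.eq_of_le_of_finrank_eq inf_le_left (by rw [hI, hT])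
  have e2 : T1 ⊓ N = N := Submodule.eq_of_le_of_finrank_eq inf_le_right (by rw [hI, hN])
  rw [← e1, e2]

end LinAlg


section Action

variable {p : ℕ} [Fact p.Prime] {V : Type*} [AddCommGroup V] [Module (ZMod p) V]
variable {G : Type*} [Group G] [DistribMulAction G V]

/-- a distributive action commutes with the `ZMod p`-scalars -/
theorem smul_zmod_smul (σ : G) (k : ZMod p) (x : V) : σ • (k • x) = k • (σ • x) := by
  have hk : k = ((k.val : ℕ) : ZMod p) := (ZMod.natCast_zmod_val k).symm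
  rw [hk, Nat.cast_smul_eq_nsmul, Nat.cast_smul_eq_nsmul, smul_comm]

/-- the elements acting trivially on `N` -/
def fixSub (N : Submodule (ZMod p) V) : Subgroup G where
  carrier := {σ | ∀ x ∈ N, σ • x = x}
  one_mem' := fun x _ => one_smul G x
  mul_mem' := by
    intro σ τ hσ hτ x hx
    rw [mul_smul, hτ x hx, hσ x hx]
  inv_mem' := by
    intro σ hσ x hx
    rw [inv_smul_eq_iff, hσ x hx]

theorem mem_fixSub {N : Submodule (ZMod p) V} {σ : G} :
    σ ∈ fixSub (G := G) N ↔ ∀ x ∈ N, σ • x = x := Iff.rfl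

/-- the elements acting trivially on `V ⧸ N`, for a stable `N` -/
def cofixSub (N : Submodule (ZMod p) V) (hN : ∀ σ : G, ∀ x ∈ N, σ • x ∈ N) : Subgroup G where
  carrier := {σ | ∀ x, σ • x - x ∈ N}
  one_mem' := fun x => by simp
  mul_mem' := by
    intro σ τ hσ hτ x
    have h1 : (σ * τ) • x - x = σ • (τ • x - x) + (σ • x - x) := by
      rw [mul_smul, smul_sub]; abel
    rw [h1]
    exact N.add_mem (hN σ _ (hτ x)) (hσ x)
  inv_mem' := by
    intro σ hσ x
    have h1 : σ⁻¹ • x - x = -(σ • (σ⁻¹ • x) - σ⁻¹ • x) := by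
      rw [smul_inv_smul]; abel
    rw [h1]
    exact N.neg_mem (hσ _)

theorem mem_cofixSub {N : Submodule (ZMod p) V} {hN : ∀ σ : G, ∀ x ∈ N, σ • x ∈ N} {σ : G} :
    σ ∈ cofixSub N hN ↔ ∀ x, σ • x - x ∈ N := Iff.rfl

theorem fixSub_normal {N : Submodule (ZMod p) V} (hN : ∀ σ : G, ∀ x ∈ N, σ • x ∈ N) :
    (fixSub (G := G) N).Normal := by
  constructor
  intro σ hσ τ x hx
  rw [mul_smul, mul_smul, hσ _ (hN τ⁻¹ x hx), smul_inv_smul]

theorem cofixSub_normal {N : Submodule (ZMod p) V} (hN : ∀ σ : G, ∀ x ∈ N, σ • x ∈ N) :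
    (cofixSub N hN).Normal := by
  constructor
  intro σ hσ τ x
  have h1 : (τ * σ * τ⁻¹) • x - x = τ • (σ • (τ⁻¹ • x) - τ⁻¹ • x) := by
    rw [mul_smul, mul_smul, smul_sub, smul_inv_smul]
  rw [h1]
  exact hN τ _ (hσ _)

variable [Finite V]

/-- a unipotent element stabilising a line in a plane acts trivially on the line and on the
quotient -/
theorem unipotent_mem (hcard : Nat.card V ≤ p ^ 2) {N : Submodule (ZMod p) V}
    (h0 : N ≠ ⊥) (h1 : N ≠ ⊤) (hN : ∀ σ : G, ∀ x ∈ N, σ • x ∈ N) {σ : G}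
    (hσ : ∀ x : V, σ • (σ • x - x) = σ • x - x) :
    σ ∈ fixSub (G := G) N ∧ σ ∈ cofixSub N hN := by
  have hfix : ∀ x ∈ N, σ • x = x := by
    intro x hx
    by_cases hx0 : x = 0
    · rw [hx0, smul_zero]
    have hmem : σ • x - x ∈ N := N.sub_mem (hN σ x hx) hx
    rw [eq_span_of_mem hcard h0 h1 hx hx0, Submodule.mem_span_singleton] at hmem
    obtain ⟨k, hk⟩ := hmem
    have h2 := hσ x
    rw [← hk, smul_zmod_smul, ← sub_eq_zero, ← smul_sub, ← hk, smul_smul, smul_eq_zero] at h2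
    rcases h2 with h2 | h2
    · have hk0 : k = 0 := by
        rcases mul_self_eq_zero.mp h2 with h
        exact h
      rw [hk0, zero_smul] at hk
      exact (sub_eq_zero.mp hk.symm)
    · exact absurd h2 hx0
  refine ⟨hfix, ?_⟩
  intro x
  by_cases hx : x ∈ N
  · rw [hfix x hx, sub_self]; exact N.zero_mem
  have htop : σ • x - x ∈ Submodule.span (ZMod p) {x} ⊔ N := by
    rw [span_sup_eq_top hcard h0 h1 hx]; exact Submodule.mem_top
  rw [Submodule.mem_sup] at htop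
  obtain ⟨y, hy, n, hn, hyn⟩ := htop
  rw [Submodule.mem_span_singleton] at hy
  obtain ⟨a, rfl⟩ := hy
  have h2 := hσ x
  rw [← hyn, smul_add, smul_zmod_smul, hfix n hn] at h2
  -- a • σ x + n = a • x + n
  have h3 : a • (σ • x - x) = 0 := by
    rw [smul_sub]
    have := add_right_cancel h2
    rw [this, sub_self]
  rw [smul_eq_zero] at h3
  rcases h3 with h3 | h3
  · rw [← hyn, h3, zero_smul, zero_add]; exact hn
  · rw [h3]; exact N.zero_mem

/-- the `LOCp` case split -/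
theorem mem_fixSub_or_mem_cofixSub (hcard : Nat.card V ≤ p ^ 2) {N : Submodule (ZMod p) V}
    (h0 : N ≠ ⊥) (h1 : N ≠ ⊤) (hN : ∀ σ : G, ∀ x ∈ N, σ • x ∈ N) {I : Subgroup G}
    {T1 : Submodule (ZMod p) V} (hT1 : T1 ≠ ⊤) (hI : ∀ σ ∈ I, ∀ x : V, σ • x - x ∈ T1) :
    I ≤ fixSub N ∨ I ≤ cofixSub N hN := by
  rcases proper_cases hcard h0 h1 hT1 with h | h | h
  · left
    intro σ hσ x _
    have := hI σ hσ x
    rw [h, Submodule.mem_bot] at this
    exact sub_eq_zero.mp this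
  · right
    intro σ hσ x
    rw [← h]
    exact hI σ hσ x
  · left
    intro σ hσ x hx
    have h2 : σ • x - x ∈ T1 ⊓ N := ⟨hI σ hσ x, N.sub_mem (hN σ x hx) hx⟩
    rw [h, Submodule.mem_bot] at h2
    exact sub_eq_zero.mp h2

end Action

section Main

open WeierstrassCurve WeierstrassCurve.Affine WeierstrassCurve.Affine.Point

local notation "Qb" => AlgebraicClosure ℚ

/-- **GLUE**: the endgame of S13.  All inputs of the local packages are explicit hypotheses. -/
theorem cofixedLine_of_local (W' : Affine ℚ) (p : ℕ) [Fact p.Prime]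
    (hnt : Nontrivial (Submodule.torsionBy ℤ (W'⁄Qb).Point p))
    (hfin : Finite (Submodule.torsionBy ℤ (W'⁄Qb).Point p))
    (hcard : Nat.card (Submodule.torsionBy ℤ (W'⁄Qb).Point p) ≤ p ^ 2)
    (hunr : ∀ q : ℕ, q.Prime → q ≠ 2 → q ≠ p →
      GaloisRepUnramifiedAt (K := Qb) ℚ W' p q)
    (h2 : ∀ A : ValuationSubring Qb, A.LiesOverPrime 2 → ∀ σ ∈ A.inertiaSubgroupIn ℚ,
      ∀ x : Submodule.torsionBy ℤ (W'⁄Qb).Point p, σ • (σ • x - x) = σ • x - x)
    (hrat : ∀ x : Submodule.torsionBy ℤ (W'⁄Qb).Point p,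
      (∀ σ : Qb ≃ₐ[ℚ] Qb, σ • x = x) → x = 0)
    (hp : ∀ N0 : Submodule (ZMod p) (Submodule.torsionBy ℤ (W'⁄Qb).Point p),
      IsGaloisStable ℚ N0 → N0 ≠ ⊥ → N0 ≠ ⊤ →
      ∀ A : ValuationSubring Qb, A.LiesOverPrime p →
      ∃ T1 : Submodule (ZMod p) (Submodule.torsionBy ℤ (W'⁄Qb).Point p), T1 ≠ ⊤ ∧
        ∀ σ ∈ A.inertiaSubgroupIn ℚ, ∀ x : Submodule.torsionBy ℤ (W'⁄Qb).Point p,
          σ • x - x ∈ T1)
    (hmink : ∀ H : Subgroup (Qb ≃ₐ[ℚ] Qb), H.Normal →
      (∃ L : IntermediateField ℚ Qb, FiniteDimensional ℚ L ∧ L.fixingSubgroup ≤ H) → H ≠ ⊤ →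
      ∃ q : ℕ, q.Prime ∧ (∃ A : ValuationSubring Qb, A.LiesOverPrime q) ∧
        ∀ A : ValuationSubring Qb, A.LiesOverPrime q → ¬ A.inertiaSubgroupIn ℚ ≤ H)
    (hlev : ∃ L : IntermediateField ℚ Qb, FiniteDimensional ℚ L ∧
      ∀ σ ∈ L.fixingSubgroup, ∀ x : Submodule.torsionBy ℤ (W'⁄Qb).Point p, σ • x = x)
    (hred : ¬ GaloisRepIsIrreducible (K := Qb) ℚ W' p) :
    HasGaloisStableCofixedLine (K := Qb) ℚ W' p := by
  classical
  have := hfin
  -- a proper nonzero stable subspace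
  have hex : ∃ N0 : Submodule (ZMod p) (Submodule.torsionBy ℤ (W'⁄Qb).Point p),
      IsGaloisStable ℚ N0 ∧ N0 ≠ ⊥ ∧ N0 ≠ ⊤ := by
    by_contra h
    push Not at h
    refine hred ⟨hnt, fun N hN => ?_⟩
    by_contra h'
    push Not at h'
    exact h'.2 (h N hN h'.1)
  obtain ⟨N0, hst, h0, h1⟩ := hex
  have hN : ∀ σ : Qb ≃ₐ[ℚ] Qb, ∀ x ∈ N0, σ • x ∈ N0 := hst
  have key : fixSub (G := Qb ≃ₐ[ℚ] Qb) N0 = ⊤ ∨ cofixSub N0 hN = ⊤ := by
    by_contra hcon
    push Not at hcon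
    obtain ⟨hH1, hH2⟩ := hcon
    obtain ⟨L, hL, hLfix⟩ := hlev
    have lev1 : ∃ L : IntermediateField ℚ Qb, FiniteDimensional ℚ L ∧
        L.fixingSubgroup ≤ fixSub N0 := ⟨L, hL, fun σ hσ x _ => hLfix σ hσ x⟩
    have lev2 : ∃ L : IntermediateField ℚ Qb, FiniteDimensional ℚ L ∧
        L.fixingSubgroup ≤ cofixSub N0 hN :=
      ⟨L, hL, fun σ hσ x => by rw [hLfix σ hσ x, sub_self]; exact N0.zero_mem⟩
    have hin : ∀ q : ℕ, q.Prime → q ≠ p → ∀ A : ValuationSubring Qb, A.LiesOverPrime q →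
        A.inertiaSubgroupIn ℚ ≤ fixSub N0 ∧ A.inertiaSubgroupIn ℚ ≤ cofixSub N0 hN := by
      intro q hq hqp A hA
      by_cases hq2 : q = 2
      · subst hq2
        exact ⟨fun σ hσ => (unipotent_mem hcard h0 h1 hN (h2 A hA σ hσ)).1,
          fun σ hσ => (unipotent_mem hcard h0 h1 hN (h2 A hA σ hσ)).2⟩
      · have hu := hunr q hq hq2 hqp A hA
        exact ⟨fun σ hσ x _ => hu σ hσ x,
          fun σ hσ x => by rw [hu σ hσ x, sub_self]; exact N0.zero_mem⟩
    obtain ⟨q1, hq1, ⟨A1, hA1⟩, hno1⟩ := hmink _ (fixSub_normal hN) lev1 hH1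
    obtain ⟨q2, hq2, ⟨A2, hA2⟩, hno2⟩ := hmink _ (cofixSub_normal hN) lev2 hH2
    have e1 : q1 = p := by
      by_contra hne
      exact hno1 A1 hA1 (hin q1 hq1 hne A1 hA1).1
    have e2 : q2 = p := by
      by_contra hne
      exact hno2 A2 hA2 (hin q2 hq2 hne A2 hA2).2
    rw [e1] at hA1 hno1
    rw [e2] at hno2
    obtain ⟨T1, hT1, hI⟩ := hp N0 hst h0 h1 A1 hA1
    rcases mem_fixSub_or_mem_cofixSub hcard h0 h1 hN hT1 hI with h | h
    · exact hno1 A1 hA1 h
    · exact hno2 A1 hA1 h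
  rcases key with h | h
  · exfalso
    obtain ⟨x, hx, hx0⟩ := Submodule.exists_mem_ne_zero_of_ne_bot h0
    refine hx0 (hrat x fun σ => ?_)
    have hσ : σ ∈ fixSub (G := Qb ≃ₐ[ℚ] Qb) N0 := h ▸ Subgroup.mem_top σ
    exact hσ x hx
  · refine ⟨N0, hst, h0, h1, fun σ x => ?_⟩
    have hσ : σ ∈ cofixSub N0 hN := h ▸ Subgroup.mem_top σ
    exact hσ x

end Main

end Fermat.Agent.S13.H35
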