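import Mathlib
import Fermat.Prelude.Def_FLTPrelim_Ramification
import Fermat.Agent.S14.H54_Dict

/-!
# S13 / GAL-CONJ : `G_ℚ` permutes transitively the places of `Qbar` over a rational prime

`Qbar = AlgebraicClosure ℚ`, `GQ = Qbar ≃ₐ[ℚ] Qbar`.  For valuation subrings `A`, `B` of `Qbar`
lying over the same rational prime `ℓ` there is `σ : GQ` with `σ • A = B`
(`exists_smul_eq_of_liesOverPrime`).  Decomposition and inertia groups are conjugated by `σ`
(`mem_decompositionSubgroup_smul_iff`, `mem_inertiaSubgroupIn_smul_iff`), hence for a *normal*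
subgroup `H` of `GQ` the condition `A.inertiaSubgroupIn ℚ ≤ H` does not depend on the choice of
the place `A` over `ℓ` (`inertiaSubgroupIn_le_of_normal`).
-/

set_option autoImplicit false
set_option linter.style.haveILetI false

namespace Fermat.Agent.S13.H38

open Fermat.Agent.S54 Fermat.Agent.S14.H54
open scoped Pointwise

attribute [local instance] isAlgebraic_Qbar isAlgClosure_Qbar isGalois_Qbar

/-! ### The pointwise action on valuation subrings -/

theorem mem_smul_iff (σ : GQ) (A : ValuationSubring Qbar) (x : Qbar) :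
    x ∈ σ • A ↔ σ⁻¹ x ∈ A :=
  ValuationSubring.mem_pointwise_smul_iff_inv_smul_mem

theorem apply_mem_smul_iff (σ : GQ) (A : ValuationSubring Qbar) (x : Qbar) :
    σ x ∈ σ • A ↔ x ∈ A := by
  rw [mem_smul_iff]
  have : σ⁻¹ (σ x) = x := by
    change σ⁻¹ • (σ • x) = x
    rw [inv_smul_smul]
  rw [this]

theorem mem_nonunits_smul_iff (σ : GQ) (A : ValuationSubring Qbar) (x : Qbar) :
    x ∈ (σ • A).nonunits ↔ σ⁻¹ x ∈ A.nonunits := by
  rw [ValuationSubring.mem_nonunits_iff_or, ValuationSubring.mem_nonunits_iff_or, mem_smul_iff,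
    map_inv₀, map_eq_zero_iff _ (σ⁻¹ : GQ).injective]

theorem apply_mem_nonunits_smul_iff (σ : GQ) (A : ValuationSubring Qbar) (x : Qbar) :
    σ x ∈ (σ • A).nonunits ↔ x ∈ A.nonunits := by
  rw [mem_nonunits_smul_iff]
  have : σ⁻¹ (σ x) = x := by
    change σ⁻¹ • (σ • x) = x
    rw [inv_smul_smul]
  rw [this]

theorem liesOverPrime_smul {A : ValuationSubring Qbar} {ℓ : ℕ} (hA : A.LiesOverPrime ℓ)
    (σ : GQ) : (σ • A).LiesOverPrime ℓ := by
  change (ℓ : Qbar) ∈ (σ • A).nonunits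
  rw [mem_nonunits_smul_iff, map_natCast]
  exact hA

theorem idealOf_smul (σ : GQ) (A : ValuationSubring Qbar) :
    idealOf (σ • A) = σ • idealOf A := by
  ext b
  rw [mem_idealOf, mem_nonunits_smul_iff, Ideal.mem_pointwise_smul_iff_inv_smul_mem, mem_idealOf]
  rfl

/-! ### A place over `ℓ` is determined by its prime ideal of `Zbar` -/

theorem le_of_idealOf_le {A B : ValuationSubring Qbar} {ℓ : ℕ} (hℓ : ℓ.Prime)
    (hA : A.LiesOverPrime ℓ) (h : idealOf B ≤ idealOf A) : A ≤ B := by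
  intro x hx
  obtain ⟨s, hs_int, hs_nu, hsx_int⟩ :=
    exists_integral_mul A hℓ hA hx (isAlgebraic_int_Qbar x)
  have hsB : s ∉ B.nonunits := by
    intro hmem
    have : (⟨s, hs_int⟩ : Zbar) ∈ idealOf A := h (mem_idealOf.mpr hmem)
    exact hs_nu (mem_idealOf.mp this)
  obtain ⟨hne, hinv⟩ := inv_mem_of_not_mem_nonunits B hsB
  have hsx : s * x ∈ B := mem_valuationSubring_of_isIntegral B hsx_int
  have : x = s⁻¹ * (s * x) := by
    rw [← mul_assoc, inv_mul_cancel₀ hne, one_mul]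
  rw [this]
  exact B.mul_mem _ _ hinv hsx

theorem eq_of_idealOf_eq {A B : ValuationSubring Qbar} {ℓ : ℕ} (hℓ : ℓ.Prime)
    (hA : A.LiesOverPrime ℓ) (hB : B.LiesOverPrime ℓ) (h : idealOf A = idealOf B) : A = B :=
  le_antisymm (le_of_idealOf_le hℓ hA h.ge) (le_of_idealOf_le hℓ hB h.le)

/-! ### Transitivity -/

/-- **`G_ℚ` acts transitively on the places of `Qbar` over a rational prime.** -/
theorem exists_smul_eq_of_liesOverPrime {A B : ValuationSubring Qbar} {ℓ : ℕ} (hℓ : ℓ.Prime)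
    (hA : A.LiesOverPrime ℓ) (hB : B.LiesOverPrime ℓ) : ∃ σ : GQ, σ • A = B := by
  letI : TopologicalSpace Zbar := ⊥
  haveI : DiscreteTopology Zbar := ⟨rfl⟩
  haveI := continuousSMul_Zbar
  haveI := isInvariant_Zbar
  have hunder : (idealOf A).under ℤ = (idealOf B).under ℤ := by
    change (idealOf A).comap (algebraMap ℤ Zbar) = (idealOf B).comap (algebraMap ℤ Zbar)
    rw [idealOf_liesOver hℓ hA, idealOf_liesOver hℓ hB]
  obtain ⟨σ, hσ⟩ := Algebra.IsInvariant.exists_smul_of_under_eq_of_profinite (A := ℤ) (G := GQ)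
    (idealOf A) (idealOf B) hunder
  refine ⟨σ, ?_⟩
  refine eq_of_idealOf_eq hℓ (liesOverPrime_smul hA σ) hB ?_
  rw [idealOf_smul, hσ]

/-! ### Conjugation of decomposition and inertia groups -/

theorem mem_decompositionSubgroup_smul_iff (σ τ : GQ) (A : ValuationSubring Qbar) :
    τ ∈ (σ • A).decompositionSubgroup ℚ ↔ σ⁻¹ * τ * σ ∈ A.decompositionSubgroup ℚ := by
  rw [ValuationSubring.decompositionSubgroup, MulAction.mem_stabilizer_iff,
    ValuationSubring.decompositionSubgroup, MulAction.mem_stabilizer_iff, mul_smul, mul_smul]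
  constructor
  · intro h
    rw [h, inv_smul_smul]
  · intro h
    have := congrArg (fun X => σ • X) h
    simpa [smul_inv_smul] using this

theorem mem_inertiaSubgroupIn_smul_iff (σ τ : GQ) (A : ValuationSubring Qbar) :
    τ ∈ (σ • A).inertiaSubgroupIn ℚ ↔ σ⁻¹ * τ * σ ∈ A.inertiaSubgroupIn ℚ := by
  rw [mem_inertiaSubgroupIn_iff, mem_inertiaSubgroupIn_iff, mem_decompositionSubgroup_smul_iff]
  refine and_congr_right fun _ => ?_
  have key : ∀ x : Qbar, (σ⁻¹ * τ * σ) x - x = σ⁻¹ (τ (σ x) - σ x) := by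
    intro x
    have h1 : (σ⁻¹ * τ * σ) x = σ⁻¹ (τ (σ x)) := rfl
    have h2 : σ⁻¹ (σ x) = x := by
      change σ⁻¹ • (σ • x) = x
      rw [inv_smul_smul]
    rw [h1, map_sub, h2]
  constructor
  · intro h x hx
    rw [key, ← mem_nonunits_smul_iff]
    exact h (σ x) ((apply_mem_smul_iff σ A x).mpr hx)
  · intro h y hy
    rw [mem_smul_iff] at hy
    have h3 := h (σ⁻¹ y) hy
    have h4 : σ (σ⁻¹ y) = y := by
      change σ • (σ⁻¹ • y) = y
      rw [smul_inv_smul]
    rw [key, h4, ← mem_nonunits_smul_iff] at h3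
    exact h3

/-- For a normal subgroup `H` of `G_ℚ`, the condition `I_A ≤ H` is independent of the place `A`
over a given rational prime. -/
theorem inertiaSubgroupIn_le_of_normal {H : Subgroup GQ} [hH : H.Normal]
    {A B : ValuationSubring Qbar} {ℓ : ℕ} (hℓ : ℓ.Prime)
    (hA : A.LiesOverPrime ℓ) (hB : B.LiesOverPrime ℓ)
    (h : A.inertiaSubgroupIn ℚ ≤ H) : B.inertiaSubgroupIn ℚ ≤ H := by
  obtain ⟨σ, rfl⟩ := exists_smul_eq_of_liesOverPrime hℓ hA hB
  intro τ hτ
  rw [mem_inertiaSubgroupIn_smul_iff] at hτ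
  have h1 := h hτ
  have h2 := hH.conj_mem _ h1 σ
  have : σ * (σ⁻¹ * τ * σ) * σ⁻¹ = τ := by group
  rwa [this] at h2

/-- Dichotomy form used by the glue of S13: if at ONE place over `ℓ` the inertia group lies in
`H₁` or in `H₂` (both normal), then the same alternative holds at EVERY place over `ℓ`. -/
theorem inertia_dichotomy_uniform {H₁ H₂ : Subgroup GQ} [H₁.Normal] [H₂.Normal]
    {A : ValuationSubring Qbar} {ℓ : ℕ} (hℓ : ℓ.Prime) (hA : A.LiesOverPrime ℓ)
    (h : A.inertiaSubgroupIn ℚ ≤ H₁ ∨ A.inertiaSubgroupIn ℚ ≤ H₂) :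
    (∀ B : ValuationSubring Qbar, B.LiesOverPrime ℓ → B.inertiaSubgroupIn ℚ ≤ H₁) ∨
      (∀ B : ValuationSubring Qbar, B.LiesOverPrime ℓ → B.inertiaSubgroupIn ℚ ≤ H₂) := by
  rcases h with h | h
  · exact Or.inl fun B hB => inertiaSubgroupIn_le_of_normal hℓ hA hB h
  · exact Or.inr fun B hB => inertiaSubgroupIn_le_of_normal hℓ hA hB h

/-- There is a place of `Qbar` over every rational prime. -/
theorem exists_liesOverPrime_of_prime {ℓ : ℕ} (hℓ : ℓ.Prime) :
    ∃ A : ValuationSubring Qbar, A.LiesOverPrime ℓ := by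
  obtain ⟨A, σ, hA, -⟩ := exists_frobenius ℓ hℓ
  exact ⟨A, hA⟩

end Fermat.Agent.S13.H38
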