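import Mathlib
import Fermat.Prelude.Def_FLTPrelim_Ramification
import Fermat.Agent.S14.H54_Dict
import Fermat.Agent.S13.H38_Conj

/-!
# S13 : the "normal subgroup" form of the Minkowski step

`H38_Conj` shows that for a normal subgroup `H` of `G_ℚ` the condition `I_A ≤ H` only depends on
the rational prime below the place `A`.  Consequently the plain form of the Minkowski step
("a finite-level subgroup containing all inertia groups is everything") upgrades to the form
wanted by the glue of S13: a proper normal finite-level subgroup `H` misses the inertia group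
of EVERY place above SOME rational prime.
-/

set_option autoImplicit false
set_option linter.style.haveILetI false

namespace Fermat.Agent.S13.H38

open Fermat.Agent.S54 Fermat.Agent.S14.H54
open scoped Pointwise

attribute [local instance] isAlgebraic_Qbar isAlgClosure_Qbar isGalois_Qbar

/-- The nonunits of the trivial valuation subring are `{0}`. -/
theorem mem_nonunits_top_iff (x : Qbar) : x ∈ (⊤ : ValuationSubring Qbar).nonunits ↔ x = 0 := by
  rw [ValuationSubring.mem_nonunits_iff_or]
  constructor
  · rintro (h | h)
    · exact h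
    · exact absurd trivial h
  · intro h
    exact Or.inl h

/-- The inertia group of the trivial place is trivial. -/
theorem inertiaSubgroupIn_top : (⊤ : ValuationSubring Qbar).inertiaSubgroupIn ℚ = ⊥ := by
  rw [eq_bot_iff]
  intro σ hσ
  rw [mem_inertiaSubgroupIn_iff] at hσ
  rw [Subgroup.mem_bot]
  ext x
  have := hσ.2 x trivial
  rw [mem_nonunits_top_iff, sub_eq_zero] at this
  simpa using this

/-- If some inertia group is not contained in the normal subgroup `H`, then there is a rational
prime `q` such that NO place over `q` has its inertia group inside `H`. -/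
theorem exists_prime_forall_not_le {H : Subgroup GQ} [H.Normal]
    (h : ∃ A : ValuationSubring Qbar, ¬ A.inertiaSubgroupIn ℚ ≤ H) :
    ∃ q : ℕ, q.Prime ∧ (∃ A : ValuationSubring Qbar, A.LiesOverPrime q) ∧
      ∀ A : ValuationSubring Qbar, A.LiesOverPrime q → ¬ A.inertiaSubgroupIn ℚ ≤ H := by
  obtain ⟨A, hA⟩ := h
  have hAtop : A ≠ ⊤ := by
    rintro rfl
    apply hA
    rw [inertiaSubgroupIn_top]
    exact bot_le
  obtain ⟨q, hq, hAq⟩ := exists_liesOverPrime hAtop
  refine ⟨q, hq, ⟨A, hAq⟩, fun B hB hBH => hA ?_⟩
  exact inertiaSubgroupIn_le_of_normal hq hB hAq hBH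

/-- **Normal form of the Minkowski step**, derived from the plain form `hM1`. -/
theorem mink_normal_of_plain
    (hM1 : ∀ H : Subgroup GQ,
      (∃ L : IntermediateField ℚ Qbar, FiniteDimensional ℚ L ∧ L.fixingSubgroup ≤ H) →
      (∀ A : ValuationSubring Qbar, A.inertiaSubgroupIn ℚ ≤ H) → H = ⊤)
    (H : Subgroup GQ) (hH : H.Normal)
    (hfin : ∃ L : IntermediateField ℚ Qbar, FiniteDimensional ℚ L ∧ L.fixingSubgroup ≤ H)
    (hne : H ≠ ⊤) :
    ∃ q : ℕ, q.Prime ∧ (∃ A : ValuationSubring Qbar, A.LiesOverPrime q) ∧
      ∀ A : ValuationSubring Qbar, A.LiesOverPrime q → ¬ A.inertiaSubgroupIn ℚ ≤ H := by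
  haveI := hH
  apply exists_prime_forall_not_le
  by_contra hcon
  push Not at hcon
  exact hne (hM1 H hfin hcon)

/-- Variant of the plain form where the inertia hypothesis is only required at places over
rational primes. -/
theorem forall_inertia_le_of_forall_prime {H : Subgroup GQ}
    (h : ∀ q : ℕ, q.Prime → ∀ A : ValuationSubring Qbar, A.LiesOverPrime q →
      A.inertiaSubgroupIn ℚ ≤ H) :
    ∀ A : ValuationSubring Qbar, A.inertiaSubgroupIn ℚ ≤ H := by
  intro A
  by_cases hA : A = ⊤
  · subst hA
    rw [inertiaSubgroupIn_top]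
    exact bot_le
  · obtain ⟨q, hq, hAq⟩ := exists_liesOverPrime hA
    exact h q hq A hAq

end Fermat.Agent.S13.H38
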