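import Mathlib
import Fermat.Agent.S13.H32_Mink
import Fermat.Agent.S13.H38_MinkNormal
import Fermat.Agent.S13.H35_Glue

/-!
# S13 : GLUE with the MINK and LEVEL hypotheses discharged
-/

set_option autoImplicit false

namespace Fermat.Agent.S13.H32

open WeierstrassCurve WeierstrassCurve.Affine WeierstrassCurve.Affine.Point

local notation "Qb" => AlgebraicClosure ℚ

/-- The hypothesis `hmink` of `H35.cofixedLine_of_local`, verbatim. -/
theorem hmink : ∀ H : Subgroup (Qb ≃ₐ[ℚ] Qb), H.Normal →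
    (∃ L : IntermediateField ℚ Qb, FiniteDimensional ℚ L ∧ L.fixingSubgroup ≤ H) → H ≠ ⊤ →
    ∃ q : ℕ, q.Prime ∧ (∃ A : ValuationSubring Qb, A.LiesOverPrime q) ∧
      ∀ A : ValuationSubring Qb, A.LiesOverPrime q → ¬ A.inertiaSubgroupIn ℚ ≤ H :=
  Fermat.Agent.S13.H38.mink_normal_of_plain eq_top_of_unramified

/-- The hypothesis `hlev` of `H35.cofixedLine_of_local`, verbatim. -/
theorem hlev (W' : Affine ℚ) (p : ℕ) [hfin : Finite (Submodule.torsionBy ℤ (W'⁄Qb).Point p)] :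
    ∃ L : IntermediateField ℚ Qb, FiniteDimensional ℚ L ∧
      ∀ σ ∈ L.fixingSubgroup, ∀ x : Submodule.torsionBy ℤ (W'⁄Qb).Point p, σ • x = x :=
  @exists_finiteDimensional_fixing_torsion W' p hfin

/-- `H35.cofixedLine_of_local` with `hmink` and `hlev` discharged. -/
theorem cofixedLine_of_local' (W' : Affine ℚ) (p : ℕ) [Fact p.Prime]
    (hnt : Nontrivial (Submodule.torsionBy ℤ (W'⁄Qb).Point p))
    (hfin : Finite (Submodule.torsionBy ℤ (W'⁄Qb).Point p))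
    (hcard : Nat.card (Submodule.torsionBy ℤ (W'⁄Qb).Point p) ≤ p ^ 2)
    (hunr : ∀ q : ℕ, q.Prime → q ≠ 2 → q ≠ p →
      GaloisRepUnramifiedAt (K := Qb) ℚ W' p q)
    (h2 : ∀ A : ValuationSubring Qb, A.LiesOverPrime 2 → ∀ σ ∈ A.inertiaSubgroupIn ℚ,
      ∀ x : Submodule.torsionBy ℤ (W'⁄Qb).Point p, σ • (σ • x - x) = σ • x - x)
    (hrat : ∀ x : Submodule.torsionBy ℤ (W'⁄Qb).Point p,
      (∀ σ : Qb ≃ₐ[ℚ] Qb, σ • x = x) → x = 0)
    (hp : ∀ N0 : Submodule (ZMod p) (Submodule.torsionBy ℤ (W'⁄Qb).Point p),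
      IsGaloisStable ℚ N0 → N0 ≠ ⊥ → N0 ≠ ⊤ →
      ∀ A : ValuationSubring Qb, A.LiesOverPrime p →
      ∃ T1 : Submodule (ZMod p) (Submodule.torsionBy ℤ (W'⁄Qb).Point p), T1 ≠ ⊤ ∧
        ∀ σ ∈ A.inertiaSubgroupIn ℚ, ∀ x : Submodule.torsionBy ℤ (W'⁄Qb).Point p,
          σ • x - x ∈ T1)
    (hred : ¬ GaloisRepIsIrreducible (K := Qb) ℚ W' p) :
    HasGaloisStableCofixedLine (K := Qb) ℚ W' p :=
  haveI := hfin
  Fermat.Agent.S13.H35.cofixedLine_of_local W' p hnt hfin hcard hunr h2 hrat hp hmink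
    (hlev W' p) hred

end Fermat.Agent.S13.H32
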