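import Mathlib
import Fermat.Agent.S05.H5_Loc
import Fermat.Agent.S05.H60_LocNode
import Fermat.Agent.S05.H89_F1Bridge
import Fermat.Agent.S05.H73_Glue

/-!
# S13 / LOCp, part 1: the closeness theorem at an arbitrary odd place

For the short form `y² = x³ + r x² + s x` over a valued field (`v 2 = 1`), with good or
multiplicative reduction, and for `σ` acting trivially on the residue field and preserving the
valuation, every torsion point `T` of odd prime order satisfies `T - σ T ∈ E₁` (the kernel of
reduction).  This is the S05 "Theorem L" stopped one step earlier: no assumption that the residue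
characteristic is prime to the order of `T`.
-/

set_option autoImplicit false

namespace Fermat.Agent.S13.H5

open WeierstrassCurve WeierstrassCurve.Affine
open Fermat.Agent.S05
open Fermat.Agent.S05.H5 (CoordAction ResTrivial)

variable {K : Type*} [Field K] [DecidableEq K] (A : ValuationSubring K)

section subgroup

variable {r s : K}

omit [DecidableEq K] in
lemma inE1_iff_inKer (Q : (H18.shortW r s).toAffine.Point) :
    H18.InE1 A.valuation Q ↔ H89.InKer A (r := r) (s := s) Q := by
  cases Q with
  | zero => exact Iff.rfl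
  | some x y h =>
    change 1 < A.valuation x ↔ x ∉ A
    rw [← A.valuation_le_one_iff x, not_le]

omit [DecidableEq K] in
lemma inE1_neg {P : (H18.shortW r s).toAffine.Point} (hP : H18.InE1 A.valuation P) :
    H18.InE1 A.valuation (-P) := by
  rw [inE1_iff_inKer] at hP ⊢
  exact H89.inKer_neg A hP

lemma inE1_add (hr : A.valuation r ≤ 1) (hs : A.valuation s ≤ 1) (h2 : (2 : K) ≠ 0)
    {P Q : (H18.shortW r s).toAffine.Point} (hP : H18.InE1 A.valuation P)
    (hQ : H18.InE1 A.valuation Q) : H18.InE1 A.valuation (P + Q) := by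
  rw [inE1_iff_inKer] at hP hQ ⊢
  exact H89.inKer_add A ((A.valuation_le_one_iff r).mp hr) ((A.valuation_le_one_iff s).mp hs) h2
    hP hQ

lemma inE1_sub (hr : A.valuation r ≤ 1) (hs : A.valuation s ≤ 1) (h2 : (2 : K) ≠ 0)
    {P Q : (H18.shortW r s).toAffine.Point} (hP : H18.InE1 A.valuation P)
    (hQ : H18.InE1 A.valuation Q) : H18.InE1 A.valuation (P - Q) := by
  rw [sub_eq_add_neg]
  exact inE1_add A hr hs h2 hP (inE1_neg A hQ)

lemma inE1_nsmul (hr : A.valuation r ≤ 1) (hs : A.valuation s ≤ 1) (h2 : (2 : K) ≠ 0)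
    {P : (H18.shortW r s).toAffine.Point} (hP : H18.InE1 A.valuation P) (n : ℕ) :
    H18.InE1 A.valuation (n • P) := by
  induction n with
  | zero => rw [zero_smul]; exact H18.inE1_zero _
  | succ k ih => rw [succ_nsmul]; exact inE1_add A hr hs h2 ih hP

end subgroup

section regions

variable {r s : K} {σ : K →+* K}
  {φ : (H18.shortW r s).toAffine.Point →+ (H18.shortW r s).toAffine.Point}

/-- a point of the kernel of reduction stays there under a valuation preserving coordinate
action -/
theorem inE1_map (hσv : ∀ z : K, A.valuation (σ z) = A.valuation z) (hφ : CoordAction r s σ φ)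
    {T : (H18.shortW r s).toAffine.Point} (hT : H18.InE1 A.valuation T) :
    H18.InE1 A.valuation (φ T) := by
  cases T with
  | zero => rw [show (Point.zero : (H18.shortW r s).toAffine.Point) = 0 from rfl, map_zero]
            exact H18.inE1_zero _
  | some x y h =>
    obtain ⟨h', e⟩ := hφ.map_some x y h
    rw [e]
    change 1 < A.valuation (σ x)
    rw [hσv]
    exact hT

/-- integral points with nonsingular reduction are moved inside the kernel of reduction -/
theorem sub_inE1_of_nonsing (hr : A.valuation r ≤ 1) (hs : A.valuation s ≤ 1)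
    (h2 : A.valuation (2 : K) = 1)
    (hσ : ResTrivial A.valuation σ) (hφ : CoordAction r s σ φ)
    {x y : K} (h : (H18.shortW r s).toAffine.Nonsingular x y) (hx : A.valuation x ≤ 1)
    (hns : A.valuation y = 1 ∨ A.valuation (3 * x ^ 2 + 2 * r * x + s) = 1) :
    H18.InE1 A.valuation (Point.some x y h - φ (Point.some x y h)) := by
  have heq := (H18.shortW_equation_iff r s x y).mp h.1
  have hy : A.valuation y ≤ 1 := H18.val_y_le_one A.valuation hr hs hx heq
  obtain ⟨h', e⟩ := hφ.map_some x y h
  rw [e]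
  exact H18.inE1_sub_of_close A.valuation hr h2 h h' hx (hσ.sub_swap hx) (hσ.sub_swap hy) hns

/-- points strictly inside the node region whose abscissa has the valuation of a power of a fixed
element are moved inside the kernel of reduction -/
theorem sub_inE1_of_node (hr : A.valuation r = 1) (h2 : A.valuation (2 : K) = 1)
    (hσ : ResTrivial A.valuation σ) (hφ : CoordAction r s σ φ)
    {x y : K} (h : (H18.shortW r s).toAffine.Nonsingular x y)
    (hsx : A.valuation s < A.valuation x) (hx1 : A.valuation x < 1)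
    {β : K} (hβ : σ β = β) {j : ℤ} (hj : A.valuation x = A.valuation β ^ j) :
    H18.InE1 A.valuation (Point.some x y h - φ (Point.some x y h)) := by
  set v := A.valuation with hv
  have heq := (H18.shortW_equation_iff r s x y).mp h.1
  have hvx0 : v x ≠ 0 := fun h0 => by rw [h0] at hsx; exact not_lt_zero hsx
  have hx0 : x ≠ 0 := (map_ne_zero v).mp hvx0
  have hβ0 : β ≠ 0 := by
    rintro rfl
    rw [map_zero] at hj
    rcases eq_or_ne j 0 with rfl | hj0
    · rw [zpow_zero] at hj; exact hx1.ne hj
    · rw [zero_zpow j hj0] at hj; exact hvx0 hj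
  have hβj0 : β ^ j ≠ 0 := zpow_ne_zero j hβ0
  set u := x / β ^ j with hu
  have hxu : x = β ^ j * u := by rw [hu]; field_simp
  have hvu : v u = 1 := by
    rw [hu, map_div₀, map_zpow₀, ← hj, div_self hvx0]
  have hσx_eq : σ x - x = β ^ j * (σ u - u) := by
    rw [hxu, map_mul, map_zpow₀, hβ]; ring
  have hσx : v (σ x - x) < v x := by
    rw [hσx_eq, map_mul, map_zpow₀, ← hj]
    calc v x * v (σ u - u) < v x * 1 :=
          mul_lt_mul_of_pos_left (hσ u hvu.le) (zero_lt_iff.mpr hvx0)
      _ = v x := mul_one _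
  have hvσx : v (σ x) = v x := by
    have : σ x = x + (σ x - x) := by ring
    rw [this, Valuation.map_add_eq_of_lt_left v hσx]
  have hvy : v y = v x := H18.val_y_eq_val_x_of_node v hr hsx hx1 heq
  set τ := y / x with hτ
  have hyτ : y = τ * x := by rw [hτ]; field_simp
  have hvτ : v τ = 1 := by rw [hτ, map_div₀, hvy, div_self hvx0]
  have hσy_eq : σ y - y = (σ τ - τ) * σ x + τ * (σ x - x) := by
    rw [hyτ, map_mul]; ring
  have hσy : v (σ y - y) < v y := by
    rw [hσy_eq, hvy]
    refine lt_of_le_of_lt (v.map_add _ _) (max_lt ?_ ?_)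
    · rw [map_mul, hvσx]
      calc v (σ τ - τ) * v x < 1 * v x :=
            mul_lt_mul_of_pos_right (hσ τ hvτ.le) (zero_lt_iff.mpr hvx0)
        _ = v x := one_mul _
    · rw [map_mul, hvτ, one_mul]; exact hσx
  obtain ⟨h', e⟩ := hφ.map_some x y h
  rw [e]
  exact H18.inE1_sub_of_close_node v hr.le h2 h h' hx1.le hσx hσy hvy.ge

/-- torsion points of odd prime order deep inside the node region (`v x ≤ v s`) are moved inside
the kernel of reduction -/
theorem sub_inE1_of_deep (hr : A.valuation r = 1) (hs1 : A.valuation s < 1) (hs0 : s ≠ 0)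
    (h2 : A.valuation (2 : K) = 1) {p : ℕ} (hp : p.Prime) (hp2 : p ≠ 2)
    (hσ : ResTrivial A.valuation σ) (hφ : CoordAction r s σ φ)
    {x y : K} (h : (H18.shortW r s).toAffine.Nonsingular x y)
    (hT : p • Point.some x y h = 0) (hxs : A.valuation x ≤ A.valuation s) :
    H18.InE1 A.valuation (Point.some x y h - φ (Point.some x y h)) := by
  set v := A.valuation with hv
  have hW : H67.IsShort (H18.shortW r s) := ⟨rfl, rfl, rfl⟩
  have heq := (H18.shortW_equation_iff r s x y).mp h.1
  have hT0 : Point.some x y h ≠ 0 := Point.some_ne_zero h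
  have h2T : 2 • Point.some x y h ≠ 0 := H5.two_nsmul_ne_zero hp hp2 hT0 hT
  have hy2 : 2 * y ≠ 0 := by
    intro h0
    apply h2T
    rw [two_nsmul]
    apply Point.add_self_of_Y_eq
    rw [H18.shortW_negY]
    linear_combination h0
  have h20 : (2 : K) ≠ 0 := left_ne_zero_of_mul hy2
  have hy0 : y ≠ 0 := right_ne_zero_of_mul hy2
  obtain ⟨x₂, y₂, h₂, e⟩ := H67.exists_of_ne_zero _ h2T
  have hdbl : x₂ * (4 * y ^ 2) = (x ^ 2 - s) ^ 2 := by
    have := hW.xCoord_some_add_self h hy2
    rw [← two_nsmul, e, H67.xCoord_some] at this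
    exact this
  have hvs0 : v s ≠ 0 := (map_ne_zero v).mpr hs0
  have hvs_pos : 0 < v s := zero_lt_iff.mpr hvs0
  have hx1 : v x < 1 := lt_of_le_of_lt hxs hs1
  have hnum : v (x ^ 2 - s) = v s := by
    have hlt : v (x ^ 2) < v s := by
      rw [map_pow]
      calc v x ^ 2 = v x * v x := sq _
        _ ≤ v s * v x := by gcongr
        _ < v s * 1 := mul_lt_mul_of_pos_left hx1 hvs_pos
        _ = v s := mul_one _
    rw [sub_eq_add_neg, Valuation.map_add_eq_of_lt_right v (by rwa [Valuation.map_neg]),
      Valuation.map_neg]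
  have hy2le : v (y ^ 2) ≤ v x * v s := by
    have : y ^ 2 = x * (x ^ 2 + r * x + s) := by rw [heq]; ring
    rw [this, map_mul]
    gcongr
    refine v.map_add_le (v.map_add_le ?_ ?_) le_rfl
    · rw [map_pow]
      calc v x ^ 2 = v x * v x := sq _
        _ ≤ 1 * v s := by gcongr
        _ = v s := one_mul _
    · rw [map_mul, hr, one_mul]; exact hxs
  have hv4 : v (4 : K) = 1 := by
    have : (4 : K) = 2 * 2 := by norm_num
    rw [this, map_mul, h2, one_mul]
  have hvy2_pos : 0 < v (y ^ 2) := zero_lt_iff.mpr ((map_ne_zero v).mpr (pow_ne_zero 2 hy0))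
  have hx₂ge : 1 ≤ v x₂ := by
    have hprod : v x₂ * v (y ^ 2) = v s ^ 2 := by
      have := congrArg v hdbl
      rwa [map_mul, map_mul, hv4, one_mul, map_pow _ (x ^ 2 - s), hnum] at this
    by_contra hlt
    rw [not_le] at hlt
    have : v x₂ * v (y ^ 2) < v s ^ 2 := by
      calc v x₂ * v (y ^ 2) < 1 * v (y ^ 2) := mul_lt_mul_of_pos_right hlt hvy2_pos
        _ = v (y ^ 2) := one_mul _
        _ ≤ v x * v s := hy2le
        _ ≤ v s * v s := by gcongr
        _ = v s ^ 2 := (sq _).symm
    exact this.ne hprod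
  obtain ⟨k, hk⟩ := H5.half_smul hp hp2 hT
  -- `x₂` is integral: otherwise `2T`, hence `T = (k+1)•2T`, lies in the kernel of reduction
  have hx₂le : v x₂ ≤ 1 := by
    by_contra hlt
    rw [not_le] at hlt
    have h2E : H18.InE1 v (2 • Point.some x y h) := by rw [e]; exact hlt
    have hTE := inE1_nsmul A hr.le hs1.le h20 h2E (k + 1)
    rw [hk] at hTE
    exact absurd hTE (not_lt.mpr hx1.le)
  have hx₂ : v x₂ = 1 := le_antisymm hx₂le hx₂ge
  have heq₂ := (H18.shortW_equation_iff r s x₂ y₂).mp h₂.1
  have hE₂ := sub_inE1_of_nonsing A hr.le hs1.le h2 hσ hφ h₂ hx₂le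
    (H18.nonsing_red_of_unit_x v hr hs1 hx₂ heq₂)
  have hkey : Point.some x y h - φ (Point.some x y h) =
      (k + 1) • (Point.some x₂ y₂ h₂ - φ (Point.some x₂ y₂ h₂)) := by
    rw [← e, smul_sub, ← map_nsmul, hk]
  rw [hkey]
  exact inE1_nsmul A hr.le hs1.le h20 hE₂ (k + 1)

end regions

section main

variable {r s : K} {σ : K →+* K}
  {φ : (H18.shortW r s).toAffine.Point →+ (H18.shortW r s).toAffine.Point}

/-- **Closeness theorem, good reduction.**  No torsion hypothesis is needed. -/
theorem closeness_good (hr : A.valuation r ≤ 1) (hs : A.valuation s = 1)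
    (hD : A.valuation (r ^ 2 - 4 * s) = 1) (h2 : A.valuation (2 : K) = 1)
    (hσ : ResTrivial A.valuation σ) (hσv : ∀ z : K, A.valuation (σ z) = A.valuation z)
    (hφ : CoordAction r s σ φ) (T : (H18.shortW r s).toAffine.Point) :
    H18.InE1 A.valuation (T - φ T) := by
  have h20 : (2 : K) ≠ 0 := by
    intro h0; rw [h0, map_zero] at h2; exact zero_ne_one h2
  by_cases hTE : H18.InE1 A.valuation T
  · exact inE1_sub A hr hs.le h20 hTE (inE1_map A hσv hφ hTE)
  · cases T with
    | zero => exact absurd (H18.inE1_zero _) hTE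
    | some x y h =>
      have hx : A.valuation x ≤ 1 := not_lt.mp hTE
      have heq := (H18.shortW_equation_iff r s x y).mp h.1
      have hD' : A.valuation (s ^ 2 * (r ^ 2 - 4 * s)) = 1 := by
        rw [map_mul, map_pow, hs, hD, one_pow, one_mul]
      exact sub_inE1_of_nonsing A hr hs.le h2 hσ hφ h hx
        (H18.nonsing_red_of_disc_unit A.valuation hr hs.le hD' hx heq)

/-- **Closeness theorem, multiplicative reduction**, given the valuation of abscissas of torsion
points strictly inside the node region. -/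
theorem closeness_mult (hr : A.valuation r = 1) (hs1 : A.valuation s < 1) (hs0 : s ≠ 0)
    (h2 : A.valuation (2 : K) = 1) {p : ℕ} (hp : p.Prime) (hp2 : p ≠ 2)
    (hσ : ResTrivial A.valuation σ) (hσv : ∀ z : K, A.valuation (σ z) = A.valuation z)
    (hφ : CoordAction r s σ φ) {β : K} (hβ : σ β = β)
    (hnode : ∀ (x y : K) (h : (H18.shortW r s).toAffine.Nonsingular x y),
      p • Point.some x y h = 0 → A.valuation s < A.valuation x → A.valuation x < 1 →
        ∃ j : ℤ, A.valuation x = A.valuation β ^ j)
    {T : (H18.shortW r s).toAffine.Point} (hT : p • T = 0) :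
    H18.InE1 A.valuation (T - φ T) := by
  have h20 : (2 : K) ≠ 0 := by
    intro h0; rw [h0, map_zero] at h2; exact zero_ne_one h2
  by_cases hTE : H18.InE1 A.valuation T
  · exact inE1_sub A hr.le hs1.le h20 hTE (inE1_map A hσv hφ hTE)
  · cases T with
    | zero => exact absurd (H18.inE1_zero _) hTE
    | some x y h =>
      have hx : A.valuation x ≤ 1 := not_lt.mp hTE
      have heq := (H18.shortW_equation_iff r s x y).mp h.1
      rcases hx.lt_or_eq with hx1 | hx1
      · rcases le_or_gt (A.valuation x) (A.valuation s) with hxs | hxs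
        · exact sub_inE1_of_deep A hr hs1 hs0 h2 hp hp2 hσ hφ h hT hxs
        · obtain ⟨j, hj⟩ := hnode x y h hT hxs hx1
          exact sub_inE1_of_node A hr h2 hσ hφ h hxs hx1 hβ hj
      · exact sub_inE1_of_nonsing A hr.le hs1.le h2 hσ hφ h hx
          (H18.nonsing_red_of_unit_x A.valuation hr hs1 hx1 heq)

/-- **Closeness theorem, multiplicative reduction**, with `v s = v β ^ p`. -/
theorem closeness_mult' (hr : A.valuation r = 1) (hs1 : A.valuation s < 1) (hs0 : s ≠ 0)
    (h2 : A.valuation (2 : K) = 1) {p : ℕ} (hp : p.Prime) (hp2 : p ≠ 2)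
    (hσ : ResTrivial A.valuation σ) (hσv : ∀ z : K, A.valuation (σ z) = A.valuation z)
    (hφ : CoordAction r s σ φ) {β : K} (hβ : σ β = β)
    (hsβ : A.valuation s = A.valuation β ^ p)
    {T : (H18.shortW r s).toAffine.Point} (hT : p • T = 0) :
    H18.InE1 A.valuation (T - φ T) := by
  refine closeness_mult A hr hs1 hs0 h2 hp hp2 hσ hσv hφ hβ ?_ hT
  intro x y h hT hsx hx1
  have hW : H67.IsShort (H18.shortW r s) := ⟨rfl, rfl, rfl⟩
  obtain ⟨j, hj⟩ := H73.exists_zpow_of_torsion_inside A.valuation (H18.shortW r s) hW hr h2 hs0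
    hp hp2 (Point.some_ne_zero h) (by exact_mod_cast hT) hsx hx1 β hsβ
  refine ⟨2 * j, ?_⟩
  rw [H67.xCoord_some, map_div₀, map_zpow₀] at hj
  have hne : A.valuation β ^ (2 * j) ≠ 0 := by
    intro h0
    rw [h0, div_zero] at hj
    exact zero_ne_one hj
  exact (div_eq_one_iff_eq hne).mp hj

end main

end Fermat.Agent.S13.H5
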