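import Mathlib

/-!
# S13 / LOCp, part 2: the line dichotomy (pure group theory)

`V` an abelian group of order `p²`, `V₁ ≠ ⊤` a subgroup, `N₀` a subgroup of order `p`, and a family
of additive endomorphisms `g i` stabilising `N₀` with `(g i - 1) V ⊆ V₁`.  Then either every `g i`
is the identity on `N₀`, or `(g i - 1) V ⊆ N₀` for every `i`.
-/

set_option autoImplicit false

namespace Fermat.Agent.S13.H5

theorem line_dichotomy {V : Type*} [AddCommGroup V] {p : ℕ} (hp : p.Prime)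
    (hV : Nat.card V = p ^ 2) (V1 N0 : AddSubgroup V) (hN0 : Nat.card N0 = p) (hV1 : V1 ≠ ⊤)
    {ι : Type*} (g : ι → V →+ V) (hGN : ∀ i, ∀ x ∈ N0, g i x ∈ N0)
    (hG1 : ∀ i x, g i x - x ∈ V1) :
    (∀ i, ∀ x ∈ N0, g i x = x) ∨ (∀ i x, g i x - x ∈ N0) := by
  have : Finite V := Nat.finite_of_card_ne_zero (by rw [hV]; exact pow_ne_zero 2 hp.ne_zero)
  by_cases h : N0 ≤ V1
  · right
    -- `V1` has order `p`, hence equals `N0`
    have hd : Nat.card V1 ∣ p ^ 2 := hV ▸ AddSubgroup.card_addSubgroup_dvd_card V1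
    obtain ⟨k, hk2, hk⟩ := (Nat.dvd_prime_pow hp).mp hd
    have hpk : p ∣ p ^ k := by
      rw [← hk, ← hN0]; exact AddSubgroup.card_dvd_of_le h
    have hk0 : k ≠ 0 := by
      rintro rfl
      rw [pow_zero, Nat.dvd_one] at hpk
      exact hp.one_lt.ne' hpk
    have hk2' : k ≠ 2 := by
      rintro rfl
      exact hV1 (AddSubgroup.eq_top_of_card_eq V1 (by rw [hk, hV]))
    have hk1 : k = 1 := by omega
    rw [hk1, pow_one] at hk
    have heq : N0 = V1 := AddSubgroup.eq_of_le_of_card_ge h (by rw [hk, hN0])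
    intro i x
    rw [heq]
    exact hG1 i x
  · left
    have hM : N0 ⊓ V1 = ⊥ := by
      have hle : N0 ⊓ V1 ≤ N0 := inf_le_left
      have hd : Nat.card (N0 ⊓ V1 : AddSubgroup V) ∣ p := hN0 ▸ AddSubgroup.card_dvd_of_le hle
      rcases (Nat.dvd_prime hp).mp hd with h1 | h1
      · exact AddSubgroup.eq_bot_of_card_eq _ h1
      · exfalso
        apply h
        have : N0 ⊓ V1 = N0 := AddSubgroup.eq_of_le_of_card_ge hle (by rw [h1, hN0])
        rw [← this]
        exact inf_le_right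
    intro i x hx
    have hmem : g i x - x ∈ N0 ⊓ V1 :=
      ⟨N0.sub_mem (hGN i x hx) hx, hG1 i x⟩
    rw [hM, AddSubgroup.mem_bot, sub_eq_zero] at hmem
    exact hmem

end Fermat.Agent.S13.H5
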