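import Mathlib
import Fermat.Agent.S13.H5_LOCp
import Fermat.Agent.S13.H5_LineDich
import Fermat.Agent.S05.H5_Final

/-!
# S13 / LOCp, part 3: the Frey curve at a place over `p`

* `HasE1 W A n`: the set `E₁ = {O} ∪ {(x, y) | 1 < v x}` of points of `W` over `Qbar` is a
  subgroup, and `Q - σ Q ∈ E₁` for every `n`-torsion point `Q` and every `σ` in the inertia group
  of `A`.
* `frey_hasE1`: this holds for the Frey curve at every place over `p` (in fact over any odd prime).
* `locp_of_hasE1`, `frey_locp`: the dichotomy for a Galois stable line `N` of `E[p]`, under the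
  STRUCT hypotheses `#E[p] = p²` and `E[p] ⊄ E₁`: the inertia group acts trivially on `N` or on
  `E[p] / N`.
-/

set_option autoImplicit false

namespace Fermat.Agent.S13.H5

open WeierstrassCurve WeierstrassCurve.Affine WeierstrassCurve.Affine.Point
open Fermat.Agent.S05

local notation "Qbar" => AlgebraicClosure ℚ

attribute [local instance 10000] AlgebraicClosure.instAlgebra

/-- Closeness data for a Weierstrass curve over `ℚ` at a place `A` of `Qbar`: the kernel of
reduction `{O} ∪ {1 < v x}` is a subgroup `E₁`, and `(1 - σ)` maps the `n`-torsion into `E₁` for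
every `σ` in the inertia group of `A`. -/
def HasE1 (W : WeierstrassCurve ℚ) (A : ValuationSubring Qbar) (n : ℕ) : Prop :=
  ∃ E1 : AddSubgroup (W⁄Qbar).Point,
    (∀ (x y : Qbar) (h : (W⁄Qbar).Nonsingular x y),
      (Point.some x y h : (W⁄Qbar).Point) ∈ E1 ↔ 1 < A.valuation x) ∧
    ∀ σ ∈ A.inertiaSubgroupIn ℚ, ∀ Q : (W⁄Qbar).Point, n • Q = 0 → Q - σ • Q ∈ E1

section transport

variable {W : WeierstrassCurve ℚ} {A : ValuationSubring Qbar} {n : ℕ}

lemma one_lt_val_affine_iff {u c x : Qbar} (hu : A.valuation u = 1) (hc : A.valuation c ≤ 1) :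
    1 < A.valuation (u ^ 2 * x + c) ↔ 1 < A.valuation x := by
  have hux : A.valuation (u ^ 2 * x) = A.valuation x := by
    rw [map_mul, map_pow, hu, one_pow, one_mul]
  constructor
  · intro h
    by_contra hx
    rw [not_lt] at hx
    exact absurd h (not_lt.mpr (A.valuation.map_add_le (hux ▸ hx) hc))
  · intro h
    rw [Valuation.map_add_eq_of_lt_left _ (by rw [hux]; exact lt_of_le_of_lt hc h), hux]
    exact h

/-- `HasE1` is invariant under a variable change over `ℚ` which is integral at `A`. -/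
theorem hasE1_smul (C : VariableChange ℚ)
    (hu : A.valuation (algebraMap ℚ Qbar (C.u : ℚ)) = 1)
    (hr : A.valuation (algebraMap ℚ Qbar C.r) ≤ 1)
    (h : HasE1 W A n) : HasE1 (C • W) A n := by
  obtain ⟨E1, hmem, hclose⟩ := h
  refine ⟨E1.comap (H79.bcEquiv (K := Qbar) W C).toAddMonoidHom, ?_, ?_⟩
  · intro x y hxy
    rw [AddSubgroup.mem_comap]
    obtain ⟨h', e⟩ := H79.bcEquiv_some W C hxy
    rw [AddEquiv.coe_toAddMonoidHom, e, hmem]
    simp only [H79.vcX, VariableChange.baseChange, VariableChange.map_u, VariableChange.map_r,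
      Units.coe_map, MonoidHom.coe_coe]
    exact one_lt_val_affine_iff hu hr
  · intro σ hσ Q hQ
    rw [AddSubgroup.mem_comap, AddEquiv.coe_toAddMonoidHom, map_sub, H79.bcEquiv_smul]
    apply hclose σ hσ
    rw [← map_nsmul, hQ, _root_.map_zero]

end transport

section short

variable (r s : ℚ) (A : ValuationSubring Qbar)

/-- the kernel of reduction of the rational short form, as a subgroup of the points over `Qbar` -/
noncomputable def shortE1 (hr : A.valuation (algebraMap ℚ Qbar r) ≤ 1)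
    (hs : A.valuation (algebraMap ℚ Qbar s) ≤ 1) :
    AddSubgroup ((H79.shortW r s)⁄Qbar).Point where
  carrier := {Q | H18.InE1 A.valuation (H79.pointCongr (H5.shortW_bc r s) Q)}
  zero_mem' := by
    change H18.InE1 A.valuation (H79.pointCongr (H5.shortW_bc r s) 0)
    rw [_root_.map_zero]; exact H18.inE1_zero _
  add_mem' := by
    intro a b ha hb
    change H18.InE1 A.valuation (H79.pointCongr (H5.shortW_bc r s) (a + b))
    rw [map_add]
    exact inE1_add A hr hs two_ne_zero ha hb
  neg_mem' := by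
    intro a ha
    change H18.InE1 A.valuation (H79.pointCongr (H5.shortW_bc r s) (-a))
    rw [map_neg]
    exact inE1_neg A ha

variable {r s A}

lemma mem_shortE1 {hr : A.valuation (algebraMap ℚ Qbar r) ≤ 1}
    {hs : A.valuation (algebraMap ℚ Qbar s) ≤ 1} {Q : ((H79.shortW r s)⁄Qbar).Point} :
    Q ∈ shortE1 r s A hr hs ↔
      H18.InE1 A.valuation (H79.pointCongr (H5.shortW_bc r s) Q) := Iff.rfl

lemma some_mem_shortE1 {hr : A.valuation (algebraMap ℚ Qbar r) ≤ 1}
    {hs : A.valuation (algebraMap ℚ Qbar s) ≤ 1} {x y : Qbar}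
    (h : ((H79.shortW r s)⁄Qbar).Nonsingular x y) :
    (Point.some x y h : ((H79.shortW r s)⁄Qbar).Point) ∈ shortE1 r s A hr hs ↔
      1 < A.valuation x := by
  rw [mem_shortE1, H79.pointCongr_some]
  exact Iff.rfl

/-- the transported point of `σ • Q` is the image of the transported point under `H5.phi` -/
lemma pointCongr_smul (σ : Qbar ≃ₐ[ℚ] Qbar) (Q : ((H79.shortW r s)⁄Qbar).Point) :
    H79.pointCongr (H5.shortW_bc r s) (σ • Q) =
      H5.phi r s σ (H79.pointCongr (H5.shortW_bc r s) Q) := by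
  simp only [H5.phi, AddMonoidHom.comp_apply, AddEquiv.coe_toAddMonoidHom,
    AddEquiv.symm_apply_apply]
  rfl

/-- closeness data for the rational short form: good reduction -/
theorem hasE1_short_good (hr : A.valuation (algebraMap ℚ Qbar r) ≤ 1)
    (hs : A.valuation (algebraMap ℚ Qbar s) = 1)
    (hD : A.valuation ((algebraMap ℚ Qbar r) ^ 2 - 4 * algebraMap ℚ Qbar s) = 1)
    (h2 : A.valuation (2 : Qbar) = 1) (n : ℕ) : HasE1 (H79.shortW r s) A n := by
  refine ⟨shortE1 r s A hr hs.le, fun x y h => some_mem_shortE1 h, ?_⟩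
  intro σ hσ Q _
  rw [mem_shortE1, map_sub, pointCongr_smul]
  exact closeness_good A hr hs hD h2 (H5.resTrivial_of_mem hσ)
    (fun z => H38.valuation_apply hσ z) (H5.coordAction_phi r s σ) _

/-- closeness data for the rational short form: multiplicative reduction with
`v s = v b ^ p` -/
theorem hasE1_short_mult (hr : A.valuation (algebraMap ℚ Qbar r) = 1)
    (hs1 : A.valuation (algebraMap ℚ Qbar s) < 1) (hs0 : s ≠ 0)
    (h2 : A.valuation (2 : Qbar) = 1) {p : ℕ} (hp : p.Prime) (hp2 : p ≠ 2) (b : ℤ)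
    (hb : A.valuation (algebraMap ℚ Qbar s) = A.valuation ((b : ℤ) : Qbar) ^ p) :
    HasE1 (H79.shortW r s) A p := by
  have hs0' : algebraMap ℚ Qbar s ≠ 0 := by
    rwa [Ne, map_eq_zero_iff _ (algebraMap ℚ Qbar).injective]
  refine ⟨shortE1 r s A hr.le hs1.le, fun x y h => some_mem_shortE1 h, ?_⟩
  intro σ hσ Q hQ
  rw [mem_shortE1, map_sub, pointCongr_smul]
  have hβ : (σ : Qbar →+* Qbar) ((b : ℤ) : Qbar) = ((b : ℤ) : Qbar) := H38.apply_intCast σ b
  refine closeness_mult' A hr hs1 hs0' h2 hp hp2 (H5.resTrivial_of_mem hσ)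
    (fun z => H38.valuation_apply hσ z) (H5.coordAction_phi r s σ) hβ hb ?_
  rw [← map_nsmul, hQ, _root_.map_zero]

end short

section frey

variable (P : FreyPackage) {A : ValuationSubring Qbar}

/-- **Closeness at an odd place for the Frey curve.**  For every place `A` of `Qbar` over an odd
prime `q` (in particular `q = p`), the kernel of reduction `E₁ = {O} ∪ {1 < v x}` of the Frey
curve is a subgroup and `(1 - σ) E[p] ⊆ E₁` for `σ` in the inertia group of `A`. -/
theorem frey_hasE1_of_odd {q : ℕ} (hq : q.Prime) (hq2 : q ≠ 2) (hA : A.LiesOverPrime q) :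
    HasE1 P.freyCurve A P.p := by
  have hv2 : A.valuation (2 : Qbar) = 1 := by
    have := H35.valuation_natCast_eq_one_of_prime_ne hq hA Nat.prime_two (Ne.symm hq2)
    simpa using this
  have hp2 : P.p ≠ 2 := by have := P.hp5; omega
  rw [H79.freyCurve_eq₁]
  refine hasE1_smul H79.freyVC ?_ ?_ ?_
  · simp only [H79.freyVC]
    simpa using hv2
  · simp [H79.freyVC]
  rcases H35.frey_cases P hq with hgood | ⟨hab, -⟩ | ⟨hc, -, -⟩
  · obtain ⟨h1, h2, h3⟩ := H35.frey_good (A := A) P hq hA hgood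
    refine hasE1_short_good (r := H79.freyB P - H79.freyA P) (s := -(H79.freyA P * H79.freyB P))
      ?_ ?_ ?_ hv2 P.p
    · rw [H5.cast_r₁]; exact h1
    · rw [H5.cast_s₁]; exact h2
    · rw [H5.cast_r₁, H5.cast_s₁]; exact h3
  · obtain ⟨h1, h2, h3⟩ := H35.frey_mult_ab (A := A) P hq hA hab
    have hs0 : -(H79.freyA P * H79.freyB P) ≠ 0 := by
      simp only [H79.freyA, H79.freyB, neg_ne_zero]
      exact mul_ne_zero (pow_ne_zero _ (by exact_mod_cast P.ha0))
        (pow_ne_zero _ (by exact_mod_cast P.hb0))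
    refine hasE1_short_mult (r := H79.freyB P - H79.freyA P)
      (s := -(H79.freyA P * H79.freyB P)) ?_ ?_ hs0 hv2 P.pp hp2 (P.a * P.b) ?_
    · rw [H5.cast_r₁]; exact h1
    · rw [H5.cast_s₁]; exact h2
    · rw [H5.cast_s₁]; exact h3
  · obtain ⟨h1, h2, h3⟩ := H35.frey_mult_c (A := A) P hq hA hc
    have hs0 : H79.freyA P * H79.freyC P ≠ 0 := by
      simp only [H79.freyA, H79.freyC]
      exact mul_ne_zero (pow_ne_zero _ (by exact_mod_cast P.ha0))
        (pow_ne_zero _ (by exact_mod_cast P.hc0))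
    rw [H79.freyShort₁_eq₂]
    refine hasE1_smul (H79.transVC (-(H79.freyA P))) ?_ ?_ ?_
    · simp [H79.transVC]
    · have : algebraMap ℚ Qbar (H79.transVC (-(H79.freyA P))).r = ((-(P.a ^ P.p) : ℤ) : Qbar) := by
        simp [H79.transVC, H79.freyA]
      rw [this]
      exact H38.valuation_intCast_le_one A _
    refine hasE1_short_mult (r := H79.freyA P + H79.freyC P) (s := H79.freyA P * H79.freyC P)
      ?_ ?_ hs0 hv2 P.pp hp2 (P.a * P.c) ?_
    · rw [H5.cast_r₂]; exact h1
    · rw [H5.cast_s₂]; exact h2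
    · rw [H5.cast_s₂]; exact h3

theorem frey_hasE1 (hA : A.LiesOverPrime P.p) : HasE1 P.freyCurve A P.p :=
  frey_hasE1_of_odd P P.pp (by have := P.hp5; omega) hA

end frey

section dichotomy

variable {W : WeierstrassCurve ℚ} {A : ValuationSubring Qbar} {p : ℕ}

/-- **LOCp, abstract form.** -/
theorem locp_of_hasE1 (hp : p.Prime) (hE : HasE1 W A p)
    (hcard : Nat.card (Submodule.torsionBy ℤ (W⁄Qbar).Point p) = p ^ 2)
    (hSS : ∃ (x y : Qbar) (h : (W⁄Qbar).Nonsingular x y),
      p • (Point.some x y h : (W⁄Qbar).Point) = 0 ∧ A.valuation x ≤ 1)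
    (N : Submodule (ZMod p) (Submodule.torsionBy ℤ (W⁄Qbar).Point p))
    (hN : IsGaloisStable ℚ N) (hbot : N ≠ ⊥) (htop : N ≠ ⊤) :
    (∀ σ ∈ A.inertiaSubgroupIn ℚ, ∀ x ∈ N, σ • x = x) ∨
      (∀ σ ∈ A.inertiaSubgroupIn ℚ,
        ∀ x : Submodule.torsionBy ℤ (W⁄Qbar).Point p, σ • x - x ∈ N) := by
  obtain ⟨E1, hmem, hclose⟩ := hE
  set V := Submodule.torsionBy ℤ (W⁄Qbar).Point p with hVdef
  have hfin : Finite V := Nat.finite_of_card_ne_zero (by rw [hcard]; exact pow_ne_zero 2 hp.ne_zero)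
  -- the subgroup `V ∩ E₁`
  set V1 : AddSubgroup V := E1.comap V.subtype.toAddMonoidHom with hV1def
  -- `N` as an additive subgroup
  set N0 : AddSubgroup V := N.toAddSubgroup with hN0def
  have hN0 : Nat.card N0 = p := by
    have hd : Nat.card N0 ∣ p ^ 2 := hcard ▸ AddSubgroup.card_addSubgroup_dvd_card N0
    obtain ⟨k, hk2, hk⟩ := (Nat.dvd_prime_pow hp).mp hd
    have hk0 : k ≠ 0 := by
      rintro rfl
      rw [pow_zero] at hk
      apply hbot
      have : N0 = ⊥ := AddSubgroup.eq_bot_of_card_eq _ hk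
      rw [← Submodule.toAddSubgroup_inj, Submodule.bot_toAddSubgroup]
      exact this
    have hk2' : k ≠ 2 := by
      rintro rfl
      apply htop
      have : N0 = ⊤ := AddSubgroup.eq_top_of_card_eq N0 (by rw [hk, hcard])
      rw [← Submodule.toAddSubgroup_inj, Submodule.top_toAddSubgroup]
      exact this
    have hk1 : k = 1 := by omega
    rw [hk, hk1, pow_one]
  have hV1 : V1 ≠ ⊤ := by
    obtain ⟨x, y, h, hT, hx⟩ := hSS
    intro htop'
    have hQV : (Point.some x y h : (W⁄Qbar).Point) ∈ V := by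
      rw [hVdef, Submodule.mem_torsionBy_iff, natCast_zsmul]
      exact hT
    have : (⟨_, hQV⟩ : V) ∈ V1 := by rw [htop']; exact AddSubgroup.mem_top _
    rw [hV1def, AddSubgroup.mem_comap] at this
    have h1 : 1 < A.valuation x := (hmem x y h).mp this
    exact absurd hx (not_le.mpr h1)
  have key := line_dichotomy hp hcard V1 N0 hN0 hV1
    (ι := ↥(A.inertiaSubgroupIn ℚ)) (fun σ => DistribSMul.toAddMonoidHom V (σ : Qbar ≃ₐ[ℚ] Qbar))
    (fun σ x hx => hN σ x hx)
    (by
      intro σ x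
      rw [hV1def, AddSubgroup.mem_comap]
      have hx : p • (x : (W⁄Qbar).Point) = 0 := by
        have := x.2
        rwa [Submodule.mem_torsionBy_iff, natCast_zsmul] at this
      have := E1.neg_mem (hclose σ σ.2 (x : (W⁄Qbar).Point) hx)
      rw [neg_sub] at this
      exact this)
  rcases key with h1 | h2
  · left
    intro σ hσ x hx
    exact h1 ⟨σ, hσ⟩ x hx
  · right
    intro σ hσ x
    exact h2 ⟨σ, hσ⟩ x

/-- **LOCp for the Frey curve.**  Let `A` be a place of `Qbar` over `p`, and `N` a Galois stable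
line of `E[p]`.  Assuming `#E[p] = p²` and that some nonzero `p`-torsion point has an `A`-integral
abscissa, the inertia group of `A` acts trivially on `N` or on `E[p] / N`. -/
theorem frey_locp (P : FreyPackage) (hA : A.LiesOverPrime P.p)
    (hcard : Nat.card (Submodule.torsionBy ℤ (P.freyCurve⁄Qbar).Point P.p) = P.p ^ 2)
    (hSS : ∃ (x y : Qbar) (h : (P.freyCurve⁄Qbar).Nonsingular x y),
      P.p • (Point.some x y h : (P.freyCurve⁄Qbar).Point) = 0 ∧ A.valuation x ≤ 1)
    (N : Submodule (ZMod P.p) (Submodule.torsionBy ℤ (P.freyCurve⁄Qbar).Point P.p))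
    (hN : IsGaloisStable ℚ N) (hbot : N ≠ ⊥) (htop : N ≠ ⊤) :
    (∀ σ ∈ A.inertiaSubgroupIn ℚ, ∀ x ∈ N, σ • x = x) ∨
      (∀ σ ∈ A.inertiaSubgroupIn ℚ,
        ∀ x : Submodule.torsionBy ℤ (P.freyCurve⁄Qbar).Point P.p, σ • x - x ∈ N) :=
  locp_of_hasE1 P.pp (frey_hasE1 P hA) hcard hSS N hN hbot htop

end dichotomy

end Fermat.Agent.S13.H5
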