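import Mathlib
import Fermat.Agent.S13.H5_LOCpFrey

/-!
# S13 / LOCp, part 4: the `hp` input of the glue theorem `H35.cofixedLine_of_local`

From the closeness data `HasE1` and one nonzero `p`-torsion point with integral abscissa we build
the proper submodule `T₁ = E[p] ∩ E₁` with `(σ - 1) E[p] ⊆ T₁` for all `σ` in the inertia group.
-/

set_option autoImplicit false

namespace Fermat.Agent.S13.H5

open WeierstrassCurve WeierstrassCurve.Affine WeierstrassCurve.Affine.Point
open Fermat.Agent.S05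

local notation "Qbar" => AlgebraicClosure ℚ

attribute [local instance 10000] AlgebraicClosure.instAlgebra

variable {W : WeierstrassCurve ℚ} {A : ValuationSubring Qbar} {p : ℕ}

/-- the `hp` shape from closeness data and a nonzero torsion point with integral abscissa -/
theorem hp_of_hasE1 (hE : HasE1 W A p)
    (hint : ∃ Q : Submodule.torsionBy ℤ (W⁄Qbar).Point p, Q ≠ 0 ∧
      H67.xCoord (W.baseChange Qbar) (Q : (W⁄Qbar).Point) ∈ A) :
    ∃ T1 : Submodule (ZMod p) (Submodule.torsionBy ℤ (W⁄Qbar).Point p), T1 ≠ ⊤ ∧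
      ∀ σ ∈ A.inertiaSubgroupIn ℚ, ∀ x : Submodule.torsionBy ℤ (W⁄Qbar).Point p,
        σ • x - x ∈ T1 := by
  obtain ⟨E1, hmem, hclose⟩ := hE
  set V := Submodule.torsionBy ℤ (W⁄Qbar).Point p with hVdef
  refine ⟨AddSubgroup.toZModSubmodule p (E1.comap V.subtype.toAddMonoidHom), ?_, ?_⟩
  · obtain ⟨Q, hQ0, hQx⟩ := hint
    intro htop
    have hQ1 : Q ∈ AddSubgroup.toZModSubmodule p (E1.comap V.subtype.toAddMonoidHom) := by
      rw [htop]; exact Submodule.mem_top
    rw [AddSubgroup.mem_toZModSubmodule, AddSubgroup.mem_comap] at hQ1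
    obtain ⟨Q, hQ⟩ := Q
    cases Q with
    | zero => exact hQ0 rfl
    | some x y h =>
      have h1 : 1 < A.valuation x := (hmem x y h).mp hQ1
      have h2 : A.valuation x ≤ 1 := (A.valuation_le_one_iff x).mpr hQx
      exact absurd h2 (not_le.mpr h1)
  · intro σ hσ x
    rw [AddSubgroup.mem_toZModSubmodule, AddSubgroup.mem_comap]
    have hx : p • (x : (W⁄Qbar).Point) = 0 := by
      have := x.2
      rwa [Submodule.mem_torsionBy_iff, natCast_zsmul] at this
    have := E1.neg_mem (hclose σ hσ (x : (W⁄Qbar).Point) hx)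
    rw [neg_sub] at this
    exact this

/-- **`hp` for the Frey curve**, given a nonzero `p`-torsion point with `A`-integral abscissa
(helper60's `frey_exists_integral_torsion`). -/
theorem frey_hp_of_integral (P : FreyPackage) (hA : A.LiesOverPrime P.p)
    (hint : ∃ Q : Submodule.torsionBy ℤ (P.freyCurve⁄Qbar).Point P.p, Q ≠ 0 ∧
      H67.xCoord (P.freyCurve.baseChange Qbar) (Q : (P.freyCurve⁄Qbar).Point) ∈ A) :
    ∃ T1 : Submodule (ZMod P.p) (Submodule.torsionBy ℤ (P.freyCurve⁄Qbar).Point P.p), T1 ≠ ⊤ ∧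
      ∀ σ ∈ A.inertiaSubgroupIn ℚ, ∀ x : Submodule.torsionBy ℤ (P.freyCurve⁄Qbar).Point P.p,
        σ • x - x ∈ T1 :=
  hp_of_hasE1 (frey_hasE1 P hA) hint

end Fermat.Agent.S13.H5
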