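import Mathlib
import Fermat.Agent.S05.H38_Gal
import Fermat.Agent.S05.H67_XF

/-!
# S13 / LOCp : the `p`-torsion is not contained in the kernel of reduction at `p`

Part (A): an abstract valuation-theoretic contradiction.
Part (B): rational numbers of `p`-adic absolute value `> 1` have absolute value `≥ |p|⁻¹`.
Part (C): Galois descent of the product of the `x`-coordinates of a stable finite set of points.
-/

set_option autoImplicit false

open Polynomial

namespace Fermat.Agent.S13.H60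

section Abstract

variable {K : Type*} [Field K] {Γ₀ : Type*} [LinearOrderedCommGroupWithZero Γ₀]
  (v : Valuation K Γ₀)

/-- a nonempty product of elements `> 1` is `> 1` -/
lemma one_lt_prod_of_forall_one_lt {ι : Type*} (s : Finset ι) (g : ι → Γ₀) (hs : s.Nonempty)
    (h : ∀ i ∈ s, 1 < g i) : 1 < ∏ i ∈ s, g i := by
  classical
  induction hs using Finset.Nonempty.cons_induction with
  | singleton a => simpa using h a (by simp)
  | cons a s ha hs ih =>
    rw [Finset.prod_cons]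
    have h1 : 1 < g a := h a (by simp)
    have h2 : 1 < ∏ i ∈ s, g i := ih (fun i hi => h i (by simp [hi]))
    calc (1 : Γ₀) < g a := h1
      _ = g a * 1 := (mul_one _).symm
      _ ≤ g a * ∏ i ∈ s, g i := by gcongr

/-- a polynomial of degree `#XT` vanishing on the finite set `XT` splits with these roots -/
lemma eq_C_mul_prod_of_roots (XT : Finset K) (f : K[X]) (hf0 : f ≠ 0)
    (hdeg : f.natDegree ≤ XT.card) (hroots : ∀ ξ ∈ XT, f.eval ξ = 0) :
    f = C f.leadingCoeff * ∏ ξ ∈ XT, (X - C ξ) := by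
  classical
  have hle : XT.val ≤ f.roots := by
    rw [Multiset.le_iff_subset XT.nodup]
    intro ξ hξ
    exact (mem_roots hf0).2 (hroots ξ hξ)
  have hcard : Multiset.card f.roots ≤ Multiset.card XT.val := by
    rw [Finset.card_val]; exact (card_roots' f).trans hdeg
  have heq : XT.val = f.roots := Multiset.eq_of_le_of_card_le hle hcard
  have hsplit : Multiset.card f.roots = f.natDegree := by
    refine le_antisymm (card_roots' f) ?_
    rw [← heq, Finset.card_val]; exact hdeg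
  have := C_leadingCoeff_mul_prod_multiset_X_sub_C hsplit
  rw [← heq] at this
  exact this.symm

/-- **(A)** Abstract contradiction: all roots of `f` have valuation `> 1`, the leading coefficient
has the valuation of `c`, the constant term is integral, and the product over a proper nonempty
part `X0` of the roots has valuation at least `v c⁻¹`. -/
theorem false_of_all_roots_large {c : K} (hc : c ≠ 0) (XT X0 : Finset K) (h0 : X0 ⊆ XT)
    (hne : X0 ≠ XT)
    (hE1 : ∀ ξ ∈ XT, 1 < v ξ)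
    (f : K[X]) (hdeg : f.natDegree ≤ XT.card) (hroots : ∀ ξ ∈ XT, f.eval ξ = 0)
    (hlead : v f.leadingCoeff = v c) (hconst : v (f.eval 0) ≤ 1)
    (hrat : v c⁻¹ ≤ v (∏ ξ ∈ X0, ξ)) : False := by
  classical
  have hXT : (XT \ X0).Nonempty := by
    rw [Finset.nonempty_iff_ne_empty, Ne, Finset.sdiff_eq_empty_iff_subset]
    exact fun h => hne (Finset.Subset.antisymm h0 h)
  have hvc : v c ≠ 0 := (map_ne_zero v).2 hc
  have hlc : f.leadingCoeff ≠ 0 := by
    rw [← map_ne_zero v, hlead]; exact hvc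
  have hf0 : f ≠ 0 := leadingCoeff_ne_zero.1 hlc
  have hfac := eq_C_mul_prod_of_roots XT f hf0 hdeg hroots
  have heval : f.eval 0 = f.leadingCoeff * ∏ ξ ∈ XT, (0 - ξ) := by
    conv_lhs => rw [hfac]
    simp [eval_prod]
  have hv : v (f.eval 0) = v c * ∏ ξ ∈ XT, v ξ := by
    rw [heval, map_mul, hlead, map_prod]
    congr 1
    refine Finset.prod_congr rfl (fun ξ _ => ?_)
    rw [zero_sub, Valuation.map_neg]
  have hsplit : ∏ ξ ∈ XT, v ξ = (∏ ξ ∈ X0, v ξ) * ∏ ξ ∈ XT \ X0, v ξ := by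
    rw [mul_comm, Finset.prod_sdiff h0]
  have hrest : 1 < ∏ ξ ∈ XT \ X0, v ξ :=
    one_lt_prod_of_forall_one_lt _ _ hXT (fun ξ hξ => hE1 ξ (Finset.mem_sdiff.1 hξ).1)
  have h1 : 1 ≤ v c * ∏ ξ ∈ X0, v ξ := by
    rw [← map_prod]
    calc (1 : Γ₀) = v c * v c⁻¹ := by rw [map_inv₀, mul_inv_cancel₀ hvc]
      _ ≤ v c * v (∏ ξ ∈ X0, ξ) := by gcongr
  have : 1 < v (f.eval 0) := by
    rw [hv, hsplit, ← mul_assoc]
    calc (1 : Γ₀) < ∏ ξ ∈ XT \ X0, v ξ := hrest
      _ = 1 * ∏ ξ ∈ XT \ X0, v ξ := (one_mul _).symm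
      _ ≤ (v c * ∏ ξ ∈ X0, v ξ) * ∏ ξ ∈ XT \ X0, v ξ := by gcongr
  exact absurd hconst (not_le.2 this)

end Abstract

local notation "Qbar" => AlgebraicClosure ℚ

open Fermat.Agent.S05

section Rational

/-- **(B)** a rational number of `p`-adic absolute value `> 1` has absolute value `≥ |p|⁻¹` -/
theorem valuation_inv_prime_le_of_one_lt {A : ValuationSubring Qbar} {p : ℕ} (hp : p.Prime)
    (hA : A.LiesOverPrime p) (q : ℚ) (hq : 1 < A.valuation (q : Qbar)) :
    A.valuation ((p : Qbar)⁻¹) ≤ A.valuation (q : Qbar) := by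
  set v := A.valuation with hv
  have hcast : (q : Qbar) = ((q.num : ℤ) : Qbar) / (((q.den : ℕ) : ℤ) : Qbar) := by
    rw [Int.cast_natCast]; exact Rat.cast_def q
  have hd0 : (((q.den : ℕ) : ℤ) : Qbar) ≠ 0 := by
    rw [Int.cast_natCast]; exact_mod_cast q.den_ne_zero
  have hvd0 : v (((q.den : ℕ) : ℤ) : Qbar) ≠ 0 := (map_ne_zero v).2 hd0
  have hn1 : v ((q.num : ℤ) : Qbar) ≤ 1 := H38.valuation_intCast_le_one A _
  have hd1 : v (((q.den : ℕ) : ℤ) : Qbar) ≤ 1 := H38.valuation_intCast_le_one A _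
  -- `p ∣ den`
  have hpd : (p : ℤ) ∣ ((q.den : ℕ) : ℤ) := by
    by_contra hnd
    have h1 : v (((q.den : ℕ) : ℤ) : Qbar) = 1 := H38.valuation_intCast_eq_one hp hA hnd
    rw [hcast, map_div₀, h1, div_one] at hq
    exact absurd hn1 (not_le.2 hq)
  -- `p ∤ num`
  have hpn : ¬ (p : ℤ) ∣ q.num := by
    intro hdvd
    have h1 : p ∣ q.num.natAbs := Int.natCast_dvd.1 hdvd
    have h2 : p ∣ q.den := Int.natCast_dvd_natCast.1 hpd
    have := Nat.dvd_gcd h1 h2
    rw [q.reduced.gcd_eq_one] at this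
    exact hp.one_lt.ne' (Nat.dvd_one.1 this)
  have hvn : v ((q.num : ℤ) : Qbar) = 1 := H38.valuation_intCast_eq_one hp hA hpn
  obtain ⟨d', hd'⟩ := hpd
  have hvd : v (((q.den : ℕ) : ℤ) : Qbar) ≤ v (p : Qbar) := by
    rw [hd']
    push_cast
    rw [map_mul]
    calc v (p : Qbar) * v (d' : Qbar) ≤ v (p : Qbar) * 1 := by
          gcongr; exact H38.valuation_intCast_le_one A d'
      _ = v (p : Qbar) := mul_one _
  have hvp0 : v (p : Qbar) ≠ 0 := by
    rw [Ne, map_eq_zero]; exact_mod_cast hp.ne_zero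
  rw [hcast, map_div₀, hvn, one_div, map_inv₀]
  exact (inv_le_inv₀ (zero_lt_iff.2 hvp0) (zero_lt_iff.2 hvd0)).2 hvd

/-- version of **(B)** with `algebraMap` -/
theorem valuation_inv_prime_le_of_one_lt' {A : ValuationSubring Qbar} {p : ℕ} (hp : p.Prime)
    (hA : A.LiesOverPrime p) (f : ℚ →+* Qbar) (q : ℚ) (hq : 1 < A.valuation (f q)) :
    A.valuation ((p : Qbar)⁻¹) ≤ A.valuation (f q) := by
  rw [eq_ratCast f q] at hq ⊢
  exact valuation_inv_prime_le_of_one_lt hp hA q hq

end Rational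

section Descent

attribute [local instance 10000] AlgebraicClosure.instAlgebra

open WeierstrassCurve WeierstrassCurve.Affine

variable (W : WeierstrassCurve ℚ)

/-- the `x`-coordinate is Galois equivariant -/
lemma xCoord_smul (σ : Qbar ≃ₐ[ℚ] Qbar) (P : (W⁄Qbar).Point) :
    H67.xCoord (W.baseChange Qbar) (σ • P) = σ (H67.xCoord (W.baseChange Qbar) P) := by
  cases P with
  | zero => exact (map_zero σ).symm
  | some x y h => rfl

/-- **(C)** the product of the `x`-coordinates of a Galois-stable finite set of points is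
rational -/
theorem prod_xCoord_mem_range (N : Finset (W⁄Qbar).Point)
    (hN : ∀ σ : Qbar ≃ₐ[ℚ] Qbar, ∀ P ∈ N, σ • P ∈ N) :
    ∃ q : ℚ, algebraMap ℚ Qbar q = ∏ ξ ∈ N.image (H67.xCoord (W.baseChange Qbar)), ξ := by
  classical
  have hgal : IsGalois ℚ Qbar := by
    have := @IsAlgClosure.isGalois ℚ Qbar _ _ (AlgebraicClosure.instAlgebra ℚ) _ _
    exact this
  rw [← Set.mem_range, InfiniteGalois.mem_range_algebraMap_iff_fixed]
  intro σ
  set X := N.image (H67.xCoord (W.baseChange Qbar)) with hX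
  have himg : X.image σ = X := by
    apply Finset.eq_of_subset_of_card_le
    · intro η hη
      obtain ⟨ξ, hξ, rfl⟩ := Finset.mem_image.1 hη
      obtain ⟨P, hP, rfl⟩ := Finset.mem_image.1 hξ
      rw [← xCoord_smul]
      exact Finset.mem_image_of_mem _ (hN σ P hP)
    · rw [Finset.card_image_of_injective _ σ.injective]
  rw [map_prod]
  conv_rhs => rw [← himg]
  rw [Finset.prod_image (fun a _ b _ h => σ.injective h)]

end Descent

section Instantiation

attribute [local instance 10000] AlgebraicClosure.instAlgebra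

open WeierstrassCurve WeierstrassCurve.Affine WeierstrassCurve.Affine.Point

variable (W : WeierstrassCurve ℚ) {p : ℕ}

/-- **(D)** Let `N0` be a Galois stable proper nonzero subspace of `E[p]` (finite), `A` a valuation
subring of `Qbar` over `p`, and `f` a polynomial vanishing at the `x`-coordinates of all nonzero
`p`-torsion points, with `2 deg f + 1 ≤ #E[p]`, leading coefficient of the valuation of `p` and
integral constant term. Then some nonzero `p`-torsion point has integral `x`-coordinate, i.e.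
`E[p]` is not contained in the kernel of reduction. -/
theorem exists_torsion_xCoord_mem (hp : p.Prime)
    [Finite (Submodule.torsionBy ℤ (W⁄Qbar).Point p)]
    (N0 : Submodule (ZMod p) (Submodule.torsionBy ℤ (W⁄Qbar).Point p))
    (hstab : IsGaloisStable ℚ N0) (hbot : N0 ≠ ⊥) (htop : N0 ≠ ⊤)
    {A : ValuationSubring Qbar} (hA : A.LiesOverPrime p)
    (f : Qbar[X])
    (hdeg : 2 * f.natDegree + 1 ≤ Nat.card (Submodule.torsionBy ℤ (W⁄Qbar).Point p))
    (hroots : ∀ Q : Submodule.torsionBy ℤ (W⁄Qbar).Point p, Q ≠ 0 →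
      f.eval (H67.xCoord (W.baseChange Qbar) (Q : (W⁄Qbar).Point)) = 0)
    (hlead : A.valuation f.leadingCoeff = A.valuation (p : Qbar))
    (hconst : A.valuation (f.eval 0) ≤ 1) :
    ∃ Q : Submodule.torsionBy ℤ (W⁄Qbar).Point p, Q ≠ 0 ∧
      H67.xCoord (W.baseChange Qbar) (Q : (W⁄Qbar).Point) ∈ A := by
  classical
  by_contra hcon
  push Not at hcon
  set xc := H67.xCoord (W.baseChange Qbar) with hxc
  have hbig : ∀ Q : Submodule.torsionBy ℤ (W⁄Qbar).Point p, Q ≠ 0 →
      1 < A.valuation (xc (Q : (W⁄Qbar).Point)) := by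
    intro Q hQ
    have := hcon Q hQ
    rw [← A.valuation_le_one_iff, not_le] at this
    exact this
  have : Fintype (Submodule.torsionBy ℤ (W⁄Qbar).Point p) := Fintype.ofFinite _
  -- the finite sets of points
  set ST : Finset (W⁄Qbar).Point :=
    (Finset.univ.filter (fun Q : Submodule.torsionBy ℤ (W⁄Qbar).Point p => Q ≠ 0)).image
      Subtype.val with hST
  set S0 : Finset (W⁄Qbar).Point :=
    (Finset.univ.filter (fun Q : Submodule.torsionBy ℤ (W⁄Qbar).Point p =>
      Q ≠ 0 ∧ Q ∈ N0)).image Subtype.val with hS0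
  have memST : ∀ P : (W⁄Qbar).Point, P ∈ ST ↔
      ∃ Q : Submodule.torsionBy ℤ (W⁄Qbar).Point p, Q ≠ 0 ∧ (Q : (W⁄Qbar).Point) = P := by
    intro P; simp [hST]
  have memS0 : ∀ P : (W⁄Qbar).Point, P ∈ S0 ↔
      ∃ Q : Submodule.torsionBy ℤ (W⁄Qbar).Point p, (Q ≠ 0 ∧ Q ∈ N0) ∧
        (Q : (W⁄Qbar).Point) = P := by
    intro P; simp [hS0]
  have hS0T : S0 ⊆ ST := by
    intro P hP
    obtain ⟨Q, ⟨hQ0, -⟩, rfl⟩ := (memS0 P).1 hP
    exact (memST _).2 ⟨Q, hQ0, rfl⟩
  set XT := ST.image xc with hXT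
  set X0 := S0.image xc with hX0
  have h0 : X0 ⊆ XT := Finset.image_subset_image hS0T
  have coe_ne : ∀ Q : Submodule.torsionBy ℤ (W⁄Qbar).Point p, Q ≠ 0 →
      (Q : (W⁄Qbar).Point) ≠ 0 := fun Q hQ h => hQ (Subtype.ext h)
  -- `X0 ≠ XT`
  have hne : X0 ≠ XT := by
    obtain ⟨Q, hQ⟩ : ∃ Q : Submodule.torsionBy ℤ (W⁄Qbar).Point p, Q ∉ N0 := by
      by_contra hall
      push Not at hall
      exact htop (eq_top_iff.2 fun Q _ => hall Q)
    have hQ0 : Q ≠ 0 := fun h => hQ (h ▸ N0.zero_mem)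
    intro heq
    have hx : xc (Q : (W⁄Qbar).Point) ∈ X0 := by
      rw [heq]
      exact Finset.mem_image_of_mem _ ((memST _).2 ⟨Q, hQ0, rfl⟩)
    obtain ⟨P', hP', hxeq⟩ := Finset.mem_image.1 hx
    obtain ⟨Q', ⟨hQ'0, hQ'N⟩, rfl⟩ := (memS0 P').1 hP'
    rcases (H67.xCoord_eq_iff (W.baseChange Qbar) (coe_ne Q' hQ'0) (coe_ne Q hQ0)).1 hxeq
      with h | h
    · exact hQ ((Subtype.ext h : Q' = Q) ▸ hQ'N)
    · have : Q' = -Q := Subtype.ext h
      have hmem : -Q' ∈ N0 := N0.neg_mem hQ'N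
      rw [this, neg_neg] at hmem
      exact hQ hmem
  -- all elements of `XT` are large
  have hE1 : ∀ ξ ∈ XT, 1 < A.valuation ξ := by
    intro ξ hξ
    obtain ⟨P, hP, rfl⟩ := Finset.mem_image.1 hξ
    obtain ⟨Q, hQ0, rfl⟩ := (memST P).1 hP
    exact hbig Q hQ0
  -- roots
  have hr : ∀ ξ ∈ XT, f.eval ξ = 0 := by
    intro ξ hξ
    obtain ⟨P, hP, rfl⟩ := Finset.mem_image.1 hξ
    obtain ⟨Q, hQ0, rfl⟩ := (memST P).1 hP
    exact hroots Q hQ0
  -- degree
  have hcardST : ST.card + 1 = Nat.card (Submodule.torsionBy ℤ (W⁄Qbar).Point p) := by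
    rw [hST, Finset.card_image_of_injective _ Subtype.val_injective, Nat.card_eq_fintype_card,
      Finset.filter_ne' , Finset.card_erase_of_mem (Finset.mem_univ _), Finset.card_univ]
    exact Nat.sub_add_cancel Fintype.card_pos
  have hfib : ST.card ≤ 2 * XT.card := by
    refine Finset.card_le_mul_card_image _ 2 (fun ξ hξ => ?_)
    obtain ⟨P, hP, rfl⟩ := Finset.mem_image.1 hξ
    have hP0 : P ≠ 0 := by
      obtain ⟨Q, hQ0, rfl⟩ := (memST P).1 hP
      exact coe_ne Q hQ0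
    have hsub : (ST.filter fun P' => xc P' = xc P) ⊆ {P, -P} := by
      intro P' hP'
      rw [Finset.mem_filter] at hP'
      have hP'0 : P' ≠ 0 := by
        obtain ⟨Q, hQ0, rfl⟩ := (memST P').1 hP'.1
        exact coe_ne Q hQ0
      rcases (H67.xCoord_eq_iff (W.baseChange Qbar) hP'0 hP0).1 hP'.2 with h | h
      · rw [h]; simp
      · rw [h]; simp
    exact (Finset.card_le_card hsub).trans Finset.card_le_two
  have hdeg' : f.natDegree ≤ XT.card := by omega
  -- rationality of the product over `X0`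
  have hstabS0 : ∀ σ : Qbar ≃ₐ[ℚ] Qbar, ∀ P ∈ S0, σ • P ∈ S0 := by
    intro σ P hP
    obtain ⟨Q, ⟨hQ0, hQN⟩, rfl⟩ := (memS0 P).1 hP
    refine (memS0 _).2 ⟨σ • Q, ⟨?_, hstab σ Q hQN⟩, rfl⟩
    intro h
    apply hQ0
    have : σ⁻¹ • (σ • Q) = Q := inv_smul_smul σ Q
    rw [← this, h, smul_zero]
  obtain ⟨q, hq⟩ := prod_xCoord_mem_range W S0 hstabS0
  have hX0ne : X0.Nonempty := by
    obtain ⟨Q, hQN, hQ0⟩ := (Submodule.ne_bot_iff N0).1 hbot
    exact ⟨_, Finset.mem_image_of_mem _ ((memS0 _).2 ⟨Q, ⟨hQ0, hQN⟩, rfl⟩)⟩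
  have hprod : 1 < A.valuation (∏ ξ ∈ X0, ξ) := by
    rw [map_prod]
    exact one_lt_prod_of_forall_one_lt _ _ hX0ne (fun ξ hξ => hE1 ξ (h0 hξ))
  have hrat : A.valuation ((p : Qbar)⁻¹) ≤ A.valuation (∏ ξ ∈ X0, ξ) := by
    rw [← hq] at hprod ⊢
    exact valuation_inv_prime_le_of_one_lt' hp hA (algebraMap ℚ Qbar) q hprod
  have hp0 : (p : Qbar) ≠ 0 := by exact_mod_cast hp.ne_zero
  exact false_of_all_roots_large A.valuation hp0 XT X0 h0 hne hE1 f hdeg' hr hlead hconst hrat

/-- **(D')** Version of `exists_torsion_xCoord_mem` for an integral polynomial with leading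
coefficient `± p`. -/
theorem exists_torsion_xCoord_mem_of_int (hp : p.Prime)
    [Finite (Submodule.torsionBy ℤ (W⁄Qbar).Point p)]
    (N0 : Submodule (ZMod p) (Submodule.torsionBy ℤ (W⁄Qbar).Point p))
    (hstab : IsGaloisStable ℚ N0) (hbot : N0 ≠ ⊥) (htop : N0 ≠ ⊤)
    {A : ValuationSubring Qbar} (hA : A.LiesOverPrime p)
    (f : ℤ[X]) (hlead : f.leadingCoeff = p ∨ f.leadingCoeff = -p)
    (hdeg : 2 * f.natDegree + 1 ≤ Nat.card (Submodule.torsionBy ℤ (W⁄Qbar).Point p))
    (hroots : ∀ Q : Submodule.torsionBy ℤ (W⁄Qbar).Point p, Q ≠ 0 →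
      (f.map (Int.castRingHom Qbar)).eval
        (H67.xCoord (W.baseChange Qbar) (Q : (W⁄Qbar).Point)) = 0) :
    ∃ Q : Submodule.torsionBy ℤ (W⁄Qbar).Point p, Q ≠ 0 ∧
      H67.xCoord (W.baseChange Qbar) (Q : (W⁄Qbar).Point) ∈ A := by
  have hinj : Function.Injective (Int.castRingHom Qbar) := Int.cast_injective
  refine exists_torsion_xCoord_mem W hp N0 hstab hbot htop hA (f.map (Int.castRingHom Qbar))
    ?_ hroots ?_ ?_
  · rwa [natDegree_map_eq_of_injective hinj]
  · rw [leadingCoeff_map_of_injective hinj]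
    rcases hlead with h | h
    · rw [h]; simp
    · rw [h]; simp
  · rw [eval_zero_map]
    exact H38.valuation_intCast_le_one A _

end Instantiation

end Fermat.Agent.S13.H60
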