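import Mathlib
import Fermat.Agent.S13.H46_LadderBridge
import Fermat.Agent.S13.H46_LadderTorsion
import Fermat.Agent.S13.H70_Frey2
import Fermat.Agent.S13.H60_NotAllE1

/-!
# S13 / LOCp : adapter STRUCT (ladder polynomials) → "E[p] ⊄ E1" for the frozen Frey curve

* `map_polyTheta`: compatibility of helper46/helper84's ladder polynomial `Θ_j` with ring maps;
* `exists_int_poly`: for a curve with an integral model, an integral polynomial with leading
  coefficient `p`, degree `(p^2-1)/2`, vanishing at the `x`-coordinates of the nonzero `p`-torsion;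
* `frey_exists_integral_torsion`: for the Frey curve, a Galois stable proper nonzero subspace of
  `E[p]` and a place `A` over `p`, some nonzero `p`-torsion point has `x`-coordinate in `A`.
-/

set_option autoImplicit false

open Polynomial

namespace Fermat.Agent.S13.H60

section MapCompat

variable {R R' : Type*} [CommRing R] [CommRing R'] (φ : R →+* R') (W : WeierstrassCurve R)

lemma map_polyLadder (n : ℕ) :
    Prod.map (Polynomial.map φ) (Polynomial.map φ) (H46.polyLadder W n) =
      H46.polyLadder (W.map φ) n := by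
  have := H84.map_ladder (Polynomial.mapRingHom φ) (C W.b₂) (C W.b₄) (C W.b₆) (C W.b₈)
    (X : R[X]) n
  simpa [H46.polyLadder] using this

lemma map_polyTheta (j : ℕ) :
    (H46.polyTheta W j).map φ = H46.polyTheta (W.map φ) j := by
  have h1 := map_polyLadder φ W j
  have h2 := map_polyLadder φ W (j + 1)
  simp only [H46.polyTheta, Polynomial.map_sub, Polynomial.map_mul]
  rw [← h1, ← h2]
  rfl

end MapCompat

section Card

/-- a finite `𝔽_p`-vector space with a proper nonzero subspace has at least `p^2` elements -/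
lemma sq_le_card_of_ne_bot_of_ne_top {p : ℕ} [Fact p.Prime] {T : Type*} [AddCommGroup T]
    [Module (ZMod p) T] [Finite T] (N0 : Submodule (ZMod p) T) (hbot : N0 ≠ ⊥) (htop : N0 ≠ ⊤) :
    p ^ 2 ≤ Nat.card T := by
  have : Module.Finite (ZMod p) T := Module.Finite.of_finite
  rw [Module.natCard_eq_pow_finrank (K := ZMod p) (V := T), Nat.card_zmod]
  apply Nat.pow_le_pow_right (Fact.out : p.Prime).pos
  have h1 : 0 < Module.finrank (ZMod p) N0 := by
    rw [Module.finrank_pos_iff]
    exact (Submodule.nontrivial_iff_ne_bot).2 hbot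
  have h2 : Module.finrank (ZMod p) N0 < Module.finrank (ZMod p) T :=
    Submodule.finrank_lt htop
  omega

end Card

local notation "Qbar" => AlgebraicClosure ℚ

attribute [local instance 10000] AlgebraicClosure.instAlgebra

open WeierstrassCurve WeierstrassCurve.Affine WeierstrassCurve.Affine.Point
open Fermat.Agent.S05

section General

variable (Wi : WeierstrassCurve ℤ) (m : ℕ)

lemma two_mul_add_one_ne_zero : (2 * (m : ℤ) + 1) ≠ 0 := by positivity

lemma leadingCoeff_polyTheta_int : (H46.polyTheta Wi m).leadingCoeff = ((2 * m + 1 : ℕ) : ℤ) := by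
  rw [H46.leadingCoeff_polyTheta Wi (two_mul_add_one_ne_zero m)]; push_cast; ring

lemma natDegree_polyTheta_int : 2 * (H46.polyTheta Wi m).natDegree + 1 = (2 * m + 1) ^ 2 := by
  rw [H46.natDegree_polyTheta Wi (two_mul_add_one_ne_zero m)]; ring

lemma baseChange_map_int :
    (Wi.map (Int.castRingHom ℚ)).baseChange Qbar = Wi.map (Int.castRingHom Qbar) := by
  rw [WeierstrassCurve.baseChange, WeierstrassCurve.map_map]
  congr 1

/-- the integral ladder polynomial vanishes at the `x`-coordinates of the nonzero `p`-torsion -/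
theorem eval_map_polyTheta_eq_zero (hp : (2 * m + 1).Prime)
    (Q : ((Wi.map (Int.castRingHom ℚ))⁄Qbar).Point) (hQ : Q ≠ 0) (hpQ : (2 * m + 1) • Q = 0) :
    ((H46.polyTheta Wi m).map (Int.castRingHom Qbar)).eval
      (H67.xCoord ((Wi.map (Int.castRingHom ℚ)).baseChange Qbar) Q) = 0 := by
  rw [map_polyTheta, ← baseChange_map_int, H46.polyTheta_eq, eval_neg, neg_eq_zero]
  exact H46.eval_ladF_eq_zero_of_prime _ hp hQ hpQ

/-- For a curve over `ℚ` with an integral model, a Galois stable proper nonzero subspace of `E[p]`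
(`p` an odd prime) and a place `A` over `p`: some nonzero `p`-torsion point has `x`-coordinate
in `A`, i.e. `E[p]` is not contained in the kernel of reduction. -/
theorem exists_integral_torsion_of_int_model (W : WeierstrassCurve ℚ)
    (hW : W = Wi.map (Int.castRingHom ℚ)) {p : ℕ} (hp : p.Prime) (hp2 : p ≠ 2)
    [Finite (Submodule.torsionBy ℤ (W⁄Qbar).Point p)]
    (N0 : Submodule (ZMod p) (Submodule.torsionBy ℤ (W⁄Qbar).Point p))
    (hstab : IsGaloisStable ℚ N0) (hbot : N0 ≠ ⊥) (htop : N0 ≠ ⊤)
    {A : ValuationSubring Qbar} (hA : A.LiesOverPrime p) :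
    ∃ Q : Submodule.torsionBy ℤ (W⁄Qbar).Point p, Q ≠ 0 ∧
      H67.xCoord (W.baseChange Qbar) (Q : (W⁄Qbar).Point) ∈ A := by
  subst hW
  obtain ⟨m, rfl⟩ : ∃ m, p = 2 * m + 1 := by
    rcases hp.eq_two_or_odd' with h | h
    · exact absurd h hp2
    · exact h
  have : Fact (2 * m + 1).Prime := ⟨hp⟩
  refine exists_torsion_xCoord_mem_of_int _ hp N0 hstab hbot htop hA (H46.polyTheta Wi m)
    (Or.inl (leadingCoeff_polyTheta_int Wi m)) ?_ ?_
  · rw [natDegree_polyTheta_int]
    exact sq_le_card_of_ne_bot_of_ne_top N0 hbot htop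
  · intro Q hQ
    refine eval_map_polyTheta_eq_zero Wi m hp (Q : _) (fun h => hQ (Subtype.ext h)) ?_
    have := Q.2
    rw [Submodule.mem_torsionBy_iff] at this
    rw [← natCast_zsmul]
    exact this

end General

section Frey

variable (P : FreyPackage)

/-- an integral model of the Frey curve -/
lemma exists_int_model : ∃ Wi : WeierstrassCurve ℤ, P.freyCurve = Wi.map (Int.castRingHom ℚ) := by
  obtain ⟨k₂, hk₂⟩ := H70.exists_freyA2_eq P
  obtain ⟨k₄, hk₄⟩ := H70.exists_freyA4_eq P
  refine ⟨⟨1, k₂, 0, 2 * k₄, 0⟩, ?_⟩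
  rw [H70.freyCurve_eq_nodeW, hk₂, hk₄]
  ext <;> simp [H70.nodeW]

/-- **LOCp, supersingular exclusion for the Frey curve**: for a Galois stable proper nonzero
subspace of `E[p]` and a place `A` over `p`, some nonzero `p`-torsion point has `x`-coordinate in
`A`. -/
theorem frey_exists_integral_torsion
    [Finite (Submodule.torsionBy ℤ (P.freyCurve⁄Qbar).Point P.p)]
    (N0 : Submodule (ZMod P.p) (Submodule.torsionBy ℤ (P.freyCurve⁄Qbar).Point P.p))
    (hstab : IsGaloisStable ℚ N0) (hbot : N0 ≠ ⊥) (htop : N0 ≠ ⊤)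
    {A : ValuationSubring Qbar} (hA : A.LiesOverPrime P.p) :
    ∃ Q : Submodule.torsionBy ℤ (P.freyCurve⁄Qbar).Point P.p, Q ≠ 0 ∧
      H67.xCoord (P.freyCurve.baseChange Qbar) (Q : (P.freyCurve⁄Qbar).Point) ∈ A := by
  obtain ⟨Wi, hWi⟩ := exists_int_model P
  have hp2 : P.p ≠ 2 := by have := P.hp5; omega
  exact exists_integral_torsion_of_int_model Wi P.freyCurve hWi P.pp hp2 N0 hstab hbot htop hA

end Frey

end Fermat.Agent.S13.H60
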