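import Mathlib
import Fermat.Statements.S13
import Fermat.Agent.S05
import Fermat.Agent.S13.H32_GlueMink
import Fermat.Agent.S13.H84_Struct
import Fermat.Agent.S13.H70_Frey2
import Fermat.Agent.S13.H5_LOCpHp
import Fermat.Agent.S13.H60_FreyPoly
import Fermat.Agent.S13.H13_Rat

/-!
# S13 FINAL (helper13): instantiation of the GLUE theorem for the Frey curve.

Each hypothesis of the GLUE theorem (`H35.cofixedLine_of_local`, in the form
`H32.cofixedLine_of_local'` with MINK and LEVEL already discharged) is a separate lemma `frey_*`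
below, in exactly the shape GLUE consumes.

* STRUCT (`hnt`, `hfin`, `hcard`): ladder route, helper84 + helper46 (`H84_Struct`).
* `hunr`: S05.
* `h2` : unipotent inertia at `2`, helper70 (`H70_Frey2`).
* `hrat`: no rational `p`-torsion, helper11 + helper89 + descent (`H13_Rat`).
* `hp` : closeness at `p`, helper5 (`H5_LOCpHp`) + supersingular exclusion, helper60 (`H60_FreyPoly`).
* MINK / LEVEL: helper32, helper38, helper54 (`H32_GlueMink`).
* GLUE: helper35 (`H35_Glue`).
-/

set_option autoImplicit false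

open WeierstrassCurve WeierstrassCurve.Affine WeierstrassCurve.Affine.Point
open FreyPackage

namespace Fermat.Agent.S13.Final

local notation "Qb" => AlgebraicClosure ℚ

variable (P : FreyPackage)

instance factPrime : Fact P.p.Prime := ⟨P.pp⟩

/-- STRUCT: existence of a nonzero `p`-torsion point. -/
theorem frey_hnt : Nontrivial (Submodule.torsionBy ℤ (P.freyCurve⁄Qb).Point P.p) :=
  Fermat.Agent.S13.H84.frey_nontrivial P

/-- STRUCT: finiteness. -/
theorem frey_hfin : Finite (Submodule.torsionBy ℤ (P.freyCurve⁄Qb).Point P.p) :=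
  Fermat.Agent.S13.H84.frey_finite P

/-- STRUCT: at most `p ^ 2` torsion points. -/
theorem frey_hcard : Nat.card (Submodule.torsionBy ℤ (P.freyCurve⁄Qb).Point P.p) ≤ P.p ^ 2 :=
  Fermat.Agent.S13.H84.frey_card_le P

/-- S05 (landed). -/
theorem frey_hunr : ∀ q : ℕ, q.Prime → q ≠ 2 → q ≠ P.p →
    GaloisRepUnramifiedAt (K := Qb) ℚ P.freyCurve P.p q :=
  fun _ hq hq2 hqp => Fermat.Agent.S05.result P hq hq2 hqp

/-- LOC2: inertia at `2` is unipotent. -/
theorem frey_h2 : ∀ A : ValuationSubring Qb, A.LiesOverPrime 2 → ∀ σ ∈ A.inertiaSubgroupIn ℚ,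
    ∀ x : Submodule.torsionBy ℤ (P.freyCurve⁄Qb).Point P.p, σ • (σ • x - x) = σ • x - x :=
  fun A hA σ hσ x => Fermat.Agent.S13.H70.frey_unipotent_two P A hA σ hσ x

/-- RATPT: no Galois-fixed nonzero `p`-torsion point. -/
theorem frey_hrat : ∀ x : Submodule.torsionBy ℤ (P.freyCurve⁄Qb).Point P.p,
    (∀ σ : Qb ≃ₐ[ℚ] Qb, σ • x = x) → x = 0 :=
  Fermat.Agent.S13.H13.frey_hrat P

/-- LOCp: at a place over `p`, `(σ - 1) T` lies in a proper subspace (`T ∩ E₁`). -/
theorem frey_hp : ∀ N0 : Submodule (ZMod P.p) (Submodule.torsionBy ℤ (P.freyCurve⁄Qb).Point P.p),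
    IsGaloisStable ℚ N0 → N0 ≠ ⊥ → N0 ≠ ⊤ →
    ∀ A : ValuationSubring Qb, A.LiesOverPrime P.p →
    ∃ T1 : Submodule (ZMod P.p) (Submodule.torsionBy ℤ (P.freyCurve⁄Qb).Point P.p), T1 ≠ ⊤ ∧
      ∀ σ ∈ A.inertiaSubgroupIn ℚ, ∀ x : Submodule.torsionBy ℤ (P.freyCurve⁄Qb).Point P.p,
        σ • x - x ∈ T1 :=
  fun N0 hN hbot htop _ hA =>
    Fermat.Agent.S13.H5.frey_hp_of_integral P hA
      (@Fermat.Agent.S13.H60.frey_exists_integral_torsion P (frey_hfin P) N0 hN hbot htop _ hA)

theorem main (hred : ¬ GaloisRepIsIrreducible (K := Qb) ℚ P.freyCurve P.p) :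
    HasGaloisStableCofixedLine (K := Qb) ℚ P.freyCurve P.p :=
  Fermat.Agent.S13.H32.cofixedLine_of_local' P.freyCurve P.p (frey_hnt P) (frey_hfin P)
    (frey_hcard P) (frey_hunr P) (frey_h2 P) (frey_hrat P) (frey_hp P) hred

end Fermat.Agent.S13.Final
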