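import Mathlib
import Fermat.Prelude.Def_FLTPrelim_FreyPackage
import Fermat.Prelude.Def_FLTPrelim_GaloisRep
import Fermat.Agent.S13.H11_Frey2
import Fermat.Agent.S13.H89_GF3

/-!
# `hrat` for the Frey curve (project S13, package RATPT, final export)

`frey_hrat` : a point of `E[p](ℚ̄)` of the Frey curve fixed by all of `Gal(ℚ̄/ℚ)` is zero, in the
frozen vocabulary (shape of `H35.cofixedLine_of_local`).
-/

set_option autoImplicit false

namespace Fermat.Agent.S13.H11

open WeierstrassCurve WeierstrassCurve.Affine WeierstrassCurve.Affine.Point Fermat.Agent.S05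

local notation "Qb" => AlgebraicClosure ℚ

/-- An element of `ℚ̄` fixed by all of `Gal(ℚ̄/ℚ)` is rational. -/
theorem exists_rat_of_fixed' (x : Qb) (hx : ∀ σ : Qb ≃ₐ[ℚ] Qb, σ x = x) :
    ∃ r : ℚ, algebraMap ℚ Qb r = x := by
  have : IsAlgClosure ℚ Qb := AlgebraicClosure.instIsAlgClosure ℚ
  have : IsGalois ℚ Qb := IsAlgClosure.isGalois ℚ Qb
  exact (InfiniteGalois.mem_range_algebraMap_iff_fixed x).mpr hx

/-- the general F1 (helper89) at `2` for the Frey curve -/
theorem frey_hF1 (P : FreyPackage) :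
    ∀ Q : P.freyCurve.toAffine.Point, Q ≠ 0 → P.p • Q = 0 →
      Rat.padicValuation 2 (H67.xCoord P.freyCurve Q) ≤ 1 := by
  intro Q _ hQ
  have hnode : IsNodeForm P.freyCurve := ⟨rfl, rfl⟩
  have ha1 := (frey_val_a₄_lt_one P).le
  refine H89.val_xCoord_le_one_of_nsmul_eq_zero (Rat.padicValuation 2) P.freyCurve
    (frey_val_b₂ P).le ?_ ?_ ?_ ?_ hQ
  · rw [hnode.b₄_eq]
    exact (val_two_mul_le _ _).trans ha1
  · rw [hnode.b₆_eq, _root_.map_zero]; exact zero_le
  · rw [hnode.b₈_eq, Valuation.map_neg, map_pow]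
    exact pow_le_one₀ zero_le ha1
  · rw [← Int.cast_natCast, Rat.padicValuation_cast, Int.padicValuation_eq_one_iff]
    have e2 : ((2 : ℕ) : ℤ) = 2 := by norm_num
    rw [e2]
    have hodd := P.hp_odd
    intro h
    have : (2 : ℕ) ∣ P.p := by exact_mod_cast h
    exact (Nat.not_even_iff_odd.mpr hodd) (even_iff_two_dvd.mpr this)

/-- no nonzero rational point killed by `p` on the Frey curve -/
theorem frey_no_rat_torsion' (P : FreyPackage) (T : P.freyCurve.toAffine.Point)
    (hT : P.p • T = 0) : T = 0 :=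
  frey_no_rat_torsion P (frey_hF1 P) T hT

/-- **hrat** (shape of `H35.cofixedLine_of_local`): a `Gal(ℚ̄/ℚ)`-fixed point of `E[p](ℚ̄)` on the
Frey curve is zero. -/
theorem frey_hrat (P : FreyPackage) :
    ∀ x : Submodule.torsionBy ℤ ((P.freyCurve : Affine ℚ)⁄Qb).Point P.p,
      (∀ σ : Qb ≃ₐ[ℚ] Qb, σ • x = x) → x = 0 := by
  rintro ⟨Q, hQ⟩ hfix
  have hQ' : P.p • Q = 0 := by
    rw [Submodule.mem_torsionBy_iff, natCast_zsmul] at hQ
    exact hQ
  have hfix' : ∀ σ : Qb ≃ₐ[ℚ] Qb, σ • Q = Q := fun σ => congrArg Subtype.val (hfix σ)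
  apply Subtype.ext
  show Q = 0
  cases Q with
  | zero => rfl
  | some X Y h =>
    exfalso
    -- the coordinates are fixed, hence rational
    have hXY : ∀ σ : Qb ≃ₐ[ℚ] Qb, σ X = X ∧ σ Y = Y := by
      intro σ
      have h1 := hfix' σ
      have h2 : σ • (Point.some X Y h : ((P.freyCurve : Affine ℚ)⁄Qb).Point) =
          Point.map (W' := (P.freyCurve : Affine ℚ)) σ.toAlgHom (Point.some X Y h) := rfl
      rw [h2, Point.map_some] at h1
      have h3 := Point.some.inj h1
      exact ⟨h3.1, h3.2⟩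
    obtain ⟨r, hr⟩ := exists_rat_of_fixed' X (fun σ => (hXY σ).1)
    obtain ⟨s, hs⟩ := exists_rat_of_fixed' Y (fun σ => (hXY σ).2)
    subst hr hs
    have h0 : ((P.freyCurve : Affine ℚ)⁄ℚ).Nonsingular r s :=
      (Affine.baseChange_nonsingular (W := (P.freyCurve : Affine ℚ)) (f := Algebra.ofId ℚ Qb)
        (algebraMap ℚ Qb).injective r s).mp h
    set T₀ : ((P.freyCurve : Affine ℚ)⁄ℚ).Point := Point.some r s h0 with hT₀
    have hmap : Point.baseChange ℚ Qb T₀ =
        (Point.some (algebraMap ℚ Qb r) (algebraMap ℚ Qb s) h :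
          ((P.freyCurve : Affine ℚ)⁄Qb).Point) := rfl
    have hT₀p : P.p • T₀ = 0 := by
      apply Point.map_injective (W' := (P.freyCurve : Affine ℚ)) (Algebra.ofId ℚ Qb)
      rw [map_nsmul, Point.map_zero]
      exact hQ'
    have := frey_no_rat_torsion' P T₀ hT₀p
    exact Point.some_ne_zero h0 this

end Fermat.Agent.S13.H11
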