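import Mathlib
import Fermat.Agent.S05.H67_XF

/-!
S13 / STRUCT-mult (helper17): torsion points and division polynomials.

For a Weierstrass curve `W` over a field `F` and an affine nonsingular point `P = (x, y)`, put
`w n := (W.ψ n).evalEval x y`.  Assuming that `w` is an elliptic sequence (Ward's relation, the
statement that Mathlib's `normEDS` is an elliptic sequence), we prove

* `n • P = 0 ↔ w n = 0`, and for odd `n`: `n • P = 0 ↔ (W.preΨ n).eval x = 0`;
* while `j • P ≠ 0` for `1 ≤ j ≤ n`: `(x(n • P) - x) * w n ^ 2 = - w (n+1) * w (n-1)`.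
-/

set_option autoImplicit false

noncomputable section

namespace Fermat.Agent.S13.H17

open WeierstrassCurve Polynomial
open Fermat.Agent.S05

/-! ## Ring identities -/

section Identities

variable {F : Type*} [Field F] (W : WeierstrassCurve F)

/-- value of `Ψ₃` at `x`. -/
def p3 (x : F) : F := 3 * x ^ 4 + W.b₂ * x ^ 3 + 3 * W.b₄ * x ^ 2 + 3 * W.b₆ * x + W.b₈

/-- value of `preΨ₄` at `x`. -/
def p4 (x : F) : F :=
  2 * x ^ 6 + W.b₂ * x ^ 5 + 5 * W.b₄ * x ^ 4 + 10 * W.b₆ * x ^ 3 + 10 * W.b₈ * x ^ 2 +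
    (W.b₂ * W.b₈ - W.b₄ * W.b₆) * x + (W.b₄ * W.b₈ - W.b₆ ^ 2)

theorem eval_Ψ₃ (x : F) : (W.Ψ₃).eval x = p3 W x := by
  simp [Ψ₃, p3]

theorem eval_preΨ₄ (x : F) : (W.preΨ₄).eval x = p4 W x := by
  simp [preΨ₄, p4]

theorem eval_Ψ₂Sq (x : F) : (W.Ψ₂Sq).eval x = H67.dblDen W x := by
  simp [Ψ₂Sq, H67.dblDen]

/-- `dblNum = x * dblDen - Ψ₃`. -/
theorem dblNum_eq (x : F) : H67.dblNum W x = x * H67.dblDen W x - p3 W x := by
  simp only [H67.dblNum, H67.dblDen, p3]; ring

/-- `preΨ₄ = Ψ₃ * (6x² + b₂x + b₄) - Ψ₂Sq²`. -/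
theorem p4_eq (x : F) :
    p4 W x = p3 W x * (6 * x ^ 2 + W.b₂ * x + W.b₄) - H67.dblDen W x ^ 2 := by
  have h := W.b_relation
  simp only [H67.dblDen, p3, p4]
  linear_combination (x ^ 2 : F) * h

/-- the product/sum combination giving `(x(A+P) - x)(x(A-P) - x)(x(A) - x)^2`. -/
theorem prod_sum_id (u x : F) :
    H67.prodNum W u x - x * H67.sumNum W u x + x ^ 2 * (u - x) ^ 2 =
      -p3 W x - (u - x) * H67.dblDen W x := by
  simp only [H67.prodNum, H67.sumNum, H67.dblDen, p3]
  ring

/-- the sum formula specialised to `(2P, P)`. -/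
theorem sum_id (u x : F) :
    H67.sumNum W u x - 2 * x * (u - x) ^ 2 =
      H67.dblDen W x + (u - x) * (6 * x ^ 2 + W.b₂ * x + W.b₄) := by
  simp only [H67.sumNum, H67.dblDen]
  ring

end Identities

/-! ## The algebraic step -/

section Step

variable {F : Type*} [Field F]

/-- the pure field computation behind the induction step `k → k+1`. -/
theorem step_aux {a b c d e s t u w3 w2sq : F} (ha : a ≠ 0) (hb : b ≠ 0)
    (E1 : s * b ^ 2 + c * a = 0) (E2 : t * c ^ 2 + d * b = 0)
    (E3 : u * s * t ^ 2 + w3 + t * w2sq = 0)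
    (E4 : e * a - d * b * w2sq + w3 * c ^ 2 = 0) : u * d ^ 2 + e * c = 0 := by
  have key : a * b ^ 2 * (u * d ^ 2 + e * c) = 0 := by
    linear_combination b ^ 2 * c * E4 + (b ^ 2 * c * w2sq + u * a * (d * b - t * c ^ 2)) * E2 -
      b ^ 2 * c ^ 3 * E3 + u * t ^ 2 * c ^ 3 * E1
  have hab : a * b ^ 2 ≠ 0 := mul_ne_zero ha (pow_ne_zero 2 hb)
  exact (mul_eq_zero.mp key).resolve_left hab

end Step

/-! ## Rank of apparition for elliptic sequences over a field -/

section Apparition

variable {F : Type*} [Field F]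

/-- Ward's relation for a sequence `w : ℤ → R`. -/
def Ward {R : Type*} [CommRing R] (w : ℤ → R) : Prop :=
  ∀ m n : ℤ, w (m + n) * w (m - n) =
    w (m + 1) * w (m - 1) * w n ^ 2 - w (n + 1) * w (n - 1) * w m ^ 2

/-- a normalised odd sequence satisfying Ward's relation. -/
structure EllSeq (w : ℤ → F) : Prop where
  zero : w 0 = 0
  one : w 1 = 1
  neg : ∀ n : ℤ, w (-n) = -w n
  ward : Ward w

theorem EllSeq.somos {w : ℤ → F} (hE : EllSeq w) (m : ℤ) :
    w (m + 2) * w (m - 2) = w (m + 1) * w (m - 1) * w 2 ^ 2 - w 3 * w m ^ 2 := by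
  have h := hE.ward m 2
  rw [show (2 : ℤ) + 1 = 3 by norm_num, show (2 : ℤ) - 1 = 1 by norm_num, hE.one] at h
  linear_combination h

/-- **rank of apparition**: if `N ≥ 2` is the first zero of `w` and `w (N+1) ≠ 0`, then
`w m = 0 ↔ N ∣ m`. (For `N = 2` the divisibility `w 2 ∣ w (2m)` is an extra input.) -/
theorem EllSeq.apparition {w : ℤ → F} (hE : EllSeq w) {N : ℕ} (hN : 2 ≤ N) (h0 : w N = 0)
    (hne : ∀ j : ℕ, 1 ≤ j → j < N → w j ≠ 0) (hN1 : w ((N : ℤ) + 1) ≠ 0)
    (hev : N = 2 → ∀ m : ℤ, w (2 * m) = 0) (m : ℤ) : w m = 0 ↔ (N : ℤ) ∣ m := by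
  have hNm1 : w ((N : ℤ) - 1) ≠ 0 := by
    have := hne (N - 1) (by omega) (by omega)
    rwa [show ((N - 1 : ℕ) : ℤ) = (N : ℤ) - 1 by push_cast [Nat.cast_sub (show 1 ≤ N by omega)]; ring]
      at this
  have hshift : ∀ m : ℤ, w (m + N) * w (m - N) =
      -(w ((N : ℤ) + 1) * w ((N : ℤ) - 1)) * w m ^ 2 := by
    intro m
    have h := hE.ward m N
    rw [h0] at h
    linear_combination h
  have hA : ∀ m : ℤ, w m ≠ 0 → w (m + N) ≠ 0 ∧ w (m - N) ≠ 0 := by
    intro m hm
    have h := hshift m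
    have hne' : -(w ((N : ℤ) + 1) * w ((N : ℤ) - 1)) * w m ^ 2 ≠ 0 :=
      mul_ne_zero (neg_ne_zero.mpr (mul_ne_zero hN1 hNm1)) (pow_ne_zero 2 hm)
    rw [← h] at hne'
    exact ⟨left_ne_zero_of_mul hne', right_ne_zero_of_mul hne'⟩
  have hB : ∀ m : ℤ, ¬ (N : ℤ) ∣ m → w m ≠ 0 := by
    intro m hm
    have hNpos : (0 : ℤ) < N := by exact_mod_cast (show 0 < N by omega)
    have hr0 : 0 ≤ m % N := Int.emod_nonneg m hNpos.ne'
    have hrN : m % N < N := Int.emod_lt_of_pos m hNpos
    have hr1 : m % N ≠ 0 := fun h => hm (Int.dvd_of_emod_eq_zero h)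
    have hwr : w (m % N) ≠ 0 := by
      have := hne (m % N).toNat (by omega) (by omega)
      rwa [Int.toNat_of_nonneg hr0] at this
    have hall : ∀ q : ℤ, w (m % N + N * q) ≠ 0 := by
      intro q
      induction q using Int.induction_on with
      | zero => simpa using hwr
      | succ i ih =>
        have := (hA _ ih).1
        rwa [show m % (N : ℤ) + N * i + N = m % (N : ℤ) + N * (i + 1) by ring] at this
      | pred i ih =>
        have := (hA _ ih).2
        rwa [show m % (N : ℤ) + N * (-i) - N = m % (N : ℤ) + N * (-i - 1) by ring] at this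
    have := hall (m / N)
    rwa [Int.emod_add_mul_ediv] at this
  have hC : ∀ q : ℤ, w (N * q) = 0 := by
    obtain rfl | hN3 : N = 2 ∨ 3 ≤ N := by omega
    · intro q; exact_mod_cast hev rfl q
    · have hnat : ∀ q : ℕ, w (N * q) = 0 ∧ w (N * (q + 1)) = 0 := by
        intro q
        induction q with
        | zero => simp [hE.zero, h0]
        | succ q ih =>
          refine ⟨by exact_mod_cast ih.2, ?_⟩
          have h := hE.ward ((N : ℤ) * (q + 1) - 1) ((N : ℤ) + 1)
          rw [show (N : ℤ) * (q + 1) - 1 + (N + 1) = N * ((q + 1 : ℕ) + 1) by push_cast; ring,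
            show (N : ℤ) * (q + 1) - 1 - (N + 1) = N * q - 2 by ring,
            show (N : ℤ) * (q + 1) - 1 + 1 = N * (q + 1) by ring, ih.2,
            show (N : ℤ) + 1 - 1 = N by ring, h0] at h
          have h2 : w ((N : ℤ) * q - 2) ≠ 0 := by
            apply hB
            intro hd
            have : (N : ℤ) ∣ 2 := by
              have h3 : (N : ℤ) ∣ N * q := dvd_mul_right _ _
              have := dvd_sub h3 hd
              simpa using this
            have := Int.le_of_dvd (by norm_num) this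
            omega
          have h3 : w ((N : ℤ) * ((q + 1 : ℕ) + 1)) * w ((N : ℤ) * q - 2) = 0 := by
            rw [h]; ring
          exact (mul_eq_zero.mp h3).resolve_right h2
      intro q
      induction q using Int.induction_on with
      | zero => simp [hE.zero]
      | succ i _ => exact_mod_cast (hnat i).2
      | pred i _ =>
        have := (hnat i).2
        rw [show (N : ℤ) * (-i - 1) = -(N * (i + 1)) by ring, hE.neg, this, neg_zero]
  constructor
  · intro h
    by_contra hd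
    exact hB m hd h
  · rintro ⟨q, rfl⟩
    exact hC q

end Apparition

/-! ## Division data attached to a point -/

section Geometry

variable {F : Type*} [Field F] [DecidableEq F] (W : WeierstrassCurve F)

/-- the values `w n = ψ_n(P)` of the division polynomials at a point with `x`-coordinate `x`:
what the geometric induction needs to know about them. -/
structure DivData (w : ℤ → F) (x : F) : Prop where
  zero : w 0 = 0
  one : w 1 = 1
  two_sq : w 2 ^ 2 = H67.dblDen W x
  three : w 3 = p3 W x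
  four : w 4 = w 2 * p4 W x
  somos : ∀ m : ℤ, w (m + 2) * w (m - 2) = w (m + 1) * w (m - 1) * w 2 ^ 2 - w 3 * w m ^ 2

/-- the invariant carried along the multiples of `P`. -/
def Inv (w : ℤ → F) (P : W.toAffine.Point) (k : ℕ) : Prop :=
  w k ≠ 0 ∧
    (H67.xCoord W (k • P) - H67.xCoord W P) * w k ^ 2 = -(w ((k : ℤ) + 1) * w ((k : ℤ) - 1))

variable {W}

theorem inv_one {w : ℤ → F} {x : F} (hD : DivData W w x) (P : W.toAffine.Point) :
    Inv W w P 1 := by
  refine ⟨by simp [hD.one], ?_⟩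
  simp [hD.zero]

/-- `x(k • P) ≠ x(P)` as soon as `(k-1) • P`, `k • P`, `(k+1) • P`, `P` are nonzero. -/
theorem xCoord_nsmul_ne {P : W.toAffine.Point} {k : ℕ} (hP : P ≠ 0) (hk : 1 ≤ k)
    (h0 : (k - 1) • P ≠ 0) (h1 : k • P ≠ 0) (h2 : (k + 1) • P ≠ 0) :
    H67.xCoord W (k • P) ≠ H67.xCoord W P := by
  intro h
  rcases (H67.xCoord_eq_iff W h1 hP).mp h with h | h
  · apply h0
    have : k • P = (k - 1) • P + P := by
      rw [← succ_nsmul]; congr 1; omega
    rw [this] at h
    simpa using h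
  · apply h2
    rw [succ_nsmul, h]; simp

theorem inv_two {w : ℤ → F} {x y : F} {hxy : W.toAffine.Nonsingular x y}
    (hD : DivData W w x) (h2 : 2 • (Affine.Point.some x y hxy) ≠ 0) :
    Inv W w (Affine.Point.some x y hxy) 2 := by
  have hP : (Affine.Point.some x y hxy) ≠ 0 := Affine.Point.some_ne_zero _
  have hden : H67.dblDen W x ≠ 0 := by
    intro h
    exact h2 ((H67.two_nsmul_eq_zero_iff W hP).mpr (by simpa using h))
  have hdup := H67.xCoord_two_nsmul W hP h2
  simp only [H67.xCoord_some] at hdup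
  rw [dblNum_eq] at hdup
  refine ⟨?_, ?_⟩
  · intro h
    apply hden
    rw [← hD.two_sq]
    simp only [Nat.cast_ofNat] at h
    rw [h]; ring
  · simp only [H67.xCoord_some, Nat.cast_ofNat]
    rw [show ((2 : ℤ) + 1) = 3 by norm_num, show ((2 : ℤ) - 1) = 1 by norm_num, hD.one, hD.three,
      hD.two_sq]
    linear_combination hdup

/-- the geometric recursion for `t_k = x(k • P) - x(P)`:
`t_{k+1} t_{k-1} t_k² + Ψ₃ + t_k Ψ₂Sq = 0`. -/
theorem geom_prod {P : W.toAffine.Point} (hP : P ≠ 0) {k : ℕ} (hk : 1 ≤ k) (hA : k • P ≠ 0)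
    (hx : H67.xCoord W (k • P) ≠ H67.xCoord W P) :
    (H67.xCoord W ((k + 1) • P) - H67.xCoord W P) *
        (H67.xCoord W ((k - 1) • P) - H67.xCoord W P) *
        (H67.xCoord W (k • P) - H67.xCoord W P) ^ 2 +
      p3 W (H67.xCoord W P) +
      (H67.xCoord W (k • P) - H67.xCoord W P) * H67.dblDen W (H67.xCoord W P) = 0 := by
  have e1 : (k + 1) • P = k • P + P := succ_nsmul P k
  have e2 : (k - 1) • P = k • P - P := by
    have : k • P = (k - 1) • P + P := by
      rw [← succ_nsmul]; congr 1; omega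
    rw [this]; simp
  have hp := H67.xCoord_add_mul_xCoord_sub W hA hP hx
  have hs := H67.xCoord_add_add_xCoord_sub W hA hP hx
  have hid := prod_sum_id W (H67.xCoord W (k • P)) (H67.xCoord W P)
  rw [e1, e2]
  linear_combination hp - H67.xCoord W P * hs + hid

/-- the sum formula for `(k • P, P)`. -/
theorem geom_sum {P : W.toAffine.Point} (hP : P ≠ 0) {k : ℕ} (hk : 1 ≤ k) (hA : k • P ≠ 0)
    (hx : H67.xCoord W (k • P) ≠ H67.xCoord W P) :
    (H67.xCoord W ((k + 1) • P) - H67.xCoord W P) *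
        (H67.xCoord W (k • P) - H67.xCoord W P) ^ 2 +
      (H67.xCoord W ((k - 1) • P) - H67.xCoord W P) *
        (H67.xCoord W (k • P) - H67.xCoord W P) ^ 2 =
      H67.dblDen W (H67.xCoord W P) +
        (H67.xCoord W (k • P) - H67.xCoord W P) *
          (6 * H67.xCoord W P ^ 2 + W.b₂ * H67.xCoord W P + W.b₄) := by
  have e1 : (k + 1) • P = k • P + P := succ_nsmul P k
  have e2 : (k - 1) • P = k • P - P := by
    have : k • P = (k - 1) • P + P := by
      rw [← succ_nsmul]; congr 1; omega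
    rw [this]; simp
  have hs := H67.xCoord_add_add_xCoord_sub W hA hP hx
  have hid := sum_id W (H67.xCoord W (k • P)) (H67.xCoord W P)
  rw [e1, e2]
  linear_combination hs + hid

theorem inv_three {w : ℤ → F} {x y : F} {hxy : W.toAffine.Nonsingular x y}
    (hD : DivData W w x) (h2 : 2 • (Affine.Point.some x y hxy) ≠ 0)
    (h3 : 3 • (Affine.Point.some x y hxy) ≠ 0) :
    Inv W w (Affine.Point.some x y hxy) 3 := by
  have hP : (Affine.Point.some x y hxy) ≠ 0 := Affine.Point.some_ne_zero _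
  obtain ⟨hw2, hI2⟩ := inv_two hD h2
  have hx : H67.xCoord W (2 • (Affine.Point.some x y hxy)) ≠
      H67.xCoord W (Affine.Point.some x y hxy) :=
    xCoord_nsmul_ne hP (by norm_num) (by simp [hP]) h2 h3
  have hs := geom_sum hP (k := 2) (by norm_num) h2 hx
  simp only [H67.xCoord_some, Nat.cast_ofNat] at hI2 hs hx hw2
  rw [show ((2 : ℤ) + 1) = 3 by norm_num, show ((2 : ℤ) - 1) = 1 by norm_num, hD.one] at hI2
  rw [show (2 + 1 : ℕ) = 3 by norm_num, show (2 - 1 : ℕ) = 1 by norm_num, one_nsmul,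
    H67.xCoord_some, sub_self, zero_mul, add_zero, ← hD.two_sq] at hs
  set t := H67.xCoord W (2 • (Affine.Point.some x y hxy)) - x with ht
  have ht0 : t ≠ 0 := sub_ne_zero.mpr hx
  have hw3 : w 3 = -(t * w 2 ^ 2) := by linear_combination hI2
  have hw4 : w 4 = w 2 * (w 3 * (6 * x ^ 2 + W.b₂ * x + W.b₄) - (w 2 ^ 2) ^ 2) := by
    rw [hD.four, p4_eq, ← hD.three, ← hD.two_sq]
  refine ⟨?_, ?_⟩
  · simp only [Nat.cast_ofNat]
    rw [hw3]
    exact neg_ne_zero.mpr (mul_ne_zero ht0 (pow_ne_zero 2 hw2))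
  · simp only [H67.xCoord_some, Nat.cast_ofNat]
    rw [show ((3 : ℤ) + 1) = 4 by norm_num, show ((3 : ℤ) - 1) = 2 by norm_num, hw4, hw3]
    linear_combination (w 2 ^ 4) * hs

/-- **Main induction.**  If `j • P ≠ 0` for all `1 ≤ j ≤ k`, then `w k ≠ 0` and
`(x(k • P) - x(P)) * w k ^ 2 = - w (k+1) * w (k-1)`. -/
theorem inv_of_forall_ne {w : ℤ → F} {x y : F} {hxy : W.toAffine.Nonsingular x y}
    (hD : DivData W w x) :
    ∀ k : ℕ, 1 ≤ k → (∀ j : ℕ, 1 ≤ j → j ≤ k → j • (Affine.Point.some x y hxy) ≠ 0) →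
      Inv W w (Affine.Point.some x y hxy) k := by
  intro k
  induction k using Nat.strong_induction_on with
  | _ k ih =>
    intro hk hne
    have hP : (Affine.Point.some x y hxy) ≠ 0 := Affine.Point.some_ne_zero _
    obtain rfl | rfl | rfl | hk4 : k = 1 ∨ k = 2 ∨ k = 3 ∨ 4 ≤ k := by omega
    · exact inv_one hD _
    · exact inv_two hD (hne 2 (by norm_num) le_rfl)
    · exact inv_three hD (hne 2 (by norm_num) (by norm_num)) (hne 3 (by norm_num) le_rfl)
    · obtain ⟨j, rfl⟩ : ∃ j, k = j + 4 := ⟨k - 4, by omega⟩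
      have I1 := ih (j + 1) (by omega) (by omega) (fun i h1 h2 => hne i h1 (by omega))
      have I2 := ih (j + 2) (by omega) (by omega) (fun i h1 h2 => hne i h1 (by omega))
      have I3 := ih (j + 3) (by omega) (by omega) (fun i h1 h2 => hne i h1 (by omega))
      have hA : (j + 3) • (Affine.Point.some x y hxy) ≠ 0 := hne _ (by omega) (by omega)
      have hx : H67.xCoord W ((j + 3) • (Affine.Point.some x y hxy)) ≠
          H67.xCoord W (Affine.Point.some x y hxy) :=
        xCoord_nsmul_ne hP (by omega) (hne _ (by omega) (by omega)) hA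
          (hne _ (by omega) (by omega))
      have hg := geom_prod hP (k := j + 3) (by omega) hA hx
      have hS := hD.somos ((j : ℤ) + 3)
      obtain ⟨ha, -⟩ := I1
      obtain ⟨hb, E1⟩ := I2
      obtain ⟨hc, E2⟩ := I3
      rw [show j + 3 + 1 = j + 4 by omega, show j + 3 - 1 = j + 2 by omega] at hg
      have c1 : ((j + 1 : ℕ) : ℤ) = (j : ℤ) + 1 := by push_cast; ring
      have c2 : ((j + 2 : ℕ) : ℤ) = (j : ℤ) + 2 := by push_cast; ring
      have c3 : ((j + 3 : ℕ) : ℤ) = (j : ℤ) + 3 := by push_cast; ring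
      have c4 : ((j + 4 : ℕ) : ℤ) = (j : ℤ) + 4 := by push_cast; ring
      rw [c1] at ha
      rw [c2, show (j : ℤ) + 2 + 1 = (j : ℤ) + 3 by ring,
        show (j : ℤ) + 2 - 1 = (j : ℤ) + 1 by ring] at E1
      rw [c2] at hb
      rw [c3, show (j : ℤ) + 3 + 1 = (j : ℤ) + 4 by ring,
        show (j : ℤ) + 3 - 1 = (j : ℤ) + 2 by ring] at E2
      rw [c3] at hc
      rw [show (j : ℤ) + 3 + 2 = (j : ℤ) + 5 by ring, show (j : ℤ) + 3 - 2 = (j : ℤ) + 1 by ring,
        show (j : ℤ) + 3 + 1 = (j : ℤ) + 4 by ring,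
        show (j : ℤ) + 3 - 1 = (j : ℤ) + 2 by ring] at hS
      have ht0 : H67.xCoord W ((j + 3) • (Affine.Point.some x y hxy)) -
          H67.xCoord W (Affine.Point.some x y hxy) ≠ 0 := sub_ne_zero.mpr hx
      have hfin := step_aux (a := w ((j : ℤ) + 1)) (b := w ((j : ℤ) + 2)) (c := w ((j : ℤ) + 3))
        (d := w ((j : ℤ) + 4)) (e := w ((j : ℤ) + 5))
        (s := H67.xCoord W ((j + 2) • (Affine.Point.some x y hxy)) -
          H67.xCoord W (Affine.Point.some x y hxy))
        (t := H67.xCoord W ((j + 3) • (Affine.Point.some x y hxy)) -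
          H67.xCoord W (Affine.Point.some x y hxy))
        (u := H67.xCoord W ((j + 4) • (Affine.Point.some x y hxy)) -
          H67.xCoord W (Affine.Point.some x y hxy))
        (w3 := w 3) (w2sq := w 2 ^ 2) ha hb
        (by linear_combination E1) (by linear_combination E2)
        (by rw [hD.three, hD.two_sq]; simpa using hg)
        (by linear_combination hS)
      have hd : w ((j : ℤ) + 4) ≠ 0 := by
        intro h0
        rw [h0] at E2
        have : (H67.xCoord W ((j + 3) • (Affine.Point.some x y hxy)) -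
          H67.xCoord W (Affine.Point.some x y hxy)) * w ((j : ℤ) + 3) ^ 2 = 0 := by
          rw [E2]; ring
        exact (mul_ne_zero ht0 (pow_ne_zero 2 hc)) this
      refine ⟨by rw [c4]; exact hd, ?_⟩
      rw [c4, show (j : ℤ) + 4 + 1 = (j : ℤ) + 5 by ring,
        show (j : ℤ) + 4 - 1 = (j : ℤ) + 3 by ring]
      linear_combination hfin

/-- at the exact order `N ≥ 2` of `P` the sequence vanishes. -/
theorem w_order_eq_zero {w : ℤ → F} {x y : F} {hxy : W.toAffine.Nonsingular x y}
    (hD : DivData W w x) {N : ℕ} (hN : 2 ≤ N)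
    (hNP : N • (Affine.Point.some x y hxy) = 0)
    (hne : ∀ j : ℕ, 1 ≤ j → j < N → j • (Affine.Point.some x y hxy) ≠ 0) : w N = 0 := by
  have hP : (Affine.Point.some x y hxy) ≠ 0 := Affine.Point.some_ne_zero _
  obtain rfl | hN3 : N = 2 ∨ 3 ≤ N := by omega
  · have hden : H67.dblDen W x = 0 := by
      simpa using (H67.two_nsmul_eq_zero_iff W hP).mp hNP
    rw [← hD.two_sq] at hden
    simpa using hden
  · obtain ⟨k, rfl⟩ : ∃ k, N = k + 3 := ⟨N - 3, by omega⟩
    have I1 := inv_of_forall_ne (hxy := hxy) hD (k + 1) (by omega)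
      (fun i h1 h2 => hne i h1 (by omega))
    have I2 := inv_of_forall_ne (hxy := hxy) hD (k + 2) (by omega)
      (fun i h1 h2 => hne i h1 (by omega))
    have hneg : (k + 2) • (Affine.Point.some x y hxy) = -(Affine.Point.some x y hxy) := by
      rw [eq_neg_iff_add_eq_zero, ← succ_nsmul]
      exact hNP
    obtain ⟨ha, -⟩ := I1
    obtain ⟨-, E⟩ := I2
    rw [hneg, H67.xCoord_neg, sub_self, zero_mul] at E
    have c1 : ((k + 1 : ℕ) : ℤ) = (k : ℤ) + 1 := by push_cast; ring
    have c2 : ((k + 2 : ℕ) : ℤ) = (k : ℤ) + 2 := by push_cast; ring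
    have c3 : ((k + 3 : ℕ) : ℤ) = (k : ℤ) + 3 := by push_cast; ring
    rw [c1] at ha
    rw [c2, show (k : ℤ) + 2 + 1 = (k : ℤ) + 3 by ring,
      show (k : ℤ) + 2 - 1 = (k : ℤ) + 1 by ring] at E
    rw [c3]
    have : w ((k : ℤ) + 3) * w ((k : ℤ) + 1) = 0 := by linear_combination E
    exact (mul_eq_zero.mp this).resolve_right ha

/-- **Torsion criterion, abstract form.**  For `P = (x, y)` and a sequence `w` with the division
data of `P`, which is an elliptic sequence: `n • P = 0 ↔ w n = 0`. -/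
theorem nsmul_eq_zero_iff_of_data {w : ℤ → F} {x y : F} {hxy : W.toAffine.Nonsingular x y}
    (hD : DivData W w x) (hE : EllSeq w) (hns : w 2 = 0 → w 3 ≠ 0)
    (hev : w 2 = 0 → ∀ m : ℤ, w (2 * m) = 0) (n : ℕ) :
    n • (Affine.Point.some x y hxy) = 0 ↔ w n = 0 := by
  have hP : (Affine.Point.some x y hxy) ≠ 0 := Affine.Point.some_ne_zero _
  set P := Affine.Point.some x y hxy with hPdef
  by_cases hord : addOrderOf P = 0
  · -- infinite order
    have hall : ∀ j : ℕ, 1 ≤ j → j • P ≠ 0 := fun j hj =>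
      (addOrderOf_eq_zero_iff'.mp hord) j (by omega)
    rcases Nat.eq_zero_or_pos n with rfl | hn
    · simp [hD.zero]
    · have := (inv_of_forall_ne (hxy := hxy) hD n hn (fun j h1 _ => hall j h1)).1
      exact ⟨fun h => absurd h (hall n hn), fun h => absurd h this⟩
  · -- finite order `N ≥ 2`
    set N := addOrderOf P with hNdef
    have hN2 : 2 ≤ N := by
      have h1 : N ≠ 1 := by
        intro h1
        rw [hNdef, AddMonoid.addOrderOf_eq_one_iff] at h1
        exact hP h1
      omega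
    have hNP : N • P = 0 := addOrderOf_nsmul_eq_zero P
    have hlt : ∀ j : ℕ, 1 ≤ j → j < N → j • P ≠ 0 := fun j h1 h2 =>
      nsmul_ne_zero_of_lt_addOrderOf (by omega) h2
    have hwN : w N = 0 := w_order_eq_zero (hxy := hxy) hD hN2 hNP hlt
    have hwj : ∀ j : ℕ, 1 ≤ j → j < N → w j ≠ 0 := fun j h1 h2 =>
      (inv_of_forall_ne (hxy := hxy) hD j h1 (fun i hi1 hi2 => hlt i hi1 (by omega))).1
    have hN1 : w ((N : ℤ) + 1) ≠ 0 := by
      obtain h2 | h3 | h4 : N = 2 ∨ N = 3 ∨ 4 ≤ N := by omega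
      · rw [h2] at hwN ⊢
        have := hns (by exact_mod_cast hwN)
        rwa [show ((2 : ℕ) : ℤ) + 1 = 3 by norm_num]
      · rw [h3] at hwN ⊢
        have hw2 : w 2 ≠ 0 := by
          have := hwj 2 (by norm_num) (by omega)
          exact_mod_cast this
        have hw3 : w 3 = 0 := by exact_mod_cast hwN
        rw [show ((3 : ℕ) : ℤ) + 1 = 4 by norm_num, hD.four, p4_eq, ← hD.three, ← hD.two_sq, hw3]
        have : w 2 * (0 * (6 * x ^ 2 + W.b₂ * x + W.b₄) - (w 2 ^ 2) ^ 2) = -(w 2 ^ 5) := by ring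
        rw [this]
        exact neg_ne_zero.mpr (pow_ne_zero 5 hw2)
      · have hS := hE.somos ((N : ℤ) - 1)
        rw [show (N : ℤ) - 1 + 2 = N + 1 by ring, show (N : ℤ) - 1 + 1 = N by ring, hwN] at hS
        have hw3 : w 3 ≠ 0 := by
          have := hwj 3 (by norm_num) (by omega)
          exact_mod_cast this
        have hwN1 : w ((N : ℤ) - 1) ≠ 0 := by
          have := hwj (N - 1) (by omega) (by omega)
          rwa [show ((N - 1 : ℕ) : ℤ) = (N : ℤ) - 1 by
            push_cast [Nat.cast_sub (show 1 ≤ N by omega)]; ring] at this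
        intro h0
        rw [h0] at hS
        have : w 3 * w ((N : ℤ) - 1) ^ 2 = 0 := by linear_combination hS
        exact (mul_ne_zero hw3 (pow_ne_zero 2 hwN1)) this
    have happ := hE.apparition hN2 hwN hwj hN1
      (fun h2 => hev (by rw [h2] at hwN; exact_mod_cast hwN)) n
    rw [happ, ← addOrderOf_dvd_iff_nsmul_eq_zero]
    exact Int.natCast_dvd_natCast.symm

end Geometry

/-! ## Instantiation with Mathlib's division polynomials -/

section Instantiate

variable {F : Type*} [Field F] (W : WeierstrassCurve F)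

/-- the value `ψ_n(x, y)` of the `n`-th division polynomial. -/
def psiVal (x y : F) (n : ℤ) : F := (W.ψ n).evalEval x y

/-- the value of `ψ₂` at `(x, y)`. -/
def psi2Val (x y : F) : F := 2 * y + W.a₁ * x + W.a₃

theorem psiVal_eq_normEDS (x y : F) (n : ℤ) :
    psiVal W x y n = normEDS (psi2Val W x y) (p3 W x) (p4 W x) n := by
  unfold psiVal WeierstrassCurve.ψ
  rw [← coe_evalEvalRingHom, map_normEDS]
  congr 1
  · simp [ψ₂, psi2Val, Affine.evalEval_polynomialY]
  · simp [eval_Ψ₃]
  · simp [eval_preΨ₄]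

theorem psi2Val_sq {x y : F} (h : W.toAffine.Equation x y) :
    psi2Val W x y ^ 2 = H67.dblDen W x := by
  rw [H67.dblDen_eq W h, psi2Val, Affine.negY]; ring

theorem eval_preΨ (x : F) (n : ℤ) :
    (W.preΨ n).eval x = preNormEDS (H67.dblDen W x ^ 2) (p3 W x) (p4 W x) n := by
  unfold WeierstrassCurve.preΨ
  rw [← coe_evalRingHom, map_preNormEDS]
  simp [eval_Ψ₃, eval_preΨ₄, eval_Ψ₂Sq]

theorem psiVal_eq_preΨ {x y : F} (h : W.toAffine.Equation x y) (n : ℤ) :
    psiVal W x y n = (W.preΨ n).eval x * if Even n then psi2Val W x y else 1 := by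
  rw [psiVal_eq_normEDS, normEDS, eval_preΨ, ← psi2Val_sq W h, ← pow_mul]

theorem psiVal_sq {x y : F} (h : W.toAffine.Equation x y) (n : ℤ) :
    psiVal W x y n ^ 2 = (W.ΨSq n).eval x := by
  rw [psiVal_eq_preΨ W h, WeierstrassCurve.ΨSq, mul_pow, eval_mul, eval_pow]
  congr 1
  split_ifs
  · rw [psi2Val_sq W h, eval_Ψ₂Sq]
  · simp

theorem psiVal_odd {x y : F} (h : W.toAffine.Equation x y) {n : ℤ} (hn : Odd n) :
    psiVal W x y n = (W.preΨ n).eval x := by
  rw [psiVal_eq_preΨ W h, if_neg (Int.not_even_iff_odd.mpr hn), mul_one]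

/-- at a nonsingular point, `ψ₂ = 0` forces `Ψ₃ ≠ 0`. -/
theorem p3_ne_zero_of_psi2Val_eq_zero {x y : F} (h : W.toAffine.Nonsingular x y)
    (h2 : psi2Val W x y = 0) : p3 W x ≠ 0 := by
  obtain ⟨heq, hns⟩ := (Affine.nonsingular_iff' _ _).mp h
  have hX : W.a₁ * y - (3 * x ^ 2 + 2 * W.a₂ * x + W.a₄) ≠ 0 := by
    rcases hns with h1 | h1
    · exact h1
    · exact absurd h2 h1
  have hkey := H67.dbl_key W heq
  have hy : y - W.toAffine.negY x y = 0 := by
    rw [Affine.negY]; rw [psi2Val] at h2; linear_combination h2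
  rw [hy, dblNum_eq, ← psi2Val_sq W heq, h2] at hkey
  intro h3
  rw [h3] at hkey
  apply hX
  have : (W.a₁ * y - (3 * x ^ 2 + 2 * W.a₂ * x + W.a₄)) ^ 2 = 0 := by linear_combination hkey
  exact pow_eq_zero_iff (two_ne_zero) |>.mp this

theorem divData_psiVal {x y : F} (h : W.toAffine.Equation x y)
    (hW : Ward (psiVal W x y)) : DivData W (psiVal W x y) x where
  zero := by simp [psiVal]
  one := by simp [psiVal]
  two_sq := by rw [psiVal_eq_normEDS, normEDS_two, psi2Val_sq W h]
  three := by rw [psiVal_eq_normEDS, normEDS_three]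
  four := by
    rw [psiVal_eq_normEDS, normEDS_four, psiVal_eq_normEDS, normEDS_two]; ring
  somos := by
    intro m
    have h1 : psiVal W x y 1 = 1 := by simp [psiVal]
    have h := hW m 2
    rw [show (2 : ℤ) + 1 = 3 by norm_num, show (2 : ℤ) - 1 = 1 by norm_num, h1] at h
    linear_combination h

theorem ellSeq_psiVal (x y : F) (hW : Ward (psiVal W x y)) : EllSeq (psiVal W x y) where
  zero := by simp [psiVal]
  one := by simp [psiVal]
  neg := by intro n; simp [psiVal]
  ward := hW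

/-- Ward's relation for `normEDS` over `F` gives Ward's relation for the values `ψ_n(P)`. -/
theorem ward_psiVal (hW : ∀ b c d : F, Ward (normEDS b c d)) (x y : F) :
    Ward (psiVal W x y) := by
  intro m n
  simp only [psiVal_eq_normEDS]
  exact hW _ _ _ m n

variable [DecidableEq F]

/-- **(M1)** `n • P = 0 ↔ ψ_n(P) = 0`, given Ward's relation for the values `ψ_n(P)`. -/
theorem nsmul_eq_zero_iff_psi {x y : F} (h : W.toAffine.Nonsingular x y)
    (hW : Ward (psiVal W x y)) (n : ℕ) :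
    n • (Affine.Point.some x y h) = 0 ↔ (W.ψ n).evalEval x y = 0 := by
  refine nsmul_eq_zero_iff_of_data (w := psiVal W x y) (divData_psiVal W h.1 hW)
    (ellSeq_psiVal W x y hW) ?_ ?_ n
  · intro h2
    rw [psiVal_eq_normEDS, normEDS_two] at h2
    rw [psiVal_eq_normEDS, normEDS_three]
    exact p3_ne_zero_of_psi2Val_eq_zero W h h2
  · intro h2 m
    rw [psiVal_eq_normEDS, normEDS_two] at h2
    rw [psiVal_eq_normEDS, normEDS, if_pos (even_two_mul m), h2, mul_zero]

/-- **(M1), odd case**: `n • P = 0 ↔ preΨ_n(x) = 0`. -/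
theorem nsmul_eq_zero_iff_preΨ {x y : F} (h : W.toAffine.Nonsingular x y)
    (hW : Ward (psiVal W x y)) {n : ℕ} (hn : Odd n) :
    n • (Affine.Point.some x y h) = 0 ↔ (W.preΨ n).eval x = 0 := by
  rw [nsmul_eq_zero_iff_psi W h hW, ← psiVal_odd W h.1 (by exact_mod_cast hn)]
  rfl

/-- **(M1), squared form**: `n • P = 0 ↔ ΨSq_n(x) = 0`. -/
theorem nsmul_eq_zero_iff_ΨSq {x y : F} (h : W.toAffine.Nonsingular x y)
    (hW : Ward (psiVal W x y)) (n : ℕ) :
    n • (Affine.Point.some x y h) = 0 ↔ (W.ΨSq n).eval x = 0 := by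
  rw [nsmul_eq_zero_iff_psi W h hW, ← psiVal_sq W h.1, sq_eq_zero_iff]
  rfl

end Instantiate

/-! ## Consumer forms -/

section Consumer

variable {F : Type*} [Field F] (W : WeierstrassCurve F)

/-- Mathlib's `IsEllipticSequence` for a sequence with `w 1 = 1` gives Ward's relation. -/
theorem ward_of_isEllipticSequence {R : Type*} [CommRing R] {w : ℤ → R}
    (h : IsEllipticSequence w) (h1 : w 1 = 1) : Ward w := by
  intro m n
  have := h m n 1
  simp only [IsEllipticNet.rel, add_zero, h1, mul_one] at this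
  linear_combination this

/-- Ward's relation for all `normEDS` over `F`, from Mathlib's `IsEllipticSequence`. -/
theorem ward_normEDS_of_isEllipticSequence
    (h : ∀ b c d : F, IsEllipticSequence (normEDS b c d)) (b c d : F) : Ward (normEDS b c d) :=
  ward_of_isEllipticSequence (h b c d) (normEDS_one b c d)

variable [DecidableEq F]

/-- **Torsion criterion** (the interface of the counting package): for odd `n`,
`n • (x, y) = 0 ↔ preΨ_n(x) = 0`, given Ward's relation for `normEDS` over `F`. -/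
theorem torsionCriterion_of_ward (hW : ∀ b c d : F, Ward (normEDS b c d)) {n : ℕ} (hn : Odd n)
    (x y : F) (h : W.toAffine.Nonsingular x y) :
    n • (Affine.Point.some x y h) = 0 ↔ (W.preΨ n).eval x = 0 :=
  nsmul_eq_zero_iff_preΨ W h (ward_psiVal W hW x y) hn

/-- the same with Mathlib's `IsEllipticSequence` as input. -/
theorem torsionCriterion_of_isEllipticSequence
    (hES : ∀ b c d : F, IsEllipticSequence (normEDS b c d)) {n : ℕ} (hn : Odd n)
    (x y : F) (h : W.toAffine.Nonsingular x y) :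
    n • (Affine.Point.some x y h) = 0 ↔ (W.preΨ n).eval x = 0 :=
  torsionCriterion_of_ward W (ward_normEDS_of_isEllipticSequence hES) hn x y h

/-- all `n`: `n • (x, y) = 0 ↔ ΨSq_n(x) = 0`. -/
theorem torsionCriterion_ΨSq_of_ward (hW : ∀ b c d : F, Ward (normEDS b c d)) (n : ℕ)
    (x y : F) (h : W.toAffine.Nonsingular x y) :
    n • (Affine.Point.some x y h) = 0 ↔ (W.ΨSq n).eval x = 0 :=
  nsmul_eq_zero_iff_ΨSq W h (ward_psiVal W hW x y) n

end Consumer

end Fermat.Agent.S13.H17

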