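import Mathlib

/-!
# S13 / STRUCT-EDS (helper58): `normEDS` is an elliptic sequence (Ward's theorem)

For any commutative ring `R` and `b c d : R`, the sequence `W := normEDS b c d` satisfies
`W (p+q) * W (p-q) = W (p+1) * W (p-1) * W q ^ 2 - W (q+1) * W (q-1) * W p ^ 2` for all `p q : ℤ`,
and hence the three-parameter elliptic-sequence relation `IsEllipticSequence`.
-/

set_option autoImplicit false

namespace Fermat.Agent.S13.H58

variable {R : Type*} [CommRing R]

/-- Ward's two-parameter relation. -/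
def WardRel (W : ℤ → R) (p q : ℤ) : Prop :=
  W (p + q) * W (p - q) = W (p + 1) * W (p - 1) * W q ^ 2 - W (q + 1) * W (q - 1) * W p ^ 2

lemma WardRel.mk' {W : ℤ → R} {p q : ℤ} (h : WardRel W p q) {i1 i2 i3 i4 i5 i6 : ℤ}
    (e1 : p + q = i1) (e2 : p - q = i2) (e3 : p + 1 = i3) (e4 : p - 1 = i4)
    (e5 : q + 1 = i5) (e6 : q - 1 = i6) :
    W i1 * W i2 = W i3 * W i4 * W q ^ 2 - W i5 * W i6 * W p ^ 2 := by
  subst e1 e2 e3 e4 e5 e6
  exact h

/-- The hypotheses on a sequence: odd, normalised, with the even and odd doubling recursions. -/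
structure IsNormRec (W : ℤ → R) : Prop where
  zero : W 0 = 0
  one : W 1 = 1
  neg : ∀ n, W (-n) = -W n
  even : ∀ m, W (2 * m) * W 2 =
    W (m - 1) ^ 2 * W m * W (m + 2) - W (m - 2) * W m * W (m + 1) ^ 2
  odd : ∀ m, W (2 * m + 1) = W (m + 2) * W m ^ 3 - W (m - 1) * W (m + 1) ^ 3

namespace IsNormRec

variable {W : ℤ → R} (hW : IsNormRec W)

include hW

lemma wardRel_zero (p : ℤ) : WardRel W p 0 := by
  unfold WardRel
  have h1 : W (0 + 1) = 1 := by rw [zero_add, hW.one]
  have h2 : W (0 - 1) = -1 := by rw [zero_sub, hW.neg, hW.one]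
  rw [add_zero, sub_zero, hW.zero, h1, h2]
  ring

lemma wardRel_one (p : ℤ) : WardRel W p 1 := by
  unfold WardRel
  have h2 : W (1 - 1) = 0 := by rw [sub_self, hW.zero]
  rw [hW.one, h2]
  ring

lemma wardRel_self (p : ℤ) : WardRel W p p := by
  unfold WardRel
  rw [sub_self, hW.zero]
  ring

lemma wardRel_succ (q : ℤ) : WardRel W (q + 1) q := by
  unfold WardRel
  have e1 : q + 1 + q = 2 * q + 1 := by ring
  have e2 : q + 1 - q = 1 := by ring
  have e3 : q + 1 + 1 = q + 2 := by ring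
  have e4 : q + 1 - 1 = q := by ring
  rw [e1, e2, e3, e4, hW.odd, hW.one]
  ring

lemma wardRel_succ_succ (q : ℤ) : WardRel W (q + 2) q := by
  unfold WardRel
  have e1 : q + 2 + q = 2 * (q + 1) := by ring
  have e2 : q + 2 - q = 2 := by ring
  have e3 : q + 2 + 1 = q + 1 + 2 := by ring
  have e4 : q + 2 - 1 = q + 1 := by ring
  have e5 : q - 1 = q + 1 - 2 := by ring
  have h := hW.even (q + 1)
  rw [add_sub_cancel_right, show q + 1 + 1 = q + 2 by ring] at h
  rw [e1, e2, e3, e4, h, e5]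
  ring

/-- Step for odd `p + q = 2 m + 1`, `p = m + 1 + j`, `q = m - j`. -/
lemma wardRel_odd_step (m j : ℤ) (h1 : WardRel W (m + 1) (j + 1)) (h2 : WardRel W m j)
    (h3 : WardRel W (m + 1) j) (h4 : WardRel W m (j + 1)) : WardRel W (m + 1 + j) (m - j) := by
  have Om := hW.odd m
  have Oj := hW.odd j
  have h1' : W (m + j + 2) * W (m - j) = W (m + 2) * W m * W (j + 1) ^ 2
      - W (j + 2) * W j * W (m + 1) ^ 2 :=
    h1.mk' (by ring) (by ring) (by ring) (by ring) (by ring) (by ring)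
  have h2' : W (m + j) * W (m - j) = W (m + 1) * W (m - 1) * W j ^ 2
      - W (j + 1) * W (j - 1) * W m ^ 2 :=
    h2.mk' (by ring) (by ring) (by ring) (by ring) (by ring) (by ring)
  have h3' : W (m + j + 1) * W (m - j + 1) = W (m + 2) * W m * W j ^ 2
      - W (j + 1) * W (j - 1) * W (m + 1) ^ 2 :=
    h3.mk' (by ring) (by ring) (by ring) (by ring) (by ring) (by ring)
  have h4' : W (m + j + 1) * W (m - j - 1) = W (m + 1) * W (m - 1) * W (j + 1) ^ 2
      - W (j + 2) * W j * W m ^ 2 :=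
    h4.mk' (by ring) (by ring) (by ring) (by ring) (by ring) (by ring)
  unfold WardRel
  rw [show m + 1 + j + (m - j) = 2 * m + 1 by ring, show m + 1 + j - (m - j) = 2 * j + 1 by ring,
    show m + 1 + j + 1 = m + j + 2 by ring, show m + 1 + j - 1 = m + j by ring,
    show m + 1 + j = m + j + 1 by ring]
  linear_combination W (2 * j + 1) * Om
    + (W (m + 2) * W m ^ 3 - W (m - 1) * W (m + 1) ^ 3) * Oj
    - (W (m + j) * W (m - j)) * h1'
    - (W (m + 2) * W m * W (j + 1) ^ 2 - W (j + 2) * W j * W (m + 1) ^ 2) * h2'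
    + (W (m + j + 1) * W (m - j - 1)) * h3'
    + (W (m + 2) * W m * W j ^ 2 - W (j + 1) * W (j - 1) * W (m + 1) ^ 2) * h4'

lemma even' (m : ℤ) {i0 i1 i2 i3 i4 : ℤ} (e0 : 2 * m = i0) (e1 : m - 1 = i1) (e2 : m + 2 = i2)
    (e3 : m - 2 = i3) (e4 : m + 1 = i4) :
    W i0 * W 2 = W i1 ^ 2 * W m * W i2 - W i3 * W m * W i4 ^ 2 := by
  subst e0 e1 e2 e3 e4
  exact hW.even m

lemma odd' (m : ℤ) {i0 i1 i2 i3 : ℤ} (e0 : 2 * m + 1 = i0) (e1 : m + 2 = i1) (e2 : m - 1 = i2)
    (e3 : m + 1 = i3) :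
    W i0 = W i1 * W m ^ 3 - W i2 * W i3 ^ 3 := by
  subst e0 e1 e2 e3
  exact hW.odd m

/-- Step for even `p + q = 2 m`, `p = m + j`, `q = m - j`, up to the factor `W 2 ^ 2`. -/
lemma wardRel_even_step (m j : ℤ) (h1 : WardRel W (m + 1) (j + 1))
    (h2 : WardRel W (m - 1) (j - 1)) (h3 : WardRel W (m + 1) (j - 1))
    (h4 : WardRel W (m - 1) (j + 1)) (hp : WardRel W (m + j) 2) (hq : WardRel W (m - j) 2) :
    W 2 ^ 2 * (W (m + j + (m - j)) * W (m + j - (m - j))) =
      W 2 ^ 2 * (W (m + j + 1) * W (m + j - 1) * W (m - j) ^ 2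
        - W (m - j + 1) * W (m - j - 1) * W (m + j) ^ 2) := by
  have Em := hW.even m
  have Ej := hW.even j
  have h1' : W (m + j + 2) * W (m - j) = W (m + 2) * W m * W (j + 1) ^ 2
      - W (j + 2) * W j * W (m + 1) ^ 2 :=
    h1.mk' (by ring) (by ring) (by ring) (by ring) (by ring) (by ring)
  have h2' : W (m + j - 2) * W (m - j) = W m * W (m - 2) * W (j - 1) ^ 2
      - W j * W (j - 2) * W (m - 1) ^ 2 :=
    h2.mk' (by ring) (by ring) (by ring) (by ring) (by ring) (by ring)
  have h3' : W (m + j) * W (m - j + 2) = W (m + 2) * W m * W (j - 1) ^ 2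
      - W j * W (j - 2) * W (m + 1) ^ 2 :=
    h3.mk' (by ring) (by ring) (by ring) (by ring) (by ring) (by ring)
  have h4' : W (m + j) * W (m - j - 2) = W m * W (m - 2) * W (j + 1) ^ 2
      - W (j + 2) * W j * W (m - 1) ^ 2 :=
    h4.mk' (by ring) (by ring) (by ring) (by ring) (by ring) (by ring)
  have hp' : W (m + j + 2) * W (m + j - 2) = W (m + j + 1) * W (m + j - 1) * W 2 ^ 2
      - W 3 * W 1 * W (m + j) ^ 2 :=
    hp.mk' (by ring) (by ring) (by ring) (by ring) (by ring) (by ring)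
  have hq' : W (m - j + 2) * W (m - j - 2) = W (m - j + 1) * W (m - j - 1) * W 2 ^ 2
      - W 3 * W 1 * W (m - j) ^ 2 :=
    hq.mk' (by ring) (by ring) (by ring) (by ring) (by ring) (by ring)
  rw [show m + j + (m - j) = 2 * m by ring, show m + j - (m - j) = 2 * j by ring]
  linear_combination (W (2 * j) * W 2) * Em
    + (W (m - 1) ^ 2 * W m * W (m + 2) - W (m - 2) * W m * W (m + 1) ^ 2) * Ej
    - (W (m + j - 2) * W (m - j)) * h1'
    - (W (m + 2) * W m * W (j + 1) ^ 2 - W (j + 2) * W j * W (m + 1) ^ 2) * h2'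
    + (W (m + j) * W (m - j - 2)) * h3'
    + (W (m + 2) * W m * W (j - 1) ^ 2 - W j * W (j - 2) * W (m + 1) ^ 2) * h4'
    + W (m - j) ^ 2 * hp' - W (m + j) ^ 2 * hq'

/-- Step for `p = 2 m - 2`, `q = 2`, up to the factor `W 2 ^ 2`. -/
lemma wardRel_even_two_step (m : ℤ) (r0 : WardRel W m 2) (r1 : WardRel W (m - 1) 2)
    (r2 : WardRel W (m - 2) 2) :
    W 2 ^ 2 * (W (2 * m) * W (2 * m - 4)) =
      W 2 ^ 2 * (W (2 * m - 1) * W (2 * m - 3) * W 2 ^ 2 - W 3 * W 1 * W (2 * m - 2) ^ 2) := by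
  have Em := hW.even m
  have Em1 : W (2 * m - 2) * W 2 = W (m - 2) ^ 2 * W (m - 1) * W (m + 1)
      - W (m - 3) * W (m - 1) * W m ^ 2 :=
    hW.even' (m - 1) (by ring) (by ring) (by ring) (by ring) (by ring)
  have Em2 : W (2 * m - 4) * W 2 = W (m - 3) ^ 2 * W (m - 2) * W m
      - W (m - 4) * W (m - 2) * W (m - 1) ^ 2 :=
    hW.even' (m - 2) (by ring) (by ring) (by ring) (by ring) (by ring)
  have Dm1 : W (2 * m - 1) = W (m + 1) * W (m - 1) ^ 3 - W (m - 2) * W m ^ 3 :=
    hW.odd' (m - 1) (by ring) (by ring) (by ring) (by ring)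
  have Dm2 : W (2 * m - 3) = W m * W (m - 2) ^ 3 - W (m - 3) * W (m - 1) ^ 3 :=
    hW.odd' (m - 2) (by ring) (by ring) (by ring) (by ring)
  have r0' : W (m + 2) * W (m - 2) = W (m + 1) * W (m - 1) * W 2 ^ 2 - W 3 * W 1 * W m ^ 2 :=
    r0.mk' (by ring) (by ring) (by ring) (by ring) (by ring) (by ring)
  have r1' : W (m + 1) * W (m - 3) = W m * W (m - 2) * W 2 ^ 2 - W 3 * W 1 * W (m - 1) ^ 2 :=
    r1.mk' (by ring) (by ring) (by ring) (by ring) (by ring) (by ring)
  have r2' : W m * W (m - 4) = W (m - 1) * W (m - 3) * W 2 ^ 2 - W 3 * W 1 * W (m - 2) ^ 2 :=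
    r2.mk' (by ring) (by ring) (by ring) (by ring) (by ring) (by ring)
  rw [hW.one, mul_one] at r0' r1' r2' ⊢
  linear_combination (W (2 * m - 4) * W 2) * Em
    + (W (m - 1) ^ 2 * W m * W (m + 2) - W (m - 2) * W m * W (m + 1) ^ 2) * Em2
    - (W 2 ^ 4 * W (2 * m - 3)) * Dm1
    - (W 2 ^ 4 * (W (m + 1) * W (m - 1) ^ 3 - W (m - 2) * W m ^ 3)) * Dm2
    + (W 3 * (W (2 * m - 2) * W 2 + (W (m - 2) ^ 2 * W (m - 1) * W (m + 1)
        - W (m - 3) * W (m - 1) * W m ^ 2))) * Em1
    + (-W (m - 4) * W (m - 1)^4 * W m + W (m - 3)^2 * W (m - 1)^2 * W m^2) * r0'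
    + (-W (m - 3) * W (m - 2)^2 * W m^2 * W (m + 1) + W (m - 3) * W (m - 1)^3 * W m^2 * W 2^2
        - W (m - 2)^3 * W m^3 * W 2^2 + W (m - 2)^2 * W (m - 1)^3 * W (m + 1) * W 2^2
        - W (m - 2)^2 * W (m - 1)^2 * W m^2 * W 3) * r1'
    + (W (m - 2)^2 * W (m - 1)^2 * W (m + 1)^2 - W (m - 1)^5 * W (m + 1) * W 2^2
        + W (m - 1)^4 * W m^2 * W 3) * r2'

/-- Ward's relation for `0 ≤ q ≤ p`, by strong induction on `p + q`. -/
theorem wardRel_of_nonneg [IsDomain R] (hb : W 2 ≠ 0) :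
    ∀ (N : ℕ) (p q : ℤ), 0 ≤ q → q ≤ p → p + q = N → WardRel W p q := by
  intro N
  induction N using Nat.strong_induction_on with
  | _ N IH =>
  intro p q hq hqp hN
  have IH' : ∀ p' q' : ℤ, 0 ≤ q' → q' ≤ p' → p' + q' < N → WardRel W p' q' := by
    intro p' q' h1 h2 h3
    exact IH (p' + q').toNat (by omega) p' q' h1 h2 (by omega)
  have hb2 : W 2 ^ 2 ≠ 0 := pow_ne_zero 2 hb
  by_cases hq0 : q = 0
  · subst hq0; exact hW.wardRel_zero p
  by_cases hq1 : q = 1
  · subst hq1; exact hW.wardRel_one p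
  by_cases hpq0 : p = q
  · subst hpq0; exact hW.wardRel_self p
  by_cases hpq1 : p = q + 1
  · subst hpq1; exact hW.wardRel_succ q
  by_cases hpq2 : p = q + 2
  · subst hpq2; exact hW.wardRel_succ_succ q
  rcases Int.even_or_odd' (p + q) with ⟨k, hk | hk⟩
  · -- even case
    obtain ⟨j, hj⟩ : ∃ j : ℤ, j = k - q := ⟨_, rfl⟩
    have hp : p = k + j := by omega
    have hq' : q = k - j := by omega
    by_cases hq2 : q = 2
    · -- special case
      have hk2 : p = 2 * k - 2 := by omega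
      have key := hW.wardRel_even_two_step k (IH' k 2 (by omega) (by omega) (by omega))
        (IH' (k - 1) 2 (by omega) (by omega) (by omega))
        (IH' (k - 2) 2 (by omega) (by omega) (by omega))
      have key' := mul_left_cancel₀ hb2 key
      subst hq2
      subst hk2
      unfold WardRel
      rw [show 2 * k - 2 + 2 = 2 * k by ring, show 2 * k - 2 - 2 = 2 * k - 4 by ring,
        show 2 * k - 2 + 1 = 2 * k - 1 by ring, show 2 * k - 2 - 1 = 2 * k - 3 by ring,
        show (2 : ℤ) + 1 = 3 by norm_num, show (2 : ℤ) - 1 = 1 by norm_num]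
      exact key'
    · have key := hW.wardRel_even_step k j
        (IH' (k + 1) (j + 1) (by omega) (by omega) (by omega))
        (IH' (k - 1) (j - 1) (by omega) (by omega) (by omega))
        (IH' (k + 1) (j - 1) (by omega) (by omega) (by omega))
        (IH' (k - 1) (j + 1) (by omega) (by omega) (by omega))
        (IH' (k + j) 2 (by omega) (by omega) (by omega))
        (IH' (k - j) 2 (by omega) (by omega) (by omega))
      have key' := mul_left_cancel₀ hb2 key
      subst hp
      subst hq'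
      exact key'
  · -- odd case
    obtain ⟨j, hj⟩ : ∃ j : ℤ, j = k - q := ⟨_, rfl⟩
    have hp : p = k + 1 + j := by omega
    have hq' : q = k - j := by omega
    subst hp
    subst hq'
    exact hW.wardRel_odd_step k j
      (IH' (k + 1) (j + 1) (by omega) (by omega) (by omega))
      (IH' k j (by omega) (by omega) (by omega))
      (IH' (k + 1) j (by omega) (by omega) (by omega))
      (IH' k (j + 1) (by omega) (by omega) (by omega))

lemma wardRel_neg_left {p q : ℤ} (h : WardRel W p q) : WardRel W (-p) q := by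
  unfold WardRel at h ⊢
  rw [show -p + q = -(p - q) by ring, show -p - q = -(p + q) by ring,
    show -p + 1 = -(p - 1) by ring, show -p - 1 = -(p + 1) by ring,
    hW.neg, hW.neg, hW.neg, hW.neg, hW.neg]
  linear_combination h

lemma wardRel_neg_right {p q : ℤ} (h : WardRel W p q) : WardRel W p (-q) := by
  unfold WardRel at h ⊢
  rw [show p + -q = p - q by ring, show p - -q = p + q by ring,
    show -q + 1 = -(q - 1) by ring, show -q - 1 = -(q + 1) by ring,
    hW.neg, hW.neg, hW.neg]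
  linear_combination h

lemma wardRel_swap {p q : ℤ} (h : WardRel W p q) : WardRel W q p := by
  unfold WardRel at h ⊢
  rw [show q + p = p + q by ring, show q - p = -(p - q) by ring, hW.neg]
  linear_combination -h

/-- **Ward's theorem** in a domain with `W 2 ≠ 0`. -/
theorem wardRel [IsDomain R] (hb : W 2 ≠ 0) (p q : ℤ) : WardRel W p q := by
  -- reduce to nonnegative arguments
  have key : ∀ p q : ℤ, 0 ≤ p → 0 ≤ q → WardRel W p q := by
    intro p q hp hq
    rcases le_total q p with h | h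
    · exact hW.wardRel_of_nonneg hb (p + q).toNat p q hq h (by omega)
    · exact hW.wardRel_swap (hW.wardRel_of_nonneg hb (q + p).toNat q p hp h (by omega))
  rcases le_total 0 p with hp | hp <;> rcases le_total 0 q with hq | hq
  · exact key p q hp hq
  · have := hW.wardRel_neg_right (key p (-q) hp (by omega))
    rwa [neg_neg] at this
  · have := hW.wardRel_neg_left (key (-p) q (by omega) hq)
    rwa [neg_neg] at this
  · have := hW.wardRel_neg_left (hW.wardRel_neg_right (key (-p) (-q) (by omega) (by omega)))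
    rwa [neg_neg, neg_neg] at this

end IsNormRec

section NormEDS

lemma isNormRec_normEDS (b c d : R) : IsNormRec (normEDS b c d) where
  zero := normEDS_zero b c d
  one := normEDS_one b c d
  neg := normEDS_neg b c d
  even m := by rw [normEDS_two]; exact normEDS_even b c d m
  odd m := normEDS_odd b c d m

/-- Ward's relation for the universal normalised EDS over `ℤ[b, c, d]`. -/
lemma wardRel_normEDS_universal (p q : ℤ) :
    WardRel (normEDS (MvPolynomial.X 0 : MvPolynomial (Fin 3) ℤ) (MvPolynomial.X 1)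
      (MvPolynomial.X 2)) p q := by
  refine (isNormRec_normEDS _ _ _).wardRel ?_ p q
  rw [normEDS_two]
  exact MvPolynomial.X_ne_zero 0

/-- **Ward's theorem**: `normEDS b c d` satisfies the two-parameter elliptic relation, over any
commutative ring. -/
theorem wardRel_normEDS (b c d : R) (p q : ℤ) : WardRel (normEDS b c d) p q := by
  let f : MvPolynomial (Fin 3) ℤ →+* R := (MvPolynomial.aeval ![b, c, d]).toRingHom
  have hf : ∀ n : ℤ, f (normEDS (MvPolynomial.X 0 : MvPolynomial (Fin 3) ℤ) (MvPolynomial.X 1)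
      (MvPolynomial.X 2) n) = normEDS b c d n := by
    intro n
    rw [map_normEDS]
    simp [f]
  have h := congrArg f (wardRel_normEDS_universal p q)
  simp only [map_mul, map_sub, map_pow, hf] at h
  exact h

/-- The explicit form of Ward's relation. -/
theorem normEDS_add_mul_sub (b c d : R) (p q : ℤ) :
    normEDS b c d (p + q) * normEDS b c d (p - q) =
      normEDS b c d (p + 1) * normEDS b c d (p - 1) * normEDS b c d q ^ 2
        - normEDS b c d (q + 1) * normEDS b c d (q - 1) * normEDS b c d p ^ 2 :=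
  wardRel_normEDS b c d p q

/-- `normEDS b c d` is an elliptic sequence. -/
theorem isEllipticSequence_normEDS (b c d : R) : IsEllipticSequence (normEDS b c d) := by
  intro p q r
  have h1 := normEDS_add_mul_sub b c d p q
  have h2 := normEDS_add_mul_sub b c d p r
  have h3 := normEDS_add_mul_sub b c d q r
  simp only [IsEllipticNet.rel, add_zero]
  linear_combination normEDS b c d r ^ 2 * h1 - normEDS b c d q ^ 2 * h2
    + normEDS b c d p ^ 2 * h3

end NormEDS

section DivisionPolynomial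

open Polynomial

variable (E : WeierstrassCurve R)

/-- The elliptic-sequence relation for the bivariate division polynomials `ψₙ`. -/
theorem ψ_add_mul_sub (m n : ℤ) :
    E.ψ (m + n) * E.ψ (m - n) =
      E.ψ (m + 1) * E.ψ (m - 1) * E.ψ n ^ 2 - E.ψ (n + 1) * E.ψ (n - 1) * E.ψ m ^ 2 :=
  normEDS_add_mul_sub _ _ _ m n

/-- The Somos-4 step for `ψₙ`. -/
theorem ψ_add_two_mul_sub_two (m : ℤ) :
    E.ψ (m + 2) * E.ψ (m - 2) =
      E.ψ (m + 1) * E.ψ (m - 1) * E.ψ₂ ^ 2 - C E.Ψ₃ * E.ψ m ^ 2 := by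
  have h := ψ_add_mul_sub E m 2
  rw [show (2 : ℤ) + 1 = 3 by norm_num, show (2 : ℤ) - 1 = 1 by norm_num, E.ψ_two, E.ψ_three,
    E.ψ_one, mul_one] at h
  exact h

/-- The three-parameter elliptic-sequence relation for `ψₙ`. -/
theorem ψ_rel (p q r : ℤ) :
    E.ψ (p + q) * E.ψ (p - q) * E.ψ r ^ 2 - E.ψ (p + r) * E.ψ (p - r) * E.ψ q ^ 2
      + E.ψ (q + r) * E.ψ (q - r) * E.ψ p ^ 2 = 0 := by
  have h1 := ψ_add_mul_sub E p q
  have h2 := ψ_add_mul_sub E p r
  have h3 := ψ_add_mul_sub E q r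
  linear_combination E.ψ r ^ 2 * h1 - E.ψ q ^ 2 * h2 + E.ψ p ^ 2 * h3

end DivisionPolynomial

end Fermat.Agent.S13.H58
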