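import Mathlib
import Fermat.Agent.S13.H17_Mult
import Fermat.Agent.S13.H58_EDS
import Fermat.Agent.S13.H59_Count

/-!
S13 / STRUCT-mult (helper17), unconditional form: Ward's relation for `normEDS` (helper58's
`H58.normEDS_add_mul_sub`) discharges the hypothesis of `H17_Mult`.

* `torsionCriterion`: for odd `n`, `n • (x, y) = 0 ↔ preΨ_n(x) = 0`;
* `torsionCriterion_ΨSq`: for all `n`, `n • (x, y) = 0 ↔ ΨSq_n(x) = 0`;
* `xCoord_nsmul_mul_ΨSq`: if `n • P ≠ 0` then `x(n • P) * ΨSq_n(x) = Φ_n(x)` and `ΨSq_n(x) ≠ 0`.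
-/

set_option autoImplicit false

noncomputable section

namespace Fermat.Agent.S13.H17

open WeierstrassCurve Polynomial
open Fermat.Agent.S05

variable {F : Type*} [Field F] (W : WeierstrassCurve F)

/-- Ward's relation for `normEDS` (helper58). -/
theorem ward_normEDS {R : Type*} [CommRing R] (b c d : R) : Ward (normEDS b c d) :=
  fun m n => H58.normEDS_add_mul_sub b c d m n

theorem ward_psiVal' (x y : F) : Ward (psiVal W x y) :=
  ward_psiVal W (fun b c d => ward_normEDS b c d) x y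

variable [DecidableEq F]

/-- **Torsion criterion**: for odd `n`, `n • (x, y) = 0 ↔ preΨ_n(x) = 0`. -/
theorem torsionCriterion {n : ℕ} (hn : Odd n) (x y : F) (h : W.toAffine.Nonsingular x y) :
    n • (Affine.Point.some x y h) = 0 ↔ (W.preΨ n).eval x = 0 :=
  nsmul_eq_zero_iff_preΨ W h (ward_psiVal' W x y) hn

/-- the interface of the counting package `H59_Count`. -/
theorem torsionCriterion_H59 {n : ℕ} (hn : Odd n) : H59.TorsionCriterion W n :=
  fun x y h => torsionCriterion W hn x y h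

/-- all `n`: `n • (x, y) = 0 ↔ ΨSq_n(x) = 0`. -/
theorem torsionCriterion_ΨSq (n : ℕ) (x y : F) (h : W.toAffine.Nonsingular x y) :
    n • (Affine.Point.some x y h) = 0 ↔ (W.ΨSq n).eval x = 0 :=
  nsmul_eq_zero_iff_ΨSq W h (ward_psiVal' W x y) n

/-- all `n`: `n • (x, y) = 0 ↔ ψ_n(x, y) = 0`. -/
theorem torsionCriterion_ψ (n : ℕ) (x y : F) (h : W.toAffine.Nonsingular x y) :
    n • (Affine.Point.some x y h) = 0 ↔ (W.ψ n).evalEval x y = 0 :=
  nsmul_eq_zero_iff_psi W h (ward_psiVal' W x y) n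

/-! ## The multiplication formula for `x`-coordinates -/

section MulFormula

variable {W}

/-- abstract form: whenever `n • P ≠ 0`, `w n ≠ 0` and
`(x(n • P) - x(P)) * w n ^ 2 = - w (n+1) * w (n-1)`. -/
theorem inv_of_nsmul_ne_zero {w : ℤ → F} {x y : F} {hxy : W.toAffine.Nonsingular x y}
    (hD : DivData W w x) (hE : EllSeq w) (hns : w 2 = 0 → w 3 ≠ 0)
    (hev : w 2 = 0 → ∀ m : ℤ, w (2 * m) = 0) (n : ℕ)
    (hn : n • (Affine.Point.some x y hxy) ≠ 0) :
    Inv W w (Affine.Point.some x y hxy) n := by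
  have hcrit := fun k : ℕ => nsmul_eq_zero_iff_of_data (hxy := hxy) hD hE hns hev k
  set P := Affine.Point.some x y hxy with hPdef
  have hn1 : 1 ≤ n := by
    rcases Nat.eq_zero_or_pos n with rfl | h
    · simp at hn
    · exact h
  have hwn : w n ≠ 0 := fun h => hn ((hcrit n).mpr h)
  by_cases hord : addOrderOf P = 0
  · exact inv_of_forall_ne hD n hn1
      (fun j hj _ => (addOrderOf_eq_zero_iff'.mp hord) j (by omega))
  · set N := addOrderOf P with hNdef
    have hNP : N • P = 0 := addOrderOf_nsmul_eq_zero P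
    have hNpos : 0 < N := Nat.pos_of_ne_zero hord
    have hdecomp : N * (n / N) + n % N = n := Nat.div_add_mod n N
    have hq : (N * (n / N)) • P = 0 := by rw [mul_nsmul, hNP, nsmul_zero]
    have hrP : (n % N) • P = n • P := by
      conv_rhs => rw [← hdecomp, add_nsmul, hq, zero_add]
    have hr0 : n % N ≠ 0 := by
      intro h0
      apply hn
      rw [← hrP, h0, zero_nsmul]
    have hrN : n % N < N := Nat.mod_lt n hNpos
    have Ir : Inv W w P (n % N) := inv_of_forall_ne hD (n % N) (by omega)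
      (fun j hj1 hj2 => nsmul_ne_zero_of_lt_addOrderOf (by omega)
        (show j < addOrderOf P from lt_of_le_of_lt hj2 hrN))
    obtain ⟨hwr, Er⟩ := Ir
    have hwq : w ((N * (n / N) : ℕ) : ℤ) = 0 := (hcrit _).mp hq
    have hward := hE.ward (n : ℤ) ((n % N : ℕ) : ℤ)
    have hsub : (n : ℤ) - ((n % N : ℕ) : ℤ) = ((N * (n / N) : ℕ) : ℤ) := by
      have : (n : ℤ) = ((N * (n / N) : ℕ) : ℤ) + ((n % N : ℕ) : ℤ) := by
        exact_mod_cast hdecomp.symm
      omega
    rw [hsub, hwq, mul_zero] at hward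
    refine ⟨hwn, ?_⟩
    rw [hrP] at Er
    have hwr2 : w ((n % N : ℕ) : ℤ) ^ 2 ≠ 0 := pow_ne_zero 2 hwr
    apply mul_right_cancel₀ hwr2
    linear_combination (w n) ^ 2 * Er - hward

variable (W)

omit [DecidableEq F] in
theorem eval_Φ {x y : F} (h : W.toAffine.Equation x y) (n : ℤ) :
    (W.Φ n).eval x =
      x * psiVal W x y n ^ 2 - psiVal W x y (n + 1) * psiVal W x y (n - 1) := by
  rw [psiVal_sq W h, psiVal_eq_preΨ W h (n + 1), psiVal_eq_preΨ W h (n - 1),
    WeierstrassCurve.Φ]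
  simp only [eval_sub, eval_mul, eval_X]
  by_cases hn : Even n
  · have h1 : ¬ Even (n + 1) := by
      rw [Int.even_add_one]; exact not_not.mpr hn
    have h2 : ¬ Even (n - 1) := by
      rw [Int.even_sub_one]; exact not_not.mpr hn
    rw [if_pos hn, if_neg h1, if_neg h2]
    simp
  · have h1 : Even (n + 1) := by
      rw [Int.even_add_one]; exact hn
    have h2 : Even (n - 1) := by
      rw [Int.even_sub_one]; exact hn
    rw [if_neg hn, if_pos h1, if_pos h2, eval_Ψ₂Sq, ← psi2Val_sq W h]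
    ring

/-- **(M2)** the multiplication formula: if `n • P ≠ 0` then `ΨSq_n(x) ≠ 0` and
`x(n • P) * ΨSq_n(x) = Φ_n(x)`. -/
theorem xCoord_nsmul_mul_ΨSq {x y : F} (h : W.toAffine.Nonsingular x y) (n : ℕ)
    (hn : n • (Affine.Point.some x y h) ≠ 0) :
    (W.ΨSq n).eval x ≠ 0 ∧
      H67.xCoord W (n • (Affine.Point.some x y h)) * (W.ΨSq n).eval x = (W.Φ n).eval x := by
  have hW := ward_psiVal' W x y
  have hInv := inv_of_nsmul_ne_zero (w := psiVal W x y) (hxy := h) (divData_psiVal W h.1 hW)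
    (ellSeq_psiVal W x y hW)
    (by
      intro h2
      rw [psiVal_eq_normEDS, normEDS_two] at h2
      rw [psiVal_eq_normEDS, normEDS_three]
      exact p3_ne_zero_of_psi2Val_eq_zero W h h2)
    (by
      intro h2 m
      rw [psiVal_eq_normEDS, normEDS_two] at h2
      rw [psiVal_eq_normEDS, normEDS, if_pos (even_two_mul m), h2, mul_zero]) n hn
  obtain ⟨hw, E⟩ := hInv
  rw [← psiVal_sq W h.1, eval_Φ W h.1]
  refine ⟨pow_ne_zero 2 hw, ?_⟩
  simp only [H67.xCoord_some] at E
  linear_combination E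

/-- division form: `x(n • P) = Φ_n(x) / ΨSq_n(x)` when `n • P ≠ 0`. -/
theorem xCoord_nsmul_eq_div {x y : F} (h : W.toAffine.Nonsingular x y) (n : ℕ)
    (hn : n • (Affine.Point.some x y h) ≠ 0) :
    H67.xCoord W (n • (Affine.Point.some x y h)) = (W.Φ n).eval x / (W.ΨSq n).eval x := by
  obtain ⟨h0, h1⟩ := xCoord_nsmul_mul_ΨSq W h n hn
  rw [eq_div_iff h0, h1]

end MulFormula

end Fermat.Agent.S13.H17

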