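import Mathlib
import Fermat.Agent.S05.H67_XF

/-!
# S13 / STRUCT-mult-generic, part 0: the symmetric biquadratic and the chain lemma

Pure algebra.  `Phi W a b c` is the symmetric biquadratic form attached to a Weierstrass curve:
for points `A, B` with `x(A) ≠ x(B)` one has
`(z - x(A+B)) (z - x(A-B)) (x(A) - x(B))^2 = Phi (x A) (x B) z`.
The chain lemma `chain` turns the ladder relations into Ward's relation in a range.
-/

set_option autoImplicit false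

namespace Fermat.Agent.S13.H2

open Fermat.Agent.S05.H67

variable {K : Type*} [Field K] (W : WeierstrassCurve K)

/-- the symmetric biquadratic form of a Weierstrass curve -/
def Phi (a b c : K) : K :=
  a ^ 2 * b ^ 2 + b ^ 2 * c ^ 2 + c ^ 2 * a ^ 2 - 2 * a * b * c * (a + b + c) - W.b₂ * (a * b * c)
    - W.b₄ * (a * b + b * c + c * a) - W.b₆ * (a + b + c) - W.b₈

lemma Phi_eq (a b z : K) :
    Phi W a b z = z ^ 2 * (a - b) ^ 2 - z * sumNum W a b + prodNum W a b := by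
  simp only [Phi, sumNum, prodNum]; ring

lemma Phi_rot (a b c : K) : Phi W a b c = Phi W b c a := by
  simp only [Phi]; ring

lemma Phi_swap (a b c : K) : Phi W a b c = Phi W b a c := by
  simp only [Phi]; ring

lemma Phi_self (x v : K) : Phi W x x v = dblNum W x - v * dblDen W x := by
  simp only [Phi, dblNum, dblDen]; ring

lemma Phi_self' (x v : K) : Phi W v x x = dblNum W x - v * dblDen W x := by
  simp only [Phi, dblNum, dblDen]; ring

/-- from the sum and product formulas to the `Phi`-form -/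
lemma Phi_of_sum_prod {a b s p : K} (z : K) (hs : s * (a - b) ^ 2 = sumNum W a b)
    (hp : p * (a - b) ^ 2 = prodNum W a b) :
    (z ^ 2 - z * s + p) * (a - b) ^ 2 = Phi W a b z := by
  rw [Phi_eq, ← hs, ← hp]; ring

omit W in
lemma algA {Xm X1 X2 Xp Xq vm vp vq vpp vqq v2 dn dd : K}
    (hb1 : (X1 - Xp) * vp ^ 2 = vpp * vm) (hb2 : (X1 - Xq) * vq ^ 2 = vm * vqq)
    (hb3 : (X1 - Xm) * vm ^ 2 = vp * vq)
    (hΦ : (X1 - Xp) * (X1 - Xq) * (Xm - X1) ^ 2 = dn - Xm * dd)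
    (hD1 : v2 ^ 2 = dd) (hD2 : X2 * dd = dn)
    (hvm : vm ≠ 0) (hvp : vp ≠ 0) (hvq : vq ≠ 0) :
    vpp * vqq = (X2 - Xm) * vm ^ 2 * v2 ^ 2 := by
  have h1 : vpp * vqq * (vm ^ 2 * (vp * vq) ^ 2) =
      ((X2 - Xm) * vm ^ 2 * v2 ^ 2) * (vm ^ 2 * (vp * vq) ^ 2) := by
    linear_combination ((vp * vq) ^ 2 * vm ^ 4) * hΦ - ((X2 - Xm) * (vp * vq) ^ 2 * vm ^ 4) * hD1
      - ((vp * vq) ^ 2 * vm ^ 4) * hD2
      - ((X1 - Xp) * (X1 - Xq) * (vp * vq) ^ 2 * ((X1 - Xm) * vm ^ 2 + vp * vq)) * hb3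
      - ((X1 - Xq) * vq ^ 2 * (vp * vq) ^ 2) * hb1 - (vpp * vm * (vp * vq) ^ 2) * hb2
  have hne : vm ^ 2 * (vp * vq) ^ 2 ≠ 0 :=
    mul_ne_zero (pow_ne_zero _ hvm) (pow_ne_zero _ (mul_ne_zero hvp hvq))
  exact mul_right_cancel₀ hne h1

omit W in
lemma algB {X1 Xm Xj Xj1 Xjm Xa Xb vm vj vj1 vjm va vb va1 va0 vb1 vb0 P1 P2 : K}
    (ih1 : va * vb = (Xj - Xm) * vm ^ 2 * vj ^ 2)
    (ih2 : va0 * vb1 = (Xjm - Xm) * vm ^ 2 * vjm ^ 2)
    (hΦ1 : (X1 - Xa) * (X1 - Xb) * (Xm - Xj) ^ 2 = P1)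
    (hΦ2 : (Xm - Xj1) * (Xm - Xjm) * (Xj - X1) ^ 2 = P2)
    (hsym : P1 = P2)
    (hb1 : (X1 - Xa) * va ^ 2 = va1 * va0) (hb2 : (X1 - Xb) * vb ^ 2 = vb1 * vb0)
    (hb3 : (X1 - Xj) * vj ^ 2 = vj1 * vjm)
    (hvm : vm ≠ 0) (hvjm : vjm ≠ 0) (hd1 : Xjm ≠ Xm) (hd2 : Xm ≠ Xj) :
    va1 * vb0 = (Xj1 - Xm) * vm ^ 2 * vj1 ^ 2 := by
  have key : (va1 * vb0) * ((va0 * vb1) * (Xm - Xj) ^ 2) =
      ((Xj1 - Xm) * vm ^ 2 * vj1 ^ 2) * ((va0 * vb1) * (Xm - Xj) ^ 2) := by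
    linear_combination ((Xm - Xj) ^ 2 * vm ^ 4 * vj ^ 4) * hsym
      + (P1 * (va * vb + (Xj - Xm) * vm ^ 2 * vj ^ 2)) * ih1
      + ((va * vb) ^ 2) * hΦ1 - ((X1 - Xb) * vb ^ 2 * (Xm - Xj) ^ 2) * hb1
      - (va1 * va0 * (Xm - Xj) ^ 2) * hb2
      - ((Xj1 - Xm) * vm ^ 2 * vj1 ^ 2 * (Xm - Xj) ^ 2) * ih2
      - (vm ^ 4 * (Xm - Xj) ^ 2 * vj ^ 4) * hΦ2
      + (vm ^ 4 * (Xm - Xj) ^ 2 * ((Xm - Xj1) * (Xm - Xjm)) *
          ((X1 - Xj) * vj ^ 2 + vj1 * vjm)) * hb3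
  have hM : va0 * vb1 ≠ 0 := by
    rw [ih2]
    exact mul_ne_zero (mul_ne_zero (sub_ne_zero.mpr hd1) (pow_ne_zero _ hvm)) (pow_ne_zero _ hvjm)
  have hne : (va0 * vb1) * (Xm - Xj) ^ 2 ≠ 0 :=
    mul_ne_zero hM (pow_ne_zero _ (sub_ne_zero.mpr hd2))
  exact mul_right_cancel₀ hne key

/-- **Chain lemma.** `X k` plays the role of `x(kP)` and `v k` of `ψ_k(P)`. -/
theorem chain (X v : ℕ → K) (N : ℕ) (hv1 : v 1 = 1)
    (hv : ∀ k, 1 ≤ k → k ≤ N → v k ≠ 0)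
    (hb : ∀ k, 1 ≤ k → k ≤ N → (X 1 - X k) * v k ^ 2 = v (k + 1) * v (k - 1))
    (hΦ : ∀ b c, 1 ≤ b → 1 ≤ c → 2 * b + c ≤ N →
      X (b + c) ≠ X b ∧
        ∀ z, (z - X (2 * b + c)) * (z - X c) * (X (b + c) - X b) ^ 2 = Phi W (X (b + c)) (X b) z)
    (hD : 2 ≤ N → v 2 ^ 2 = dblDen W (X 1) ∧ X 2 * dblDen W (X 1) = dblNum W (X 1)) :
    ∀ j q, 1 ≤ j → 1 ≤ q → 2 * j + q ≤ N + 1 →
      v (2 * j + q) * v q = (X j - X (j + q)) * v (j + q) ^ 2 * v j ^ 2 := by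
  intro j
  induction j using Nat.strong_induction_on with
  | _ j ih =>
    intro q hj hq hN
    rcases Nat.lt_or_ge j 2 with hj2 | hj2
    · -- j = 1
      obtain rfl : j = 1 := by omega
      have h := hb (1 + q) (by omega) (by omega)
      have e1 : 1 + q + 1 = 2 * 1 + q := by ring
      have e2 : 1 + q - 1 = q := by omega
      rw [e1, e2] at h
      rw [← h, hv1]; ring
    rcases Nat.lt_or_ge j 3 with hj3 | hj3
    · -- j = 2
      obtain rfl : j = 2 := by omega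
      have hN2 : 2 ≤ N := by omega
      obtain ⟨hD1, hD2⟩ := hD hN2
      obtain ⟨hne, hΦ1⟩ := hΦ 1 (q + 1) le_rfl (by omega) (by omega)
      have hΦ1' := hΦ1 (X 1)
      have e1 : 1 + (q + 1) = 2 + q := by ring
      have e2 : 2 * 1 + (q + 1) = 2 + q + 1 := by ring
      rw [e1, e2, Phi_self'] at hΦ1'
      rw [e1] at hne
      have hb1 := hb (2 + q + 1) (by omega) (by omega)
      have hb2 := hb (q + 1) (by omega) (by omega)
      have hb3 := hb (2 + q) (by omega) (by omega)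
      have e3 : 2 + q + 1 + 1 = 2 * 2 + q := by ring
      have e4 : 2 + q + 1 - 1 = 2 + q := by omega
      have e5 : q + 1 + 1 = 2 + q := by ring
      have e6 : q + 1 - 1 = q := by omega
      have e7 : 2 + q - 1 = q + 1 := by omega
      rw [e3, e4] at hb1
      rw [e5, e6] at hb2
      rw [e7] at hb3
      exact algA hb1 hb2 hb3 hΦ1' hD1 hD2 (hv _ (by omega) (by omega))
        (hv _ (by omega) (by omega)) (hv _ (by omega) (by omega))
    · -- j = i + 3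
      obtain ⟨i, rfl⟩ : ∃ i, j = i + 3 := ⟨j - 3, by omega⟩
      have ih1 := ih (i + 2) (by omega) (q + 1) (by omega) (by omega) (by omega)
      have ih2 := ih (i + 1) (by omega) (q + 2) (by omega) (by omega) (by omega)
      have em1 : i + 2 + (q + 1) = i + 3 + q := by ring
      have em2 : i + 1 + (q + 2) = i + 3 + q := by ring
      have ea1 : 2 * (i + 2) + (q + 1) = 2 * i + q + 5 := by ring
      have ea2 : 2 * (i + 1) + (q + 2) = 2 * i + q + 4 := by ring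
      rw [em1, ea1] at ih1
      rw [em2, ea2] at ih2
      obtain ⟨hne1, hΦ1⟩ := hΦ (i + 2) (q + 1) (by omega) (by omega) (by omega)
      obtain ⟨hne2, hΦ2⟩ := hΦ 1 (i + 1) le_rfl (by omega) (by omega)
      obtain ⟨hne3, -⟩ := hΦ (i + 1) (q + 2) (by omega) (by omega) (by omega)
      have hΦ1' := hΦ1 (X 1)
      have hΦ2' := hΦ2 (X (i + 3 + q))
      rw [em1, ea1] at hΦ1'
      rw [em1] at hne1
      rw [em2] at hne3
      have eb1 : 1 + (i + 1) = i + 2 := by ring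
      have eb2 : 2 * 1 + (i + 1) = i + 3 := by ring
      rw [eb1, eb2] at hΦ2'
      have hsym : Phi W (X (i + 3 + q)) (X (i + 2)) (X 1) =
          Phi W (X (i + 2)) (X 1) (X (i + 3 + q)) := by
        simp only [Phi]; ring
      have hb1 := hb (2 * i + q + 5) (by omega) (by omega)
      have hb2 := hb (q + 1) (by omega) (by omega)
      have hb3 := hb (i + 2) (by omega) (by omega)
      have ec1 : 2 * i + q + 5 + 1 = 2 * (i + 3) + q := by ring
      have ec2 : 2 * i + q + 5 - 1 = 2 * i + q + 4 := by omega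
      have ec3 : q + 1 + 1 = q + 2 := by ring
      have ec4 : q + 1 - 1 = q := by omega
      have ec5 : i + 2 + 1 = i + 3 := by ring
      have ec6 : i + 2 - 1 = i + 1 := by omega
      rw [ec1, ec2] at hb1
      rw [ec3, ec4] at hb2
      rw [ec5, ec6] at hb3
      exact algB ih1 ih2 hΦ1' hΦ2' hsym hb1 hb2 hb3 (hv _ (by omega) (by omega))
        (hv _ (by omega) (by omega)) (Ne.symm hne3) hne1

end Fermat.Agent.S13.H2
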