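import Mathlib
import Fermat.Agent.S13.H2_Phi

/-!
# S13 / STRUCT-mult-generic, part 1a: the values `ω_k = ψ_k(x,y)` of the division polynomials
-/

set_option autoImplicit false

namespace Fermat.Agent.S13.H2

open Fermat.Agent.S05.H67 Polynomial
open scoped Polynomial.Bivariate

variable {K : Type*} [CommRing K] (W : WeierstrassCurve K) (x y : K)

/-- the value of the `k`-th division polynomial at `(x,y)` -/
noncomputable def om (k : ℤ) : K := (W.ψ k).evalEval x y

lemma om_def (k : ℤ) : om W x y k = evalEvalRingHom x y (W.ψ k) := rfl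

@[simp] lemma om_zero : om W x y 0 = 0 := by simp [om]
@[simp] lemma om_one : om W x y 1 = 1 := by simp [om]

lemma om_two : om W x y 2 = 2 * y + W.a₁ * x + W.a₃ := by
  simp [om, WeierstrassCurve.ψ₂, WeierstrassCurve.Affine.evalEval_polynomialY]

lemma om_three : om W x y 3 = W.Ψ₃.eval x := by
  simp [om, evalEval_C]

lemma om_four : om W x y 4 = W.preΨ₄.eval x * om W x y 2 := by
  simp [om, evalEval_C]

lemma om_neg (k : ℤ) : om W x y (-k) = - om W x y k := by
  simp [om]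

lemma om_even (m : ℤ) : om W x y (2 * m) * om W x y 2 =
    om W x y (m - 1) ^ 2 * om W x y m * om W x y (m + 2) -
      om W x y (m - 2) * om W x y m * om W x y (m + 1) ^ 2 := by
  simp only [om_def]
  rw [show W.ψ 2 = W.ψ₂ from W.ψ_two, ← map_mul, W.ψ_even]
  simp only [map_sub, map_mul, map_pow]

lemma om_odd (m : ℤ) : om W x y (2 * m + 1) =
    om W x y (m + 2) * om W x y m ^ 3 - om W x y (m - 1) * om W x y (m + 1) ^ 3 := by
  simp only [om_def]
  rw [W.ψ_odd]
  simp only [map_sub, map_mul, map_pow]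

lemma eval_Ψ₃ : W.Ψ₃.eval x =
    3 * x ^ 4 + W.b₂ * x ^ 3 + 3 * W.b₄ * x ^ 2 + 3 * W.b₆ * x + W.b₈ := by
  simp [WeierstrassCurve.Ψ₃]

lemma eval_preΨ₄ : W.preΨ₄.eval x =
    2 * x ^ 6 + W.b₂ * x ^ 5 + 5 * W.b₄ * x ^ 4 + 10 * W.b₆ * x ^ 3 + 10 * W.b₈ * x ^ 2 +
      (W.b₂ * W.b₈ - W.b₄ * W.b₆) * x + (W.b₄ * W.b₈ - W.b₆ ^ 2) := by
  simp [WeierstrassCurve.preΨ₄]

end Fermat.Agent.S13.H2
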