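import Mathlib
import Fermat.Agent.S13.H2_Omega

/-!
# S13 / STRUCT-mult-generic, part 1b: the ladder lemma

If `ω_1, …, ω_N ≠ 0` at a nonsingular point `P = (x,y)` then `kP ≠ 0` and
`(x - x(kP)) ω_k² = ω_{k+1} ω_{k-1}` for all `1 ≤ k ≤ N`.
-/

set_option autoImplicit false

namespace Fermat.Agent.S13.H2

open Fermat.Agent.S05.H67 Polynomial WeierstrassCurve WeierstrassCurve.Affine
open scoped Polynomial.Bivariate

variable {K : Type*} [Field K] (W : WeierstrassCurve K)

section oncurve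

variable {x y : K}

lemma om_two_sq (h : W.toAffine.Equation x y) : om W x y 2 ^ 2 = dblDen W x := by
  rw [dblDen_eq W h, om_two]
  simp only [Affine.negY]; ring

lemma om_three_eq : om W x y 3 = x * dblDen W x - dblNum W x := by
  rw [om_three, eval_Ψ₃]; simp only [dblDen, dblNum]; ring

lemma eval_preΨ₄_eq :
    W.preΨ₄.eval x = (6 * x ^ 2 + W.b₂ * x + W.b₄) * W.Ψ₃.eval x - dblDen W x ^ 2 := by
  rw [eval_preΨ₄, eval_Ψ₃]; simp only [dblDen]
  linear_combination (x ^ 2) * W.b_relation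

lemma sumNum_sub (x t : K) :
    sumNum W (x - t) x = dblDen W x - t * (6 * x ^ 2 + W.b₂ * x + W.b₄) + 2 * x * t ^ 2 := by
  simp only [sumNum, dblDen]; ring

end oncurve

variable [DecidableEq K]

/-- the `x`-coordinate of `k • P` -/
noncomputable def XX (P : W.toAffine.Point) (k : ℕ) : K := xCoord W (k • P)

lemma XX_one (P : W.toAffine.Point) : XX W P 1 = xCoord W P := by simp [XX]

/-- nonvanishing of the multiples up to `N` gives the `Phi`-relations -/
theorem hΦ_of_ne_zero (P : W.toAffine.Point) (N : ℕ) (hP : ∀ k, 1 ≤ k → k ≤ N → k • P ≠ 0) :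
    ∀ b c, 1 ≤ b → 1 ≤ c → 2 * b + c ≤ N →
      XX W P (b + c) ≠ XX W P b ∧
        ∀ z, (z - XX W P (2 * b + c)) * (z - XX W P c) * (XX W P (b + c) - XX W P b) ^ 2 =
          Phi W (XX W P (b + c)) (XX W P b) z := by
  intro b c hb hc hN
  have h1 : (b + c) • P ≠ 0 := hP _ (by omega) (by omega)
  have h2 : b • P ≠ 0 := hP _ hb (by omega)
  have h3 : c • P ≠ 0 := hP _ hc (by omega)
  have h4 : (2 * b + c) • P ≠ 0 := hP _ (by omega) hN
  have eadd : (b + c) • P + b • P = (2 * b + c) • P := by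
    rw [← add_nsmul]; congr 1; ring
  have esub : (b + c) • P - b • P = c • P := by
    rw [add_nsmul]; abel
  have hne : XX W P (b + c) ≠ XX W P b := by
    intro heq
    rcases (xCoord_eq_iff W h1 h2).mp heq with h | h
    · apply h3; rw [← esub, h, sub_self]
    · apply h4; rw [← eadd, h, neg_add_cancel]
  refine ⟨hne, fun z => ?_⟩
  have hs := xCoord_add_add_xCoord_sub W h1 h2 hne
  have hp := xCoord_add_mul_xCoord_sub W h1 h2 hne
  rw [eadd, esub] at hs hp
  have := Phi_of_sum_prod W z hs hp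
  simp only [XX]
  rw [← this]; ring

variable {x y : K} (h : W.toAffine.Nonsingular x y)

/-- `2P ≠ 0` iff `ω₂ ≠ 0` -/
lemma two_nsmul_eq_zero_iff_om : 2 • Point.some x y h = 0 ↔ om W x y 2 = 0 := by
  rw [two_nsmul_eq_zero_iff W (Point.some_ne_zero _), xCoord_some, ← om_two_sq W h.1,
    sq_eq_zero_iff]

/-- the relation at `k = 2` -/
lemma ladder_two (h2 : om W x y 2 ≠ 0) :
    2 • Point.some x y h ≠ 0 ∧
      (x - XX W (Point.some x y h) 2) * om W x y 2 ^ 2 = om W x y 3 := by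
  have hne : 2 • Point.some x y h ≠ 0 := fun h0 => h2 ((two_nsmul_eq_zero_iff_om W h).mp h0)
  refine ⟨hne, ?_⟩
  have := xCoord_two_nsmul W (Point.some_ne_zero h) hne
  rw [xCoord_some] at this
  rw [om_two_sq W h.1, om_three_eq, XX]
  linear_combination (-1 : K) * this

/-- the relation at `k = 3` -/
lemma ladder_three (h2 : om W x y 2 ≠ 0) (h3 : om W x y 3 ≠ 0) :
    3 • Point.some x y h ≠ 0 ∧
      (x - XX W (Point.some x y h) 3) * om W x y 3 ^ 2 = om W x y 4 * om W x y 2 := by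
  obtain ⟨hne2, hr2⟩ := ladder_two W h h2
  set P := Point.some x y h with hP
  have hP0 : P ≠ 0 := Point.some_ne_zero h
  have hx : xCoord W (2 • P) ≠ xCoord W P := by
    intro heq
    apply h3
    rw [← hr2, XX, heq, hP, xCoord_some, sub_self, zero_mul]
  obtain ⟨hadd, -⟩ := add_ne_zero_and_sub_ne_zero W hne2 hP0 hx
  have e3 : 2 • P + P = 3 • P := by rw [← succ_nsmul]
  have e1 : 2 • P - P = P := by rw [two_nsmul]; abel
  rw [e3] at hadd
  refine ⟨hadd, ?_⟩
  have hs := xCoord_add_add_xCoord_sub W hne2 hP0 hx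
  rw [e3, e1] at hs
  have hxP : xCoord W P = x := by rw [hP, xCoord_some]
  rw [hxP] at hs
  simp only [XX] at hr2 ⊢
  set X2 := xCoord W (2 • P) with hX2
  set X3 := xCoord W (3 • P) with hX3
  have hd := om_two_sq W h.1
  have hsub : sumNum W X2 x = dblDen W x - (x - X2) * (6 * x ^ 2 + W.b₂ * x + W.b₄) +
      2 * x * (x - X2) ^ 2 := by
    rw [← sumNum_sub]; congr 1; ring
  rw [om_four, eval_preΨ₄_eq, ← om_three (y := y), ← hd]
  rw [hsub, ← hd] at hs
  have h2' : om W x y 2 ^ 2 ≠ 0 := pow_ne_zero _ h2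
  -- multiply the goal by ω₂⁴ … use hr2 : (x - X2) ω₂² = ω₃
  have key : ((x - X3) * om W x y 3 ^ 2) =
      ((6 * x ^ 2 + W.b₂ * x + W.b₄) * om W x y 3 - (om W x y 2 ^ 2) ^ 2) * om W x y 2 *
        om W x y 2 := by
    have : (x - X3) * ((x - X2) * om W x y 2 ^ 2) ^ 2 =
      ((6 * x ^ 2 + W.b₂ * x + W.b₄) * ((x - X2) * om W x y 2 ^ 2) - (om W x y 2 ^ 2) ^ 2) *
        om W x y 2 * om W x y 2 := by
      linear_combination (-(om W x y 2 ^ 4)) * hs
    rw [hr2] at this
    exact this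
  exact key

end Fermat.Agent.S13.H2

namespace Fermat.Agent.S13.H2

open Fermat.Agent.S05.H67 Polynomial WeierstrassCurve WeierstrassCurve.Affine
open scoped Polynomial.Bivariate

variable {K : Type*} [Field K] (W : WeierstrassCurve K) [DecidableEq K]
variable {x y : K} (h : W.toAffine.Nonsingular x y)

/-- the ladder relation at index `k` -/
def LadderRel (k : ℕ) : Prop :=
  k • Point.some x y h ≠ 0 ∧
    (x - XX W (Point.some x y h) k) * om W x y k ^ 2 = om W x y (k + 1) * om W x y (k - 1)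

lemma ladderRel_one : LadderRel W h 1 := by
  refine ⟨by simp, ?_⟩
  simp [XX]

lemma ladderRel_two (h2 : om W x y 2 ≠ 0) : LadderRel W h 2 := by
  obtain ⟨h1, h2'⟩ := ladder_two W h h2
  refine ⟨h1, ?_⟩
  have e1 : ((2 : ℕ) : ℤ) + 1 = 3 := by norm_num
  have e2 : ((2 : ℕ) : ℤ) - 1 = 1 := by norm_num
  rw [e1, e2, om_one, mul_one]
  exact_mod_cast h2'

lemma ladderRel_three (h2 : om W x y 2 ≠ 0) (h3 : om W x y 3 ≠ 0) : LadderRel W h 3 := by
  obtain ⟨h1, h2'⟩ := ladder_three W h h2 h3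
  refine ⟨h1, ?_⟩
  have e1 : ((3 : ℕ) : ℤ) + 1 = 4 := by norm_num
  have e2 : ((3 : ℕ) : ℤ) - 1 = 2 := by norm_num
  rw [e1, e2]
  exact_mod_cast h2'

/-- the inductive step of the ladder -/
theorem ladderRel_step (M : ℕ) (hM : 4 ≤ M) (hω : ∀ k : ℕ, 1 ≤ k → k ≤ M → om W x y k ≠ 0)
    (ih : ∀ k : ℕ, 1 ≤ k → k < M → LadderRel W h k) : LadderRel W h M := by
  set P := Point.some x y h with hP
  have hP0 : P ≠ 0 := Point.some_ne_zero h
  have hxP : xCoord W P = x := by rw [hP, xCoord_some]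
  -- (i) M • P ≠ 0
  have hMP : M • P ≠ 0 := by
    obtain ⟨hne, hrel⟩ := ih (M - 1) (by omega) (by omega)
    have hx : xCoord W ((M - 1) • P) ≠ xCoord W P := by
      intro heq
      have e1 : (((M - 1 : ℕ) : ℤ)) + 1 = (M : ℤ) := by
        have : 1 ≤ M := by omega
        push_cast [Nat.cast_sub this]; ring
      have e2 : (((M - 1 : ℕ) : ℤ)) - 1 = ((M - 2 : ℕ) : ℤ) := by
        have : 2 ≤ M := by omega
        have h1 : 1 ≤ M := by omega
        push_cast [Nat.cast_sub this, Nat.cast_sub h1]; ring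
      rw [XX, heq, hxP, sub_self, zero_mul, e1, e2] at hrel
      exact mul_ne_zero (hω M (by omega) le_rfl) (hω (M - 2) (by omega) (by omega)) hrel.symm
    have := (add_ne_zero_and_sub_ne_zero W hne hP0 hx).1
    rwa [← succ_nsmul, show M - 1 + 1 = M by omega] at this
  refine ⟨hMP, ?_⟩
  have hmult : ∀ k, 1 ≤ k → k ≤ M → k • P ≠ 0 := by
    intro k hk hkM
    rcases Nat.lt_or_ge k M with hlt | hge
    · exact (ih k hk hlt).1
    · obtain rfl : k = M := by omega
      exact hMP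
  -- (ii) the auxiliary sequence
  have hωM1 : om W x y ((M : ℤ) - 1) ≠ 0 := by
    have := hω (M - 1) (by omega) (by omega)
    have h1 : 1 ≤ M := by omega
    rwa [Nat.cast_sub h1] at this
  set u : K := (x - XX W P M) * om W x y M ^ 2 / om W x y ((M : ℤ) - 1) with hu
  have hu' : (x - XX W P M) * om W x y M ^ 2 = u * om W x y ((M : ℤ) - 1) := by
    rw [hu, div_mul_cancel₀ _ hωM1]
  suffices hsuff : u = om W x y ((M : ℤ) + 1) by rw [hu', hsuff]
  set v : ℕ → K := fun k => if k ≤ M then om W x y k else u with hv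
  have v_le : ∀ k, k ≤ M → v k = om W x y k := fun k hk => by simp [hv, hk]
  have v_succ : v (M + 1) = u := by simp [hv]
  have hX1 : XX W P 1 = x := by rw [XX_one, hxP]
  have hchain := chain W (XX W P) v M (by rw [v_le 1 (by omega)]; simp)
    (fun k hk hkM => by rw [v_le k hkM]; exact hω k hk hkM)
    (fun k hk hkM => by
      rw [hX1, v_le k hkM, v_le (k - 1) (by omega)]
      have e1 : ((k + 1 : ℕ) : ℤ) = (k : ℤ) + 1 := by push_cast; ring
      have e2 : ((k - 1 : ℕ) : ℤ) = (k : ℤ) - 1 := by rw [Nat.cast_sub hk]; simp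
      rcases Nat.lt_or_ge k M with hlt | hge
      · rw [v_le (k + 1) (by omega)]
        have := (ih k hk hlt).2
        rw [this, e1, e2]
      · obtain rfl : k = M := by omega
        rw [v_succ, hu', e2])
    (hΦ_of_ne_zero W P M hmult)
    (fun _ => by
      rw [v_le 2 (by omega), hX1]
      have h2 : om W x y 2 ≠ 0 := by exact_mod_cast hω 2 (by omega) (by omega)
      obtain ⟨hne2, hr2⟩ := ladder_two W h h2
      refine ⟨by exact_mod_cast om_two_sq W h.1, ?_⟩
      have := xCoord_two_nsmul W hP0 hne2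
      rw [hxP] at this
      exact this)
  -- relations (x - X k) ω_k² = ω_{k+1} ω_{k-1} for k < M in integer form
  have hrel : ∀ k : ℕ, 1 ≤ k → k < M →
      (x - XX W P k) * om W x y (k : ℤ) ^ 2 = om W x y ((k : ℤ) + 1) * om W x y ((k : ℤ) - 1) :=
    fun k hk hkM => (ih k hk hkM).2
  rcases Nat.even_or_odd' M with ⟨t, rfl | rfl⟩
  · -- M = 2 t, t ≥ 2, M + 1 = 2 t + 1
    have ht : 2 ≤ t := by omega
    have hc := hchain t 1 (by omega) le_rfl (by omega)
    rw [v_succ, v_le 1 (by omega), v_le (t + 1) (by omega), v_le t (by omega)] at hc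
    have r1 := hrel (t + 1) (by omega) (by omega)
    have r2 := hrel t (by omega) (by omega)
    have hodd := om_odd W x y (t : ℤ)
    have e1 : ((2 * t : ℕ) : ℤ) + 1 = 2 * (t : ℤ) + 1 := by push_cast; ring
    rw [e1, hodd]
    have e2 : ((t + 1 : ℕ) : ℤ) + 1 = (t : ℤ) + 2 := by push_cast; ring
    have e3 : ((t + 1 : ℕ) : ℤ) - 1 = (t : ℤ) := by push_cast; ring
    have e4 : ((t + 1 : ℕ) : ℤ) = (t : ℤ) + 1 := by push_cast; ring
    rw [e2, e3, e4] at r1
    rw [e4] at hc
    simp only [Nat.cast_one, om_one, mul_one] at hc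
    rw [hc]
    linear_combination (om W x y t ^ 2) * r1 - (om W x y ((t : ℤ) + 1) ^ 2) * r2
  · -- M = 2 t + 1, t ≥ 2, M + 1 = 2 (t + 1)
    have ht : 2 ≤ t := by omega
    have hc := hchain t 2 (by omega) (by omega) (by omega)
    have e0 : 2 * t + 2 = 2 * t + 1 + 1 := by ring
    rw [e0, v_succ, v_le 2 (by omega), v_le (t + 2) (by omega), v_le t (by omega)] at hc
    have r1 := hrel (t + 2) (by omega) (by omega)
    have r2 := hrel t (by omega) (by omega)
    have heven := om_even W x y ((t : ℤ) + 1)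
    have e1 : ((2 * t + 1 : ℕ) : ℤ) + 1 = 2 * ((t : ℤ) + 1) := by push_cast; ring
    have h2 : om W x y 2 ≠ 0 := by exact_mod_cast hω 2 (by omega) (by omega)
    rw [e1]
    apply mul_right_cancel₀ h2
    rw [heven]
    have e2 : ((t + 2 : ℕ) : ℤ) + 1 = (t : ℤ) + 1 + 2 := by push_cast; ring
    have e3 : ((t + 2 : ℕ) : ℤ) - 1 = (t : ℤ) + 1 := by push_cast; ring
    have e4 : ((t + 2 : ℕ) : ℤ) = (t : ℤ) + 1 + 1 := by push_cast; ring
    have e5 : (t : ℤ) + 1 - 1 = (t : ℤ) := by ring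
    have e6 : (t : ℤ) + 1 - 2 = (t : ℤ) - 1 := by ring
    rw [e2, e3, e4] at r1
    rw [e4] at hc
    rw [e5, e6]
    have hc' : u * om W x y 2 = (XX W P t - XX W P (t + 2)) * om W x y ((t : ℤ) + 1 + 1) ^ 2 *
        om W x y (t : ℤ) ^ 2 := by exact_mod_cast hc
    rw [hc']
    linear_combination (om W x y t ^ 2) * r1 - (om W x y ((t : ℤ) + 1 + 1) ^ 2) * r2

/-- **Ladder lemma.** -/
theorem ladder (N : ℕ) (hω : ∀ k : ℕ, 1 ≤ k → k ≤ N → om W x y k ≠ 0) :
    ∀ k : ℕ, 1 ≤ k → k ≤ N → LadderRel W h k := by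
  intro k
  induction k using Nat.strong_induction_on with
  | _ k ih =>
    intro hk hkN
    have hω' : ∀ j : ℕ, 1 ≤ j → j ≤ k → om W x y j ≠ 0 := fun j hj hjk => hω j hj (by omega)
    rcases Nat.lt_or_ge k 4 with hlt | hge
    · have h2 : 2 ≤ k → om W x y 2 ≠ 0 := fun h2 => by exact_mod_cast hω' 2 (by omega) h2
      have h3 : 3 ≤ k → om W x y 3 ≠ 0 := fun h3 => by exact_mod_cast hω' 3 (by omega) h3
      interval_cases k
      · exact ladderRel_one W h
      · exact ladderRel_two W h (h2 le_rfl)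
      · exact ladderRel_three W h (h2 (by omega)) (h3 le_rfl)
    · exact ladderRel_step W h k hge hω' (fun j hj hjk => ih j hjk hj (by omega))

end Fermat.Agent.S13.H2
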