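import Mathlib
import Fermat.Agent.S13.H2_Ladder

/-!
# S13 / STRUCT-mult-generic, part 2: the generic point

`F` a field of characteristic zero, `W` a Weierstrass curve over `F`, `K` the function field of
`W`.  The generic point `(X, Y)` of `W` over `K` has all `ω_k ≠ 0`, so the ladder lemma applies.
-/

set_option autoImplicit false

namespace Fermat.Agent.S13.H2

open Fermat.Agent.S05.H67 Polynomial WeierstrassCurve WeierstrassCurve.Affine
open scoped Polynomial.Bivariate

variable {F : Type*} [Field F] (W : WeierstrassCurve F)

/-- the function field of `W` -/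
abbrev KK : Type _ := W.toAffine.FunctionField

/-- the base change of `W` to its function field -/
noncomputable abbrev WK : WeierstrassCurve (KK W) := W.map (algebraMap F (KK W))

/-- the canonical map `F[X][Y] → K` -/
noncomputable def gphi : F[X][Y] →+* KK W :=
  (algebraMap W.toAffine.CoordinateRing (KK W)).comp (CoordinateRing.mk W.toAffine)

/-- the `x`-coordinate of the generic point -/
noncomputable def gx : KK W := gphi W (C X)

/-- the `y`-coordinate of the generic point -/
noncomputable def gy : KK W := gphi W Y

lemma gphi_CC (a : F) : gphi W (C (C a)) = algebraMap F (KK W) a := by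
  simp only [gphi, RingHom.comp_apply]
  rw [IsScalarTower.algebraMap_apply F W.toAffine.CoordinateRing (KK W)]
  congr 1

lemma gphi_eq (p : F[X][Y]) :
    gphi W p = (p.map (mapRingHom (algebraMap F (KK W)))).evalEval (gx W) (gy W) := by
  have : gphi W = (evalEvalRingHom (gx W) (gy W)).comp
      (mapRingHom (mapRingHom (algebraMap F (KK W)))) := by
    apply Polynomial.ringHom_ext
    · intro q
      have : (gphi W).comp C = ((evalEvalRingHom (gx W) (gy W)).comp
          (mapRingHom (mapRingHom (algebraMap F (KK W))))).comp C := by
        apply Polynomial.ringHom_ext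
        · intro a; simp [gphi_CC, evalEval_C]
        · simp [gx, evalEval_C]
      exact DFunLike.congr_fun this q
    · simp [gy]
  rw [this]; rfl

lemma gphi_polynomial : gphi W W.toAffine.polynomial = 0 := by
  simp [gphi]

lemma generic_equation : (WK W).toAffine.Equation (gx W) (gy W) := by
  rw [Affine.Equation, Affine.map_polynomial, ← gphi_eq, gphi_polynomial]

lemma gphi_injective_C : Function.Injective fun p : F[X] => gphi W (C p) := by
  have h1 : Function.Injective (algebraMap W.toAffine.CoordinateRing (KK W)) :=
    IsFractionRing.injective _ _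
  have h2 : Function.Injective (AdjoinRoot.of W.toAffine.polynomial) := by
    apply AdjoinRoot.of.injective_of_degree_ne_zero
    rw [Affine.degree_polynomial]; norm_num
  intro p q hpq
  apply h2
  apply h1
  simpa [gphi] using hpq

lemma gphi_C_ne_zero {p : F[X]} (hp : p ≠ 0) : gphi W (C p) ≠ 0 := by
  intro h
  apply hp
  apply gphi_injective_C W
  simpa using h

lemma gphi_eq_zero_iff (p : F[X][Y]) : gphi W p = 0 ↔ W.toAffine.polynomial ∣ p := by
  have h1 : Function.Injective (algebraMap W.toAffine.CoordinateRing (KK W)) :=
    IsFractionRing.injective _ _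
  simp only [gphi, RingHom.comp_apply]
  rw [map_eq_zero_iff _ h1, AdjoinRoot.mk_eq_zero]

/-- **transfer**: an identity at the generic point holds at every point of the curve -/
lemma evalEval_eq_zero_of_gphi {p : F[X][Y]} (hp : gphi W p = 0) {x y : F}
    (h : W.toAffine.Equation x y) : p.evalEval x y = 0 := by
  obtain ⟨q, rfl⟩ := (gphi_eq_zero_iff W p).mp hp
  have : evalEvalRingHom x y (W.toAffine.polynomial * q) = 0 := by
    rw [map_mul]
    have : evalEvalRingHom x y W.toAffine.polynomial = 0 := h
    rw [this, zero_mul]
  exact this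

lemma om_generic (k : ℤ) : om (WK W) (gx W) (gy W) k = gphi W (W.ψ k) := by
  rw [om, WeierstrassCurve.map_ψ, ← gphi_eq]

variable [CharZero F]

lemma om_generic_ne_zero {k : ℤ} (hk : k ≠ 0) : om (WK W) (gx W) (gy W) k ≠ 0 := by
  rw [om_generic]
  intro h0
  have hsq : gphi W (W.ψ k) ^ 2 = gphi W (C (W.ΨSq k)) := by
    simp only [gphi, RingHom.comp_apply]
    rw [← map_pow, CoordinateRing.mk_ψ, CoordinateRing.mk_Ψ_sq]
  have hne : W.ΨSq k ≠ 0 := W.ΨSq_ne_zero (by exact_mod_cast hk)
  apply gphi_C_ne_zero W hne
  rw [← hsq, h0]; ring

lemma generic_nonsingular : (WK W).toAffine.Nonsingular (gx W) (gy W) := by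
  rw [Affine.nonsingular_iff']
  refine ⟨generic_equation W, Or.inr ?_⟩
  have := om_generic_ne_zero W (k := 2) (by norm_num)
  rw [om_two] at this
  exact this

end Fermat.Agent.S13.H2
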