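import Mathlib
import Fermat.Agent.S13.H2_Generic

/-!
# S13 / STRUCT-mult-generic, part 2b: Ward's relation and the conserved quantity

Derived at the generic point from the ladder lemma, then transferred to every point of the
curve (characteristic zero).
-/

set_option autoImplicit false

namespace Fermat.Agent.S13.H2

open Fermat.Agent.S05.H67 Polynomial WeierstrassCurve WeierstrassCurve.Affine
open scoped Polynomial.Bivariate

variable {F : Type*} [Field F] (W : WeierstrassCurve F) [CharZero F]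

/-- `ω_k` at the generic point -/
noncomputable abbrev omg (k : ℤ) : KK W := om (WK W) (gx W) (gy W) k

open Classical in
/-- the ladder relation holds at the generic point for every `k ≥ 1` -/
lemma generic_ladderRel (k : ℕ) (hk : 1 ≤ k) : LadderRel (WK W) (generic_nonsingular W) k :=
  ladder (WK W) (generic_nonsingular W) k
    (fun j hj _ => om_generic_ne_zero W (by exact_mod_cast (by omega : j ≠ 0))) k hk le_rfl

open Classical in
/-- Ward's relation at the generic point -/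
theorem ward_generic (j q : ℕ) (hj : 1 ≤ j) (hq : 1 ≤ q) :
    omg W (2 * j + q : ℕ) * omg W (q : ℕ) =
      omg W ((j + q : ℕ) + 1) * omg W ((j + q : ℕ) - 1) * omg W (j : ℕ) ^ 2 -
        omg W ((j : ℕ) + 1) * omg W ((j : ℕ) - 1) * omg W (j + q : ℕ) ^ 2 := by
  set P := Point.some (gx W) (gy W) (generic_nonsingular W) with hP
  have hxP : xCoord (WK W) P = gx W := by rw [hP, xCoord_some]
  have hX1 : XX (WK W) P 1 = gx W := by rw [XX_one, hxP]
  have hne : ∀ k : ℕ, 1 ≤ k → omg W (k : ℕ) ≠ 0 := fun k hk =>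
    om_generic_ne_zero W (by exact_mod_cast (by omega : k ≠ 0))
  have hc := chain (WK W) (XX (WK W) P) (fun k : ℕ => omg W (k : ℕ)) (2 * j + q) (by simp)
    (fun k hk _ => hne k hk)
    (fun k hk _ => by
      rw [hX1]
      have := (generic_ladderRel W k hk).2
      have e1 : ((k + 1 : ℕ) : ℤ) = (k : ℤ) + 1 := by push_cast; ring
      have e2 : ((k - 1 : ℕ) : ℤ) = (k : ℤ) - 1 := by rw [Nat.cast_sub hk]; simp
      rw [e1, e2]
      exact this)
    (hΦ_of_ne_zero (WK W) P (2 * j + q) (fun k hk _ => (generic_ladderRel W k hk).1))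
    (fun _ => by
      rw [hX1]
      obtain ⟨hne2, -⟩ := ladder_two (WK W) (generic_nonsingular W) (hne 2 (by omega))
      refine ⟨by exact_mod_cast om_two_sq (WK W) (generic_nonsingular W).1, ?_⟩
      have := xCoord_two_nsmul (WK W) (Point.some_ne_zero (generic_nonsingular W)) hne2
      rw [← hP, hxP] at this
      exact this)
    j q hj hq (by omega)
  beta_reduce at hc
  rw [hc]
  have r1 := (generic_ladderRel W (j + q) (by omega)).2
  have r2 := (generic_ladderRel W j hj).2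
  rw [← hP] at r1 r2
  linear_combination (omg W (j : ℕ) ^ 2) * r1 - (omg W (j + q : ℕ) ^ 2) * r2

open Classical in
/-- the conserved-quantity identity at the generic point -/
theorem conserved_generic (k : ℕ) (hk : 2 ≤ k) :
    omg W ((k : ℕ) + 2) * omg W ((k : ℕ) - 1) ^ 2 + omg W ((k : ℕ) - 2) * omg W ((k : ℕ) + 1) ^ 2 =
      (6 * gx W ^ 2 + (WK W).b₂ * gx W + (WK W).b₄) * omg W ((k : ℕ) - 1) * omg W (k : ℕ) *
        omg W ((k : ℕ) + 1) - omg W 2 ^ 2 * omg W (k : ℕ) ^ 3 := by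
  set P := Point.some (gx W) (gy W) (generic_nonsingular W) with hP
  have hP0 : P ≠ 0 := Point.some_ne_zero _
  have hxP : xCoord (WK W) P = gx W := by rw [hP, xCoord_some]
  have hne : ∀ k : ℤ, k ≠ 0 → omg W k ≠ 0 := fun k hk => om_generic_ne_zero W hk
  obtain ⟨hk0, rk⟩ := generic_ladderRel W k (by omega)
  obtain ⟨-, rk1⟩ := generic_ladderRel W (k + 1) (by omega)
  obtain ⟨-, rk2⟩ := generic_ladderRel W (k - 1) (by omega)
  rw [← hP] at hk0 rk rk1 rk2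
  have e1 : ((k + 1 : ℕ) : ℤ) = (k : ℤ) + 1 := by push_cast; ring
  have e2 : ((k - 1 : ℕ) : ℤ) = (k : ℤ) - 1 := by
    rw [Nat.cast_sub (by omega : 1 ≤ k)]; simp
  rw [e1] at rk1
  rw [e2] at rk2
  have e3 : (k : ℤ) + 1 + 1 = (k : ℤ) + 2 := by ring
  have e4 : (k : ℤ) + 1 - 1 = (k : ℤ) := by ring
  have e5 : (k : ℤ) - 1 + 1 = (k : ℤ) := by ring
  have e6 : (k : ℤ) - 1 - 1 = (k : ℤ) - 2 := by ring
  rw [e3, e4] at rk1
  rw [e5, e6] at rk2
  -- x(kP) ≠ x(P)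
  have hx : xCoord (WK W) (k • P) ≠ xCoord (WK W) P := by
    intro heq
    rw [XX, heq, hxP, sub_self, zero_mul] at rk
    exact mul_ne_zero (hne _ (by omega)) (hne _ (by omega)) rk.symm
  have hs := xCoord_add_add_xCoord_sub (WK W) hk0 hP0 hx
  have ea : k • P + P = (k + 1) • P := by rw [succ_nsmul]
  have es : k • P - P = (k - 1) • P := by
    have : k • P = (k - 1) • P + P := by
      rw [← succ_nsmul, show k - 1 + 1 = k by omega]
    rw [this]; abel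
  rw [ea, es, hxP] at hs
  simp only [XX] at rk rk1 rk2
  set Xk := xCoord (WK W) (k • P)
  set Xk1 := xCoord (WK W) ((k + 1) • P)
  set Xk2 := xCoord (WK W) ((k - 1) • P)
  have hd := om_two_sq (WK W) (generic_nonsingular W).1
  have hsub : sumNum (WK W) Xk (gx W) = dblDen (WK W) (gx W) -
      (gx W - Xk) * (6 * gx W ^ 2 + (WK W).b₂ * gx W + (WK W).b₄) +
        2 * gx W * (gx W - Xk) ^ 2 := by
    rw [← sumNum_sub]; congr 1; ring
  rw [hsub, ← hd] at hs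
  -- clear denominators
  have hk' : omg W (k : ℕ) ≠ 0 := hne _ (by exact_mod_cast (by omega : k ≠ 0))
  have hk1' : omg W ((k : ℕ) + 1) ≠ 0 := hne _ (by omega)
  have hk2' : omg W ((k : ℕ) - 1) ≠ 0 := hne _ (by omega)
  have hmul : omg W (k : ℕ) * (omg W ((k : ℕ) + 1) ^ 2 * omg W ((k : ℕ) - 1) ^ 2) ≠ 0 :=
    mul_ne_zero hk' (mul_ne_zero (pow_ne_zero _ hk1') (pow_ne_zero _ hk2'))
  apply mul_right_cancel₀ hmul
  -- substitute t_k etc.
  have tk : (gx W - Xk) * omg W (k : ℕ) ^ 2 = omg W ((k : ℕ) + 1) * omg W ((k : ℕ) - 1) := rk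
  have tk1 : (gx W - Xk1) * omg W ((k : ℕ) + 1) ^ 2 = omg W ((k : ℕ) + 2) * omg W (k : ℕ) := rk1
  have tk2 : (gx W - Xk2) * omg W ((k : ℕ) - 1) ^ 2 = omg W (k : ℕ) * omg W ((k : ℕ) - 2) := rk2
  linear_combination (-(omg W (k : ℕ) ^ 4 * omg W ((k : ℕ) + 1) ^ 2 * omg W ((k : ℕ) - 1) ^ 2)) * hs
    - (omg W ((k : ℕ) - 1) ^ 2 * (gx W - Xk) ^ 2 * omg W (k : ℕ) ^ 4) * tk1
    - (omg W ((k : ℕ) + 1) ^ 2 * (gx W - Xk) ^ 2 * omg W (k : ℕ) ^ 4) * tk2
    + ((6 * gx W ^ 2 + (WK W).b₂ * gx W + (WK W).b₄) * omg W (k : ℕ) ^ 2 *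
        omg W ((k : ℕ) + 1) ^ 2 * omg W ((k : ℕ) - 1) ^ 2
      - (omg W ((k : ℕ) + 2) * omg W (k : ℕ) * omg W ((k : ℕ) - 1) ^ 2
          + omg W (k : ℕ) * omg W ((k : ℕ) - 2) * omg W ((k : ℕ) + 1) ^ 2) *
        (omg W ((k : ℕ) + 1) * omg W ((k : ℕ) - 1) + (gx W - Xk) * omg W (k : ℕ) ^ 2)) * tk

end Fermat.Agent.S13.H2

namespace Fermat.Agent.S13.H2

open Fermat.Agent.S05.H67 Polynomial WeierstrassCurve WeierstrassCurve.Affine
open scoped Polynomial.Bivariate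

variable {F : Type*} [Field F] (W : WeierstrassCurve F) [CharZero F] {x y : F}

/-- **Ward's relation** for the division polynomials at any point of the curve (char. 0). -/
theorem ward (h : W.toAffine.Equation x y) (j q : ℕ) (hj : 1 ≤ j) (hq : 1 ≤ q) :
    om W x y (2 * j + q : ℕ) * om W x y (q : ℕ) =
      om W x y ((j + q : ℕ) + 1) * om W x y ((j + q : ℕ) - 1) * om W x y (j : ℕ) ^ 2 -
        om W x y ((j : ℕ) + 1) * om W x y ((j : ℕ) - 1) * om W x y (j + q : ℕ) ^ 2 := by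
  have hg := ward_generic W j q hj hq
  simp only [om_generic] at hg
  have h0 : gphi W (W.ψ (2 * j + q : ℕ) * W.ψ (q : ℕ) -
      (W.ψ ((j + q : ℕ) + 1) * W.ψ ((j + q : ℕ) - 1) * W.ψ (j : ℕ) ^ 2 -
        W.ψ ((j : ℕ) + 1) * W.ψ ((j : ℕ) - 1) * W.ψ (j + q : ℕ) ^ 2)) = 0 := by
    simp only [map_sub, map_mul, map_pow]
    rw [hg]; ring
  have := evalEval_eq_zero_of_gphi W h0 h
  simp only [om_def]
  have h1 : evalEvalRingHom x y (W.ψ (2 * j + q : ℕ) * W.ψ (q : ℕ) -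
      (W.ψ ((j + q : ℕ) + 1) * W.ψ ((j + q : ℕ) - 1) * W.ψ (j : ℕ) ^ 2 -
        W.ψ ((j : ℕ) + 1) * W.ψ ((j : ℕ) - 1) * W.ψ (j + q : ℕ) ^ 2)) = 0 := this
  simp only [map_sub, map_mul, map_pow] at h1
  exact sub_eq_zero.mp h1

/-- the **Somos-4** relation `ω_{m+2} ω_{m-2} = ω_{m+1} ω_{m-1} ω_2² - ω_3 ω_m²`, `m ≥ 3` -/
theorem somos4 (h : W.toAffine.Equation x y) (m : ℕ) (hm : 3 ≤ m) :
    om W x y ((m : ℕ) + 2) * om W x y ((m : ℕ) - 2) =
      om W x y ((m : ℕ) + 1) * om W x y ((m : ℕ) - 1) * om W x y 2 ^ 2 -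
        om W x y 3 * om W x y (m : ℕ) ^ 2 := by
  have := ward W h 2 (m - 2) (by omega) (by omega)
  have e1 : ((2 * 2 + (m - 2) : ℕ) : ℤ) = (m : ℤ) + 2 := by
    rw [show 2 * 2 + (m - 2) = m + 2 by omega]; push_cast; ring
  have e2 : ((m - 2 : ℕ) : ℤ) = (m : ℤ) - 2 := by
    rw [Nat.cast_sub (by omega : 2 ≤ m)]; simp
  have e3 : ((2 + (m - 2) : ℕ) : ℤ) = (m : ℤ) := by
    rw [show 2 + (m - 2) = m by omega]
  rw [e1, e2, e3] at this
  rw [this]
  have e4 : ((2 : ℕ) : ℤ) + 1 = 3 := by norm_num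
  have e5 : ((2 : ℕ) : ℤ) - 1 = 1 := by norm_num
  rw [e4, e5, om_one]
  norm_num

/-- the **conserved quantity** identity, `k ≥ 2` -/
theorem conserved (h : W.toAffine.Equation x y) (k : ℕ) (hk : 2 ≤ k) :
    om W x y ((k : ℕ) + 2) * om W x y ((k : ℕ) - 1) ^ 2 +
        om W x y ((k : ℕ) - 2) * om W x y ((k : ℕ) + 1) ^ 2 =
      (6 * x ^ 2 + W.b₂ * x + W.b₄) * om W x y ((k : ℕ) - 1) * om W x y (k : ℕ) *
        om W x y ((k : ℕ) + 1) - om W x y 2 ^ 2 * om W x y (k : ℕ) ^ 3 := by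
  have hg := conserved_generic W k hk
  simp only [om_generic] at hg
  have hc : gphi W (C (C 6 * X ^ 2 + C W.b₂ * X + C W.b₄)) =
      6 * gx W ^ 2 + (WK W).b₂ * gx W + (WK W).b₄ := by
    simp only [map_add, map_mul, map_pow, gphi_CC, WeierstrassCurve.map_b₂,
      WeierstrassCurve.map_b₄]
    rw [show gphi W (C X) = gx W from rfl, map_ofNat]
  have h0 : gphi W (W.ψ ((k : ℕ) + 2) * W.ψ ((k : ℕ) - 1) ^ 2 +
        W.ψ ((k : ℕ) - 2) * W.ψ ((k : ℕ) + 1) ^ 2 -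
      (C (C 6 * X ^ 2 + C W.b₂ * X + C W.b₄) * W.ψ ((k : ℕ) - 1) * W.ψ (k : ℕ) *
        W.ψ ((k : ℕ) + 1) - W.ψ 2 ^ 2 * W.ψ (k : ℕ) ^ 3)) = 0 := by
    simp only [map_sub, map_add, map_mul, map_pow] at hc ⊢
    rw [hg, hc]; ring
  have h1 : evalEvalRingHom x y (W.ψ ((k : ℕ) + 2) * W.ψ ((k : ℕ) - 1) ^ 2 +
        W.ψ ((k : ℕ) - 2) * W.ψ ((k : ℕ) + 1) ^ 2 -
      (C (C 6 * X ^ 2 + C W.b₂ * X + C W.b₄) * W.ψ ((k : ℕ) - 1) * W.ψ (k : ℕ) *
        W.ψ ((k : ℕ) + 1) - W.ψ 2 ^ 2 * W.ψ (k : ℕ) ^ 3)) = 0 :=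
    evalEval_eq_zero_of_gphi W h0 h
  have hc' : evalEvalRingHom x y (C (C 6 * X ^ 2 + C W.b₂ * X + C W.b₄)) =
      6 * x ^ 2 + W.b₂ * x + W.b₄ := by
    simp [evalEvalRingHom, evalEval_C]
  simp only [om_def]
  simp only [map_sub, map_add, map_mul, map_pow] at h1 hc'
  rw [← hc']
  exact sub_eq_zero.mp h1

end Fermat.Agent.S13.H2
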