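import Mathlib
import Fermat.Agent.S13.H2_Ward

/-!
# S13 / STRUCT-mult-generic, part 3: the torsion criterion

For a field `F` of characteristic zero, a Weierstrass curve `W` over `F` and a nonsingular point
`P = (x,y)`:  `n • P = 0 ↔ ψ_n(x,y) = 0` for all `n ≥ 1`.
-/

set_option autoImplicit false

namespace Fermat.Agent.S13.H2

open Fermat.Agent.S05.H67 Polynomial WeierstrassCurve WeierstrassCurve.Affine
open scoped Polynomial.Bivariate

variable {F : Type*} [Field F] (W : WeierstrassCurve F) {x y : F}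

section basic

/-- values of polynomials congruent modulo the Weierstrass equation agree on the curve -/
lemma evalEval_eq_of_mk_eq {p q : F[X][Y]}
    (hpq : CoordinateRing.mk W.toAffine p = CoordinateRing.mk W.toAffine q)
    (h : W.toAffine.Equation x y) : p.evalEval x y = q.evalEval x y := by
  have h0 : CoordinateRing.mk W.toAffine (p - q) = 0 := by rw [map_sub, hpq, sub_self]
  obtain ⟨r, hr⟩ := AdjoinRoot.mk_eq_zero.mp h0
  have h1 : evalEvalRingHom x y (p - q) = 0 := by
    rw [hr, map_mul]
    have : evalEvalRingHom x y W.toAffine.polynomial = 0 := h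
    rw [this, zero_mul]
  rw [map_sub] at h1
  exact sub_eq_zero.mp h1

/-- `ψ_n(x,y) = preΨ_n(x) * (if Even n then ψ₂(x,y) else 1)` on the curve -/
lemma om_eq_preΨ (h : W.toAffine.Equation x y) (n : ℤ) :
    om W x y n = (W.preΨ n).eval x * if Even n then om W x y 2 else 1 := by
  rw [om, evalEval_eq_of_mk_eq W (CoordinateRing.mk_ψ W n) h, WeierstrassCurve.Ψ]
  have : evalEvalRingHom x y (C (W.preΨ n) * if Even n then W.ψ₂ else 1) =
      (W.preΨ n).eval x * if Even n then om W x y 2 else 1 := by
    rw [map_mul]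
    congr 1
    · simp [evalEvalRingHom, evalEval_C]
    · split_ifs
      · simp [om, evalEvalRingHom]
      · simp
  exact this

lemma om_of_odd (h : W.toAffine.Equation x y) {n : ℤ} (hn : Odd n) :
    om W x y n = (W.preΨ n).eval x := by
  rw [om_eq_preΨ W h, if_neg (Int.not_even_iff_odd.mpr hn), mul_one]

lemma om_of_even_of_om_two (h : W.toAffine.Equation x y) {n : ℤ} (hn : Even n)
    (h2 : om W x y 2 = 0) : om W x y n = 0 := by
  rw [om_eq_preΨ W h, if_pos hn, h2, mul_zero]

/-- at a nonsingular point, `ω₂` and `ω₃` do not both vanish -/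
lemma om_three_ne_zero_of_om_two (h : W.toAffine.Nonsingular x y) (h2 : om W x y 2 = 0) :
    om W x y 3 ≠ 0 := by
  have hk := dbl_key W h.1
  have hs : y - W.toAffine.negY x y = 0 := by
    rw [om_two] at h2
    simp only [Affine.negY]; linear_combination h2
  rw [hs] at hk
  have hd : dblDen W x = 0 := by rw [dblDen_eq W h.1, hs]; ring
  rw [om_three_eq, hd, mul_zero, zero_sub, neg_ne_zero, ← hk]
  have hn := (W.toAffine.nonsingular_iff x y).mp h
  rcases hn.2 with h1 | h1
  · have : (3 * x ^ 2 + 2 * W.a₂ * x + W.a₄ - W.a₁ * y) ≠ 0 := by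
      intro h0; apply h1; linear_combination -h0
    simpa using pow_ne_zero 2 this
  · exfalso; apply h1
    simp only [Affine.negY] at hs
    linear_combination hs

end basic

variable [CharZero F]

/-! ### the 2-torsion case -/

section twotorsion

variable (h : W.toAffine.Nonsingular x y) (h2 : om W x y 2 = 0)

include h h2 in
lemma om_odd_ne_zero_of_om_two (t : ℕ) : om W x y ((2 * t + 1 : ℕ) : ℤ) ≠ 0 := by
  have h3 := om_three_ne_zero_of_om_two W h h2
  induction t using Nat.strong_induction_on with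
  | _ t ih =>
    rcases Nat.lt_or_ge t 2 with ht | ht
    · interval_cases t
      · simp
      · exact_mod_cast h3
    · -- m = 2 t - 1 = 2 (t-1) + 1 ≥ 3, m + 2 = 2 t + 1, m - 2 = 2 (t - 2) + 1
      have hs := somos4 W h.1 (2 * (t - 1) + 1) (by omega)
      rw [h2] at hs
      have e1 : ((2 * (t - 1) + 1 : ℕ) : ℤ) + 2 = ((2 * t + 1 : ℕ) : ℤ) := by
        have : 1 ≤ t := by omega
        push_cast [Nat.cast_sub this]; ring
      have e2 : ((2 * (t - 1) + 1 : ℕ) : ℤ) - 2 = ((2 * (t - 2) + 1 : ℕ) : ℤ) := by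
        have : 1 ≤ t := by omega
        have h2' : 2 ≤ t := by omega
        push_cast [Nat.cast_sub this, Nat.cast_sub h2']; ring
      rw [e1, e2] at hs
      intro h0
      rw [h0, zero_mul] at hs
      have := ih (t - 1) (by omega)
      have hne : om W x y 3 * om W x y ((2 * (t - 1) + 1 : ℕ) : ℤ) ^ 2 ≠ 0 :=
        mul_ne_zero h3 (pow_ne_zero _ this)
      apply hne
      linear_combination hs

variable [DecidableEq F]

include h2 in
lemma torsion_iff_of_om_two (n : ℕ) :
    n • Point.some x y h = 0 ↔ om W x y (n : ℤ) = 0 := by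
  have h2P : 2 • Point.some x y h = 0 := (two_nsmul_eq_zero_iff_om W h).mpr h2
  rcases Nat.even_or_odd' n with ⟨t, rfl | rfl⟩
  · constructor
    · intro _
      exact om_of_even_of_om_two W h.1 (by exact_mod_cast even_two_mul t) h2
    · intro _
      rw [mul_nsmul, h2P, smul_zero]
  · constructor
    · intro h0
      exfalso
      rw [add_nsmul, mul_nsmul, h2P, smul_zero, zero_add, one_nsmul] at h0
      exact Point.some_ne_zero h h0
    · intro h0
      exact absurd h0 (om_odd_ne_zero_of_om_two W h h2 t)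

end twotorsion

/-! ### the general case `ω₂ ≠ 0` -/

section general

variable (h : W.toAffine.Nonsingular x y) (h2 : om W x y 2 ≠ 0)

include h h2 in
/-- two consecutive `ω`'s cannot vanish -/
lemma not_consecutive_zero (k : ℕ) (hk : 1 ≤ k) :
    ¬ (om W x y (k : ℤ) = 0 ∧ om W x y ((k : ℤ) + 1) = 0) := by
  induction k, hk using Nat.le_induction with
  | base => simp
  | succ k hk ih =>
    rintro ⟨h0, h1⟩
    rcases Nat.lt_or_ge k 2 with hk2 | hk2
    · obtain rfl : k = 1 := by omega
      apply h2; exact_mod_cast h0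
    · apply ih
      refine ⟨?_, by exact_mod_cast h0⟩
      have hc := conserved W h.1 k hk2
      have e0 : ((k + 1 : ℕ) : ℤ) = (k : ℤ) + 1 := by push_cast; ring
      rw [e0] at h0 h1
      have e1 : (k : ℤ) + 1 + 1 = (k : ℤ) + 2 := by ring
      rw [e1] at h1
      rw [h0, h1] at hc
      have : om W x y 2 ^ 2 * om W x y (k : ℤ) ^ 3 = 0 := by linear_combination hc
      rcases mul_eq_zero.mp this with h' | h'
      · exact absurd ((pow_eq_zero_iff (two_ne_zero)).mp h') h2
      · exact (pow_eq_zero_iff (by norm_num)).mp h'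

variable [DecidableEq F]

/-- the inductive statement -/
def Stmt (k : ℕ) : Prop :=
  (k • Point.some x y h = 0 ↔ om W x y (k : ℤ) = 0) ∧
    (om W x y (k : ℤ) ≠ 0 →
      (x - XX W (Point.some x y h) k) * om W x y (k : ℤ) ^ 2 =
        om W x y ((k : ℤ) + 1) * om W x y ((k : ℤ) - 1))

lemma stmt_one : Stmt W h 1 := by
  refine ⟨?_, fun _ => ?_⟩
  · simp
  · simp [XX]

include h2 in
lemma stmt_two : Stmt W h 2 := by
  refine ⟨?_, fun _ => ?_⟩
  · exact_mod_cast two_nsmul_eq_zero_iff_om W h
  · exact (ladderRel_two W h h2).2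

include h2 in
/-- the inductive step -/
lemma stmt_step (k : ℕ) (hk : 2 ≤ k) (s1 : Stmt W h (k - 1)) (s2 : Stmt W h k) :
    Stmt W h (k + 1) := by
  set P := Point.some x y h with hP
  have hP0 : P ≠ 0 := Point.some_ne_zero h
  have hxP : xCoord W P = x := by rw [hP, xCoord_some]
  have e0 : ((k + 1 : ℕ) : ℤ) = (k : ℤ) + 1 := by push_cast; ring
  have em : ((k - 1 : ℕ) : ℤ) = (k : ℤ) - 1 := by
    rw [Nat.cast_sub (by omega : 1 ≤ k)]; simp
  rw [Stmt, em] at s1
  rw [Stmt] at s2
  rw [Stmt, e0]
  have e1 : (k : ℤ) + 1 + 1 = (k : ℤ) + 2 := by ring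
  have e2 : (k : ℤ) + 1 - 1 = (k : ℤ) := by ring
  have e3 : (k : ℤ) - 1 + 1 = (k : ℤ) := by ring
  have e4 : (k : ℤ) - 1 - 1 = (k : ℤ) - 2 := by ring
  rw [e1, e2]
  rw [e3, e4] at s1
  have hsucc : (k + 1) • P = k • P + P := succ_nsmul P k
  have hpred : k • P = (k - 1) • P + P := by
    rw [← succ_nsmul, show k - 1 + 1 = k by omega]
  by_cases hk0 : om W x y (k : ℤ) = 0
  · -- Case C (and D)
    have hkP : k • P = 0 := s2.1.mpr hk0
    have hne1 : om W x y ((k : ℤ) + 1) ≠ 0 := fun h1 =>
      not_consecutive_zero W h h2 k (by omega) ⟨hk0, h1⟩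
    refine ⟨?_, fun _ => ?_⟩
    · rw [hsucc, hkP, zero_add]
      exact ⟨fun h0 => absurd h0 hP0, fun h0 => absurd h0 hne1⟩
    · rw [XX, hsucc, hkP, zero_add, hxP, hk0]; ring
  · have hkP : k • P ≠ 0 := fun h0 => hk0 (s2.1.mp h0)
    have rk := s2.2 hk0
    by_cases hk1 : om W x y ((k : ℤ) - 1) = 0
    · -- Case B
      have hk1P : (k - 1) • P = 0 := s1.1.mpr hk1
      have hkP' : k • P = P := by rw [hpred, hk1P, zero_add]
      have h2P : (k + 1) • P = 2 • P := by rw [hsucc, hkP', two_nsmul]
      have h3k : 3 ≤ k := by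
        by_contra hlt
        have : k = 2 := by omega
        subst this
        norm_num at hk1
      have hs := somos4 W h.1 (k + 1) (by omega)
      rw [e0, e1, e2] at hs
      have e5 : (k : ℤ) + 1 + 2 = (k : ℤ) + 3 := by ring
      have e6 : (k : ℤ) + 1 - 2 = (k : ℤ) - 1 := by ring
      rw [e5, e6, hk1, mul_zero] at hs
      obtain ⟨h2P0, r2⟩ := ladder_two W h h2
      have hne1 : om W x y ((k : ℤ) + 1) ≠ 0 := by
        intro h1
        rw [h1] at hs
        have : om W x y ((k : ℤ) + 2) * om W x y (k : ℤ) * om W x y 2 ^ 2 = 0 := by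
          linear_combination -hs
        have h2' : om W x y ((k : ℤ) + 2) = 0 := by
          rcases mul_eq_zero.mp this with h' | h'
          · rcases mul_eq_zero.mp h' with h'' | h''
            · exact h''
            · exact absurd h'' hk0
          · exact absurd ((pow_eq_zero_iff two_ne_zero).mp h') h2
        have := not_consecutive_zero W h h2 (k + 1) (by omega)
        rw [e0, e1] at this
        exact this ⟨h1, h2'⟩
      refine ⟨?_, fun _ => ?_⟩
      · rw [h2P]
        exact ⟨fun h0 => absurd h0 h2P0, fun h0 => absurd h0 hne1⟩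
      · rw [XX, h2P]
        rw [XX, ← hP] at r2
        apply mul_right_cancel₀ (pow_ne_zero 2 h2)
        linear_combination (om W x y ((k : ℤ) + 1) ^ 2) * r2 + hs
    · -- Case A
      have hk1P : (k - 1) • P ≠ 0 := fun h0 => hk1 (s1.1.mp h0)
      have rk1 := s1.2 hk1
      by_cases hk2 : om W x y ((k : ℤ) + 1) = 0
      · -- (k+1) P = 0
        have hxx : xCoord W (k • P) = xCoord W P := by
          rw [hk2, zero_mul] at rk
          have : x - XX W P k = 0 := by
            rcases mul_eq_zero.mp rk with h' | h'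
            · exact h'
            · exact absurd ((pow_eq_zero_iff two_ne_zero).mp h') hk0
          rw [XX] at this
          rw [hxP]; exact (sub_eq_zero.mp this).symm
        have hkP' : k • P = -P := by
          rcases (xCoord_eq_iff W hkP hP0).mp hxx with h' | h'
          · exfalso; apply hk1P
            have := hpred
            rw [h'] at this
            exact (add_eq_right.mp this.symm)
          · exact h'
        refine ⟨?_, fun hne => absurd hk2 hne⟩
        rw [hsucc, hkP', neg_add_cancel]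
        exact ⟨fun _ => hk2, fun _ => rfl⟩
      · -- generic step
        have hx : xCoord W (k • P) ≠ xCoord W P := by
          intro heq
          rw [XX, heq, hxP, sub_self, zero_mul] at rk
          exact mul_ne_zero hk2 hk1 rk.symm
        obtain ⟨hadd, -⟩ := add_ne_zero_and_sub_ne_zero W hkP hP0 hx
        rw [← hsucc] at hadd
        refine ⟨⟨fun h0 => absurd h0 hadd, fun h0 => absurd h0 hk2⟩, fun _ => ?_⟩
        have hs := xCoord_add_add_xCoord_sub W hkP hP0 hx
        have es : k • P - P = (k - 1) • P := by rw [hpred]; abel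
        rw [← hsucc, es, hxP] at hs
        simp only [XX] at rk rk1 ⊢
        set Xk := xCoord W (k • P)
        set Xk1 := xCoord W ((k + 1) • P)
        set Xk2 := xCoord W ((k - 1) • P)
        have hd := om_two_sq W h.1
        have hsub : sumNum W Xk x = dblDen W x -
            (x - Xk) * (6 * x ^ 2 + W.b₂ * x + W.b₄) + 2 * x * (x - Xk) ^ 2 := by
          rw [← sumNum_sub]; congr 1; ring
        rw [hsub, ← hd] at hs
        have hJ := conserved W h.1 k hk
        have ht : x - Xk ≠ 0 := fun h0 => hx (by rw [hxP]; exact (sub_eq_zero.mp h0).symm)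
        have hB : om W x y ((k : ℤ) - 1) ^ 2 * (x - Xk) ^ 2 * om W x y (k : ℤ) ^ 4 ≠ 0 :=
          mul_ne_zero (mul_ne_zero (pow_ne_zero _ hk1) (pow_ne_zero _ ht)) (pow_ne_zero _ hk0)
        have key : (om W x y ((k : ℤ) - 1) ^ 2 * (x - Xk) ^ 2 * om W x y (k : ℤ) ^ 4) *
            ((x - Xk1) * om W x y ((k : ℤ) + 1) ^ 2 -
              om W x y ((k : ℤ) + 2) * om W x y (k : ℤ)) = 0 := by
          linear_combination
            (-(om W x y (k : ℤ) * om W x y ((k : ℤ) + 1) ^ 2 * om W x y ((k : ℤ) - 1) ^ 2)) * hJ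
            - (om W x y (k : ℤ) ^ 4 * om W x y ((k : ℤ) + 1) ^ 2 * om W x y ((k : ℤ) - 1) ^ 2) * hs
            - (om W x y ((k : ℤ) + 1) ^ 2 * (x - Xk) ^ 2 * om W x y (k : ℤ) ^ 4) * rk1
            + ((6 * x ^ 2 + W.b₂ * x + W.b₄) * om W x y (k : ℤ) ^ 2 *
                om W x y ((k : ℤ) + 1) ^ 2 * om W x y ((k : ℤ) - 1) ^ 2
              - (om W x y ((k : ℤ) + 2) * om W x y (k : ℤ) * om W x y ((k : ℤ) - 1) ^ 2
                  + om W x y (k : ℤ) * om W x y ((k : ℤ) - 2) * om W x y ((k : ℤ) + 1) ^ 2) *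
                (om W x y ((k : ℤ) + 1) * om W x y ((k : ℤ) - 1) +
                  (x - Xk) * om W x y (k : ℤ) ^ 2)) * rk
        rcases mul_eq_zero.mp key with h' | h'
        · exact absurd h' hB
        · exact sub_eq_zero.mp h'

include h2 in
lemma stmt_all (k : ℕ) (hk : 1 ≤ k) : Stmt W h k := by
  induction k using Nat.strong_induction_on with
  | _ k ih =>
    rcases Nat.lt_or_ge k 3 with hlt | hge
    · interval_cases k
      · exact stmt_one W h
      · exact stmt_two W h h2
    · have := stmt_step W h h2 (k - 1) (by omega) (ih (k - 1 - 1) (by omega) (by omega))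
        (ih (k - 1) (by omega) (by omega))
      rwa [show k - 1 + 1 = k by omega] at this

end general

variable [DecidableEq F]

/-- **Torsion criterion** (characteristic zero): `n • P = 0 ↔ ψ_n(P) = 0` for `n ≥ 1`. -/
theorem nsmul_eq_zero_iff_om (h : W.toAffine.Nonsingular x y) (n : ℕ) (hn : 1 ≤ n) :
    n • Point.some x y h = 0 ↔ om W x y (n : ℤ) = 0 := by
  by_cases h2 : om W x y 2 = 0
  · exact torsion_iff_of_om_two W h h2 n
  · exact (stmt_all W h h2 n hn).1

/-- the same with `evalEval` unfolded -/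
theorem nsmul_eq_zero_iff_evalEval_ψ (h : W.toAffine.Nonsingular x y) (n : ℕ) (hn : 1 ≤ n) :
    n • Point.some x y h = 0 ↔ (W.ψ (n : ℤ)).evalEval x y = 0 :=
  nsmul_eq_zero_iff_om W h n hn

/-- **Torsion criterion for odd `n`**: `n • P = 0 ↔ preΨ_n(x) = 0`. -/
theorem nsmul_eq_zero_iff_eval_preΨ (h : W.toAffine.Nonsingular x y) (n : ℕ) (hn : Odd n) :
    n • Point.some x y h = 0 ↔ (W.preΨ (n : ℤ)).eval x = 0 := by
  rw [nsmul_eq_zero_iff_om W h n hn.pos, om_of_odd W h.1 (by exact_mod_cast hn)]

/-- the `x`-coordinate of `n • P` when it is nonzero: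
`(x - x(nP)) ψ_n² = ψ_{n+1} ψ_{n-1}` (for points that are not 2-torsion) -/
theorem xCoord_nsmul (h : W.toAffine.Nonsingular x y) (h2 : om W x y 2 ≠ 0) (n : ℕ) (hn : 1 ≤ n)
    (h0 : n • Point.some x y h ≠ 0) :
    (x - xCoord W (n • Point.some x y h)) * om W x y (n : ℤ) ^ 2 =
      om W x y ((n : ℤ) + 1) * om W x y ((n : ℤ) - 1) := by
  have s := stmt_all W h h2 n hn
  exact s.2 (fun hz => h0 (s.1.mpr hz))

end Fermat.Agent.S13.H2
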