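import Mathlib
import Fermat.Agent.S13.H35_Glue

/-!
# S13, package GLUE-abstract (helper35): interface adapters

* `mink_normal_of_mink_conj` : the normal-`H` form of the Minkowski input of
  `H35.cofixedLine_of_local` from the plain form (all inertia groups inside a finite level
  subgroup implies that it is everything) plus conjugacy of the inertia groups over a fixed prime.
* `cofixedLine_of_local_dich` : the same endgame, with the `LOCp` input given directly as the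
  dichotomy at each place over `p`.
-/

set_option autoImplicit false

namespace Fermat.Agent.S13.H35

open WeierstrassCurve WeierstrassCurve.Affine WeierstrassCurve.Affine.Point

local notation "Qb" => AlgebraicClosure ℚ

/-- the normal-`H` form of MINK from the plain form and conjugacy of inertia groups -/
theorem mink_normal_of_mink_conj
    (hmink : ∀ H : Subgroup (Qb ≃ₐ[ℚ] Qb),
      (∃ L : IntermediateField ℚ Qb, FiniteDimensional ℚ L ∧ L.fixingSubgroup ≤ H) →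
      (∀ q : ℕ, q.Prime → ∀ A : ValuationSubring Qb, A.LiesOverPrime q →
        A.inertiaSubgroupIn ℚ ≤ H) → H = ⊤)
    (hconj : ∀ H : Subgroup (Qb ≃ₐ[ℚ] Qb), H.Normal → ∀ l : ℕ, l.Prime →
      ∀ A B : ValuationSubring Qb, A.LiesOverPrime l → B.LiesOverPrime l →
        A.inertiaSubgroupIn ℚ ≤ H → B.inertiaSubgroupIn ℚ ≤ H) :
    ∀ H : Subgroup (Qb ≃ₐ[ℚ] Qb), H.Normal →
      (∃ L : IntermediateField ℚ Qb, FiniteDimensional ℚ L ∧ L.fixingSubgroup ≤ H) → H ≠ ⊤ →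
      ∃ q : ℕ, q.Prime ∧ (∃ A : ValuationSubring Qb, A.LiesOverPrime q) ∧
        ∀ A : ValuationSubring Qb, A.LiesOverPrime q → ¬ A.inertiaSubgroupIn ℚ ≤ H := by
  intro H hH hlev hne
  by_contra hcon
  apply hne
  apply hmink H hlev
  intro q hq A hA
  by_contra hA'
  apply hcon
  refine ⟨q, hq, ⟨A, hA⟩, fun B hB hB' => hA' ?_⟩
  exact hconj H hH q hq B A hB hA hB'

/-- **GLUE**, variant: the `LOCp` input is the dichotomy at each place over `p`. -/
theorem cofixedLine_of_local_dich (W' : Affine ℚ) (p : ℕ) [Fact p.Prime]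
    (hnt : Nontrivial (Submodule.torsionBy ℤ (W'⁄Qb).Point p))
    (hfin : Finite (Submodule.torsionBy ℤ (W'⁄Qb).Point p))
    (hcard : Nat.card (Submodule.torsionBy ℤ (W'⁄Qb).Point p) ≤ p ^ 2)
    (hunr : ∀ q : ℕ, q.Prime → q ≠ 2 → q ≠ p →
      GaloisRepUnramifiedAt (K := Qb) ℚ W' p q)
    (h2 : ∀ A : ValuationSubring Qb, A.LiesOverPrime 2 → ∀ σ ∈ A.inertiaSubgroupIn ℚ,
      ∀ x : Submodule.torsionBy ℤ (W'⁄Qb).Point p, σ • (σ • x - x) = σ • x - x)
    (hrat : ∀ x : Submodule.torsionBy ℤ (W'⁄Qb).Point p,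
      (∀ σ : Qb ≃ₐ[ℚ] Qb, σ • x = x) → x = 0)
    (hp : ∀ N0 : Submodule (ZMod p) (Submodule.torsionBy ℤ (W'⁄Qb).Point p),
      IsGaloisStable ℚ N0 → N0 ≠ ⊥ → N0 ≠ ⊤ →
      ∀ A : ValuationSubring Qb, A.LiesOverPrime p →
        (∀ σ ∈ A.inertiaSubgroupIn ℚ, ∀ x ∈ N0, σ • x = x) ∨
        (∀ σ ∈ A.inertiaSubgroupIn ℚ, ∀ x : Submodule.torsionBy ℤ (W'⁄Qb).Point p,
          σ • x - x ∈ N0))
    (hmink : ∀ H : Subgroup (Qb ≃ₐ[ℚ] Qb), H.Normal →
      (∃ L : IntermediateField ℚ Qb, FiniteDimensional ℚ L ∧ L.fixingSubgroup ≤ H) → H ≠ ⊤ →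
      ∃ q : ℕ, q.Prime ∧ (∃ A : ValuationSubring Qb, A.LiesOverPrime q) ∧
        ∀ A : ValuationSubring Qb, A.LiesOverPrime q → ¬ A.inertiaSubgroupIn ℚ ≤ H)
    (hlev : ∃ L : IntermediateField ℚ Qb, FiniteDimensional ℚ L ∧
      ∀ σ ∈ L.fixingSubgroup, ∀ x : Submodule.torsionBy ℤ (W'⁄Qb).Point p, σ • x = x)
    (hred : ¬ GaloisRepIsIrreducible (K := Qb) ℚ W' p) :
    HasGaloisStableCofixedLine (K := Qb) ℚ W' p := by
  classical
  have := hfin
  -- a proper nonzero stable subspace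
  have hex : ∃ N0 : Submodule (ZMod p) (Submodule.torsionBy ℤ (W'⁄Qb).Point p),
      IsGaloisStable ℚ N0 ∧ N0 ≠ ⊥ ∧ N0 ≠ ⊤ := by
    by_contra h
    push Not at h
    refine hred ⟨hnt, fun N hN => ?_⟩
    by_contra h'
    push Not at h'
    exact h'.2 (h N hN h'.1)
  obtain ⟨N0, hst, h0, h1⟩ := hex
  have hN : ∀ σ : Qb ≃ₐ[ℚ] Qb, ∀ x ∈ N0, σ • x ∈ N0 := hst
  have key : fixSub (G := Qb ≃ₐ[ℚ] Qb) N0 = ⊤ ∨ cofixSub N0 hN = ⊤ := by
    by_contra hcon
    push Not at hcon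
    obtain ⟨hH1, hH2⟩ := hcon
    obtain ⟨L, hL, hLfix⟩ := hlev
    have lev1 : ∃ L : IntermediateField ℚ Qb, FiniteDimensional ℚ L ∧
        L.fixingSubgroup ≤ fixSub N0 := ⟨L, hL, fun σ hσ x _ => hLfix σ hσ x⟩
    have lev2 : ∃ L : IntermediateField ℚ Qb, FiniteDimensional ℚ L ∧
        L.fixingSubgroup ≤ cofixSub N0 hN :=
      ⟨L, hL, fun σ hσ x => by rw [hLfix σ hσ x, sub_self]; exact N0.zero_mem⟩
    have hin : ∀ q : ℕ, q.Prime → q ≠ p → ∀ A : ValuationSubring Qb, A.LiesOverPrime q →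
        A.inertiaSubgroupIn ℚ ≤ fixSub N0 ∧ A.inertiaSubgroupIn ℚ ≤ cofixSub N0 hN := by
      intro q hq hqp A hA
      by_cases hq2 : q = 2
      · subst hq2
        exact ⟨fun σ hσ => (unipotent_mem hcard h0 h1 hN (h2 A hA σ hσ)).1,
          fun σ hσ => (unipotent_mem hcard h0 h1 hN (h2 A hA σ hσ)).2⟩
      · have hu := hunr q hq hq2 hqp A hA
        exact ⟨fun σ hσ x _ => hu σ hσ x,
          fun σ hσ x => by rw [hu σ hσ x, sub_self]; exact N0.zero_mem⟩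
    obtain ⟨q1, hq1, ⟨A1, hA1⟩, hno1⟩ := hmink _ (fixSub_normal hN) lev1 hH1
    obtain ⟨q2, hq2, ⟨A2, hA2⟩, hno2⟩ := hmink _ (cofixSub_normal hN) lev2 hH2
    have e1 : q1 = p := by
      by_contra hne
      exact hno1 A1 hA1 (hin q1 hq1 hne A1 hA1).1
    have e2 : q2 = p := by
      by_contra hne
      exact hno2 A2 hA2 (hin q2 hq2 hne A2 hA2).2
    rw [e1] at hA1 hno1
    rw [e2] at hno2
    rcases hp N0 hst h0 h1 A1 hA1 with h | h
    · exact hno1 A1 hA1 h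
    · exact hno2 A1 hA1 h
  rcases key with h | h
  · exfalso
    obtain ⟨x, hx, hx0⟩ := Submodule.exists_mem_ne_zero_of_ne_bot h0
    refine hx0 (hrat x fun σ => ?_)
    have hσ : σ ∈ fixSub (G := Qb ≃ₐ[ℚ] Qb) N0 := h ▸ Subgroup.mem_top σ
    exact hσ x hx
  · refine ⟨N0, hst, h0, h1, fun σ x => ?_⟩
    have hσ : σ ∈ cofixSub N0 hN := h ▸ Subgroup.mem_top σ
    exact hσ x


end Fermat.Agent.S13.H35
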