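import Mathlib
import Fermat.Prelude.Def_FLTPrelim_FreyPackage
import Fermat.Prelude.Def_FLTPrelim_GaloisRep
import Fermat.Prelude.Def_FLTPrelim_Ramification
import Fermat.Prelude.Def_FLTPrelim_CofixedLine
import Fermat.Agent.S05.H5_Final

/-!
# S13 (helper35): the two `ℚ`-algebra structures on `AlgebraicClosure ℚ`

The frozen statement S13 is elaborated under `import Mathlib`, where `Algebra ℚ (AlgebraicClosure ℚ)`
resolves to `DivisionRing.toRatAlgebra`; the frozen definition `FreyPackage.GaloisRepUnramifiedAt`
used by S05 lives in a Prelude file with few imports, where it resolved to `AlgebraicClosure.instAlgebra`.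
The two are equal (`Rat.algebra_rat_subsingleton`) but not by `rfl`; this file transports S05.
-/

set_option autoImplicit false

namespace Fermat.Agent.S13.H35

open WeierstrassCurve WeierstrassCurve.Affine WeierstrassCurve.Affine.Point

local notation "Qb" => AlgebraicClosure ℚ

/-- the two `ℚ`-algebra structures on `AlgebraicClosure ℚ` met in the frozen files agree -/
theorem instAlgebra_eq_toRatAlgebra :
    (AlgebraicClosure.instAlgebra ℚ : Algebra ℚ Qb) = DivisionRing.toRatAlgebra :=
  Subsingleton.elim _ _

/-- transport of a statement along the equality of the two algebra structures -/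
theorem transport_algebra (Φ : Algebra ℚ Qb → Prop) (h : Φ (AlgebraicClosure.instAlgebra ℚ)) :
    Φ DivisionRing.toRatAlgebra :=
  instAlgebra_eq_toRatAlgebra ▸ h

/-- the statement of S05 for an arbitrary `ℚ`-algebra structure on `AlgebraicClosure ℚ` -/
def UnramAt (inst : Algebra ℚ Qb) (W' : Affine ℚ) (n q : ℕ) : Prop :=
  @GaloisRepUnramifiedAt ℚ ℚ Qb _ _ _ _ (Algebra.id ℚ) inst inst
    (@IsScalarTower.left ℚ Qb _ (@Module.toDistribMulAction ℚ Qb _ _ (@Algebra.toModule ℚ Qb _ _ inst)).toMulAction)
    W' n q

/-- S05 with the default (`import Mathlib`) algebra structure `DivisionRing.toRatAlgebra`, which is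
the one in the frozen statement S13 -/
theorem frey_unramified_toRat (P : FreyPackage) {q : ℕ} (hq : q.Prime) (hq2 : q ≠ 2)
    (hqp : q ≠ P.p) : GaloisRepUnramifiedAt (K := Qb) ℚ P.freyCurve P.p q := by
  have h : UnramAt (AlgebraicClosure.instAlgebra ℚ) P.freyCurve P.p q :=
    Fermat.Agent.S05.H5.frey_unramified P hq hq2 hqp
  exact transport_algebra (fun inst => UnramAt inst P.freyCurve P.p q) h

end Fermat.Agent.S13.H35
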