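import Mathlib
import Fermat.Prelude.Def_FLTPrelim_FreyPackage
import Fermat.Prelude.Def_FLTPrelim_GaloisRep
import Fermat.Agent.S13.H46_StructExport

/-!
# STRUCT for the Frey curve, in the frozen vocabulary

`T := Submodule.torsionBy ℤ (P.freyCurve⁄K).Point P.p` for an algebraically closed field `K` of
characteristic zero (in particular `K = AlgebraicClosure ℚ`): `Nontrivial T`, `Finite T`,
`Nat.card T ≤ p^2`, and (with the frozen `ZMod p`-module structure) `Module.finrank (ZMod p) T ≤ 2`.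
-/

set_option autoImplicit false

namespace Fermat.Agent.S13.H46

open WeierstrassCurve WeierstrassCurve.Affine WeierstrassCurve.Affine.Point

/-- the discriminant of the Frey curve: `Δ = (a^p b^p c^p)^2 / 256`. -/
theorem freyCurve_Δ (P : FreyPackage) :
    P.freyCurve.Δ = ((P.a : ℚ) ^ P.p * (P.b : ℚ) ^ P.p * (P.c : ℚ) ^ P.p) ^ 2 / 256 := by
  have h : (P.c : ℚ) ^ P.p = (P.a : ℚ) ^ P.p + (P.b : ℚ) ^ P.p := by
    have := P.hFLT
    exact_mod_cast this.symm
  rw [h]
  simp only [WeierstrassCurve.Δ, WeierstrassCurve.b₂, WeierstrassCurve.b₄, WeierstrassCurve.b₆,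
    WeierstrassCurve.b₈, FreyPackage.freyCurve]
  ring

theorem freyCurve_Δ_ne_zero (P : FreyPackage) : P.freyCurve.Δ ≠ 0 := by
  rw [freyCurve_Δ]
  have ha : (P.a : ℚ) ≠ 0 := Int.cast_ne_zero.mpr P.ha0
  have hb : (P.b : ℚ) ≠ 0 := Int.cast_ne_zero.mpr P.hb0
  have hc : (P.c : ℚ) ≠ 0 := Int.cast_ne_zero.mpr P.hc0
  positivity

variable {K : Type*} [Field K] [DecidableEq K] [Algebra ℚ K]

theorem freyCurve_baseChange_Δ_ne_zero (P : FreyPackage) : (P.freyCurve⁄K).Δ ≠ 0 := by
  change (P.freyCurve.map (algebraMap ℚ K)).Δ ≠ 0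
  rw [WeierstrassCurve.map_Δ]
  exact (map_ne_zero_iff _ (algebraMap ℚ K).injective).mpr (freyCurve_Δ_ne_zero P)

/-- **STRUCT (i)**: the `p`-torsion of the Frey curve over an algebraically closed field is
nontrivial. -/
theorem frey_nontrivial_torsion [IsAlgClosed K] [CharZero K] (P : FreyPackage) :
    Nontrivial (Submodule.torsionBy ℤ (P.freyCurve⁄K).Point P.p) := by
  have hp2 : P.p ≠ 2 := by have := P.hp5; omega
  exact nontrivial_torsionBy (P.freyCurve⁄K) (freyCurve_baseChange_Δ_ne_zero P) P.pp hp2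
    (Nat.cast_ne_zero.mpr P.hp0)

/-- **STRUCT (ii)**: the `p`-torsion of the Frey curve has at most `p^2` elements. -/
theorem frey_card_torsion_le [CharZero K] (P : FreyPackage) :
    Finite (Submodule.torsionBy ℤ (P.freyCurve⁄K).Point P.p) ∧
      Nat.card (Submodule.torsionBy ℤ (P.freyCurve⁄K).Point P.p) ≤ P.p ^ 2 := by
  have hp2 : P.p ≠ 2 := by have := P.hp5; omega
  exact card_torsionBy_le (P.freyCurve⁄K) P.pp hp2 (Nat.cast_ne_zero.mpr P.hp0)

/-- the frozen statement's exact `T` (`K = AlgebraicClosure ℚ`, frozen `DecidableEq`). -/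
theorem frey_nontrivial_torsion_Qbar (P : FreyPackage) :
    Nontrivial (Submodule.torsionBy ℤ (P.freyCurve⁄(AlgebraicClosure ℚ)).Point P.p) :=
  frey_nontrivial_torsion P

theorem frey_card_torsion_le_Qbar (P : FreyPackage) :
    Finite (Submodule.torsionBy ℤ (P.freyCurve⁄(AlgebraicClosure ℚ)).Point P.p) ∧
      Nat.card (Submodule.torsionBy ℤ (P.freyCurve⁄(AlgebraicClosure ℚ)).Point P.p) ≤ P.p ^ 2 :=
  frey_card_torsion_le P

/-- with the frozen `ZMod p`-module structure: `dim_{F_p} E[p] ≤ 2`. -/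
theorem frey_finrank_torsion_le [CharZero K] (P : FreyPackage) :
    Module.finrank (ZMod P.p) (Submodule.torsionBy ℤ (P.freyCurve⁄K).Point P.p) ≤ 2 := by
  have : Fact P.p.Prime := ⟨P.pp⟩
  obtain ⟨hfin, hcard⟩ := frey_card_torsion_le (K := K) P
  have := hfin
  have : Module.Finite (ZMod P.p) (Submodule.torsionBy ℤ (P.freyCurve⁄K).Point P.p) :=
    Module.Finite.of_finite
  have h := Module.natCard_eq_pow_finrank (K := ZMod P.p)
    (V := Submodule.torsionBy ℤ (P.freyCurve⁄K).Point P.p)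
  rw [h, Nat.card_zmod] at hcard
  exact (Nat.pow_le_pow_iff_right P.pp.one_lt).mp hcard

end Fermat.Agent.S13.H46
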