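import Mathlib
import Fermat.Agent.S13.H58_EDS

/-!
# Rank of apparition for elliptic divisibility sequences (helper58)

For a sequence `W : ℤ → R` over a domain which satisfies Ward's relation, is odd and has
`W 1 = 1`: if `N > 0` is the least positive index with `W N = 0` and `W (N + 1) ≠ 0`, then
`W m = 0 ↔ N ∣ m`.  The condition `W (N + 1) ≠ 0` follows from the non-degeneracy conditions
`¬ (W 2 = 0 ∧ W 3 = 0)` and `¬ (W 3 = 0 ∧ W 4 = 0)`.  Specialised to `normEDS b c d`.
-/

set_option autoImplicit false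

namespace Fermat.Agent.S13.H58

section Abstract

variable {R : Type*} [CommRing R] [IsDomain R] {W : ℤ → R}

lemma zero_of_wardRel (hW : ∀ p q, WardRel W p q) : W 0 = 0 := by
  have h := hW 0 0
  simp only [WardRel, add_zero, zero_add, zero_sub, sub_self] at h
  exact mul_self_eq_zero.mp h

omit [IsDomain R] in
/-- Ward's relation at `p = N` with `W N = 0`. -/
lemma wardRel_at_zero (hW : ∀ p q, WardRel W p q) {N : ℤ} (h0 : W N = 0) (n : ℤ) :
    W (N + n) * W (N - n) = W (N + 1) * W (N - 1) * W n ^ 2 := by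
  have h := hW N n
  simp only [WardRel, h0] at h
  rw [h]; ring

/-- If `W N = W (N + 1) = 0` and `W (N - 1) ≠ 0`, then `W 3 = 0`. -/
lemma three_eq_zero_of_consecutive (hW : ∀ p q, WardRel W p q) (h1 : W 1 = 1) {N : ℤ}
    (h0 : W N = 0) (h0' : W (N + 1) = 0) (hpred : W (N - 1) ≠ 0) : W 3 = 0 := by
  have h := (hW (N - 1) 2).mk' (i1 := N + 1) (i2 := N - 3) (i3 := N) (i4 := N - 2) (i5 := 3)
    (i6 := 1) (by ring) (by ring) (by ring) (by ring) (by ring) (by ring)
  rw [h0, h0', h1] at h
  have h' : W 3 * W (N - 1) ^ 2 = 0 := by linear_combination h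
  rcases mul_eq_zero.mp h' with h3 | h3
  · exact h3
  · exact absurd ((pow_eq_zero_iff two_ne_zero).mp h3) hpred

/-- Non-degeneracy implies that the term after the first zero is nonzero. -/
theorem succ_ne_zero_of_wardRel (hW : ∀ p q, WardRel W p q) (h1 : W 1 = 1)
    {N : ℕ} (hN : 0 < N) (h0 : W N = 0) (hmin : ∀ k : ℕ, 0 < k → k < N → W k ≠ 0)
    (h23 : ¬ (W 2 = 0 ∧ W 3 = 0)) (h34 : ¬ (W 3 = 0 ∧ W 4 = 0)) : W (N + 1) ≠ 0 := by
  intro h0'
  have hN1 : N ≠ 1 := by
    rintro rfl
    simp only [Nat.cast_one] at h0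
    rw [h1] at h0
    exact one_ne_zero h0
  have hN2 : 2 ≤ N := by omega
  have hpred : W ((N : ℤ) - 1) ≠ 0 := by
    have := hmin (N - 1) (by omega) (by omega)
    rwa [Nat.cast_sub (by omega), Nat.cast_one] at this
  have h3 := three_eq_zero_of_consecutive hW h1 h0 h0' hpred
  rcases Nat.lt_or_ge 3 N with h | h
  · exact hmin 3 (by norm_num) h (by exact_mod_cast h3)
  · interval_cases N
    · exact h23 ⟨by exact_mod_cast h0, h3⟩
    · exact h34 ⟨h3, by exact_mod_cast h0'⟩

/-- Rank of apparition, natural-number indices. -/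
theorem eq_zero_iff_dvd_nat_of_wardRel (hW : ∀ p q, WardRel W p q)
    (hodd : ∀ n, W (-n) = -W n) (h1 : W 1 = 1)
    {N : ℕ} (hN : 0 < N) (h0 : W N = 0) (hmin : ∀ k : ℕ, 0 < k → k < N → W k ≠ 0)
    (hN1 : W (N + 1) ≠ 0) (m : ℕ) : W m = 0 ↔ N ∣ m := by
  have hW0 : W 0 = 0 := zero_of_wardRel hW
  have hNne1 : N ≠ 1 := by
    rintro rfl
    simp only [Nat.cast_one] at h0
    rw [h1] at h0
    exact one_ne_zero h0
  have hN2 : 2 ≤ N := by omega
  have hpred : W ((N : ℤ) - 1) ≠ 0 := by
    have := hmin (N - 1) (by omega) (by omega)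
    rwa [Nat.cast_sub (by omega), Nat.cast_one] at this
  induction m using Nat.strong_induction_on with
  | _ m ih =>
    rcases Nat.lt_trichotomy m N with hlt | heq | hgt
    · -- `m < N`
      rcases Nat.eq_zero_or_pos m with rfl | hpos
      · simp [hW0]
      · constructor
        · intro h; exact absurd h (hmin m hpos hlt)
        · intro h; exact absurd (Nat.le_of_dvd hpos h) (by omega)
    · subst heq; simp [h0]
    · -- `m > N`; write `m = N + k`
      obtain ⟨k, rfl⟩ : ∃ k, m = N + k := ⟨m - N, by omega⟩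
      have hk0 : 0 < k := by omega
      have hk := ih k (by omega)
      have hrel := wardRel_at_zero hW h0 (k : ℤ)
      by_cases hdvd : N ∣ k
      · -- `N ∣ k`: show `W (N + k) = 0`
        have hWk : W (k : ℤ) = 0 := hk.mpr hdvd
        have hgoal : W ((N + k : ℕ) : ℤ) = 0 := by
          rcases Nat.lt_or_ge 2 N with h3 | h3
          · -- `N ≥ 3`
            have h := (hW ((k : ℤ) - 1) ((N : ℤ) + 1)).mk' (i1 := ((N + k : ℕ) : ℤ))
              (i2 := (k : ℤ) - N - 2) (i3 := (k : ℤ)) (i4 := (k : ℤ) - 2) (i5 := (N : ℤ) + 2)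
              (i6 := (N : ℤ)) (by push_cast; ring) (by ring) (by ring) (by ring) (by ring)
              (by ring)
            rw [hWk, h0] at h
            have h' : W ((N + k : ℕ) : ℤ) * W ((k : ℤ) - N - 2) = 0 := by
              rw [h]; ring
            have hne : W ((k : ℤ) - N - 2) ≠ 0 := by
              obtain ⟨j, rfl⟩ := hdvd
              have hj : 1 ≤ j := by
                rcases Nat.eq_zero_or_pos j with rfl | hj
                · simp at hk0
                · exact hj
              rcases Nat.eq_or_lt_of_le hj with hj1 | hj2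
              · subst hj1
                have h2 : W (2 : ℤ) ≠ 0 := by exact_mod_cast hmin 2 (by norm_num) h3
                have : ((N * 1 : ℕ) : ℤ) - N - 2 = -2 := by push_cast; ring
                rw [this, hodd]
                exact neg_ne_zero.mpr h2
              · -- `j ≥ 2`
                have hNj : 2 * N ≤ N * j := by nlinarith
                have ht : ((N * j : ℕ) : ℤ) - N - 2 = ((N * j - N - 2 : ℕ) : ℤ) := by
                  rw [Nat.cast_sub (by omega), Nat.cast_sub (by omega)]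
                  push_cast; ring
                rw [ht]
                intro hz
                have hd := (ih (N * j - N - 2) (by omega)).mp hz
                have hd2 : N ∣ N * j - N := Nat.dvd_sub (dvd_mul_right N j) (dvd_refl N)
                have : N ∣ 2 := by
                  have := (Nat.dvd_sub hd2 hd)
                  rwa [show N * j - N - (N * j - N - 2) = 2 by omega] at this
                have := Nat.le_of_dvd (by norm_num) this
                omega
            exact (mul_eq_zero.mp h').resolve_right hne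
          · -- `N = 2`
            have hN2' : N = 2 := by omega
            subst hN2'
            have hk2 : 2 ≤ k := Nat.le_of_dvd hk0 hdvd
            have h := (hW ((2 + k : ℕ) : ℤ) 2).mk' (i1 := ((2 + k : ℕ) : ℤ) + 2)
              (i2 := (k : ℤ)) (i3 := ((2 + k : ℕ) : ℤ) + 1) (i4 := ((2 + k : ℕ) : ℤ) - 1)
              (i5 := 3) (i6 := 1) (by ring) (by push_cast; ring) (by ring) (by ring) (by ring)
              (by ring)
            have h02 : W (2 : ℤ) = 0 := by exact_mod_cast h0
            have h3 : W (3 : ℤ) ≠ 0 := by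
              have : ((2 : ℕ) : ℤ) + 1 = 3 := by norm_num
              rwa [this] at hN1
            rw [hWk, h02, h1] at h
            have h' : W 3 * W ((2 + k : ℕ) : ℤ) ^ 2 = 0 := by linear_combination h
            rcases mul_eq_zero.mp h' with h'' | h''
            · exact absurd h'' h3
            · exact (pow_eq_zero_iff two_ne_zero).mp h''
        simp only [hgoal, true_iff]
        exact (Nat.dvd_add_right (dvd_refl N)).mpr hdvd
      · -- `N ∤ k`: show `W (N + k) ≠ 0`
        have hWk : W (k : ℤ) ≠ 0 := fun h => hdvd (hk.mp h)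
        have hne : W ((N : ℤ) + k) * W ((N : ℤ) - k) ≠ 0 := by
          rw [hrel]
          exact mul_ne_zero (mul_ne_zero hN1 hpred) (pow_ne_zero 2 hWk)
        have hne' : W ((N + k : ℕ) : ℤ) ≠ 0 := by
          push_cast
          exact left_ne_zero_of_mul hne
        constructor
        · intro h; exact absurd h hne'
        · intro h; exact absurd ((Nat.dvd_add_right (dvd_refl N)).mp h) hdvd

/-- **Rank of apparition**: the zeros of a non-degenerate elliptic sequence over a domain are
exactly the multiples of the first positive zero. -/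
theorem eq_zero_iff_dvd_of_wardRel (hW : ∀ p q, WardRel W p q)
    (hodd : ∀ n, W (-n) = -W n) (h1 : W 1 = 1)
    {N : ℕ} (hN : 0 < N) (h0 : W N = 0) (hmin : ∀ k : ℕ, 0 < k → k < N → W k ≠ 0)
    (hN1 : W (N + 1) ≠ 0) (m : ℤ) : W m = 0 ↔ (N : ℤ) ∣ m := by
  have key := eq_zero_iff_dvd_nat_of_wardRel hW hodd h1 hN h0 hmin hN1
  rcases Int.natAbs_eq m with h | h
  · rw [h, key, Int.natCast_dvd_natCast]
  · rw [h, hodd, neg_eq_zero, key, dvd_neg, Int.natCast_dvd_natCast]

/-- Rank of apparition with the non-degeneracy conditions on `W 2, W 3, W 4`. -/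
theorem eq_zero_iff_dvd_of_wardRel' (hW : ∀ p q, WardRel W p q)
    (hodd : ∀ n, W (-n) = -W n) (h1 : W 1 = 1)
    {N : ℕ} (hN : 0 < N) (h0 : W N = 0) (hmin : ∀ k : ℕ, 0 < k → k < N → W k ≠ 0)
    (h23 : ¬ (W 2 = 0 ∧ W 3 = 0)) (h34 : ¬ (W 3 = 0 ∧ W 4 = 0)) (m : ℤ) :
    W m = 0 ↔ (N : ℤ) ∣ m :=
  eq_zero_iff_dvd_of_wardRel hW hodd h1 hN h0 hmin
    (succ_ne_zero_of_wardRel hW h1 hN h0 hmin h23 h34) m

end Abstract

section NormEDS

variable {R : Type*} [CommRing R]

/-- The Somos-4 step for `normEDS`. -/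
theorem normEDS_add_two_mul_sub_two (b c d : R) (m : ℤ) :
    normEDS b c d (m + 2) * normEDS b c d (m - 2) =
      normEDS b c d (m + 1) * normEDS b c d (m - 1) * b ^ 2 - c * normEDS b c d m ^ 2 := by
  have h := normEDS_add_mul_sub b c d m 2
  rw [show (2 : ℤ) + 1 = 3 by norm_num, show (2 : ℤ) - 1 = 1 by norm_num, normEDS_two,
    normEDS_three, normEDS_one, mul_one] at h
  exact h

variable [IsDomain R]

/-- The term after the first zero of a non-degenerate `normEDS` is nonzero. -/
theorem normEDS_succ_ne_zero (b c d : R) (hbc : ¬ (b = 0 ∧ c = 0)) (hcd : ¬ (c = 0 ∧ d = 0))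
    {N : ℕ} (hN : 0 < N) (h0 : normEDS b c d N = 0)
    (hmin : ∀ k : ℕ, 0 < k → k < N → normEDS b c d k ≠ 0) :
    normEDS b c d (N + 1) ≠ 0 := by
  refine succ_ne_zero_of_wardRel (wardRel_normEDS b c d) (normEDS_one b c d) hN h0 hmin ?_ ?_
  · rw [normEDS_two, normEDS_three]; exact hbc
  · rw [normEDS_three, normEDS_four]
    rintro ⟨hc, hdb⟩
    rcases mul_eq_zero.mp hdb with hd | hb
    · exact hcd ⟨hc, hd⟩
    · exact hbc ⟨hb, hc⟩

/-- **Rank of apparition for `normEDS`** over a domain (in particular a field): if `N > 0` is the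
least positive index with `normEDS b c d N = 0` and the sequence is non-degenerate, then
`normEDS b c d m = 0 ↔ N ∣ m`. -/
theorem normEDS_eq_zero_iff_dvd (b c d : R) (hbc : ¬ (b = 0 ∧ c = 0)) (hcd : ¬ (c = 0 ∧ d = 0))
    {N : ℕ} (hN : 0 < N) (h0 : normEDS b c d N = 0)
    (hmin : ∀ k : ℕ, 0 < k → k < N → normEDS b c d k ≠ 0) (m : ℤ) :
    normEDS b c d m = 0 ↔ (N : ℤ) ∣ m :=
  eq_zero_iff_dvd_of_wardRel (wardRel_normEDS b c d) (normEDS_neg b c d) (normEDS_one b c d) hN h0
    hmin (normEDS_succ_ne_zero b c d hbc hcd hN h0 hmin) m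

/-- Variant with the hypothesis `normEDS b c d (N + 1) ≠ 0` instead of non-degeneracy. -/
theorem normEDS_eq_zero_iff_dvd' (b c d : R)
    {N : ℕ} (hN : 0 < N) (h0 : normEDS b c d N = 0)
    (hmin : ∀ k : ℕ, 0 < k → k < N → normEDS b c d k ≠ 0)
    (hN1 : normEDS b c d (N + 1) ≠ 0) (m : ℤ) :
    normEDS b c d m = 0 ↔ (N : ℤ) ∣ m :=
  eq_zero_iff_dvd_of_wardRel (wardRel_normEDS b c d) (normEDS_neg b c d) (normEDS_one b c d) hN h0
    hmin hN1 m

/-- Natural-number version. -/
theorem normEDS_eq_zero_iff_dvd_nat (b c d : R) (hbc : ¬ (b = 0 ∧ c = 0))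
    (hcd : ¬ (c = 0 ∧ d = 0)) {N : ℕ} (hN : 0 < N) (h0 : normEDS b c d N = 0)
    (hmin : ∀ k : ℕ, 0 < k → k < N → normEDS b c d k ≠ 0) (m : ℕ) :
    normEDS b c d m = 0 ↔ N ∣ m := by
  rw [normEDS_eq_zero_iff_dvd b c d hbc hcd hN h0 hmin, Int.natCast_dvd_natCast]

end NormEDS

end Fermat.Agent.S13.H58
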