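import Mathlib
import Fermat.Agent.S13.H59_Count

/-!
# S13 / STRUCT-count, polynomial-agnostic version

`H59_Count` is stated for the division polynomial `preΨ p`.  Here the polynomial is a parameter:
`PolyCriterion W n f` says that a nonsingular affine point `(x, y)` is killed by `n` iff `x` is a
root of `f`.  Any route to STRUCT (division polynomials, ladder polynomial `Θ_p`, Wronskian norm
`g_p`, ...) plugs in by providing such an `f` together with a bound on its degree.

Main exports (all for a field `F`, `W : WeierstrassCurve F`, `f : F[X]`):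
* `PolyCriterion.exists_ne_zero_torsion` : `F` algebraically closed, `Δ ≠ 0`, `natDegree f ≠ 0`
  gives a nonzero point killed by `n`;
* `PolyCriterion.finite_torsion`, `PolyCriterion.ncard_torsion_le` (`≤ 2 * natDegree f + 1`),
  `PolyCriterion.ncard_torsion_le_sq` (`≤ p ^ 2` if `natDegree f ≤ (p ^ 2 - 1) / 2`);
* the same for `Submodule.torsionBy ℤ W.toAffine.Point p`: `finite_torsionBy`,
  `card_torsionBy_le`, `nontrivial_torsionBy`, and the package `hnt_hcard`;
* separability for free: if moreover `p ^ 2 ≤ #E[p]` then `f` has exactly `(p ^ 2 - 1) / 2`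
  distinct roots, all simple (`PolyCriterion.card_roots_toFinset_eq`, `roots_nodup`,
  `eq_C_mul_prod_roots_toFinset`), and the roots are exactly the abscissae of the nonzero
  `p`-torsion points (`mem_roots_iff`).
-/

set_option autoImplicit false

noncomputable section

namespace Fermat.Agent.S13.H59

open Polynomial WeierstrassCurve WeierstrassCurve.Affine

variable {F : Type*} [Field F] [DecidableEq F] {W : WeierstrassCurve F}

/-- The polynomial-agnostic multiplication-by-`n` criterion: a nonsingular affine point is killed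
by `n` iff its abscissa is a root of `f`. -/
def PolyCriterion (W : WeierstrassCurve F) (n : ℕ) (f : F[X]) : Prop :=
  ∀ (x y : F) (h : W.toAffine.Nonsingular x y),
    n • (Point.some x y h : W.toAffine.Point) = 0 ↔ f.eval x = 0

theorem torsionCriterion_iff_polyCriterion (n : ℕ) :
    TorsionCriterion W n ↔ PolyCriterion W n (W.preΨ (n : ℤ)) := Iff.rfl

namespace PolyCriterion

variable {n : ℕ} {f : F[X]}

/-- The criterion only depends on the zero set of the polynomial. -/
theorem congr {g : F[X]} (hcrit : PolyCriterion W n f)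
    (hfg : ∀ x : F, f.eval x = 0 ↔ g.eval x = 0) : PolyCriterion W n g :=
  fun x y h => (hcrit x y h).trans (hfg x)

/-- Rescaling the polynomial by a nonzero constant. -/
theorem C_mul {c : F} (hc : c ≠ 0) (hcrit : PolyCriterion W n f) :
    PolyCriterion W n (C c * f) :=
  hcrit.congr fun x => by simp [hc]

/-- **(C1)** existence of a nonzero point killed by `n`. -/
theorem exists_ne_zero_torsion [IsAlgClosed F] (hΔ : W.Δ ≠ 0) (hdeg : f.natDegree ≠ 0)
    (hcrit : PolyCriterion W n f) : ∃ P : W.toAffine.Point, P ≠ 0 ∧ n • P = 0 := by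
  have hf : f ≠ 0 := fun h => hdeg (by rw [h, natDegree_zero])
  have hdeg' : f.degree ≠ 0 := by
    rw [degree_eq_natDegree hf]
    exact_mod_cast hdeg
  obtain ⟨x, hx⟩ := IsAlgClosed.exists_root f hdeg'
  obtain ⟨y, hy⟩ := exists_equation W x
  have hns : W.toAffine.Nonsingular x y := (equation_iff_nonsingular_of_Δ_ne_zero hΔ).mp hy
  exact ⟨Point.some x y hns, Point.some_ne_zero hns, (hcrit x y hns).mpr hx⟩

open Classical in
/-- The finite set of pairs `(x, y)` with `x` a root of `f` and `(x, y)` on the curve. -/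
def pairs (W : WeierstrassCurve F) (f : F[X]) : Finset (Σ _ : F, F) :=
  f.roots.toFinset.sigma fun x => (fibrePoly W x).roots.toFinset

theorem card_pairs_le : (pairs W f).card ≤ 2 * f.roots.toFinset.card := by
  classical
  unfold pairs
  rw [Finset.card_sigma]
  calc ∑ x ∈ f.roots.toFinset, (fibrePoly W x).roots.toFinset.card
      ≤ ∑ _x ∈ f.roots.toFinset, 2 :=
        Finset.sum_le_sum fun x _ => card_roots_fibrePoly_le W x
    _ = 2 * f.roots.toFinset.card := by rw [Finset.sum_const, smul_eq_mul, mul_comm]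

theorem card_roots_toFinset_le : f.roots.toFinset.card ≤ f.natDegree := by
  classical
  exact (Multiset.toFinset_card_le _).trans (card_roots' _)

theorem torsion_subset (hf : f ≠ 0) (hcrit : PolyCriterion W n f) :
    {P : W.toAffine.Point | n • P = 0} ⊆
      insert 0 ((pairs W f).image (pointOfPair W) : Set W.toAffine.Point) := by
  classical
  intro P hP
  rcases P with _ | ⟨x, y, h⟩
  · exact Set.mem_insert _ _
  · right
    rw [Finset.mem_coe, Finset.mem_image]
    refine ⟨⟨x, y⟩, ?_, ?_⟩
    · unfold pairs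
      rw [Finset.mem_sigma, Multiset.mem_toFinset, Multiset.mem_toFinset,
        mem_roots hf, mem_roots (fibrePoly_ne_zero W x)]
      exact ⟨(hcrit x y h).mp hP, (eval_fibrePoly W x y).mpr h.1⟩
    · unfold pointOfPair
      rw [dif_pos h]

/-- **(C2)** the `n`-torsion is finite. -/
theorem finite_torsion (hf : f ≠ 0) (hcrit : PolyCriterion W n f) :
    {P : W.toAffine.Point | n • P = 0}.Finite := by
  classical
  refine Set.Finite.subset ?_ (torsion_subset hf hcrit)
  exact (Finset.finite_toSet _).insert 0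

/-- **(C2)** `#E[n] ≤ 2 * #{roots of f} + 1`. -/
theorem ncard_torsion_le_roots (hf : f ≠ 0) (hcrit : PolyCriterion W n f) :
    {P : W.toAffine.Point | n • P = 0}.ncard ≤ 2 * f.roots.toFinset.card + 1 := by
  classical
  have hfin : (insert 0 ((pairs W f).image (pointOfPair W) : Set W.toAffine.Point)).Finite :=
    (Finset.finite_toSet _).insert 0
  calc {P : W.toAffine.Point | n • P = 0}.ncard
      ≤ (insert 0 ((pairs W f).image (pointOfPair W) : Set W.toAffine.Point)).ncard :=
        Set.ncard_le_ncard (torsion_subset hf hcrit) hfin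
    _ ≤ ((pairs W f).image (pointOfPair W) : Set W.toAffine.Point).ncard + 1 :=
        Set.ncard_insert_le _ _
    _ = ((pairs W f).image (pointOfPair W)).card + 1 := by rw [Set.ncard_coe_finset]
    _ ≤ (pairs W f).card + 1 := Nat.add_le_add_right Finset.card_image_le 1
    _ ≤ 2 * f.roots.toFinset.card + 1 := Nat.add_le_add_right card_pairs_le 1

/-- **(C2)** `#E[n] ≤ 2 * natDegree f + 1`. -/
theorem ncard_torsion_le (hf : f ≠ 0) (hcrit : PolyCriterion W n f) :
    {P : W.toAffine.Point | n • P = 0}.ncard ≤ 2 * f.natDegree + 1 :=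
  (ncard_torsion_le_roots hf hcrit).trans
    (Nat.add_le_add_right (Nat.mul_le_mul_left 2 card_roots_toFinset_le) 1)

/-- **(C2)** `#E[p] ≤ p²` as soon as `natDegree f ≤ (p² - 1) / 2`. -/
theorem ncard_torsion_le_sq {p : ℕ} (hp1 : 1 ≤ p) (hf : f ≠ 0)
    (hdeg : f.natDegree ≤ (p ^ 2 - 1) / 2) (hcrit : PolyCriterion W n f) :
    {P : W.toAffine.Point | n • P = 0}.ncard ≤ p ^ 2 := by
  have h1 := ncard_torsion_le hf hcrit
  have h2 : 1 ≤ p ^ 2 := Nat.one_le_pow _ _ hp1
  omega

/-! ### `Submodule.torsionBy ℤ _ p` forms -/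

theorem finite_torsionBy (hf : f ≠ 0) (hcrit : PolyCriterion W n f) :
    Finite (Submodule.torsionBy ℤ W.toAffine.Point (n : ℤ)) := by
  have h := finite_torsion hf hcrit
  rw [← coe_torsionBy] at h
  exact h.to_subtype

theorem card_torsionBy_le_roots (hf : f ≠ 0) (hcrit : PolyCriterion W n f) :
    Nat.card (Submodule.torsionBy ℤ W.toAffine.Point (n : ℤ)) ≤ 2 * f.roots.toFinset.card + 1 := by
  have h := ncard_torsion_le_roots hf hcrit
  rw [← coe_torsionBy] at h
  exact h

theorem card_torsionBy_le (hp1 : 1 ≤ n) (hf : f ≠ 0)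
    (hdeg : f.natDegree ≤ (n ^ 2 - 1) / 2) (hcrit : PolyCriterion W n f) :
    Nat.card (Submodule.torsionBy ℤ W.toAffine.Point (n : ℤ)) ≤ n ^ 2 := by
  have h := ncard_torsion_le_sq hp1 hf hdeg hcrit
  rw [← coe_torsionBy] at h
  exact h

theorem nontrivial_torsionBy [IsAlgClosed F] (hΔ : W.Δ ≠ 0) (hdeg : f.natDegree ≠ 0)
    (hcrit : PolyCriterion W n f) :
    Nontrivial (Submodule.torsionBy ℤ W.toAffine.Point (n : ℤ)) := by
  obtain ⟨P, hP0, hP⟩ := exists_ne_zero_torsion hΔ hdeg hcrit
  refine ⟨⟨⟨P, (mem_torsionBy_iff_nsmul P).mpr hP⟩, 0, ?_⟩⟩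
  intro h
  exact hP0 (congrArg Subtype.val h)

/-- **Package for GLUE** (`hnt`, `hcard` of the S13 master plan): `E[p]` is nontrivial, finite and
has at most `p²` elements, for any polynomial `f` of degree `(p² - 1) / 2` (`p ≥ 2`) satisfying the
criterion. -/
theorem hnt_hcard [IsAlgClosed F] (hΔ : W.Δ ≠ 0) {p : ℕ} (hp2 : 2 ≤ p)
    (hdeg : f.natDegree = (p ^ 2 - 1) / 2) (hcrit : PolyCriterion W p f) :
    Nontrivial (Submodule.torsionBy ℤ W.toAffine.Point (p : ℤ)) ∧
      Finite (Submodule.torsionBy ℤ W.toAffine.Point (p : ℤ)) ∧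
      Nat.card (Submodule.torsionBy ℤ W.toAffine.Point (p : ℤ)) ≤ p ^ 2 := by
  have hpos : f.natDegree ≠ 0 := by
    rw [hdeg]
    have : 4 ≤ p ^ 2 := by nlinarith
    omega
  have hf : f ≠ 0 := fun h => hpos (by rw [h, natDegree_zero])
  exact ⟨nontrivial_torsionBy hΔ hpos hcrit, finite_torsionBy hf hcrit,
    card_torsionBy_le (by omega) hf hdeg.le hcrit⟩

/-! ### Roots of `f` = abscissae of nonzero torsion points -/

theorem eval_eq_zero_iff [IsAlgClosed F] (hΔ : W.Δ ≠ 0) (hcrit : PolyCriterion W n f) (x : F) :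
    f.eval x = 0 ↔
      ∃ (y : F) (h : W.toAffine.Nonsingular x y), n • (Point.some x y h : W.toAffine.Point) = 0 := by
  constructor
  · intro hx
    obtain ⟨y, hy⟩ := exists_equation W x
    have hns : W.toAffine.Nonsingular x y := (equation_iff_nonsingular_of_Δ_ne_zero hΔ).mp hy
    exact ⟨y, hns, (hcrit x y hns).mpr hx⟩
  · rintro ⟨y, h, hP⟩
    exact (hcrit x y h).mp hP

theorem mem_roots_iff [IsAlgClosed F] (hΔ : W.Δ ≠ 0) (hf : f ≠ 0) (hcrit : PolyCriterion W n f)
    (x : F) :
    x ∈ f.roots ↔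
      ∃ (y : F) (h : W.toAffine.Nonsingular x y), n • (Point.some x y h : W.toAffine.Point) = 0 := by
  rw [mem_roots hf, IsRoot.def]
  exact eval_eq_zero_iff hΔ hcrit x

/-! ### Separability for free when `#E[p] = p²` -/

/-- If `E[p]` has at least `p²` elements (e.g. because it has a proper nonzero subspace, see
`card_eq_of_proper_submodule`) and `natDegree f ≤ (p² - 1) / 2`, then `f` has exactly
`(p² - 1) / 2` distinct roots and that is its degree. -/
theorem card_roots_toFinset_eq {p : ℕ} (hodd : Odd p) (hf : f ≠ 0)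
    (hdeg : f.natDegree ≤ (p ^ 2 - 1) / 2) (hcrit : PolyCriterion W n f)
    (hcard : p ^ 2 ≤ {P : W.toAffine.Point | n • P = 0}.ncard) :
    f.roots.toFinset.card = (p ^ 2 - 1) / 2 ∧ f.natDegree = (p ^ 2 - 1) / 2 := by
  have h1 := ncard_torsion_le_roots hf hcrit
  have h2 : f.roots.toFinset.card ≤ f.natDegree := card_roots_toFinset_le
  obtain ⟨k, rfl⟩ := hodd
  have h3 : (2 * k + 1) ^ 2 = 2 * (2 * k ^ 2 + 2 * k) + 1 := by ring
  have h4 : ((2 * k + 1) ^ 2 - 1) / 2 = 2 * k ^ 2 + 2 * k := by omega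
  rw [h4] at hdeg ⊢
  omega

/-- Under the hypotheses of `card_roots_toFinset_eq` all roots of `f` are simple. -/
theorem roots_nodup {p : ℕ} (hodd : Odd p) (hf : f ≠ 0)
    (hdeg : f.natDegree ≤ (p ^ 2 - 1) / 2) (hcrit : PolyCriterion W n f)
    (hcard : p ^ 2 ≤ {P : W.toAffine.Point | n • P = 0}.ncard) : f.roots.Nodup := by
  classical
  obtain ⟨h1, h2⟩ := card_roots_toFinset_eq hodd hf hdeg hcrit hcard
  have h3 : Multiset.card f.roots ≤ f.natDegree := card_roots' f
  have h4 : f.roots.toFinset.card ≤ Multiset.card f.roots := Multiset.toFinset_card_le _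
  rw [← Multiset.toFinset_card_eq_card_iff_nodup]
  omega

/-- Under the hypotheses of `card_roots_toFinset_eq`, `f` splits with simple roots:
`f = lc · ∏_{r ∈ roots} (X - r)` over the *finset* of roots. -/
theorem eq_C_mul_prod_roots_toFinset {p : ℕ} (hodd : Odd p) (hf : f ≠ 0)
    (hdeg : f.natDegree ≤ (p ^ 2 - 1) / 2) (hcrit : PolyCriterion W n f)
    (hcard : p ^ 2 ≤ {P : W.toAffine.Point | n • P = 0}.ncard) :
    f = C f.leadingCoeff * ∏ r ∈ f.roots.toFinset, (X - C r) := by
  classical
  obtain ⟨h1, h2⟩ := card_roots_toFinset_eq hodd hf hdeg hcrit hcard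
  have hnd := roots_nodup hodd hf hdeg hcrit hcard
  have h3 : Multiset.card f.roots = f.natDegree := by
    have h4 : f.roots.toFinset.card = Multiset.card f.roots :=
      Multiset.toFinset_card_eq_card_iff_nodup.mpr hnd
    omega
  have h := C_leadingCoeff_mul_prod_multiset_X_sub_C h3
  rw [Finset.prod_eq_multiset_prod, Multiset.toFinset_val, Multiset.dedup_eq_self.mpr hnd]
  exact h.symm

/-- The value at `0`. -/
theorem eval_zero_eq {p : ℕ} (hodd : Odd p) (hf : f ≠ 0)
    (hdeg : f.natDegree ≤ (p ^ 2 - 1) / 2) (hcrit : PolyCriterion W n f)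
    (hcard : p ^ 2 ≤ {P : W.toAffine.Point | n • P = 0}.ncard) :
    f.eval 0 = f.leadingCoeff * ∏ r ∈ f.roots.toFinset, (-r) := by
  conv_lhs => rw [eq_C_mul_prod_roots_toFinset hodd hf hdeg hcrit hcard]
  rw [eval_mul, eval_C, eval_prod]
  congr 1
  refine Finset.prod_congr rfl fun r _ => ?_
  simp

end PolyCriterion

end Fermat.Agent.S13.H59
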