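import Mathlib
import Fermat.Prelude.Def_FLTPrelim_CofixedLine
import Fermat.Agent.S13.H59_CountGen

/-!
# S13 / STRUCT-count: instantiation at the Frey curve

* `freyCurve_Δ`, `freyCurve_Δ_ne_zero`, `freyCurve_baseChange_Δ_ne_zero`: the discriminant of the
  frozen Frey curve is `(abc)^(2p) / 2^8 ≠ 0`, also after base change to any field of
  characteristic zero.
* `hnt_hcard_of_polyCriterion`: the two STRUCT hypotheses `hnt`, `hcard` of the S13 glue theorem in
  the frozen vocabulary, from *any* polynomial `f` of degree `(p² - 1) / 2` satisfying the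
  multiplication-by-`p` criterion on `P.freyCurve⁄Qbar`.
* `hnt_hcard_of_int_poly`: the same with `f : ℤ[X]` (shape of the S13 master plan).
-/

set_option autoImplicit false

noncomputable section

namespace Fermat.Agent.S13.H59

open Polynomial WeierstrassCurve WeierstrassCurve.Affine

/-- The discriminant of the Frey curve. -/
theorem freyCurve_Δ (P : FreyPackage) :
    P.freyCurve.Δ = ((P.a : ℚ) ^ P.p * (P.b : ℚ) ^ P.p * (P.c : ℚ) ^ P.p) ^ 2 / 256 := by
  have hFLT : (P.a : ℚ) ^ P.p + (P.b : ℚ) ^ P.p = (P.c : ℚ) ^ P.p := by exact_mod_cast P.hFLT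
  simp only [WeierstrassCurve.Δ, WeierstrassCurve.b₂, WeierstrassCurve.b₄, WeierstrassCurve.b₆,
    WeierstrassCurve.b₈, FreyPackage.freyCurve]
  rw [← hFLT]
  ring

theorem freyCurve_Δ_ne_zero (P : FreyPackage) : P.freyCurve.Δ ≠ 0 := by
  rw [freyCurve_Δ]
  have ha : (P.a : ℚ) ≠ 0 := by exact_mod_cast P.ha0
  have hb : (P.b : ℚ) ≠ 0 := by exact_mod_cast P.hb0
  have hc : (P.c : ℚ) ≠ 0 := by exact_mod_cast P.hc0
  positivity

theorem freyCurve_baseChange_Δ_ne_zero (P : FreyPackage) (K : Type*) [Field K] [Algebra ℚ K] :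
    (P.freyCurve.baseChange K).Δ ≠ 0 := by
  rw [WeierstrassCurve.baseChange, WeierstrassCurve.map_Δ]
  exact (map_ne_zero_iff _ (algebraMap ℚ K).injective).mpr (freyCurve_Δ_ne_zero P)

/-- **`hnt` and `hcard` for the Frey curve**, frozen vocabulary
(`T = Submodule.torsionBy ℤ (P.freyCurve⁄Qbar).Point P.p`), from any polynomial over `Qbar`. -/
theorem hnt_hcard_of_polyCriterion (P : FreyPackage) (f : (AlgebraicClosure ℚ)[X])
    (hdeg : f.natDegree = (P.p ^ 2 - 1) / 2)
    (hcrit : PolyCriterion (P.freyCurve.baseChange (AlgebraicClosure ℚ)) P.p f) :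
    Nontrivial (Submodule.torsionBy ℤ (P.freyCurve⁄(AlgebraicClosure ℚ)).Point P.p) ∧
      (Finite (Submodule.torsionBy ℤ (P.freyCurve⁄(AlgebraicClosure ℚ)).Point P.p) ∧
        Nat.card (Submodule.torsionBy ℤ (P.freyCurve⁄(AlgebraicClosure ℚ)).Point P.p)
          ≤ P.p ^ 2) := by
  have h := PolyCriterion.hnt_hcard (freyCurve_baseChange_Δ_ne_zero P (AlgebraicClosure ℚ))
    (by have := P.hp5; omega) hdeg hcrit
  exact ⟨h.1, h.2.1, h.2.2⟩

/-- The same with an integral polynomial (shape of the S13 master plan). -/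
theorem hnt_hcard_of_int_poly (P : FreyPackage) (f : ℤ[X])
    (hdeg : f.natDegree = (P.p ^ 2 - 1) / 2)
    (hcrit : ∀ (x y : AlgebraicClosure ℚ) (h : (P.freyCurve⁄(AlgebraicClosure ℚ)).Nonsingular x y),
      P.p • (Point.some x y h : (P.freyCurve⁄(AlgebraicClosure ℚ)).Point) = 0 ↔
        (f.map (Int.castRingHom (AlgebraicClosure ℚ))).eval x = 0) :
    Nontrivial (Submodule.torsionBy ℤ (P.freyCurve⁄(AlgebraicClosure ℚ)).Point P.p) ∧
      (Finite (Submodule.torsionBy ℤ (P.freyCurve⁄(AlgebraicClosure ℚ)).Point P.p) ∧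
        Nat.card (Submodule.torsionBy ℤ (P.freyCurve⁄(AlgebraicClosure ℚ)).Point P.p)
          ≤ P.p ^ 2) := by
  refine hnt_hcard_of_polyCriterion P (f.map (Int.castRingHom (AlgebraicClosure ℚ))) ?_ hcrit
  rw [natDegree_map_eq_of_injective (RingHom.injective_int (Int.castRingHom (AlgebraicClosure ℚ)))]
  exact hdeg

end Fermat.Agent.S13.H59
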