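import Mathlib
import Fermat.Agent.S13.H5_LOCpHp

/-!
# S13 / LOCp, part 5: the `hp` input in the default instance world

The same statement as `frey_hp_of_integral`, but elaborated WITHOUT the local instance
`AlgebraicClosure.instAlgebra` (so `Algebra ℚ (AlgebraicClosure ℚ)` is `DivisionRing.toRatAlgebra`,
as in the frozen statement S13 and in `H35.cofixedLine_of_local`).
-/

set_option autoImplicit false

namespace Fermat.Agent.S13.H5

open WeierstrassCurve WeierstrassCurve.Affine WeierstrassCurve.Affine.Point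
open Fermat.Agent.S05

/-- **`hp` for the Frey curve, default instance world.** -/
theorem frey_hp_default (P : FreyPackage) {A : ValuationSubring (AlgebraicClosure ℚ)}
    (hA : A.LiesOverPrime P.p)
    (hint : ∃ Q : Submodule.torsionBy ℤ (P.freyCurve⁄(AlgebraicClosure ℚ)).Point P.p, Q ≠ 0 ∧
      H67.xCoord (P.freyCurve.baseChange (AlgebraicClosure ℚ))
        (Q : (P.freyCurve⁄(AlgebraicClosure ℚ)).Point) ∈ A) :
    ∃ T1 : Submodule (ZMod P.p)
        (Submodule.torsionBy ℤ (P.freyCurve⁄(AlgebraicClosure ℚ)).Point P.p), T1 ≠ ⊤ ∧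
      ∀ σ ∈ A.inertiaSubgroupIn ℚ,
        ∀ x : Submodule.torsionBy ℤ (P.freyCurve⁄(AlgebraicClosure ℚ)).Point P.p,
          σ • x - x ∈ T1 :=
  frey_hp_of_integral P hA hint

/-- the dichotomy form, default instance world -/
theorem frey_locp_default (P : FreyPackage) {A : ValuationSubring (AlgebraicClosure ℚ)}
    (hA : A.LiesOverPrime P.p)
    (hcard : Nat.card (Submodule.torsionBy ℤ (P.freyCurve⁄(AlgebraicClosure ℚ)).Point P.p) =
      P.p ^ 2)
    (hSS : ∃ (x y : AlgebraicClosure ℚ)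
      (h : (P.freyCurve⁄(AlgebraicClosure ℚ)).Nonsingular x y),
      P.p • (Point.some x y h : (P.freyCurve⁄(AlgebraicClosure ℚ)).Point) = 0 ∧
        A.valuation x ≤ 1)
    (N : Submodule (ZMod P.p)
      (Submodule.torsionBy ℤ (P.freyCurve⁄(AlgebraicClosure ℚ)).Point P.p))
    (hN : IsGaloisStable ℚ N) (hbot : N ≠ ⊥) (htop : N ≠ ⊤) :
    (∀ σ ∈ A.inertiaSubgroupIn ℚ, ∀ x ∈ N, σ • x = x) ∨
      (∀ σ ∈ A.inertiaSubgroupIn ℚ,
        ∀ x : Submodule.torsionBy ℤ (P.freyCurve⁄(AlgebraicClosure ℚ)).Point P.p,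
          σ • x - x ∈ N) :=
  frey_locp P hA hcard hSS N hN hbot htop

end Fermat.Agent.S13.H5
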