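import Mathlib
import Fermat.Agent.S13.H60_FreyPoly
import Fermat.Agent.S13.H84_Struct

/-!
# S13 / FINAL input (B): `frey_hSS`

Stated in the default instance world (plain `import Mathlib`), in the exact shape of the
hypothesis `hSS` of `H5.frey_locp` / the open lemma (B) of the S13 master plan.
-/

set_option autoImplicit false

namespace Fermat.Agent.S13.H60

open WeierstrassCurve WeierstrassCurve.Affine WeierstrassCurve.Affine.Point

/-- **(B)** For a Galois stable proper nonzero subspace of the `p`-torsion of the Frey curve and a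
place `A` of `AlgebraicClosure ℚ` over `p`, some nonzero affine `p`-torsion point has integral
`x`-coordinate. -/
theorem frey_hSS (P : FreyPackage)
    (N0 : Submodule (ZMod P.p)
      (Submodule.torsionBy ℤ (P.freyCurve⁄(AlgebraicClosure ℚ)).Point P.p))
    (hN : IsGaloisStable ℚ N0) (hbot : N0 ≠ ⊥) (htop : N0 ≠ ⊤)
    (A : ValuationSubring (AlgebraicClosure ℚ)) (hA : A.LiesOverPrime P.p) :
    ∃ (x y : AlgebraicClosure ℚ) (h : (P.freyCurve⁄(AlgebraicClosure ℚ)).Nonsingular x y),
      P.p • (Point.some x y h : (P.freyCurve⁄(AlgebraicClosure ℚ)).Point) = 0 ∧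
        A.valuation x ≤ 1 := by
  have hfin := H84.frey_finite P
  obtain ⟨Q, hQ0, hQA⟩ := @frey_exists_integral_torsion P hfin N0 hN hbot htop A hA
  obtain ⟨Q, hQ⟩ := Q
  have hQ' : (P.p : ℤ) • Q = 0 := (Submodule.mem_torsionBy_iff _ _).1 hQ
  cases Q with
  | zero => exact absurd (Subtype.ext rfl) hQ0
  | some x y h =>
    refine ⟨x, y, h, ?_, (A.valuation_le_one_iff x).2 hQA⟩
    rw [← natCast_zsmul]
    exact hQ'

end Fermat.Agent.S13.H60
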