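import Mathlib.RingTheory.Valuation.Basic
import Mathlib.Tactic
import Fermat.Agent.S05.H73_MS

/-!
# The tropical multiset law in arbitrary residue characteristic (S13 / LOC-MS, helper73)

Generalisation of `Fermat.Agent.S05.H73` (`ms_pair`, `ms_double`, ...) from the short form
`y² = x³ + r x² + s x` with `v 2 = 1` to the node model `⟨a₁, a₂, 0, a₄, 0⟩`
(`y² + a₁ x y = x³ + a₂ x² + a₄ x`), whose `x`-only formulas only involve `b = b₂ = a₁² + 4 a₂`
and `s = a₄`: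

* `x(A+B) x(A-B) = (x₁x₂ - s)² / (x₁ - x₂)²`,
* `x(A+B) + x(A-B) = (2 (x₁+x₂)(x₁x₂+s) + b x₁x₂) / (x₁-x₂)²`,
* `x(2A) · x (4x² + b x + 4 s) = (x² - s)²`.

Hypotheses: `v 2 ≤ 1` (automatic for a valuation that is `≤ 1` on the integers), `v b = 1`,
`s ≠ 0`.  No hypothesis on the residue characteristic.
-/

set_option autoImplicit false

namespace Fermat.Agent.S13.H73

open Valuation Fermat.Agent.S05.H73

variable {K : Type*} [Field K] {Γ₀ : Type*} [LinearOrderedCommGroupWithZero Γ₀]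
  (v : Valuation K Γ₀)

theorem val_prod_sum' {b x1 x2 s X Y : K}
    (hprod : X * Y = (x1 * x2 - s) ^ 2 / (x1 - x2) ^ 2)
    (hsum : X + Y = (2 * (x1 + x2) * (x1 * x2 + s) + b * x1 * x2) / (x1 - x2) ^ 2) :
    v (X * Y) = v (x1 * x2 - s) ^ 2 / v (x1 - x2) ^ 2 ∧
    v (X + Y) = v (2 * (x1 + x2) * (x1 * x2 + s) + b * x1 * x2) / v (x1 - x2) ^ 2 := by
  constructor
  · rw [hprod, map_div₀, map_pow, map_pow]
  · rw [hsum, map_div₀, map_pow]

theorem ms_core' {b s x1 x2 X Y : K} (hb : v b = 1) (h2 : v (2 : K) ≤ 1) (hs0 : s ≠ 0)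
    (h12 : x1 ≠ x2) (hx2 : v s < v x2) (h21 : v x2 ≤ v x1) (hx1 : v x1 < 1)
    (hprod : X * Y = (x1 * x2 - s) ^ 2 / (x1 - x2) ^ 2)
    (hsum : X + Y = (2 * (x1 + x2) * (x1 * x2 + s) + b * x1 * x2) / (x1 - x2) ^ 2) :
    (trunc v s X = max (v x1 * v x2) (v s ^ 2 / (v x1 * v x2)) ∧
      trunc v s Y = v x2 / v x1) ∨
    (trunc v s Y = max (v x1 * v x2) (v s ^ 2 / (v x1 * v x2)) ∧
      trunc v s X = v x2 / v x1) := by
  have hn0 : 0 < v s := zero_lt_iff.mpr ((map_ne_zero v).mpr hs0)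
  have hd0 : 0 < v x2 := hn0.trans hx2
  have hu0 : 0 < v x1 := hd0.trans_le h21
  have hn1 : v s < v x1 := hx2.trans_le h21
  have hd1 : v x2 < 1 := h21.trans_lt hx1
  have hE0 : v (x1 - x2) ≠ 0 := (map_ne_zero v).mpr (sub_ne_zero.mpr h12)
  have hE0' : 0 < v (x1 - x2) := zero_lt_iff.mpr hE0
  have hEu : v (x1 - x2) ≤ v x1 := map_sub_le v le_rfl h21
  have hE' : v x2 < v x1 → v (x1 - x2) = v x1 := fun h => map_sub_eq_of_lt_left v h
  have hx12 : v (x1 * x2) = v x1 * v x2 := map_mul v x1 x2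
  have hud_lt : v x1 * v x2 < v x2 := by
    calc v x1 * v x2 < 1 * v x2 := by gcongr
      _ = v x2 := one_mul _
  have hC : v (x1 * x2 - s) < v x2 := map_sub_lt v (by rw [hx12]; exact hud_lt) hx2
  have hC' : v (x1 * x2 + s) < v x2 := map_add_lt v (by rw [hx12]; exact hud_lt) hx2
  have hA : v (2 * (x1 + x2) * (x1 * x2 + s)) < v x1 * v x2 := by
    rw [map_mul, map_mul]
    calc v 2 * v (x1 + x2) * v (x1 * x2 + s) ≤ 1 * v x1 * v (x1 * x2 + s) := by
          gcongr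
          exact map_add_le v le_rfl h21
      _ = v x1 * v (x1 * x2 + s) := by rw [one_mul]
      _ < v x1 * v x2 := by gcongr
  have hB : v (b * x1 * x2) = v x1 * v x2 := by
    rw [map_mul, map_mul, hb, one_mul]
  have hT : v (2 * (x1 + x2) * (x1 * x2 + s) + b * x1 * x2) = v x1 * v x2 := by
    rw [← hB]; exact map_add_eq_of_lt_right v (by rw [hB]; exact hA)
  obtain ⟨hP, hS⟩ := val_prod_sum' v hprod hsum
  rw [hT] at hS
  have hCE : v (x1 * x2 - s) * v (x1 - x2) < v x1 * v x2 := by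
    calc v (x1 * x2 - s) * v (x1 - x2) < v x2 * v (x1 - x2) := by gcongr
      _ ≤ v x2 * v x1 := by gcongr
      _ = v x1 * v x2 := mul_comm _ _
  have key : v (X * Y) < v (X + Y) ^ 2 := by
    rw [hP, hS, div_pow]
    have h1 : v (x1 * x2 - s) ^ 2 / v (x1 - x2) ^ 2 =
        (v (x1 * x2 - s) * v (x1 - x2)) ^ 2 / (v (x1 - x2) ^ 2) ^ 2 := by field_simp
    rw [h1]
    have hpos : 0 < (v (x1 - x2) ^ 2) ^ 2 := pow_pos (pow_pos hE0' 2) 2
    rw [div_lt_div_iff_of_pos_right hpos]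
    gcongr
    exact zero_le
  have hSne : v (X + Y) ≠ 0 := by
    rw [hS]
    exact (div_pos (mul_pos hu0 hd0) (pow_pos hE0' 2)).ne'
  have hvZ2 : ∀ Z : K, v (X + Y) * v Z = v (X * Y) →
      v Z = v (x1 * x2 - s) ^ 2 / (v x1 * v x2) := by
    intro Z hZ
    have : v Z = v (X * Y) / v (X + Y) := by
      rw [← hZ]; field_simp
    rw [this, hP, hS]
    field_simp
  rcases val_roots_ne v rfl rfl key with ⟨hX, hY⟩ | ⟨hY, hX⟩
  · right
    exact ⟨trunc_big v hs0 (hvZ2 Y hY) hn1 hx2 hx1 hd1,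
      trunc_small v (hX.trans hS) hE0 hEu hE' h21 hx2 hx1⟩
  · left
    exact ⟨trunc_big v hs0 (hvZ2 X hX) hn1 hx2 hx1 hd1,
      trunc_small v (hY.trans hS) hE0 hEu hE' h21 hx2 hx1⟩

/-- `x1` outside the unit ball or on the unit sphere: both `x(P1 ± P2)` have valuation `v x2`. -/
theorem ms_outer' {b s x1 x2 X Y : K} (hb : v b = 1) (h2 : v (2 : K) ≤ 1) (hs0 : s ≠ 0)
    (hx2 : v s < v x2) (hx2' : v x2 < 1) (hx1 : 1 ≤ v x1)
    (hprod : X * Y = (x1 * x2 - s) ^ 2 / (x1 - x2) ^ 2)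
    (hsum : X + Y = (2 * (x1 + x2) * (x1 * x2 + s) + b * x1 * x2) / (x1 - x2) ^ 2) :
    v X = v x2 ∧ v Y = v x2 := by
  have hn0 : 0 < v s := zero_lt_iff.mpr ((map_ne_zero v).mpr hs0)
  have hd0 : 0 < v x2 := hn0.trans hx2
  have hu0 : 0 < v x1 := lt_of_lt_of_le zero_lt_one hx1
  have h21 : v x2 < v x1 := hx2'.trans_le hx1
  have hE : v (x1 - x2) = v x1 := map_sub_eq_of_lt_left v h21
  have hx12 : v (x1 * x2) = v x1 * v x2 := map_mul v x1 x2
  have hsx : v s < v (x1 * x2) := by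
    rw [hx12]
    calc v s < v x2 := hx2
      _ = 1 * v x2 := (one_mul _).symm
      _ ≤ v x1 * v x2 := by gcongr
  have hC : v (x1 * x2 - s) = v x1 * v x2 := by
    rw [← hx12]; exact map_sub_eq_of_lt_left v hsx
  have hC' : v (x1 * x2 + s) = v x1 * v x2 := by
    rw [← hx12]; exact map_add_eq_of_lt_left v hsx
  have hA : v (2 * (x1 + x2) * (x1 * x2 + s)) ≤ v x1 ^ 2 * v x2 := by
    rw [map_mul, map_mul, hC', map_add_eq_of_lt_left v h21, sq]
    calc v 2 * v x1 * (v x1 * v x2) ≤ 1 * v x1 * (v x1 * v x2) := by gcongr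
      _ = v x1 * v x1 * v x2 := by rw [one_mul, mul_assoc]
  have hB : v (b * x1 * x2) ≤ v x1 ^ 2 * v x2 := by
    rw [map_mul, map_mul, hb, one_mul, sq]
    calc v x1 * v x2 = 1 * (v x1 * v x2) := (one_mul _).symm
      _ ≤ v x1 * (v x1 * v x2) := by gcongr
      _ = v x1 * v x1 * v x2 := (mul_assoc _ _ _).symm
  have hT : v (2 * (x1 + x2) * (x1 * x2 + s) + b * x1 * x2) ≤ v x1 ^ 2 * v x2 :=
    map_add_le v hA hB
  obtain ⟨hP, hS⟩ := val_prod_sum' v hprod hsum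
  rw [hE, hC] at hP
  rw [hE] at hS
  have hP' : v (X * Y) = v x2 ^ 2 := by
    rw [hP]; field_simp
  have hS' : v (X + Y) ≤ v x2 := by
    rw [hS, div_le_iff₀ (pow_pos hu0 2)]
    calc _ ≤ v x1 ^ 2 * v x2 := hT
      _ = v x2 * v x1 ^ 2 := mul_comm _ _
  have hle : v (X + Y) ^ 2 ≤ v (X * Y) := by
    rw [hP']
    gcongr
    exact zero_le
  obtain ⟨hXY, hX2⟩ := val_roots_eq v rfl rfl hle
  have hX : v X = v x2 := by
    rw [hP'] at hX2
    exact (pow_left_inj₀ zero_le zero_le two_ne_zero).mp hX2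
  exact ⟨hX, hXY ▸ hX⟩

/-- `x1` very close to the node (`v x1 ≤ v s`): both `x(P1 ± P2)` have valuation `v s / v x2`. -/
theorem ms_inner' {b s x1 x2 X Y : K} (hb : v b = 1) (h2 : v (2 : K) ≤ 1) (hs0 : s ≠ 0)
    (hx2 : v s < v x2) (hx2' : v x2 < 1) (hx1 : v x1 ≤ v s)
    (hprod : X * Y = (x1 * x2 - s) ^ 2 / (x1 - x2) ^ 2)
    (hsum : X + Y = (2 * (x1 + x2) * (x1 * x2 + s) + b * x1 * x2) / (x1 - x2) ^ 2) :
    v X = v s / v x2 ∧ v Y = v s / v x2 := by
  have hn0 : 0 < v s := zero_lt_iff.mpr ((map_ne_zero v).mpr hs0)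
  have hd0 : 0 < v x2 := hn0.trans hx2
  have h12 : v x1 < v x2 := hx1.trans_lt hx2
  have hE : v (x1 - x2) = v x2 := map_sub_eq_of_lt_right v h12
  have hx12 : v (x1 * x2) = v x1 * v x2 := map_mul v x1 x2
  have hsx : v (x1 * x2) < v s := by
    rw [hx12]
    calc v x1 * v x2 ≤ v s * v x2 := by gcongr
      _ < v s * 1 := by gcongr
      _ = v s := mul_one _
  have hC : v (x1 * x2 - s) = v s := map_sub_eq_of_lt_right v hsx
  have hC' : v (x1 * x2 + s) = v s := map_add_eq_of_lt_right v hsx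
  have hA : v (2 * (x1 + x2) * (x1 * x2 + s)) ≤ v s * v x2 := by
    rw [map_mul, map_mul, hC', map_add_eq_of_lt_right v h12]
    calc v 2 * v x2 * v s ≤ 1 * v x2 * v s := by gcongr
      _ = v s * v x2 := by rw [one_mul, mul_comm]
  have hB : v (b * x1 * x2) ≤ v s * v x2 := by
    rw [map_mul, map_mul, hb, one_mul]
    gcongr
  have hT : v (2 * (x1 + x2) * (x1 * x2 + s) + b * x1 * x2) ≤ v s * v x2 :=
    map_add_le v hA hB
  obtain ⟨hP, hS⟩ := val_prod_sum' v hprod hsum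
  rw [hE, hC] at hP
  rw [hE] at hS
  have hP' : v (X * Y) = (v s / v x2) ^ 2 := by
    rw [hP, div_pow]
  have hS' : v (X + Y) ≤ v s / v x2 := by
    rw [hS, div_le_iff₀ (pow_pos hd0 2)]
    calc _ ≤ v s * v x2 := hT
      _ = v s / v x2 * v x2 ^ 2 := by field_simp
  have hle : v (X + Y) ^ 2 ≤ v (X * Y) := by
    rw [hP']
    gcongr
    exact zero_le
  obtain ⟨hXY, hX2⟩ := val_roots_eq v rfl rfl hle
  have hX : v X = v s / v x2 := by
    rw [hP'] at hX2
    exact (pow_left_inj₀ zero_le zero_le two_ne_zero).mp hX2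
  exact ⟨hX, hXY ▸ hX⟩

/-- **Tropical multiset law, any residue characteristic.** `X, Y` are the abscissae of
`P1 + P2`, `P1 - P2` on `y² + a₁xy = x³ + a₂x² + s x` with `b = a₁² + 4a₂` (they satisfy
`hprod`, `hsum`), `x1 ≠ x2` the abscissae of `P1, P2`, `v b = 1`, `v 2 ≤ 1`,
`0 < v s < v x2 < 1`. Then, with `d1 = trunc x1`, `d2 = v x2`,
`{trunc X, trunc Y} = {max (d1 d2) (v s ^ 2 / (d1 d2)), min (d1 / d2) (d2 / d1)}`. -/
theorem ms_pair' {b s x1 x2 X Y : K} (hb : v b = 1) (h2 : v (2 : K) ≤ 1) (hs0 : s ≠ 0)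
    (h12 : x1 ≠ x2) (hx2 : v s < v x2) (hx2' : v x2 < 1)
    (hprod : X * Y = (x1 * x2 - s) ^ 2 / (x1 - x2) ^ 2)
    (hsum : X + Y = (2 * (x1 + x2) * (x1 * x2 + s) + b * x1 * x2) / (x1 - x2) ^ 2) :
    (trunc v s X = max (trunc v s x1 * v x2) (v s ^ 2 / (trunc v s x1 * v x2)) ∧
      trunc v s Y = min (trunc v s x1 / v x2) (v x2 / trunc v s x1)) ∨
    (trunc v s Y = max (trunc v s x1 * v x2) (v s ^ 2 / (trunc v s x1 * v x2)) ∧
      trunc v s X = min (trunc v s x1 / v x2) (v x2 / trunc v s x1)) := by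
  have hn0 : 0 < v s := zero_lt_iff.mpr ((map_ne_zero v).mpr hs0)
  have hd0 : 0 < v x2 := hn0.trans hx2
  have hs1 : v s < 1 := hx2.trans hx2'
  rcases le_or_gt 1 (v x1) with h1 | h1
  · -- outside
    left
    obtain ⟨hX, hY⟩ := ms_outer' v hb h2 hs0 hx2 hx2' h1 hprod hsum
    have hd1 : trunc v s x1 = 1 := trunc_eq_one v h1 hs1.le
    have hTX : trunc v s X = v x2 := trunc_eq_of_mem v hX hx2.le hx2'.le
    have hTY : trunc v s Y = v x2 := trunc_eq_of_mem v hY hx2.le hx2'.le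
    rw [hd1, hTX, hTY, one_mul, div_one]
    constructor
    · symm
      apply max_eq_left
      rw [div_le_iff₀ hd0, sq]
      gcongr
    · symm
      apply min_eq_right
      rw [le_div_iff₀ hd0]
      calc v x2 * v x2 ≤ 1 * 1 := by gcongr
        _ = 1 := one_mul 1
  rcases le_or_gt (v x1) (v s) with h3 | h3
  · -- inner
    left
    obtain ⟨hX, hY⟩ := ms_inner' v hb h2 hs0 hx2 hx2' h3 hprod hsum
    have hd1 : trunc v s x1 = v s := trunc_eq_left v h3 hs1.le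
    have hle1 : v s ≤ v s / v x2 := by
      rw [le_div_iff₀ hd0]
      calc v s * v x2 ≤ v s * 1 := by gcongr
        _ = v s := mul_one _
    have hle2 : v s / v x2 ≤ 1 := by
      rw [div_le_one₀ hd0]; exact hx2.le
    have hTX : trunc v s X = v s / v x2 := trunc_eq_of_mem v hX hle1 hle2
    have hTY : trunc v s Y = v s / v x2 := trunc_eq_of_mem v hY hle1 hle2
    rw [hd1, hTX, hTY]
    have e1 : v s ^ 2 / (v s * v x2) = v s / v x2 := by field_simp
    constructor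
    · symm
      rw [e1]
      apply max_eq_right
      rw [le_div_iff₀ hd0]
      calc v s * v x2 * v x2 ≤ v s * 1 * 1 := by gcongr
        _ = v s := by rw [mul_one, mul_one]
    · symm
      apply min_eq_left
      calc v s / v x2 ≤ 1 := hle2
        _ ≤ v x2 / v s := by
          rw [one_le_div₀ hn0]; exact hx2.le
  -- both strictly inside
  have hd1 : trunc v s x1 = v x1 := trunc_eq_of_mem v rfl h3.le h1.le
  have hu0 : 0 < v x1 := hn0.trans h3
  rw [hd1]
  rcases le_or_gt (v x2) (v x1) with h21 | h21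
  · have hbm : min (v x1 / v x2) (v x2 / v x1) = v x2 / v x1 := by
      apply min_eq_right
      calc v x2 / v x1 ≤ 1 := by rw [div_le_one₀ hu0]; exact h21
        _ ≤ v x1 / v x2 := by rw [one_le_div₀ hd0]; exact h21
    rw [hbm]
    exact ms_core' v hb h2 hs0 h12 hx2 h21 h1 hprod hsum
  · have hbm : min (v x1 / v x2) (v x2 / v x1) = v x1 / v x2 := by
      apply min_eq_left
      calc v x1 / v x2 ≤ 1 := by rw [div_le_one₀ hd0]; exact h21.le
        _ ≤ v x2 / v x1 := by rw [one_le_div₀ hu0]; exact h21.le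
    rw [hbm, mul_comm (v x1) (v x2)]
    have hprod' : X * Y = (x2 * x1 - s) ^ 2 / (x2 - x1) ^ 2 := by
      rw [hprod, mul_comm x2 x1, show (x2 - x1) ^ 2 = (x1 - x2) ^ 2 by ring]
    have hsum' : X + Y =
        (2 * (x2 + x1) * (x2 * x1 + s) + b * x2 * x1) / (x2 - x1) ^ 2 := by
      rw [hsum, show (x2 - x1) ^ 2 = (x1 - x2) ^ 2 by ring]
      congr 1
      ring
    exact ms_core' v hb h2 hs0 (Ne.symm h12) h3 h21.le hx2' hprod' hsum'

/-- Doubling analogue: `X = x(2P)` for `P` with abscissa `x` strictly inside the node region;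
the duplication formula is `x(2P) · x (4x² + b x + 4s) = (x² - s)²`. -/
theorem ms_double' {b s x X : K} (hb : v b = 1) (h2 : v (2 : K) ≤ 1) (hs0 : s ≠ 0)
    (hx : v s < v x) (hx' : v x < 1)
    (hX : X * (x * (4 * x ^ 2 + b * x + 4 * s)) = (x ^ 2 - s) ^ 2) :
    trunc v s X = max (v x * v x) (v s ^ 2 / (v x * v x)) := by
  have hn0 : 0 < v s := zero_lt_iff.mpr ((map_ne_zero v).mpr hs0)
  have hx0 : 0 < v x := hn0.trans hx
  have h4 : v (4 : K) ≤ 1 := by
    rw [show (4 : K) = 2 * 2 by norm_num, map_mul]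
    calc v 2 * v 2 ≤ 1 * 1 := by gcongr
      _ = 1 := one_mul 1
  have hbx : v (b * x) = v x := by rw [map_mul, hb, one_mul]
  have hxx : v (4 * x ^ 2) < v (b * x) := by
    rw [hbx, map_mul, map_pow, sq]
    calc v 4 * (v x * v x) ≤ 1 * (v x * v x) := by gcongr
      _ = v x * v x := one_mul _
      _ < 1 * v x := by gcongr
      _ = v x := one_mul _
  have h4s : v (4 * s) < v x := by
    rw [map_mul]
    calc v 4 * v s ≤ 1 * v s := by gcongr
      _ = v s := one_mul _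
      _ < v x := hx
  have hq : v (4 * x ^ 2 + b * x + 4 * s) = v x := by
    rw [← hbx]
    have h1 : v (4 * x ^ 2 + b * x) = v (b * x) := map_add_eq_of_lt_right v hxx
    rw [← h1]
    exact map_add_eq_of_lt_left v (by rw [h1, hbx]; exact h4s)
  have hden : v (x * (4 * x ^ 2 + b * x + 4 * s)) = v x * v x := by
    rw [map_mul, hq]
  apply trunc_big v hs0 _ hx hx hx' hx'
  have hXv : v X * (v x * v x) = v (x * x - s) ^ 2 := by
    rw [← hden, ← map_mul, hX, map_pow, sq x]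
  rw [← hXv]
  have hxx0 : v x * v x ≠ 0 := (mul_pos hx0 hx0).ne'
  field_simp

end Fermat.Agent.S13.H73
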