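import Mathlib
import Fermat.Agent.S05.H60_F2
import Fermat.Agent.S05.H67_XF
import Fermat.Agent.S13.H73_MSGen

/-!
# The `δ`-law in the node region for the model `⟨a₁, a₂, 0, a₄, 0⟩` (S13 / LOC-MS, helper73)

Port of the first half of `S05/H60_LocNode` (`deltaFn`, `deltaFn_law`, `exists_zpow_of_node`) from
the short form `y² = x³ + r x² + s x` (`v 2 = 1`) to an arbitrary Weierstrass curve `W` with
`a₃ = a₆ = 0` (node at the origin when `v a₄ < 1`), under `v 2 ≤ 1`, `v b₂ = 1`.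
Works in every residue characteristic (in particular for the Frey model
`y² + x y = x³ + a₂ x² + a₄ x` at `2`).
-/

set_option autoImplicit false

namespace Fermat.Agent.S13.H73

open WeierstrassCurve WeierstrassCurve.Affine
open Fermat.Agent.S05

section NodeForm

variable {F : Type*} [Field F] (W : WeierstrassCurve F)

/-- `W` has the shape `y² + a₁ x y = x³ + a₂ x² + a₄ x`. -/
def IsNodeForm : Prop := W.a₃ = 0 ∧ W.a₆ = 0

variable {W}

lemma IsNodeForm.b₄_eq (hW : IsNodeForm W) : W.b₄ = 2 * W.a₄ := by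
  simp [WeierstrassCurve.b₄, hW.1]

lemma IsNodeForm.b₆_eq (hW : IsNodeForm W) : W.b₆ = 0 := by
  simp [WeierstrassCurve.b₆, hW.1, hW.2]

lemma IsNodeForm.b₈_eq (hW : IsNodeForm W) : W.b₈ = -W.a₄ ^ 2 := by
  simp [WeierstrassCurve.b₈, hW.1, hW.2]

lemma IsNodeForm.prodNum_eq (hW : IsNodeForm W) (x₁ x₂ : F) :
    H67.prodNum W x₁ x₂ = (x₁ * x₂ - W.a₄) ^ 2 := by
  simp only [H67.prodNum, hW.b₄_eq, hW.b₆_eq, hW.b₈_eq]; ring

lemma IsNodeForm.sumNum_eq (hW : IsNodeForm W) (x₁ x₂ : F) :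
    H67.sumNum W x₁ x₂ = 2 * (x₁ + x₂) * (x₁ * x₂ + W.a₄) + W.b₂ * x₁ * x₂ := by
  simp only [H67.sumNum, hW.b₄_eq, hW.b₆_eq]; ring

lemma IsNodeForm.dblNum_eq (hW : IsNodeForm W) (x : F) :
    H67.dblNum W x = (x ^ 2 - W.a₄) ^ 2 := by
  simp only [H67.dblNum, hW.b₄_eq, hW.b₆_eq, hW.b₈_eq]; ring

lemma IsNodeForm.dblDen_eq (hW : IsNodeForm W) (x : F) :
    H67.dblDen W x = x * (4 * x ^ 2 + W.b₂ * x + 4 * W.a₄) := by
  simp only [H67.dblDen, hW.b₄_eq, hW.b₆_eq]; ring

end NodeForm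

section Law

/-- multiples of a point of prime order -/
lemma nsmul_ne_zero_of_prime_order {A : Type*} [AddGroup A] {T : A} {p : ℕ} (hp : p.Prime)
    (hT0 : T ≠ 0) (hpT : p • T = 0) {n : ℕ} (hn0 : 0 < n) (hnp : n < p) : n • T ≠ 0 := by
  intro h
  have h1 : addOrderOf T ∣ p := addOrderOf_dvd_of_nsmul_eq_zero hpT
  have h2 : addOrderOf T ∣ n := addOrderOf_dvd_of_nsmul_eq_zero h
  rcases (Nat.dvd_prime hp).mp h1 with h3 | h3
  · exact hT0 (AddMonoid.addOrderOf_eq_one_iff.mp h3)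
  · rw [h3] at h2
    exact absurd (Nat.le_of_dvd hn0 h2) (not_le.mpr hnp)

variable {K : Type*} [Field K] [DecidableEq K] {G : Type*} [LinearOrderedCommGroupWithZero G]
  (v : Valuation K G) (W : WeierstrassCurve K)

open scoped Classical in
/-- the truncated valuations of the abscissae of the multiples of `T` (value `1` at `O`) -/
noncomputable def deltaW (T : W.toAffine.Point) (n : ℕ) : G :=
  if n • T = 0 then 1 else H73.trunc v W.a₄ (H67.xCoord W (n • T))

variable {W}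

lemma deltaW_of_eq_zero {T : W.toAffine.Point} {n : ℕ} (h : n • T = 0) :
    deltaW v W T n = 1 := by
  unfold deltaW; exact if_pos h

lemma deltaW_of_ne_zero {T : W.toAffine.Point} {n : ℕ} (h : n • T ≠ 0) :
    deltaW v W T n = H73.trunc v W.a₄ (H67.xCoord W (n • T)) := by
  unfold deltaW; exact if_neg h

lemma deltaW_zero (T : W.toAffine.Point) : deltaW v W T 0 = 1 :=
  deltaW_of_eq_zero v (zero_nsmul T)

lemma deltaW_one {T : W.toAffine.Point} (hT0 : T ≠ 0)
    (hsx : v W.a₄ < v (H67.xCoord W T)) (hx1 : v (H67.xCoord W T) < 1) :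
    deltaW v W T 1 = v (H67.xCoord W T) := by
  rw [deltaW_of_ne_zero v (by rw [one_nsmul]; exact hT0), one_nsmul]
  exact H73.trunc_eq_of_mem v rfl hsx.le hx1.le

lemma deltaW_half (T : W.toAffine.Point) {k : ℕ}
    (hT : (2 * k + 1) • T = 0) : deltaW v W T k = deltaW v W T (k + 1) := by
  have hneg : (k + 1) • T = -(k • T) := by
    have h1 : k • T + (k + 1) • T = 0 := by
      rw [← add_nsmul, show k + (k + 1) = 2 * k + 1 by ring]; exact hT
    exact (neg_eq_of_add_eq_zero_right h1).symm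
  by_cases h0 : k • T = 0
  · rw [deltaW_of_eq_zero v h0, deltaW_of_eq_zero v (by rw [hneg, h0, neg_zero])]
  · rw [deltaW_of_ne_zero v h0, deltaW_of_ne_zero v (by rw [hneg]; exact neg_ne_zero.mpr h0),
      hneg, H67.xCoord_neg]

/-- the multiset law for the multiples of a torsion point `T` of odd prime order `2k+1` lying
strictly inside the node region, in the shape consumed by `H60.exists_zpow_valuation_eq_one`
and `H60.exists_zpow_eq_pow_of_law`. -/
theorem deltaW_law (hW : IsNodeForm W) (hb : v W.b₂ = 1) (h2 : v (2 : K) ≤ 1) (hs0 : W.a₄ ≠ 0)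
    {k : ℕ} (hp : (2 * k + 1).Prime) (T : W.toAffine.Point) (hT0 : T ≠ 0)
    (hT : (2 * k + 1) • T = 0) (hsx : v W.a₄ < v (H67.xCoord W T))
    (hx1 : v (H67.xCoord W T) < 1) (n : ℕ) (hn1 : 1 ≤ n) (hnk : n ≤ k) :
    (deltaW v W T (n + 1) =
        max (deltaW v W T n * v (H67.xCoord W T))
          (v W.a₄ ^ 2 / (deltaW v W T n * v (H67.xCoord W T))) ∧
      deltaW v W T (n - 1) =
        min (deltaW v W T n / v (H67.xCoord W T)) (v (H67.xCoord W T) / deltaW v W T n)) ∨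
    (deltaW v W T (n + 1) =
        min (deltaW v W T n / v (H67.xCoord W T)) (v (H67.xCoord W T) / deltaW v W T n) ∧
      deltaW v W T (n - 1) =
        max (deltaW v W T n * v (H67.xCoord W T))
          (v W.a₄ ^ 2 / (deltaW v W T n * v (H67.xCoord W T)))) := by
  set x := H67.xCoord W T with hx
  have hne : ∀ m : ℕ, 0 < m → m < 2 * k + 1 → m • T ≠ 0 := fun m hm0 hm =>
    nsmul_ne_zero_of_prime_order hp hT0 hT hm0 hm
  have hvx0 : v x ≠ 0 := by
    intro h0; rw [h0] at hsx; exact not_lt_zero hsx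
  rcases Nat.lt_or_ge n 2 with hlt | hge
  · -- `n = 1`: the doubling formula
    obtain rfl : n = 1 := by omega
    left
    have h2T : 2 • T ≠ 0 := hne 2 (by norm_num) (by omega)
    have hdbl := H67.xCoord_two_nsmul W hT0 h2T
    rw [hW.dblNum_eq, hW.dblDen_eq] at hdbl
    have hd1 : deltaW v W T 1 = v x := deltaW_one v hT0 hsx hx1
    have hd2 : deltaW v W T (1 + 1) = H73.trunc v W.a₄ (H67.xCoord W (2 • T)) :=
      deltaW_of_ne_zero v h2T
    refine ⟨?_, ?_⟩
    · rw [hd2, hd1]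
      exact ms_double' v hb h2 hs0 hsx hx1 hdbl
    · rw [hd1, show 1 - 1 = 0 from rfl, deltaW_zero, div_self hvx0, min_self]
  · -- `n ≥ 2`: the addition formulas for `n • T` and `T`
    have hP : n • T ≠ 0 := hne n (by omega) (by omega)
    have hPp : (n + 1) • T ≠ 0 := hne (n + 1) (by omega) (by omega)
    have hPm : (n - 1) • T ≠ 0 := hne (n - 1) (by omega) (by omega)
    have hadd : n • T + T = (n + 1) • T := (succ_nsmul T n).symm
    have hsub : n • T - T = (n - 1) • T := by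
      rw [sub_eq_iff_eq_add, ← succ_nsmul, show n - 1 + 1 = n by omega]
    have hx12 : H67.xCoord W (n • T) ≠ H67.xCoord W T := by
      intro e
      rcases (H67.xCoord_eq_iff W hP hT0).mp e with e1 | e1
      · apply hPm
        rw [← hsub, e1, sub_self]
      · apply hPp
        rw [← hadd, e1, neg_add_cancel]
    have hprod := H67.xCoord_add_mul_xCoord_sub W hP hT0 hx12
    have hsum := H67.xCoord_add_add_xCoord_sub W hP hT0 hx12
    rw [hadd, hsub, hW.prodNum_eq] at hprod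
    rw [hadd, hsub, hW.sumNum_eq] at hsum
    have hden : (H67.xCoord W (n • T) - H67.xCoord W T) ^ 2 ≠ 0 :=
      pow_ne_zero 2 (sub_ne_zero.mpr hx12)
    have key := ms_pair' v hb h2 hs0 hx12 hsx hx1
      (X := H67.xCoord W ((n + 1) • T)) (Y := H67.xCoord W ((n - 1) • T))
      (by rw [eq_div_iff hden]; exact hprod)
      (by rw [eq_div_iff hden]; exact hsum)
    rw [deltaW_of_ne_zero v hP, deltaW_of_ne_zero v hPp, deltaW_of_ne_zero v hPm]
    exact key.imp id And.symm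

/-- In the node region the abscissa of a torsion point of odd prime order `2k+1` satisfies
`v x ^ (2k+1) = v a₄ ^ (2j)` for some integer `j` (no assumption on `v a₄`). -/
theorem exists_zpow_eq_pow_of_node (hW : IsNodeForm W) (hb : v W.b₂ = 1) (h2 : v (2 : K) ≤ 1)
    (hs0 : W.a₄ ≠ 0) {k : ℕ} (hp : (2 * k + 1).Prime) (T : W.toAffine.Point) (hT0 : T ≠ 0)
    (hT : (2 * k + 1) • T = 0) (hsx : v W.a₄ < v (H67.xCoord W T))
    (hx1 : v (H67.xCoord W T) < 1) :
    ∃ j : ℤ, v (H67.xCoord W T) ^ (2 * k + 1) = v W.a₄ ^ (2 * j) :=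
  H60.exists_zpow_eq_pow_of_law (v W.a₄) (v (H67.xCoord W T))
    (zero_lt_iff.mpr ((map_ne_zero v).mpr hs0)) hsx hx1 (deltaW v W T) k
    (deltaW_zero v T) (deltaW_one v hT0 hsx hx1) (deltaW_half v T hT)
    (fun n hn1 hnk => deltaW_law v hW hb h2 hs0 hp T hT0 hT hsx hx1 n hn1 hnk)

/-- In the node region the abscissa of a torsion point of odd prime order `2k+1` is an even power
of `β` times a unit, where `v a₄ = v β ^ (2k+1)`. -/
theorem exists_zpow_of_node' (hW : IsNodeForm W) (hb : v W.b₂ = 1) (h2 : v (2 : K) ≤ 1)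
    (hs0 : W.a₄ ≠ 0) {β : K} {k : ℕ} (hp : (2 * k + 1).Prime)
    (hsβ : v W.a₄ = v β ^ (2 * k + 1)) (T : W.toAffine.Point) (hT0 : T ≠ 0)
    (hT : (2 * k + 1) • T = 0) (hsx : v W.a₄ < v (H67.xCoord W T))
    (hx1 : v (H67.xCoord W T) < 1) :
    ∃ j : ℤ, v (H67.xCoord W T / β ^ (2 * j)) = 1 :=
  H60.exists_zpow_valuation_eq_one v W.a₄ (H67.xCoord W T) β hs0 hsx hx1
    (deltaW v W T) k hsβ (deltaW_zero v T) (deltaW_one v hT0 hsx hx1) (deltaW_half v T hT)
    (fun n hn1 hnk => deltaW_law v hW hb h2 hs0 hp T hT0 hT hsx hx1 n hn1 hnk)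

end Law

end Fermat.Agent.S13.H73
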