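import Mathlib
import Fermat.Agent.S13.H70_Inertia
import Fermat.Agent.S13.H73_NodeLaw

/-!
# No `p`-torsion on the node model over a discretely valued field with residue field `𝔽₂`
(package RATPT-HEDGE of project S13, abstract part).

Setting: `(K, v)` a valued field with `v 2 < 1`, residue field `𝔽₂`
(`hres : ∀ z, v z ≤ 1 → v z < 1 ∨ v (z - 1) < 1`) and value group generated by `v π`
(`hval : ∀ z ≠ 0, ∃ n : ℤ, v z = v π ^ n`); the node model
`W : y² + x y = x³ + a₂ x² + a₄ x` with `v a₂ ≤ 1`, `v a₄ = v π ^ m < 1`, `a₄ ≠ 0`;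
a prime `p ≥ 5` with `v p = 1`, `p ∤ m`, such that the kernel of reduction has no `p`-torsion.
Then `W(K)` has no point of order `p`.

* unit abscissa: `T` and `2T` have unit abscissa; they are congruent to `(1, 0)` or `(1, 1)`
  modulo the maximal ideal, so `T ≡ 2T` or `T ≡ -2T`, hence `-T` or `3T` lies in the kernel of
  reduction (closeness lemma F3'), hence vanishes;
* deep (`v x ≤ v a₄`): the double has unit abscissa;
* node region (`v a₄ < v x < 1`): the `δ`-law (`H73_NodeLaw`) gives `v x ^ p = v a₄ ^ (2 j)`;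
  with `v x = v π ^ d` this forces `p ∣ j` (as `p ∤ 2 m`) and then `v x` is an even power of
  `v a₄` strictly between `v a₄` and `1`: impossible.
-/

set_option autoImplicit false

namespace Fermat.Agent.S13.H70

open WeierstrassCurve WeierstrassCurve.Affine
open Fermat.Agent.S05

variable {K : Type*} [Field K] [DecidableEq K]
variable {Γ₀ : Type*} [LinearOrderedCommGroupWithZero Γ₀] (v : Valuation K Γ₀)

section doubling

variable {a₂ a₄ : K}

/-- the duplication formula on the node model, in coordinates -/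
lemma dbl_formula {x y x₂ y₂ : K} (h : (nodeW a₂ a₄).toAffine.Nonsingular x y)
    (h₂ : (nodeW a₂ a₄).toAffine.Nonsingular x₂ y₂)
    (e : 2 • Point.some x y h = Point.some x₂ y₂ h₂) :
    x₂ * (4 * x ^ 3 + (1 + 4 * a₂) * x ^ 2 + 4 * a₄ * x) = (x ^ 2 - a₄) ^ 2 := by
  have hT0 : Point.some x y h ≠ 0 := Point.some_ne_zero h
  have h2T : 2 • Point.some x y h ≠ 0 := by rw [e]; exact Point.some_ne_zero h₂
  have := H67.xCoord_two_nsmul (nodeW a₂ a₄) hT0 h2T
  rwa [e, H67.xCoord_some, H67.xCoord_some, dblDen_nodeW, dblNum_nodeW] at this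

omit [DecidableEq K] in
/-- the double of a point with unit abscissa has unit abscissa -/
lemma val_dbl_of_unit (h2 : v (2 : K) < 1) (ha₂ : v a₂ ≤ 1) (ha₄ : v a₄ < 1) {x x₂ : K}
    (hdbl : x₂ * (4 * x ^ 3 + (1 + 4 * a₂) * x ^ 2 + 4 * a₄ * x) = (x ^ 2 - a₄) ^ 2)
    (hx : v x = 1) : v x₂ = 1 := by
  have hv4 : v (4 : K) < 1 := val_four_lt_one v h2
  have hnum : v (x ^ 2 - a₄) = 1 := by
    have h1 : v (x ^ 2) = 1 := by rw [map_pow, hx, one_pow]
    rw [Valuation.map_sub_eq_of_lt_left v (by rwa [h1]), h1]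
  have hden : v (4 * x ^ 3 + (1 + 4 * a₂) * x ^ 2 + 4 * a₄ * x) = 1 := by
    have e : 4 * x ^ 3 + (1 + 4 * a₂) * x ^ 2 + 4 * a₄ * x =
        (1 + 4 * a₂) * x ^ 2 + (4 * x ^ 3 + 4 * a₄ * x) := by ring
    have hmid : v ((1 + 4 * a₂) * x ^ 2) = 1 := by
      rw [map_mul, map_pow, hx, one_pow, mul_one, val_b₂_eq_one v h2 ha₂]
    have hsmall : v (4 * x ^ 3 + 4 * a₄ * x) < 1 := by
      refine lt_of_le_of_lt (v.map_add _ _) (max_lt ?_ ?_)
      · rw [map_mul, map_pow, hx, one_pow, mul_one]; exact hv4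
      · rw [map_mul, map_mul, hx, mul_one]
        calc v 4 * v a₄ ≤ v 4 * 1 := by gcongr
          _ = v 4 := mul_one _
          _ < 1 := hv4
    rw [e, Valuation.map_add_eq_of_lt_left v (by rwa [hmid]), hmid]
  have := congrArg v hdbl
  rwa [map_mul, hden, mul_one, map_pow, hnum, one_pow] at this

omit [DecidableEq K] in
/-- the double of a point deep inside the node region has abscissa of valuation `≥ 1` -/
lemma one_le_val_dbl_of_deep (h2 : v (2 : K) < 1) (ha₂ : v a₂ ≤ 1) (ha₄ : v a₄ < 1)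
    (ha₄0 : a₄ ≠ 0) {x x₂ : K}
    (hdbl : x₂ * (4 * x ^ 3 + (1 + 4 * a₂) * x ^ 2 + 4 * a₄ * x) = (x ^ 2 - a₄) ^ 2)
    (hxs : v x ≤ v a₄) : 1 ≤ v x₂ := by
  have hvs0 : v a₄ ≠ 0 := (map_ne_zero v).mpr ha₄0
  have hvs_pos : 0 < v a₄ := zero_lt_iff.mpr hvs0
  have hx1 : v x < 1 := lt_of_le_of_lt hxs ha₄
  have hv4 : v (4 : K) ≤ 1 := (val_four_lt_one v h2).le
  have hnum : v (x ^ 2 - a₄) = v a₄ := by
    have hlt : v (x ^ 2) < v a₄ := by
      rw [map_pow]
      calc v x ^ 2 = v x * v x := sq _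
        _ ≤ v a₄ * v x := by gcongr
        _ < v a₄ * 1 := mul_lt_mul_of_pos_left hx1 hvs_pos
        _ = v a₄ := mul_one _
    rw [sub_eq_add_neg, Valuation.map_add_eq_of_lt_right v (by rwa [Valuation.map_neg]),
      Valuation.map_neg]
  have hden : v (4 * x ^ 3 + (1 + 4 * a₂) * x ^ 2 + 4 * a₄ * x) ≤ v a₄ ^ 2 := by
    have hxx : v x * v x ≤ v a₄ ^ 2 := by
      rw [sq]; gcongr
    refine v.map_add_le (v.map_add_le ?_ ?_) ?_
    · rw [map_mul, map_pow, pow_succ, sq]
      calc v 4 * (v x * v x * v x) ≤ 1 * (v x * v x * 1) := by gcongr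
        _ = v x * v x := by rw [one_mul, mul_one]
        _ ≤ v a₄ ^ 2 := hxx
    · rw [map_mul, map_pow, val_b₂_eq_one v h2 ha₂, one_mul, sq]
      exact hxx
    · rw [map_mul, map_mul, sq]
      calc v 4 * v a₄ * v x ≤ 1 * v a₄ * v a₄ := by gcongr
        _ = v a₄ * v a₄ := by rw [one_mul]
  have hprod : v x₂ * v (4 * x ^ 3 + (1 + 4 * a₂) * x ^ 2 + 4 * a₄ * x) = v a₄ ^ 2 := by
    have := congrArg v hdbl
    rwa [map_mul, map_pow _ (x ^ 2 - a₄), hnum] at this
  have hdenpos : 0 < v (4 * x ^ 3 + (1 + 4 * a₂) * x ^ 2 + 4 * a₄ * x) := by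
    rw [zero_lt_iff]
    intro h0
    rw [h0, mul_zero] at hprod
    exact (pow_ne_zero 2 hvs0) hprod.symm
  by_contra hlt
  rw [not_le] at hlt
  have : v x₂ * v (4 * x ^ 3 + (1 + 4 * a₂) * x ^ 2 + 4 * a₄ * x) < v a₄ ^ 2 := by
    calc v x₂ * v (4 * x ^ 3 + (1 + 4 * a₂) * x ^ 2 + 4 * a₄ * x)
        < 1 * v (4 * x ^ 3 + (1 + 4 * a₂) * x ^ 2 + 4 * a₄ * x) :=
          mul_lt_mul_of_pos_right hlt hdenpos
      _ = v (4 * x ^ 3 + (1 + 4 * a₂) * x ^ 2 + 4 * a₄ * x) := one_mul _
      _ ≤ v a₄ ^ 2 := hden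
  exact this.ne hprod

end doubling

section main

variable {a₂ a₄ : K}

/-- **Unit abscissa.** Over a valued field with residue field `𝔽₂`, the node model has no point
of prime order `p ≥ 5` with unit abscissa. -/
theorem false_of_unit_x (h2 : v (2 : K) < 1) (ha₂ : v a₂ ≤ 1) (ha₄ : v a₄ < 1)
    (hres : ∀ z : K, v z ≤ 1 → v z < 1 ∨ v (z - 1) < 1)
    {p : ℕ} (hp : p.Prime) (hp5 : 5 ≤ p)
    (hF1 : H18.NoTorsionInE1 v (nodeW a₂ a₄).toAffine p)
    {x y : K} (h : (nodeW a₂ a₄).toAffine.Nonsingular x y)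
    (hT : p • Point.some x y h = 0) (hx : v x = 1) : False := by
  have hp2 : p ≠ 2 := by omega
  have hT0 : Point.some x y h ≠ 0 := Point.some_ne_zero h
  have h2T : 2 • Point.some x y h ≠ 0 := H5.two_nsmul_ne_zero hp hp2 hT0 hT
  obtain ⟨x₂, y₂, h₂, e⟩ := H67.exists_of_ne_zero _ h2T
  have hdbl := dbl_formula h h₂ e
  have hx₂ : v x₂ = 1 := val_dbl_of_unit v h2 ha₂ ha₄ hdbl hx
  have heq := (nodeW_equation_iff a₂ a₄ x y).mp h.1
  have heq₂ := (nodeW_equation_iff a₂ a₄ x₂ y₂).mp h₂.1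
  have hy : v y ≤ 1 := val_y_le_one v ha₂ ha₄.le hx.le heq
  have hy₂ : v y₂ ≤ 1 := val_y_le_one v ha₂ ha₄.le hx₂.le heq₂
  have hx1 : v (x - 1) < 1 := (hres x hx.le).resolve_left (by rw [hx]; exact lt_irrefl _)
  have hx₂1 : v (x₂ - 1) < 1 := (hres x₂ hx₂.le).resolve_left (by rw [hx₂]; exact lt_irrefl _)
  have hxx : v (x - x₂) < 1 := by
    have : x - x₂ = (x - 1) - (x₂ - 1) := by ring
    rw [this]
    exact lt_of_le_of_lt (v.map_sub _ _) (max_lt hx1 hx₂1)
  have hns : v (2 * y + x) = 1 := val_two_mul_add_eq_one v h2 hx hy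
  have hT2 : p • Point.some x₂ y₂ h₂ = 0 := by
    rw [← e, smul_comm, hT, smul_zero]
  -- the ordinates are congruent, or `y ≡ -y₂ - x₂`
  have hyy : v (y - y₂) < 1 ∨ v (y - (-y₂ - x₂)) < 1 := by
    have hadd : ∀ {s t : K}, v s < 1 → v t < 1 → v (s + t) < 1 := fun hs ht =>
      lt_of_le_of_lt (v.map_add _ _) (max_lt hs ht)
    have hsub : ∀ {s t : K}, v s < 1 → v t < 1 → v (s - t) < 1 := fun hs ht =>
      lt_of_le_of_lt (v.map_sub _ _) (max_lt hs ht)
    rcases hres y hy with h0 | h1 <;> rcases hres y₂ hy₂ with k0 | k1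
    · left; exact hsub h0 k0
    · right
      have : y - (-y₂ - x₂) = y + (y₂ - 1) + (x₂ - 1) + 2 := by ring
      rw [this]
      exact hadd (hadd (hadd h0 k1) hx₂1) h2
    · right
      have : y - (-y₂ - x₂) = (y - 1) + y₂ + (x₂ - 1) + 2 := by ring
      rw [this]
      exact hadd (hadd (hadd h1 k0) hx₂1) h2
    · left
      have : y - y₂ = (y - 1) - (y₂ - 1) := by ring
      rw [this]
      exact hsub h1 k1
  rcases hyy with hyy | hyy
  · -- `T - 2T = -T` lies in the kernel of reduction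
    have hE := inE1_sub_of_close v ha₂ h h₂ hx.le hxx hyy hns
    rw [← e] at hE
    have h0 : p • (Point.some x y h - 2 • Point.some x y h) = 0 := by
      rw [smul_sub, smul_comm, hT, smul_zero, sub_zero]
    have := hF1 _ h0 hE
    apply hT0
    have e2 : Point.some x y h - 2 • Point.some x y h = -Point.some x y h := by
      rw [two_nsmul]; abel
    rw [e2, neg_eq_zero] at this
    exact this
  · -- `T + 2T = 3T` lies in the kernel of reduction
    have hneg : -Point.some x₂ y₂ h₂ = Point.some x₂ (-y₂ - x₂)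
        ((nodeW_negY a₂ a₄ x₂ y₂) ▸ (Affine.nonsingular_neg ..).mpr h₂) := by
      rw [Point.neg_some]
      congr 1
      exact nodeW_negY a₂ a₄ x₂ y₂
    have hE := inE1_sub_of_close v ha₂ h
      ((nodeW_negY a₂ a₄ x₂ y₂) ▸ (Affine.nonsingular_neg ..).mpr h₂) hx.le hxx hyy hns
    rw [← hneg, sub_neg_eq_add, ← e] at hE
    have h0 : p • (Point.some x y h + 2 • Point.some x y h) = 0 := by
      rw [smul_add, smul_comm, hT, smul_zero, add_zero]
    have h3 := hF1 _ h0 hE
    have h3' : 3 • Point.some x y h = 0 := by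
      rw [← h3, two_nsmul]
      rw [show (3 : ℕ) = 2 + 1 from rfl, add_nsmul, two_nsmul, one_nsmul]
      abel
    -- `gcd(3, p) = 1`
    have hcop : Nat.Coprime 3 p := by
      rw [Nat.coprime_primes Nat.prime_three hp]; omega
    apply hT0
    have hord : addOrderOf (Point.some x y h) ∣ Nat.gcd 3 p :=
      Nat.dvd_gcd (addOrderOf_dvd_of_nsmul_eq_zero h3') (addOrderOf_dvd_of_nsmul_eq_zero hT)
    rw [hcop.gcd_eq_one, Nat.dvd_one] at hord
    exact AddMonoid.addOrderOf_eq_one_iff.mp hord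

/-- **No `p`-torsion** on the node model over a discretely valued field with residue field `𝔽₂`
when `p ∤ v(a₄)`. -/
theorem eq_zero_of_torsion (h2 : v (2 : K) < 1) (ha₂ : v a₂ ≤ 1) (ha₄ : v a₄ < 1)
    (ha₄0 : a₄ ≠ 0)
    (hres : ∀ z : K, v z ≤ 1 → v z < 1 ∨ v (z - 1) < 1)
    {π : K} (hval : ∀ z : K, z ≠ 0 → ∃ n : ℤ, v z = v π ^ n)
    {m : ℤ} (hm : v a₄ = v π ^ m)
    {p : ℕ} (hp : p.Prime) (hp5 : 5 ≤ p) (hpm : ¬ (p : ℤ) ∣ m)
    (hF1 : H18.NoTorsionInE1 v (nodeW a₂ a₄).toAffine p)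
    {Q : (nodeW a₂ a₄).toAffine.Point} (hQ : p • Q = 0) : Q = 0 := by
  have hp2 : p ≠ 2 := by omega
  cases Q with
  | zero => rfl
  | some x y h =>
    exfalso
    have hT0 : Point.some x y h ≠ 0 := Point.some_ne_zero h
    have hx : v x ≤ 1 := val_x_le_one_of_torsion v hF1 h hQ
    rcases hx.lt_or_eq with hx1 | hx1
    · rcases le_or_gt (v x) (v a₄) with hxs | hxs
      · -- deep: the double has unit abscissa
        have h2T : 2 • Point.some x y h ≠ 0 := H5.two_nsmul_ne_zero hp hp2 hT0 hQ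
        obtain ⟨x₂, y₂, h₂, e⟩ := H67.exists_of_ne_zero _ h2T
        have hdbl := dbl_formula h h₂ e
        have hge : 1 ≤ v x₂ := one_le_val_dbl_of_deep v h2 ha₂ ha₄ ha₄0 hdbl hxs
        have hT2 : p • Point.some x₂ y₂ h₂ = 0 := by
          rw [← e, smul_comm, hQ, smul_zero]
        have hle : v x₂ ≤ 1 := val_x_le_one_of_torsion v hF1 h₂ hT2
        exact false_of_unit_x v h2 ha₂ ha₄ hres hp hp5 hF1 h₂ hT2 (le_antisymm hle hge)
      · -- node region: the `δ`-law
        obtain ⟨k, hk⟩ : ∃ k, p = 2 * k + 1 := hp.odd_of_ne_two hp2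
        have hW : H73.IsNodeForm (nodeW a₂ a₄) := ⟨rfl, rfl⟩
        have hb : v (nodeW a₂ a₄).b₂ = 1 := by
          rw [nodeW_b₂]; exact val_b₂_eq_one v h2 ha₂
        have hpk : (2 * k + 1).Prime := hk ▸ hp
        have hTk : (2 * k + 1) • Point.some x y h = 0 := hk ▸ hQ
        obtain ⟨j, hj⟩ := H73.exists_zpow_eq_pow_of_node v hW hb h2.le ha₄0 hpk
          (Point.some x y h) hT0 hTk hxs hx1
        simp only [H67.xCoord_some, nodeW_a₄] at hj
        have hvs_pos : 0 < v a₄ := zero_lt_iff.mpr ((map_ne_zero v).mpr ha₄0)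
        have hvx_pos : 0 < v x := hvs_pos.trans hxs
        have hx0 : x ≠ 0 := (map_ne_zero v).mp hvx_pos.ne'
        -- `v π` is positive and different from `1`
        have hπ0 : 0 < v π := by
          rw [zero_lt_iff]
          intro h0
          rw [h0] at hm
          rcases eq_or_ne m 0 with rfl | hm0
          · rw [zpow_zero] at hm; exact ha₄.ne hm
          · rw [zero_zpow m hm0] at hm; exact hvs_pos.ne' hm
        have hπ1 : v π ≠ 1 := by
          intro h1
          rw [h1, one_zpow] at hm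
          exact ha₄.ne hm
        obtain ⟨d, hd⟩ := hval x hx0
        -- `p d = 2 j m`
        have hexp : d * ((2 * k + 1 : ℕ) : ℤ) = m * (2 * j) := by
          have : v π ^ (d * ((2 * k + 1 : ℕ) : ℤ)) = v π ^ (m * (2 * j)) := by
            rw [zpow_mul, zpow_mul, ← hd, ← hm, zpow_natCast]
            exact hj
          exact (zpow_right_inj₀ hπ0 hπ1).mp this
        have hpint : Prime (p : ℤ) := Nat.prime_iff_prime_int.mp hp
        have hdvd : (p : ℤ) ∣ m * (2 * j) := by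
          rw [← hexp, ← hk]
          exact dvd_mul_left _ _
        have hpj : (p : ℤ) ∣ j := by
          rcases hpint.dvd_or_dvd hdvd with h' | h'
          · exact absurd h' hpm
          · rcases hpint.dvd_or_dvd h' with h'' | h''
            · exfalso
              have : (p : ℤ) ≤ 2 := Int.le_of_dvd (by norm_num) h''
              omega
            · exact h''
        obtain ⟨j', rfl⟩ := hpj
        -- `d = 2 j' m`
        have hd' : d = m * (2 * j') := by
          have hp0 : ((2 * k + 1 : ℕ) : ℤ) ≠ 0 := by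
            rw [← hk]; exact_mod_cast hp.ne_zero
          apply mul_right_cancel₀ hp0
          rw [hexp, ← hk]
          ring
        have hxS : v x = v a₄ ^ (2 * j') := by
          rw [hd, hd', zpow_mul, ← hm]
        exact H60.not_eq_zpow_of_between hvs_pos hxs hx1 j' hxS
    · exact false_of_unit_x v h2 ha₂ ha₄ hres hp hp5 hF1 h hQ hx1

end main

end Fermat.Agent.S13.H70
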