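import Mathlib
import Fermat.Agent.S13.H70_RatPt
import Fermat.Agent.S13.H70_Frey2
import Fermat.Agent.S13.H38_Conj

/-!
# The Frey curve has no rational point of order `p`
(package RATPT-HEDGE of project S13, instantiation).

Export (shape `hrat` of the GLUE package):
`frey_no_fixed_torsion : ∀ x : E[p](Qbar), (∀ σ : G_ℚ, σ • x = x) → x = 0`.

We restrict the valuation of one place `A` of `Qbar` over `2` to `ℚ` (`valQ A`), check that it has
residue field `𝔽₂` and value group generated by `v 2`, that `v (a₄) = v 2 ^ (p n - 4)` and apply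
`H70.eq_zero_of_torsion`; a Galois-fixed point of `E(Qbar)` comes from `E(ℚ)`.
-/

set_option autoImplicit false

namespace Fermat.Agent.S13.H70

open WeierstrassCurve WeierstrassCurve.Affine WeierstrassCurve.Affine.Point
open Fermat.Agent.S05

local notation "Qbar" => AlgebraicClosure ℚ

attribute [local instance 10000] AlgebraicClosure.instAlgebra

section twoadic

variable (A : ValuationSubring Qbar)

/-- the restriction to `ℚ` of the valuation of a place of `Qbar` -/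
noncomputable def valQ : Valuation ℚ A.ValueGroup := A.valuation.comap (algebraMap ℚ Qbar)

lemma valQ_apply (z : ℚ) : valQ A z = A.valuation (algebraMap ℚ Qbar z) := rfl

lemma valQ_intCast (n : ℤ) : valQ A (n : ℚ) = A.valuation ((n : ℤ) : Qbar) := by
  rw [valQ_apply, map_intCast]

lemma valQ_natCast (n : ℕ) : valQ A (n : ℚ) = A.valuation ((n : ℕ) : Qbar) := by
  rw [valQ_apply, map_natCast]

lemma valQ_intCast_le_one (n : ℤ) : valQ A (n : ℚ) ≤ 1 := by
  rw [valQ_intCast]; exact H35.valuation_intCast_le_one A n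

variable {A}
variable (hA : A.LiesOverPrime 2)
include hA

lemma valQ_two_lt_one : valQ A (2 : ℚ) < 1 := by
  have h := H38.valuation_natCast_lt_one hA
  have e : valQ A (2 : ℚ) = A.valuation ((2 : ℕ) : Qbar) := by
    rw [← valQ_natCast]; norm_num
  rw [e]; exact h

lemma valQ_intCast_eq_one {n : ℤ} (hn : ¬ (2 : ℤ) ∣ n) : valQ A (n : ℚ) = 1 := by
  rw [valQ_intCast]
  exact H35.valuation_intCast_eq_one_of_not_dvd Nat.prime_two hA (by exact_mod_cast hn)

lemma valQ_intCast_lt_one {n : ℤ} (hn : (2 : ℤ) ∣ n) : valQ A (n : ℚ) < 1 := by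
  rw [valQ_intCast]
  exact H35.valuation_intCast_lt_one_of_dvd hA (by exact_mod_cast hn)

omit hA in
lemma valQ_two_pos : 0 < valQ A (2 : ℚ) := by
  rw [zero_lt_iff, Ne, Valuation.zero_iff]; norm_num

/-- the residue field of `valQ A` is `𝔽₂` -/
lemma valQ_res (z : ℚ) (hz : valQ A z ≤ 1) : valQ A z < 1 ∨ valQ A (z - 1) < 1 := by
  have hden0 : (z.den : ℚ) ≠ 0 := by exact_mod_cast z.den_ne_zero
  have hz_eq : z = (z.num : ℚ) / (z.den : ℚ) := (Rat.num_div_den z).symm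
  have hvden0 : valQ A ((z.den : ℤ) : ℚ) ≠ 0 := by
    rw [Ne, Valuation.zero_iff]; exact_mod_cast z.den_ne_zero
  -- the denominator is odd
  have hden_odd : ¬ (2 : ℤ) ∣ (z.den : ℤ) := by
    intro hd
    have hnum_odd : ¬ (2 : ℤ) ∣ z.num := by
      intro hn
      have h2 : (2 : ℕ) ∣ z.num.natAbs := by
        have := Int.natAbs_dvd_natAbs.mpr hn
        simpa using this
      have h2' : (2 : ℕ) ∣ z.den := by exact_mod_cast hd
      have := Nat.Coprime.eq_one_of_dvd (Nat.Coprime.coprime_dvd_left h2 z.reduced) h2'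
      omega
    have h1 : valQ A (z.num : ℚ) = 1 := valQ_intCast_eq_one hA hnum_odd
    have h2 : valQ A ((z.den : ℤ) : ℚ) < 1 := valQ_intCast_lt_one hA hd
    have : valQ A z = (valQ A ((z.den : ℤ) : ℚ))⁻¹ := by
      conv_lhs => rw [hz_eq]
      rw [map_div₀, h1, one_div]
      norm_num
    rw [this] at hz
    have h3 : 1 < (valQ A ((z.den : ℤ) : ℚ))⁻¹ :=
      (one_lt_inv₀ (zero_lt_iff.mpr hvden0)).mpr h2
    exact absurd hz (not_le.mpr h3)
  have hvden : valQ A ((z.den : ℤ) : ℚ) = 1 := valQ_intCast_eq_one hA hden_odd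
  have hval_div : ∀ n : ℤ, valQ A ((n : ℚ) / ((z.den : ℤ) : ℚ)) = valQ A (n : ℚ) := by
    intro n
    rw [map_div₀, hvden, div_one]
  by_cases hn : (2 : ℤ) ∣ z.num
  · left
    have : z = (z.num : ℚ) / ((z.den : ℤ) : ℚ) := by
      rw [Int.cast_natCast]; exact hz_eq
    rw [this, hval_div]
    exact valQ_intCast_lt_one hA hn
  · right
    have hsub : (2 : ℤ) ∣ z.num - (z.den : ℤ) := by
      have h1 : z.num % 2 = 1 := by omega
      have h2 : (z.den : ℤ) % 2 = 1 := by omega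
      omega
    have : z - 1 = ((z.num - (z.den : ℤ) : ℤ) : ℚ) / ((z.den : ℤ) : ℚ) := by
      conv_lhs => rw [hz_eq]
      push_cast
      field_simp
    rw [this, hval_div]
    exact valQ_intCast_lt_one hA hsub

/-- the value of a nonzero natural number is a power of `v 2` -/
lemma valQ_natCast_eq_pow {n : ℕ} (hn : n ≠ 0) : ∃ k : ℕ, valQ A (n : ℚ) = valQ A (2 : ℚ) ^ k := by
  obtain ⟨k, m, hm, rfl⟩ := Nat.exists_eq_two_pow_mul_odd hn
  refine ⟨k, ?_⟩
  have hm' : ¬ (2 : ℤ) ∣ (m : ℤ) := by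
    intro h
    have : (2 : ℕ) ∣ m := by exact_mod_cast h
    exact (Nat.not_even_iff_odd.mpr hm) (even_iff_two_dvd.mpr this)
  have h1 : valQ A ((m : ℤ) : ℚ) = 1 := valQ_intCast_eq_one hA hm'
  push_cast
  rw [map_mul, map_pow]
  have : valQ A (m : ℚ) = 1 := by exact_mod_cast h1
  rw [this, mul_one]

/-- the value of a nonzero integer is a power of `v 2` -/
lemma valQ_intCast_eq_pow {n : ℤ} (hn : n ≠ 0) : ∃ k : ℕ, valQ A (n : ℚ) = valQ A (2 : ℚ) ^ k := by
  obtain ⟨k, hk⟩ := valQ_natCast_eq_pow hA (Int.natAbs_ne_zero.mpr hn)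
  refine ⟨k, ?_⟩
  have hcast : ((n.natAbs : ℕ) : ℚ) = (n : ℚ) ∨ ((n.natAbs : ℕ) : ℚ) = -(n : ℚ) := by
    rcases le_total 0 n with h | h
    · left
      rw [← Int.cast_natCast, Int.natAbs_of_nonneg h]
    · right
      rw [← Int.cast_natCast, Int.ofNat_natAbs_of_nonpos h, Int.cast_neg]
  rw [← hk]
  rcases hcast with h | h
  · rw [h]
  · rw [h, Valuation.map_neg]

/-- the value group of `valQ A` is generated by `v 2` -/
lemma valQ_val (z : ℚ) (hz : z ≠ 0) : ∃ n : ℤ, valQ A z = valQ A (2 : ℚ) ^ n := by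
  have hnum0 : z.num ≠ 0 := Rat.num_ne_zero.mpr hz
  obtain ⟨k₁, h₁⟩ := valQ_intCast_eq_pow hA hnum0
  obtain ⟨k₂, h₂⟩ := valQ_natCast_eq_pow hA z.den_ne_zero
  refine ⟨(k₁ : ℤ) - (k₂ : ℤ), ?_⟩
  have hz_eq : z = (z.num : ℚ) / (z.den : ℚ) := (Rat.num_div_den z).symm
  conv_lhs => rw [hz_eq]
  rw [map_div₀, h₁, h₂, zpow_sub₀ (valQ_two_pos (A := A)).ne', zpow_natCast, zpow_natCast]

end twoadic

section frey

variable (P : FreyPackage)

lemma not_two_dvd_a : ¬ (2 : ℤ) ∣ P.a := by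
  intro h
  obtain ⟨c, hc⟩ := h
  have := P.ha4
  rw [hc] at this
  push_cast at this
  have key : ∀ t : ZMod 4, (2 : ZMod 4) * t ≠ 3 := by decide
  exact key _ this

/-- `v (a₄) = v 2 ^ m` with `p ∤ m` -/
lemma exists_valQ_freyA4 {A : ValuationSubring Qbar} (hA : A.LiesOverPrime 2) :
    ∃ m : ℤ, valQ A (freyA4 P) = valQ A (2 : ℚ) ^ m ∧ ¬ (P.p : ℤ) ∣ m := by
  obtain ⟨k, hk⟩ := valQ_intCast_eq_pow hA P.hb0
  refine ⟨(k : ℤ) * P.p - 4, ?_, ?_⟩
  · have ha : valQ A (P.a : ℚ) = 1 := valQ_intCast_eq_one hA (not_two_dvd_a P)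
    have h16 : valQ A (16 : ℚ) = valQ A (2 : ℚ) ^ 4 := by
      rw [← map_pow]; norm_num
    rw [freyA4, map_div₀, map_mul, Valuation.map_neg, map_pow, map_pow, ha, one_pow, one_mul,
      hk, h16, zpow_sub₀ (valQ_two_pos (A := A)).ne', ← pow_mul]
    norm_cast
  · intro h
    have h4 : (P.p : ℤ) ∣ 4 := by
      have h1 : (P.p : ℤ) ∣ (k : ℤ) * P.p := dvd_mul_left _ _
      have := dvd_sub h1 h
      simpa using this
    have hle : (P.p : ℤ) ≤ 4 := Int.le_of_dvd (by norm_num) h4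
    have := P.hp5
    omega

/-- `a₂` is integral for `valQ A` -/
lemma valQ_freyA2_le_one (A : ValuationSubring Qbar) : valQ A (freyA2 P) ≤ 1 := by
  obtain ⟨k, hk⟩ := exists_freyA2_eq P
  rw [hk]; exact valQ_intCast_le_one A k

/-- `a₄` is in the maximal ideal of `valQ A` -/
lemma valQ_freyA4_lt_one {A : ValuationSubring Qbar} (hA : A.LiesOverPrime 2) :
    valQ A (freyA4 P) < 1 := by
  obtain ⟨k, hk⟩ := exists_freyA4_eq P
  rw [hk, map_mul]
  calc valQ A (2 : ℚ) * valQ A (k : ℚ) ≤ valQ A (2 : ℚ) * 1 := by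
        gcongr; exact valQ_intCast_le_one A k
    _ = valQ A (2 : ℚ) := mul_one _
    _ < 1 := valQ_two_lt_one hA

/-- F1 for the restricted valuation -/
lemma noTorsionInE1_valQ {A : ValuationSubring Qbar} (hA : A.LiesOverPrime 2) :
    H18.NoTorsionInE1 (valQ A) (nodeW (freyA2 P) (freyA4 P)).toAffine P.p := by
  intro Q hnQ hQ
  set A₀ : ValuationSubring ℚ := A.comap (algebraMap ℚ Qbar) with hA₀
  have hmem : ∀ z : ℚ, z ∈ A₀ ↔ valQ A z ≤ 1 := by
    intro z
    rw [hA₀, ValuationSubring.mem_comap, valQ_apply, A.valuation_le_one_iff]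
  have hp2 : P.p ≠ 2 := by have := P.hp5; omega
  have hpv : valQ A (P.p : ℚ) = 1 := by
    rw [valQ_natCast]
    exact H35.valuation_natCast_eq_one_of_prime_ne Nat.prime_two hA P.pp hp2
  have hn0 : (P.p : ℚ) ≠ 0 := by exact_mod_cast P.pp.ne_zero
  have hninv : (P.p : ℚ)⁻¹ ∈ A₀ := by
    rw [hmem, map_inv₀, hpv, inv_one]
  have ha₂ : freyA2 P ∈ A₀ := (hmem _).mpr (valQ_freyA2_le_one P A)
  have ha₄ : freyA4 P ∈ A₀ := (hmem _).mpr (valQ_freyA4_lt_one P hA).le
  obtain ⟨hb₂, hb₄, hb₆, hb₈⟩ := Fermat.Agent.S13.H89.b_mem_of_a_mem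
    (nodeW (freyA2 P) (freyA4 P)) A₀
    (by simp [A₀.one_mem]) (by simpa using ha₂) (by simp [A₀.zero_mem]) (by simpa using ha₄)
    (by simp [A₀.zero_mem])
  have hx := Fermat.Agent.S13.H89.xCoord_mem_of_nsmul_eq_zero (nodeW (freyA2 P) (freyA4 P)) A₀
    hb₂ hb₄ hb₆ hb₈ hninv hn0 hnQ
  cases Q with
  | zero => rfl
  | some x y h =>
    exfalso
    have h1 : 1 < valQ A x := hQ
    have h2 : x ∈ A₀ := hx
    exact absurd ((hmem x).mp h2) (not_le.mpr h1)

/-- **The Frey curve has no rational point of order `p`.** -/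
theorem frey_rat_torsion_eq_zero (Q : (nodeW (freyA2 P) (freyA4 P)).toAffine.Point)
    (hQ : P.p • Q = 0) : Q = 0 := by
  obtain ⟨A, hA⟩ := Fermat.Agent.S13.H38.exists_liesOverPrime_of_prime Nat.prime_two
  obtain ⟨m, hm, hpm⟩ := exists_valQ_freyA4 P hA
  exact eq_zero_of_torsion (valQ A) (valQ_two_lt_one hA) (valQ_freyA2_le_one P A)
    (valQ_freyA4_lt_one P hA) (freyA4_ne_zero P) (valQ_res hA) (valQ_val hA) hm P.pp P.hp5 hpm
    (noTorsionInE1_valQ P hA) hQ

end frey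

section descent

/-- an element of `Qbar` fixed by the absolute Galois group is rational -/
lemma exists_rat_of_fixed' (x : Qbar) (hx : ∀ σ : Qbar ≃ₐ[ℚ] Qbar, σ x = x) :
    ∃ r : ℚ, algebraMap ℚ Qbar r = x := by
  have : IsAlgClosure ℚ Qbar := AlgebraicClosure.instIsAlgClosure ℚ
  have : IsGalois ℚ Qbar := IsAlgClosure.isGalois ℚ Qbar
  exact (InfiniteGalois.mem_range_algebraMap_iff_fixed x).mpr hx

variable (W : WeierstrassCurve ℚ)

/-- a Galois-fixed point of `W(Qbar)` comes from `W(ℚ)` -/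
lemma exists_rat_point_of_fixed (Q : (W⁄Qbar).Point)
    (hfix : ∀ σ : Qbar ≃ₐ[ℚ] Qbar, σ • Q = Q) :
    ∃ Q₀ : (W⁄ℚ).Point, Point.map (W' := W.toAffine) (Algebra.ofId ℚ Qbar) Q₀ = Q := by
  cases Q with
  | zero => exact ⟨0, rfl⟩
  | some x y h =>
    have hx : ∀ σ : Qbar ≃ₐ[ℚ] Qbar, σ x = x := fun σ => by
      have := hfix σ
      rw [H38.smul_some_point] at this
      exact (Point.some.inj this).1
    have hy : ∀ σ : Qbar ≃ₐ[ℚ] Qbar, σ y = y := fun σ => by
      have := hfix σ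
      rw [H38.smul_some_point] at this
      exact (Point.some.inj this).2
    obtain ⟨x₀, rfl⟩ := exists_rat_of_fixed' x hx
    obtain ⟨y₀, rfl⟩ := exists_rat_of_fixed' y hy
    have h₀ : (W⁄ℚ).Nonsingular x₀ y₀ :=
      (Affine.baseChange_nonsingular (W := W.toAffine) (f := Algebra.ofId ℚ Qbar)
        (Algebra.ofId ℚ Qbar).injective x₀ y₀).mp h
    exact ⟨Point.some x₀ y₀ h₀, rfl⟩

lemma baseChange_self : W.baseChange ℚ = W := rfl

/-- A Galois-fixed `n`-torsion point of `W(Qbar)` vanishes as soon as `W(ℚ)` has no `n`-torsion. -/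
theorem eq_zero_of_fixed_of_rat_torsion {n : ℕ}
    (hrat : ∀ Q₀ : W.toAffine.Point, n • Q₀ = 0 → Q₀ = 0)
    (x : Submodule.torsionBy ℤ (W⁄Qbar).Point n)
    (hfix : ∀ σ : Qbar ≃ₐ[ℚ] Qbar, σ • x = x) : x = 0 := by
  obtain ⟨Q, hQ⟩ := x
  have hfix' : ∀ σ : Qbar ≃ₐ[ℚ] Qbar, σ • Q = Q := fun σ => by
    have := congrArg Subtype.val (hfix σ)
    exact this
  obtain ⟨Q₀, rfl⟩ := exists_rat_point_of_fixed W Q hfix'
  rw [Submodule.mem_torsionBy_iff, natCast_zsmul, ← map_nsmul] at hQ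
  have h0 : n • Q₀ = 0 := Point.map_injective (W' := W.toAffine) (Algebra.ofId ℚ Qbar)
    (by rw [hQ, _root_.map_zero])
  have hQ₀ : Q₀ = 0 := by
    have e := H79.pointCongr (baseChange_self W)
    have : e Q₀ = 0 := hrat _ (by rw [← map_nsmul, h0, _root_.map_zero])
    exact e.injective (by rw [this, _root_.map_zero])
  apply Subtype.ext
  change Point.map (W' := W.toAffine) (Algebra.ofId ℚ Qbar) Q₀ = 0
  rw [hQ₀, _root_.map_zero]

end descent

/-- **(LOC2-b) = `hrat`.** A point of `E[p](Qbar)` on the Frey curve fixed by the whole absolute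
Galois group of `ℚ` is zero. -/
theorem frey_no_fixed_torsion (P : FreyPackage)
    (x : Submodule.torsionBy ℤ (P.freyCurve⁄Qbar).Point P.p)
    (hfix : ∀ σ : Qbar ≃ₐ[ℚ] Qbar, σ • x = x) : x = 0 :=
  eq_zero_of_fixed_of_rat_torsion P.freyCurve
    (fun Q₀ h => frey_rat_torsion_eq_zero P Q₀ h) x hfix

end Fermat.Agent.S13.H70
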