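import Mathlib
import Fermat.Agent.S05.H35_FreyArith
import Fermat.Agent.S05.H38_Gal
import Fermat.Agent.S05.H79_VarChange
import Fermat.Agent.S13.H70_Inertia
import Fermat.Agent.S13.H89_GF1

/-!
# Inertia at `2` acts unipotently on the `p`-torsion of the Frey curve (S13 / LOC2-FREY, helper73)

Instantiation of helper70's abstract `H70.unipotent` (node model `y² + xy = x³ + a₂x² + a₄x` in
residue characteristic `2`) at a valuation subring `A` of `Qbar` over `2`, for the frozen Frey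
curve `P.freyCurve = ⟨1, (b^p - 1 - a^p)/4, 0, -a^p b^p/16, 0⟩`:

`frey_unipotent_at_two : σ ∈ A.inertiaSubgroupIn ℚ → σ • (σ • x - x) = σ • x - x` for all
`x ∈ E[p](Qbar)` — hypothesis `h2` of `H35.cofixedLine_of_local`.
-/

set_option autoImplicit false
set_option linter.style.haveILetI false

namespace Fermat.Agent.S13.H73

open WeierstrassCurve WeierstrassCurve.Affine WeierstrassCurve.Affine.Point
open Fermat.Agent.S05

local notation "Qbar" => AlgebraicClosure ℚ

attribute [local instance 10000] AlgebraicClosure.instAlgebra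

/-! ### Arithmetic of the Frey coefficients at `2` -/

section arith

variable (P : FreyPackage)

lemma frey_two_dvd_b : (2 : ℤ) ∣ P.b := (ZMod.intCast_zmod_eq_zero_iff_dvd P.b 2).1 P.hb2

/-- `32 ∣ b ^ p` -/
lemma frey_thirtytwo_dvd_b_pow : (32 : ℤ) ∣ P.b ^ P.p := by
  obtain ⟨k, hk⟩ := frey_two_dvd_b P
  have h5 := P.hp5
  obtain ⟨m, hm⟩ : ∃ m, P.p = 5 + m := ⟨P.p - 5, by omega⟩
  rw [hk, hm, mul_pow, pow_add]
  exact ⟨2 ^ m * k ^ (5 + m), by ring⟩

/-- `a ^ p ≡ 3 mod 4` -/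
lemma frey_a_pow_mod_four : ((P.a ^ P.p : ℤ) : ZMod 4) = 3 := by
  push_cast
  rw [P.ha4]
  obtain ⟨k, hk⟩ := P.hp_odd
  rw [hk, pow_succ, pow_mul]
  have : (3 : ZMod 4) ^ 2 = 1 := by decide
  rw [this, one_pow, one_mul]

lemma frey_four_dvd : (4 : ℤ) ∣ P.b ^ P.p - 1 - P.a ^ P.p := by
  apply (ZMod.intCast_zmod_eq_zero_iff_dvd (P.b ^ P.p - 1 - P.a ^ P.p) 4).1
  have hb : ((P.b ^ P.p : ℤ) : ZMod 4) = 0 := by
    rw [ZMod.intCast_zmod_eq_zero_iff_dvd]
    exact dvd_trans (by norm_num : ((4 : ℕ) : ℤ) ∣ 32) (frey_thirtytwo_dvd_b_pow P)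
  have ha := frey_a_pow_mod_four P
  rw [Int.cast_sub, Int.cast_sub, hb, ha]
  decide

/-- the integer `a₂` of the Frey curve -/
noncomputable def freyA2 : ℤ := (frey_four_dvd P).choose

lemma freyA2_spec : P.b ^ P.p - 1 - P.a ^ P.p = 4 * freyA2 P := (frey_four_dvd P).choose_spec

/-- `b ^ p / 32` -/
noncomputable def freyB32 : ℤ := (frey_thirtytwo_dvd_b_pow P).choose

lemma freyB32_spec : P.b ^ P.p = 32 * freyB32 P := (frey_thirtytwo_dvd_b_pow P).choose_spec

/-- the integer `a₄` of the Frey curve -/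
noncomputable def freyA4 : ℤ := -(P.a ^ P.p) * (2 * freyB32 P)

lemma two_dvd_freyA4 : (2 : ℤ) ∣ freyA4 P := ⟨-(P.a ^ P.p) * freyB32 P, by unfold freyA4; ring⟩

lemma freyA4_ne_zero : freyA4 P ≠ 0 := by
  unfold freyA4
  have hb : freyB32 P ≠ 0 := by
    intro h
    have := freyB32_spec P
    rw [h, mul_zero] at this
    exact pow_ne_zero _ P.hb0 this
  exact mul_ne_zero (neg_ne_zero.mpr (pow_ne_zero _ P.ha0)) (mul_ne_zero two_ne_zero hb)

lemma freyCurve_a₂ : P.freyCurve.a₂ = (freyA2 P : ℚ) := by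
  have h := congrArg (fun n : ℤ => (n : ℚ)) (freyA2_spec P)
  simp only [Int.cast_sub, Int.cast_pow, Int.cast_one, Int.cast_mul, Int.cast_ofNat] at h
  change ((P.b : ℚ) ^ P.p - 1 - (P.a : ℚ) ^ P.p) / 4 = _
  rw [h]
  ring

lemma freyCurve_a₄ : P.freyCurve.a₄ = (freyA4 P : ℚ) := by
  have h := congrArg (fun n : ℤ => (n : ℚ)) (freyB32_spec P)
  simp only [Int.cast_pow, Int.cast_mul, Int.cast_ofNat] at h
  change -((P.a : ℚ) ^ P.p) * ((P.b : ℚ) ^ P.p) / 16 = _
  unfold freyA4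
  push_cast
  rw [h]
  ring

/-- over `Qbar` the Frey curve is literally helper70's node model -/
lemma freyCurve_baseChange_eq :
    (P.freyCurve⁄Qbar) = H70.nodeW ((freyA2 P : ℤ) : Qbar) ((freyA4 P : ℤ) : Qbar) := by
  ext
  · change algebraMap ℚ Qbar P.freyCurve.a₁ = 1
    change algebraMap ℚ Qbar 1 = 1
    exact map_one _
  · change algebraMap ℚ Qbar P.freyCurve.a₂ = _
    rw [freyCurve_a₂, map_intCast]; rfl
  · change algebraMap ℚ Qbar P.freyCurve.a₃ = 0
    change algebraMap ℚ Qbar 0 = 0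
    exact map_zero _
  · change algebraMap ℚ Qbar P.freyCurve.a₄ = _
    rw [freyCurve_a₄, map_intCast]; rfl
  · change algebraMap ℚ Qbar P.freyCurve.a₆ = 0
    change algebraMap ℚ Qbar 0 = 0
    exact map_zero _

end arith

/-! ### The local statement at a place over `2` -/

section local2

variable (P : FreyPackage) {A : ValuationSubring Qbar} {σ : Qbar ≃ₐ[ℚ] Qbar}

/-- the action of `σ` transported to the node model over `Qbar` -/
noncomputable def phi2 (σ : Qbar ≃ₐ[ℚ] Qbar) :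
    (H70.nodeW ((freyA2 P : ℤ) : Qbar) ((freyA4 P : ℤ) : Qbar)).toAffine.Point →+
      (H70.nodeW ((freyA2 P : ℤ) : Qbar) ((freyA4 P : ℤ) : Qbar)).toAffine.Point :=
  ((H79.pointCongr (freyCurve_baseChange_eq P)).toAddMonoidHom.comp
    (Point.map (W' := P.freyCurve.toAffine) σ.toAlgHom)).comp
    (H79.pointCongr (freyCurve_baseChange_eq P)).symm.toAddMonoidHom

lemma pointCongr_symm_some2 {x y : Qbar}
    (h : (H70.nodeW ((freyA2 P : ℤ) : Qbar) ((freyA4 P : ℤ) : Qbar)).toAffine.Nonsingular x y) :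
    ∃ h', (H79.pointCongr (freyCurve_baseChange_eq P)).symm (Point.some x y h) =
      Point.some x y h' := by
  have h' : (P.freyCurve⁄Qbar).toAffine.Nonsingular x y := (freyCurve_baseChange_eq P) ▸ h
  refine ⟨h', ?_⟩
  apply (H79.pointCongr (freyCurve_baseChange_eq P)).injective
  rw [AddEquiv.apply_symm_apply, H79.pointCongr_some]

lemma coordAction_phi2 (σ : Qbar ≃ₐ[ℚ] Qbar) :
    H70.CoordAction ((freyA2 P : ℤ) : Qbar) ((freyA4 P : ℤ) : Qbar) (σ : Qbar →+* Qbar)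
      (phi2 P σ) := by
  constructor
  intro x y h
  obtain ⟨h', e⟩ := pointCongr_symm_some2 P h
  have h'' : (P.freyCurve⁄Qbar).toAffine.Nonsingular (σ x) (σ y) :=
    H38.nonsingular_apply P.freyCurve σ h'
  refine ⟨(freyCurve_baseChange_eq P) ▸ h'', ?_⟩
  simp only [phi2, AddMonoidHom.comp_apply, AddEquiv.coe_toAddMonoidHom]
  rw [e]
  erw [Point.map_some]
  exact H79.pointCongr_some _ _

lemma resTrivial_of_mem_inertia (hσ : σ ∈ A.inertiaSubgroupIn ℚ) :
    H5.ResTrivial A.valuation (σ : Qbar →+* Qbar) := fun _ hz =>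
  H38.valuation_apply_sub_lt_one hσ hz

/-- no `p`-torsion in the kernel of reduction at a place over `2` -/
lemma frey_noTorsionInE1 (hA : A.LiesOverPrime 2) :
    H18.NoTorsionInE1 A.valuation
      (H70.nodeW ((freyA2 P : ℤ) : Qbar) ((freyA4 P : ℤ) : Qbar)).toAffine P.p := by
  set W := H70.nodeW ((freyA2 P : ℤ) : Qbar) ((freyA4 P : ℤ) : Qbar) with hW
  have hmem : ∀ n : ℤ, ((n : ℤ) : Qbar) ∈ A := fun n =>
    (A.valuation_le_one_iff _).mp (H38.valuation_intCast_le_one A n)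
  have ha1 : W.a₁ ∈ A := by rw [hW, H70.nodeW_a₁]; exact A.one_mem
  have ha2 : W.a₂ ∈ A := by rw [hW, H70.nodeW_a₂]; exact hmem _
  have ha3 : W.a₃ ∈ A := by rw [hW, H70.nodeW_a₃]; exact A.zero_mem
  have ha4 : W.a₄ ∈ A := by rw [hW, H70.nodeW_a₄]; exact hmem _
  have ha6 : W.a₆ ∈ A := by rw [hW, H70.nodeW_a₆]; exact A.zero_mem
  obtain ⟨hb2, hb4, hb6, hb8⟩ := H89.b_mem_of_a_mem W A ha1 ha2 ha3 ha4 ha6
  have hp2 : P.p ≠ 2 := by have := P.hp5; omega
  have hpv : A.valuation ((P.p : ℕ) : Qbar) = 1 :=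
    H35.valuation_natCast_eq_one_of_prime_ne Nat.prime_two hA P.pp hp2
  have hp0 : ((P.p : ℕ) : Qbar) ≠ 0 := by
    intro h0; rw [h0, _root_.map_zero] at hpv; exact zero_ne_one hpv
  have hpinv : ((P.p : ℕ) : Qbar)⁻¹ ∈ A := by
    rw [← A.valuation_le_one_iff, map_inv₀, hpv, inv_one]
  intro Q hQ hE
  cases Q with
  | zero => rfl
  | some X Y h =>
    exfalso
    have hx := H89.xCoord_mem_of_nsmul_eq_zero W A hb2 hb4 hb6 hb8 hpinv hp0 hQ
    rw [H67.xCoord_some, ← A.valuation_le_one_iff] at hx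
    rw [H18.inE1_some] at hE
    exact absurd hx (not_le.mpr hE)

/-- **coordinate form**: for `σ` in the inertia group at a place over `2` and `Q` a `p`-torsion
point of the node model, `φ (φ Q - Q) = φ Q - Q`. -/
theorem phi2_unipotent (hA : A.LiesOverPrime 2) (hσ : σ ∈ A.inertiaSubgroupIn ℚ)
    {Q : (H70.nodeW ((freyA2 P : ℤ) : Qbar) ((freyA4 P : ℤ) : Qbar)).toAffine.Point}
    (hQ : P.p • Q = 0) : phi2 P σ (phi2 P σ Q - Q) = phi2 P σ Q - Q := by
  have h2 : A.valuation (2 : Qbar) < 1 := by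
    have := H38.valuation_natCast_lt_one hA
    simpa using this
  have ha2 : A.valuation ((freyA2 P : ℤ) : Qbar) ≤ 1 := H38.valuation_intCast_le_one A _
  have ha4 : A.valuation ((freyA4 P : ℤ) : Qbar) < 1 :=
    H35.valuation_intCast_lt_one_of_dvd hA (by exact_mod_cast two_dvd_freyA4 P)
  have ha40 : ((freyA4 P : ℤ) : Qbar) ≠ 0 := by
    exact_mod_cast freyA4_ne_zero P
  have hp2 : P.p ≠ 2 := by have := P.hp5; omega
  exact H70.unipotent A.valuation h2 ha2 ha4 ha40 P.pp hp2 (frey_noTorsionInE1 P hA)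
    (resTrivial_of_mem_inertia hσ) (fun z => H38.valuation_apply hσ z) (coordAction_phi2 P σ) hQ

end local2

/-! ### The statement in the frozen vocabulary -/

section frozen

variable (P : FreyPackage)

/-- **Inertia at `2` is unipotent on `E[p]`** (`h2` of `H35.cofixedLine_of_local`). -/
theorem frey_unipotent_at_two (A : ValuationSubring Qbar) (hA : A.LiesOverPrime 2)
    (σ : Qbar ≃ₐ[ℚ] Qbar) (hσ : σ ∈ A.inertiaSubgroupIn ℚ)
    (x : Submodule.torsionBy ℤ (P.freyCurve⁄Qbar).Point P.p) :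
    σ • (σ • x - x) = σ • x - x := by
  apply Subtype.ext
  obtain ⟨Q, hQ⟩ := x
  rw [Submodule.mem_torsionBy_iff] at hQ
  change σ • (σ • Q - Q) = σ • Q - Q
  set e := H79.pointCongr (freyCurve_baseChange_eq P) with he
  have hmap : ∀ R : (P.freyCurve⁄Qbar).Point, σ • R = e.symm (phi2 P σ (e R)) := by
    intro R
    simp only [phi2, AddMonoidHom.comp_apply, AddEquiv.coe_toAddMonoidHom]
    rw [he, AddEquiv.symm_apply_apply, AddEquiv.symm_apply_apply]
    rfl
  have hQ' : P.p • e Q = 0 := by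
    rw [← map_nsmul, ← natCast_zsmul, hQ, _root_.map_zero]
  have key := phi2_unipotent P hA hσ hQ'
  rw [hmap (σ • Q - Q), hmap Q, map_sub, AddEquiv.apply_symm_apply, key, map_sub,
    AddEquiv.symm_apply_apply]

end frozen

end Fermat.Agent.S13.H73
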