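import Mathlib

/-!
# Ward's relation for the normalised elliptic divisibility sequence `normEDS`

For every commutative ring `R` and `b c d : R`, the sequence `W = normEDS b c d` satisfies
`W (m + n) * W (m - n) = W (m + 1) * W (m - 1) * W n ^ 2 - W (n + 1) * W (n - 1) * W m ^ 2`
for all integers `m n`.
-/

set_option autoImplicit false

namespace Fermat.Agent.S13.H74

section Abstract

variable {R : Type*} [CommRing R] (W : ℤ → R)

/-- `W (i + j) * W (i - j)` -/
def atomA (i j : ℤ) : R := W (i + j) * W (i - j)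

/-- `W (i + 1) * W (i - 1)` -/
def seqB (i : ℤ) : R := W (i + 1) * W (i - 1)

/-- `W i ^ 2` -/
def seqC (i : ℤ) : R := W i ^ 2

/-- the bracket `B i * C j - B j * C i` -/
def brk (i j : ℤ) : R := seqB W i * seqC W j - seqB W j * seqC W i

/-- the three term expression in the atoms -/
def plk (i j k l : ℤ) : R :=
  atomA W i j * atomA W k l - atomA W i k * atomA W j l + atomA W i l * atomA W j k

/-- Ward's relation at the pair `(i, j)` -/
def Ward (i j : ℤ) : Prop := atomA W i j = brk W i j

/-- the hypotheses on the sequence -/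
structure IsNormSeq : Prop where
  odd : ∀ n : ℤ, W (-n) = -W n
  zero : W 0 = 0
  one : W 1 = 1
  oddRec : ∀ m : ℤ, W (2 * m + 1) = W (m + 2) * W m ^ 3 - W (m - 1) * W (m + 1) ^ 3
  evenRec : ∀ m : ℤ, W (2 * m) * W 2 =
    W (m - 1) ^ 2 * W m * W (m + 2) - W (m - 2) * W m * W (m + 1) ^ 2

variable {W}

lemma brk_plucker (i j k l : ℤ) :
    brk W i j * brk W k l - brk W i k * brk W j l + brk W i l * brk W j k = 0 := by
  simp only [brk]; ring

lemma plk_eq_zero_of_ward {i j k l : ℤ} (hij : Ward W i j) (hkl : Ward W k l)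
    (hik : Ward W i k) (hjl : Ward W j l) (hil : Ward W i l) (hjk : Ward W j k) :
    plk W i j k l = 0 := by
  unfold Ward at *
  rw [plk, hij, hkl, hik, hjl, hil, hjk]
  exact brk_plucker i j k l

lemma plk_one_zero (h1 : W 1 = 1) (m j : ℤ) :
    plk W m j 1 0 = atomA W m j - brk W m j := by
  simp only [plk, atomA, brk, seqB, seqC, add_zero, sub_zero, h1]
  ring

lemma plk_refl_one (i k : ℤ) :
    plk W (i + k - 1) (i - k) 1 0 = plk W i (i - 1) k (k - 1) := by
  simp only [plk, atomA]
  ring_nf

lemma plk_refl_two (i j : ℤ) :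
    plk W (2 * i - j) j (j + 1) (j - 1) = plk W (i + 1) (i - 1) i (2 * j - i) := by
  simp only [plk, atomA]
  ring_nf

namespace IsNormSeq

variable (hW : IsNormSeq W)
include hW

lemma neg_one : W (-1) = -1 := by rw [hW.odd, hW.one]

lemma ward_symm {i j : ℤ} (h : Ward W i j) : Ward W j i := by
  unfold Ward at *
  have e : W (j - i) = -W (i - j) := by rw [← hW.odd]; congr 1; ring
  have e' : W (j + i) = W (i + j) := by rw [add_comm]
  simp only [atomA, brk] at *
  rw [e, e']
  linear_combination -h

lemma ward_neg_left {i j : ℤ} (h : Ward W i j) : Ward W (-i) j := by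
  unfold Ward at *
  have e1 : W (-i + j) = -W (i - j) := by rw [← hW.odd]; congr 1; ring
  have e2 : W (-i - j) = -W (i + j) := by rw [← hW.odd]; congr 1; ring
  have e3 : W (-i + 1) = -W (i - 1) := by rw [← hW.odd]; congr 1; ring
  have e4 : W (-i - 1) = -W (i + 1) := by rw [← hW.odd]; congr 1; ring
  have e5 : W (-i) = -W i := hW.odd i
  simp only [atomA, brk, seqB, seqC] at *
  rw [e1, e2, e3, e4, e5]
  linear_combination h

lemma ward_neg_right {i j : ℤ} (h : Ward W i j) : Ward W i (-j) :=
  hW.ward_symm (hW.ward_neg_left (hW.ward_symm h))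

lemma ward_self (i : ℤ) : Ward W i i := by
  unfold Ward
  simp only [atomA, brk, sub_self, hW.zero, mul_zero]

lemma ward_zero_right (i : ℤ) : Ward W i 0 := by
  unfold Ward
  simp only [atomA, brk, seqB, seqC, add_zero, sub_zero, zero_add, zero_sub, hW.zero, hW.one,
    hW.neg_one]
  ring

lemma ward_one_right (i : ℤ) : Ward W i 1 := by
  unfold Ward
  have e : (1 : ℤ) + 1 = 2 := rfl
  simp only [atomA, brk, seqB, seqC, sub_self, e, hW.zero, hW.one]
  ring

lemma ward_pred (i : ℤ) : Ward W i (i - 1) := by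
  unfold Ward
  have h := hW.oddRec (i - 1)
  have e1 : 2 * (i - 1) + 1 = i + (i - 1) := by ring
  have e2 : i - 1 + 2 = i + 1 := by ring
  have e3 : i - 1 - 1 = i - 2 := by ring
  have e4 : i - 1 + 1 = i := by ring
  have e5 : i - (i - 1) = 1 := by ring
  rw [e1, e2, e3, e4] at h
  simp only [atomA, brk, seqB, seqC, e3, e4, e5, hW.one, h]
  ring

lemma ward_pred_two (i : ℤ) : Ward W i (i - 2) := by
  unfold Ward
  have h := hW.evenRec (i - 1)
  have e1 : 2 * (i - 1) = i + (i - 2) := by ring
  have e2 : i - 1 + 2 = i + 1 := by ring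
  have e3 : i - 1 - 1 = i - 2 := by ring
  have e4 : i - 1 + 1 = i := by ring
  have e5 : i - (i - 2) = 2 := by ring
  have e6 : i - 1 - 2 = i - 3 := by ring
  have e7 : i - 2 + 1 = i - 1 := by ring
  have e8 : i - 2 - 1 = i - 3 := by ring
  rw [e1, e2, e3, e4, e6] at h
  simp only [atomA, brk, seqB, seqC, e5, e7, e8, h]
  ring

/-- Case 1: opposite parity, via the first reflection. -/
lemma ward_case_one {m : ℤ}
    (IH : ∀ i j : ℤ, |i| ≤ m → |j| ≤ m → Ward W i j) {i k : ℤ}
    (hk : 1 ≤ k) (hki : k ≤ i) (hi : i ≤ m) : Ward W (i + k - 1) (i - k) := by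
  have hi0 : |i| ≤ m := abs_le.mpr ⟨by omega, by omega⟩
  have hi1 : |i - 1| ≤ m := abs_le.mpr ⟨by omega, by omega⟩
  have hk0 : |k| ≤ m := abs_le.mpr ⟨by omega, by omega⟩
  have hk1 : |k - 1| ≤ m := abs_le.mpr ⟨by omega, by omega⟩
  have h0 : plk W i (i - 1) k (k - 1) = 0 :=
    plk_eq_zero_of_ward (IH _ _ hi0 hi1) (IH _ _ hk0 hk1) (IH _ _ hi0 hk0) (IH _ _ hi1 hk1)
      (IH _ _ hi0 hk1) (IH _ _ hi1 hk0)
  rw [← plk_refl_one, plk_one_zero hW.one] at h0
  exact sub_eq_zero.mp h0

end IsNormSeq

/-- **Ward's relation** in a domain where the sequence has no zero except at `0`. -/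
theorem ward_of_isNormSeq [IsDomain R] (hW : IsNormSeq W) (hnz : ∀ j : ℤ, j ≠ 0 → W j ≠ 0) :
    ∀ m : ℕ, ∀ i j : ℤ, |i| ≤ (m : ℤ) → |j| ≤ (m : ℤ) → Ward W i j := by
  intro m
  induction m with
  | zero =>
    intro i j hi hj
    have hi' : i = 0 := by
      have := abs_nonneg i
      exact abs_eq_zero.mp (le_antisymm (by simpa using hi) this)
    have hj' : j = 0 := by
      have := abs_nonneg j
      exact abs_eq_zero.mp (le_antisymm (by simpa using hj) this)
    subst hi' hj'
    exact hW.ward_self 0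
  | succ m IH =>
    -- the key claim: `Ward W (m+1) j` for `0 ≤ j ≤ m + 1`
    have key : ∀ j : ℤ, 0 ≤ j → j ≤ (m : ℤ) + 1 → Ward W ((m : ℤ) + 1) j := by
      -- case 1 first
      have c1 : ∀ j : ℤ, 2 ≤ j → j ≤ (m : ℤ) + 1 - 3 → Odd ((m : ℤ) + 1 + j) →
          Ward W ((m : ℤ) + 1) j := by
        intro j hj2 hjm hodd
        obtain ⟨t, ht⟩ := hodd
        have h := hW.ward_case_one IH (i := t + 1) (k := (m : ℤ) + 1 - t)
          (by omega) (by omega) (by omega)
        have e1 : t + 1 + ((m : ℤ) + 1 - t) - 1 = (m : ℤ) + 1 := by ring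
        have e2 : t + 1 - ((m : ℤ) + 1 - t) = j := by omega
        rwa [e1, e2] at h
      intro j hj0 hjm
      by_cases h0 : j = 0
      · subst h0; exact hW.ward_zero_right _
      by_cases h1 : j = 1
      · subst h1; exact hW.ward_one_right _
      by_cases hm0 : j = (m : ℤ) + 1
      · rw [hm0]; exact hW.ward_self _
      by_cases hm1 : j = (m : ℤ) + 1 - 1
      · rw [hm1]; exact hW.ward_pred _
      by_cases hm2 : j = (m : ℤ) + 1 - 2
      · rw [hm2]; exact hW.ward_pred_two _
      rcases Int.even_or_odd ((m : ℤ) + 1 + j) with heven | hodd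
      · -- case 2
        obtain ⟨i, hi⟩ := heven
        have hjm4 : j ≤ (m : ℤ) + 1 - 4 := by omega
        have hj2 : 2 ≤ j := by omega
        have b1 : |i + 1| ≤ (m : ℤ) := abs_le.mpr ⟨by omega, by omega⟩
        have b2 : |i - 1| ≤ (m : ℤ) := abs_le.mpr ⟨by omega, by omega⟩
        have b3 : |i| ≤ (m : ℤ) := abs_le.mpr ⟨by omega, by omega⟩
        have b4 : |2 * j - i| ≤ (m : ℤ) := abs_le.mpr ⟨by omega, by omega⟩
        have hp : plk W (i + 1) (i - 1) i (2 * j - i) = 0 :=
          plk_eq_zero_of_ward (IH _ _ b1 b2) (IH _ _ b3 b4) (IH _ _ b1 b3) (IH _ _ b2 b4)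
            (IH _ _ b1 b4) (IH _ _ b2 b3)
        rw [← plk_refl_two] at hp
        have e : 2 * i - j = (m : ℤ) + 1 := by omega
        rw [e] at hp
        -- the five known atoms
        have a2 : Ward W ((m : ℤ) + 1) (j + 1) := by
          refine c1 (j + 1) (by omega) (by omega) ?_
          have : (m : ℤ) + 1 + (j + 1) = 2 * i + 1 := by omega
          rw [this]; exact odd_two_mul_add_one i
        have a4 : Ward W ((m : ℤ) + 1) (j - 1) := by
          by_cases hj1 : j - 1 = 1
          · rw [hj1]; exact hW.ward_one_right _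
          · refine c1 (j - 1) (by omega) (by omega) ?_
            have : (m : ℤ) + 1 + (j - 1) = 2 * (i - 1) + 1 := by omega
            rw [this]; exact odd_two_mul_add_one (i - 1)
        have bj : |j| ≤ (m : ℤ) := abs_le.mpr ⟨by omega, by omega⟩
        have bj1 : |j + 1| ≤ (m : ℤ) := abs_le.mpr ⟨by omega, by omega⟩
        have bj2 : |j - 1| ≤ (m : ℤ) := abs_le.mpr ⟨by omega, by omega⟩
        have a1 : Ward W (j + 1) (j - 1) := IH _ _ bj1 bj2
        have a3 : Ward W j (j - 1) := IH _ _ bj bj2
        have a5 : Ward W j (j + 1) := IH _ _ bj bj1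
        have hnz' : brk W (j + 1) (j - 1) ≠ 0 := by
          rw [← a1]
          simp only [atomA]
          have e1 : j + 1 + (j - 1) = 2 * j := by ring
          have e2 : j + 1 - (j - 1) = 2 := by ring
          rw [e1, e2]
          exact mul_ne_zero (hnz _ (by omega)) (hnz _ (by norm_num))
        unfold Ward at a1 a2 a3 a4 a5 ⊢
        rw [plk, a1, a2, a3, a4, a5] at hp
        have hpl := brk_plucker (W := W) ((m : ℤ) + 1) j (j + 1) (j - 1)
        have : (atomA W ((m : ℤ) + 1) j - brk W ((m : ℤ) + 1) j) * brk W (j + 1) (j - 1) = 0 := by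
          linear_combination hp - hpl
        rcases mul_eq_zero.mp this with h | h
        · exact sub_eq_zero.mp h
        · exact absurd h hnz'
      · exact c1 j (by omega) (by omega) hodd
    -- now assemble using the symmetries
    have key' : ∀ i j : ℤ, |i| = (m : ℤ) + 1 → |j| ≤ (m : ℤ) + 1 → Ward W i j := by
      intro i j hi hj
      have hj' : Ward W ((m : ℤ) + 1) |j| := key _ (abs_nonneg j) hj
      have hj'' : Ward W ((m : ℤ) + 1) j := by
        rcases abs_choice j with h | h
        · rwa [h] at hj'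
        · rw [h] at hj'
          have := hW.ward_neg_right hj'
          rwa [neg_neg] at this
      rcases abs_choice i with h | h
      · rw [h] at hi; rwa [hi]
      · rw [h] at hi
        have : i = -((m : ℤ) + 1) := by omega
        rw [this]
        exact hW.ward_neg_left hj''
    intro i j hi hj
    push_cast at hi hj
    by_cases hi' : |i| = (m : ℤ) + 1
    · exact key' i j hi' hj
    by_cases hj' : |j| = (m : ℤ) + 1
    · exact hW.ward_symm (key' j i hj' hi)
    · exact IH i j (by omega) (by omega)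

end Abstract

/-! ## The sequence `normEDS` -/

section NormEDS

variable {R : Type*} [CommRing R]

lemma isNormSeq_normEDS (b c d : R) : IsNormSeq (normEDS b c d) where
  odd := normEDS_neg b c d
  zero := normEDS_zero b c d
  one := normEDS_one b c d
  oddRec := normEDS_odd b c d
  evenRec m := by rw [normEDS_two]; exact normEDS_even b c d m

/-- for `(b, c, d) = (2, 3, 2)` the sequence is the identity -/
lemma normEDS_two_three_two_nat (n : ℕ) : normEDS (2 : ℤ) 3 2 (n : ℤ) = n := by
  induction n using Nat.strong_induction_on with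
  | _ n IH =>
    by_cases h4 : n ≤ 4
    · interval_cases n
      · simp
      · simp
      · simp
      · simp
      · have : ((4 : ℕ) : ℤ) = 4 := rfl
        rw [this, normEDS_four]; norm_num
    · have h4 : 4 < n := not_le.mp h4
      rcases Nat.even_or_odd' n with ⟨k, rfl | rfl⟩
      · have hk : 3 ≤ k := by omega
        have h := normEDS_even (2 : ℤ) 3 2 (k : ℤ)
        have e1 : ((k : ℤ) - 1) = ((k - 1 : ℕ) : ℤ) := by omega
        have e2 : ((k : ℤ) - 2) = ((k - 2 : ℕ) : ℤ) := by omega
        have e3 : ((k : ℤ) + 1) = ((k + 1 : ℕ) : ℤ) := by push_cast; ring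
        have e4 : ((k : ℤ) + 2) = ((k + 2 : ℕ) : ℤ) := by push_cast; ring
        rw [e1, e2, e3, e4, IH (k - 1) (by omega), IH (k - 2) (by omega), IH k (by omega),
          IH (k + 1) (by omega), IH (k + 2) (by omega)] at h
        have e5 : ((2 * k : ℕ) : ℤ) = 2 * (k : ℤ) := by push_cast; ring
        rw [e5]
        have h2 : (2 : ℤ) ≠ 0 := by norm_num
        apply mul_right_cancel₀ h2
        rw [h]
        have f1 : ((k - 1 : ℕ) : ℤ) = (k : ℤ) - 1 := by omega
        have f2 : ((k - 2 : ℕ) : ℤ) = (k : ℤ) - 2 := by omega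
        rw [f1, f2]
        push_cast
        ring
      · have hk : 2 ≤ k := by omega
        have h := normEDS_odd (2 : ℤ) 3 2 (k : ℤ)
        have e1 : ((k : ℤ) - 1) = ((k - 1 : ℕ) : ℤ) := by omega
        have e3 : ((k : ℤ) + 1) = ((k + 1 : ℕ) : ℤ) := by push_cast; ring
        have e4 : ((k : ℤ) + 2) = ((k + 2 : ℕ) : ℤ) := by push_cast; ring
        rw [e1, e3, e4, IH (k - 1) (by omega), IH k (by omega),
          IH (k + 1) (by omega), IH (k + 2) (by omega)] at h
        have e5 : ((2 * k + 1 : ℕ) : ℤ) = 2 * (k : ℤ) + 1 := by push_cast; ring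
        rw [e5, h]
        have f1 : ((k - 1 : ℕ) : ℤ) = (k : ℤ) - 1 := by omega
        rw [f1]
        push_cast
        ring

lemma normEDS_two_three_two (n : ℤ) : normEDS (2 : ℤ) 3 2 n = n := by
  rcases Int.eq_nat_or_neg n with ⟨k, rfl | rfl⟩
  · exact normEDS_two_three_two_nat k
  · rw [normEDS_neg, normEDS_two_three_two_nat]

open MvPolynomial in
/-- the universal sequence has no zero except at `0` -/
lemma normEDS_univ_ne_zero (j : ℤ) (hj : j ≠ 0) :
    normEDS (X 0 : MvPolynomial (Fin 3) ℤ) (X 1) (X 2) j ≠ 0 := by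
  intro h
  have h' := congrArg (MvPolynomial.eval ![(2 : ℤ), 3, 2]) h
  rw [map_normEDS, map_zero] at h'
  simp only [eval_X, Matrix.cons_val_zero, Matrix.cons_val_one, Matrix.cons_val_two,
    Matrix.head_cons, Matrix.tail_cons] at h'
  rw [normEDS_two_three_two] at h'
  exact hj h'

open MvPolynomial in
/-- **Ward's relation** for `normEDS` over an arbitrary commutative ring. -/
theorem normEDS_ward (b c d : R) (m n : ℤ) :
    normEDS b c d (m + n) * normEDS b c d (m - n) =
      normEDS b c d (m + 1) * normEDS b c d (m - 1) * normEDS b c d n ^ 2 -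
        normEDS b c d (n + 1) * normEDS b c d (n - 1) * normEDS b c d m ^ 2 := by
  have hU := ward_of_isNormSeq
    (isNormSeq_normEDS (X 0 : MvPolynomial (Fin 3) ℤ) (X 1) (X 2)) normEDS_univ_ne_zero
    (max m.natAbs n.natAbs) m n
    (by rw [← Int.natCast_natAbs]; exact_mod_cast le_max_left _ _)
    (by rw [← Int.natCast_natAbs]; exact_mod_cast le_max_right _ _)
  have h' := congrArg (MvPolynomial.aeval (R := ℤ) ![b, c, d]) hU
  simp only [atomA, brk, seqB, seqC, map_mul, map_sub, map_pow] at h'
  simp only [map_normEDS, aeval_X, Matrix.cons_val_zero, Matrix.cons_val_one,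
    Matrix.cons_val_two, Matrix.head_cons, Matrix.tail_cons] at h'
  exact h'

/-- the Somos-4 form (`n = 2`) -/
theorem normEDS_somos_four (b c d : R) (m : ℤ) :
    normEDS b c d (m + 2) * normEDS b c d (m - 2) =
      normEDS b c d (m + 1) * normEDS b c d (m - 1) * b ^ 2 - c * normEDS b c d m ^ 2 := by
  have h := normEDS_ward b c d m 2
  have e1 : (2 : ℤ) + 1 = 3 := rfl
  have e2 : (2 : ℤ) - 1 = 1 := rfl
  rw [e1, e2, normEDS_two, normEDS_three, normEDS_one, mul_one] at h
  exact h

/-- the three index form of Ward's relation -/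
theorem normEDS_ward_three (b c d : R) (p q r : ℤ) :
    normEDS b c d (p + q) * normEDS b c d (p - q) * normEDS b c d r ^ 2 =
      normEDS b c d (p + r) * normEDS b c d (p - r) * normEDS b c d q ^ 2 -
        normEDS b c d (q + r) * normEDS b c d (q - r) * normEDS b c d p ^ 2 := by
  have h1 := normEDS_ward b c d p q
  have h2 := normEDS_ward b c d p r
  have h3 := normEDS_ward b c d q r
  linear_combination normEDS b c d r ^ 2 * h1 - normEDS b c d q ^ 2 * h2 +
    normEDS b c d p ^ 2 * h3

theorem isEllipticSequence_normEDS (b c d : R) : IsEllipticSequence (normEDS b c d) := by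
  intro p q r
  have h := normEDS_ward_three b c d p q r
  simp only [IsEllipticNet.rel, add_zero]
  linear_combination h

end NormEDS

end Fermat.Agent.S13.H74
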