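/-
helper83, project S13 / STRUCT: the canonical normalised sequence `normEDS b c d` of Mathlib
satisfies Ward's relation

  W (m + n) * W (m - n) = W (m + 1) * W (m - 1) * W n ^ 2 - W (n + 1) * W (n - 1) * W m ^ 2

for all integers `m n`, over every commutative ring; hence it is an elliptic sequence
(`IsEllipticSequence`).  Pure algebra, Mathlib only.
-/
import Mathlib

namespace Fermat.Agent.S13.H83

variable {R : Type*} [CommRing R]

/-- Ward's relation `T(m, n)` for a sequence `W`. -/
def Ward (W : ℤ → R) (m n : ℤ) : Prop :=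
  W (m + n) * W (m - n) = W (m + 1) * W (m - 1) * W n ^ 2 - W (n + 1) * W (n - 1) * W m ^ 2

/-- The four-index relator built from the products `W (i + j) * W (i - j)`. -/
def R4 (W : ℤ → R) (a b c d : ℤ) : R :=
  W (a + b) * W (a - b) * (W (c + d) * W (c - d))
    - W (a + c) * W (a - c) * (W (b + d) * W (b - d))
    + W (a + d) * W (a - d) * (W (b + c) * W (b - c))

section basics

variable {W : ℤ → R}

lemma ward_zero_right (h0 : W 0 = 0) (h1 : W 1 = 1) (hm1 : W (-1) = -1) (m : ℤ) :
    Ward W m 0 := by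
  unfold Ward
  simp only [add_zero, sub_zero, zero_add, zero_sub, h0, h1, hm1]
  ring

lemma ward_one_right (h0 : W 0 = 0) (h1 : W 1 = 1) (m : ℤ) : Ward W m 1 := by
  unfold Ward
  simp only [sub_self, h0, h1]
  ring

lemma ward_self (h0 : W 0 = 0) (m : ℤ) : Ward W m m := by
  unfold Ward
  simp only [sub_self, h0]
  ring

lemma ward_symm (hodd : ∀ n, W (-n) = -W n) {m n : ℤ} (h : Ward W m n) : Ward W n m := by
  unfold Ward at *
  rw [add_comm n m, ← neg_sub m n, hodd]
  linear_combination -h

lemma ward_neg_right (hodd : ∀ n, W (-n) = -W n) {m n : ℤ} (h : Ward W m n) :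
    Ward W m (-n) := by
  unfold Ward at *
  rw [← sub_eq_add_neg, sub_neg_eq_add, show -n + 1 = -(n - 1) by ring,
    show -n - 1 = -(n + 1) by ring, hodd, hodd, hodd]
  linear_combination h

lemma ward_neg_left (hodd : ∀ n, W (-n) = -W n) {m n : ℤ} (h : Ward W m n) :
    Ward W (-m) n := by
  unfold Ward at *
  rw [show -m + n = -(m - n) by ring, show -m - n = -(m + n) by ring,
    show -m + 1 = -(m - 1) by ring, show -m - 1 = -(m + 1) by ring, hodd, hodd, hodd, hodd, hodd]
  linear_combination h

/-- The reflection identity: `R4` is invariant under `x ↦ s - x`, `2 s = a + b + c + d`. -/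
lemma R4_reflect (hodd : ∀ n, W (-n) = -W n) (a b c d s : ℤ) (hs : a + b + c + d = 2 * s) :
    R4 W (s - a) (s - b) (s - c) (s - d) = R4 W a b c d := by
  unfold R4
  have e1 : s - a + (s - b) = c + d := by omega
  have e2 : s - a - (s - b) = -(a - b) := by ring
  have e3 : s - c + (s - d) = a + b := by omega
  have e4 : s - c - (s - d) = -(c - d) := by ring
  have e5 : s - a + (s - c) = b + d := by omega
  have e6 : s - a - (s - c) = -(a - c) := by ring
  have e7 : s - b + (s - d) = a + c := by omega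
  have e8 : s - b - (s - d) = -(b - d) := by ring
  have e9 : s - a + (s - d) = b + c := by omega
  have e10 : s - a - (s - d) = -(a - d) := by ring
  have e11 : s - b + (s - c) = a + d := by omega
  have e12 : s - b - (s - c) = -(b - c) := by ring
  rw [e1, e2, e3, e4, e5, e6, e7, e8, e9, e10, e11, e12]
  simp only [hodd]
  ring

/-- Pluecker: if Ward's relation holds for all six pairs, the relator vanishes. -/
lemma R4_eq_zero_of_ward (a b c d : ℤ) (hab : Ward W a b) (hac : Ward W a c) (had : Ward W a d)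
    (hbc : Ward W b c) (hbd : Ward W b d) (hcd : Ward W c d) : R4 W a b c d = 0 := by
  unfold Ward at *
  unfold R4
  linear_combination (W (c + d) * W (c - d)) * hab
    + (W (a + 1) * W (a - 1) * W b ^ 2 - W (b + 1) * W (b - 1) * W a ^ 2) * hcd
    - (W (b + d) * W (b - d)) * hac
    - (W (a + 1) * W (a - 1) * W c ^ 2 - W (c + 1) * W (c - 1) * W a ^ 2) * hbd
    + (W (b + c) * W (b - c)) * had
    + (W (a + 1) * W (a - 1) * W d ^ 2 - W (d + 1) * W (d - 1) * W a ^ 2) * hbc

/-- If the relator vanishes and five of the six Ward relations hold, so does the sixth, provided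
the cofactor is cancellable. -/
lemma ward_of_R4 [IsDomain R] (a b c d : ℤ) (hR : R4 W a b c d = 0)
    (hac : Ward W a c) (had : Ward W a d) (hbc : Ward W b c) (hbd : Ward W b d)
    (hcd : Ward W c d) (hne : W (c + d) * W (c - d) ≠ 0) : Ward W a b := by
  unfold Ward at *
  unfold R4 at hR
  apply mul_right_cancel₀ hne
  linear_combination hR + (W (b + d) * W (b - d)) * hac
    + (W (a + 1) * W (a - 1) * W c ^ 2 - W (c + 1) * W (c - 1) * W a ^ 2) * hbd
    - (W (b + c) * W (b - c)) * had
    - (W (a + 1) * W (a - 1) * W d ^ 2 - W (d + 1) * W (d - 1) * W a ^ 2) * hbc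
    - (W (a + 1) * W (a - 1) * W b ^ 2 - W (b + 1) * W (b - 1) * W a ^ 2) * hcd

lemma ward_succ (h1 : W 1 = 1)
    (hoddr : ∀ m, W (2 * m + 1) = W (m + 2) * W m ^ 3 - W (m - 1) * W (m + 1) ^ 3) (n : ℤ) :
    Ward W (n + 1) n := by
  unfold Ward
  rw [show n + 1 + n = 2 * n + 1 by ring, show n + 1 - n = 1 by ring,
    show n + 1 + 1 = n + 2 by ring, show n + 1 - 1 = n by ring, h1, hoddr n]
  ring

lemma ward_add_two
    (heven : ∀ m, W (2 * m) * W 2 =
      W (m - 1) ^ 2 * W m * W (m + 2) - W (m - 2) * W m * W (m + 1) ^ 2) (n : ℤ) :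
    Ward W (n + 2) n := by
  unfold Ward
  have h := heven (n + 1)
  rw [show n + 1 - 1 = n by ring, show n + 1 + 2 = n + 3 by ring,
    show n + 1 - 2 = n - 1 by ring, show n + 1 + 1 = n + 2 by ring] at h
  rw [show n + 2 + n = 2 * (n + 1) by ring, show n + 2 - n = 2 by ring,
    show n + 2 + 1 = n + 3 by ring, show n + 2 - 1 = n + 1 by ring]
  linear_combination h

end basics

/-- **Ward's relation over a domain**, for a sequence defined by the even and odd recursions with
nonvanishing terms. -/
theorem ward_of_domain [IsDomain R] {W : ℤ → R} (hodd : ∀ n, W (-n) = -W n) (h0 : W 0 = 0)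
    (h1 : W 1 = 1)
    (heven : ∀ m, W (2 * m) * W 2 =
      W (m - 1) ^ 2 * W m * W (m + 2) - W (m - 2) * W m * W (m + 1) ^ 2)
    (hoddr : ∀ m, W (2 * m + 1) = W (m + 2) * W m ^ 3 - W (m - 1) * W (m + 1) ^ 3)
    (hne : ∀ j : ℤ, j ≠ 0 → W j ≠ 0) (m n : ℤ) : Ward W m n := by
  have hm1 : W (-1) = -1 := by rw [hodd, h1]
  have key : ∀ M : ℕ, ∀ i j : ℤ, -(M : ℤ) ≤ i → i ≤ M → -(M : ℤ) ≤ j → j ≤ M → Ward W i j := by
    intro M
    induction M with
    | zero =>
      intro i j hi hi' hj hj'
      have hi0 : i = 0 := by simp at hi hi'; omega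
      have hj0 : j = 0 := by simp at hj hj'; omega
      subst hi0 hj0
      exact ward_self h0 0
    | succ M IH =>
      -- the odd case
      have hoddcase : ∀ n k : ℤ, 0 ≤ n → 1 ≤ k → (M : ℤ) + 1 = n + 2 * k + 1 →
          Ward W ((M : ℤ) + 1) n := by
        intro n k hn hk hM
        have hR : R4 W ((M : ℤ) + 1) n 1 0 = 0 := by
          rw [← R4_reflect hodd ((M : ℤ) + 1) n 1 0 (n + k + 1) (by omega)]
          apply R4_eq_zero_of_ward <;> apply IH <;> omega
        exact ward_of_R4 _ _ 1 0 hR (ward_one_right h0 h1 _) (ward_zero_right h0 h1 hm1 _)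
          (ward_one_right h0 h1 _) (ward_zero_right h0 h1 hm1 _) (ward_zero_right h0 h1 hm1 _)
          (by simp [h1])
      -- the even case
      have hevencase : ∀ n k : ℤ, 1 ≤ n → 2 ≤ k → (M : ℤ) + 1 = n + 2 * k →
          Ward W ((M : ℤ) + 1) n := by
        intro n k hn hk hM
        have hR : R4 W ((M : ℤ) + 1) n (n - 1) (n + 1) = 0 := by
          rw [← R4_reflect hodd ((M : ℤ) + 1) n (n - 1) (n + 1) (2 * n + k) (by omega)]
          apply R4_eq_zero_of_ward <;> apply IH <;> omega
        refine ward_of_R4 _ _ (n - 1) (n + 1) hR (hoddcase (n - 1) k (by omega) (by omega) (by omega))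
          (hoddcase (n + 1) (k - 1) (by omega) (by omega) (by omega))
          (IH _ _ (by omega) (by omega) (by omega) (by omega))
          (IH _ _ (by omega) (by omega) (by omega) (by omega))
          (IH _ _ (by omega) (by omega) (by omega) (by omega))
          (mul_ne_zero (hne _ (by omega)) (hne _ (by omega)))
      -- all `0 ≤ n ≤ M + 1`
      have hQ : ∀ n : ℤ, 0 ≤ n → n ≤ (M : ℤ) + 1 → Ward W ((M : ℤ) + 1) n := by
        intro n hn hn'
        rcases Int.even_or_odd' ((M : ℤ) + 1 - n) with ⟨k, hk | hk⟩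
        · -- even difference
          rcases lt_trichotomy k 1 with hk1 | hk1 | hk1
          · have : (M : ℤ) + 1 = n := by omega
            rw [this]; exact ward_self h0 n
          · have : (M : ℤ) + 1 = n + 2 := by omega
            rw [this]; exact ward_add_two heven n
          · rcases eq_or_lt_of_le hn with hn0 | hn0
            · rw [← hn0]; exact ward_zero_right h0 h1 hm1 _
            · exact hevencase n k (by omega) (by omega) (by omega)
        · -- odd difference
          rcases lt_or_ge k 1 with hk1 | hk1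
          · have : (M : ℤ) + 1 = n + 1 := by omega
            rw [this]; exact ward_succ h1 hoddr n
          · exact hoddcase n k hn hk1 (by omega)
      have hnn : ∀ i j : ℤ, 0 ≤ i → i ≤ (M : ℤ) + 1 → 0 ≤ j → j ≤ (M : ℤ) + 1 → Ward W i j := by
        intro i j hi hi' hj hj'
        by_cases e1 : i = (M : ℤ) + 1
        · rw [e1]; exact hQ j hj hj'
        by_cases e2 : j = (M : ℤ) + 1
        · rw [e2]; exact ward_symm hodd (hQ i hi hi')
        exact IH i j (by omega) (by omega) (by omega) (by omega)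
      intro i j hi hi' hj hj'
      push_cast at hi hi' hj hj'
      rcases le_total 0 i with hi0 | hi0 <;> rcases le_total 0 j with hj0 | hj0
      · exact hnn i j hi0 hi' hj0 hj'
      · have := ward_neg_right hodd (hnn i (-j) hi0 hi' (by omega) (by omega))
        rwa [neg_neg] at this
      · have := ward_neg_left hodd (hnn (-i) j (by omega) (by omega) hj0 hj')
        rwa [neg_neg] at this
      · have := ward_neg_left hodd (ward_neg_right hodd
          (hnn (-i) (-j) (by omega) (by omega) (by omega) (by omega)))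
        rwa [neg_neg, neg_neg] at this
  exact key (max m.natAbs n.natAbs) m n (by omega) (by omega) (by omega) (by omega)


/-! ### The specialisation `(b, c, d) = (2, 3, 2)`: the identity sequence -/

lemma normEDS_two_three_two_nat (n : ℕ) : normEDS (2 : ℤ) 3 2 (n : ℤ) = n := by
  induction n using normEDSRec with
  | zero => simp
  | one => simp
  | two => simp
  | three => simp
  | four => simp
  | even m ih1 ih2 ih3 ih4 ih5 =>
    have h := normEDS_even (2 : ℤ) 3 2 ((m : ℤ) + 3)
    rw [show (m : ℤ) + 3 - 1 = ((m + 2 : ℕ) : ℤ) by push_cast; ring,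
      show (m : ℤ) + 3 = ((m + 3 : ℕ) : ℤ) by push_cast; ring,
      show ((m + 3 : ℕ) : ℤ) + 2 = ((m + 5 : ℕ) : ℤ) by push_cast; ring,
      show ((m + 3 : ℕ) : ℤ) - 2 = ((m + 1 : ℕ) : ℤ) by push_cast; ring,
      show ((m + 3 : ℕ) : ℤ) + 1 = ((m + 4 : ℕ) : ℤ) by push_cast; ring,
      ih1, ih2, ih3, ih4, ih5] at h
    have h2 : normEDS (2 : ℤ) 3 2 ((2 * (m + 3) : ℕ) : ℤ) * 2 = ((2 * (m + 3) : ℕ) : ℤ) * 2 := by
      rw [show ((2 * (m + 3) : ℕ) : ℤ) = 2 * ((m + 3 : ℕ) : ℤ) by push_cast; ring, h]
      push_cast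
      ring
    exact mul_right_cancel₀ two_ne_zero h2
  | odd m ih1 ih2 ih3 ih4 =>
    have h := normEDS_odd (2 : ℤ) 3 2 ((m : ℤ) + 2)
    rw [show (m : ℤ) + 2 + 2 = ((m + 4 : ℕ) : ℤ) by push_cast; ring,
      show (m : ℤ) + 2 - 1 = ((m + 1 : ℕ) : ℤ) by push_cast; ring,
      show (m : ℤ) + 2 + 1 = ((m + 3 : ℕ) : ℤ) by push_cast; ring,
      show (m : ℤ) + 2 = ((m + 2 : ℕ) : ℤ) by push_cast; ring,
      ih1, ih2, ih3, ih4] at h
    rw [show ((2 * (m + 2) + 1 : ℕ) : ℤ) = 2 * ((m + 2 : ℕ) : ℤ) + 1 by push_cast; ring, h]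
    push_cast
    ring

lemma normEDS_two_three_two (n : ℤ) : normEDS (2 : ℤ) 3 2 n = n := by
  obtain ⟨k, rfl | rfl⟩ := n.eq_nat_or_neg
  · exact normEDS_two_three_two_nat k
  · rw [normEDS_neg, normEDS_two_three_two_nat]

/-! ### The universal case -/

open MvPolynomial in
lemma normEDS_univ_ne_zero (j : ℤ) (hj : j ≠ 0) :
    normEDS (X 0 : MvPolynomial (Fin 3) ℤ) (X 1) (X 2) j ≠ 0 := by
  intro h
  have h2 := congrArg (MvPolynomial.eval (![2, 3, 2] : Fin 3 → ℤ)) h
  rw [map_normEDS] at h2
  simp only [eval_X, map_zero] at h2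
  have e0 : (![2, 3, 2] : Fin 3 → ℤ) 0 = 2 := rfl
  have e1 : (![2, 3, 2] : Fin 3 → ℤ) 1 = 3 := rfl
  have e2 : (![2, 3, 2] : Fin 3 → ℤ) 2 = 2 := rfl
  rw [e0, e1, e2, normEDS_two_three_two] at h2
  exact hj h2

open MvPolynomial in
lemma normEDS_univ_ward (m n : ℤ) :
    Ward (normEDS (X 0 : MvPolynomial (Fin 3) ℤ) (X 1) (X 2)) m n := by
  apply ward_of_domain
  · intro n; exact normEDS_neg ..
  · exact normEDS_zero ..
  · exact normEDS_one ..
  · intro m; rw [normEDS_two]; exact normEDS_even ..
  · intro m; exact normEDS_odd ..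
  · exact normEDS_univ_ne_zero

/-- **Ward's relation for `normEDS`**, over an arbitrary commutative ring. -/
theorem normEDS_ward (b c d : R) (m n : ℤ) : Ward (normEDS b c d) m n := by
  have h := normEDS_univ_ward m n
  unfold Ward at *
  have h2 := congrArg (MvPolynomial.eval₂Hom (Int.castRingHom R) (![b, c, d] : Fin 3 → R)) h
  simp only [map_mul, map_sub, map_pow, map_normEDS, MvPolynomial.eval₂Hom_X'] at h2
  have e0 : (![b, c, d] : Fin 3 → R) 0 = b := rfl
  have e1 : (![b, c, d] : Fin 3 → R) 1 = c := rfl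
  have e2 : (![b, c, d] : Fin 3 → R) 2 = d := rfl
  rw [e0, e1, e2] at h2
  exact h2

/-- Ward's relation for `normEDS`, spelled out. -/
theorem normEDS_add_mul_sub (b c d : R) (m n : ℤ) :
    normEDS b c d (m + n) * normEDS b c d (m - n) =
      normEDS b c d (m + 1) * normEDS b c d (m - 1) * normEDS b c d n ^ 2 -
        normEDS b c d (n + 1) * normEDS b c d (n - 1) * normEDS b c d m ^ 2 :=
  normEDS_ward b c d m n

/-- The Somos-4 relation for `normEDS`. -/
theorem normEDS_somos_four (b c d : R) (m : ℤ) :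
    normEDS b c d (m + 2) * normEDS b c d (m - 2) =
      normEDS b c d (m + 1) * normEDS b c d (m - 1) * b ^ 2 - c * normEDS b c d m ^ 2 := by
  have h := normEDS_add_mul_sub b c d m 2
  rw [show (2 : ℤ) + 1 = 3 by norm_num, show (2 : ℤ) - 1 = 1 by norm_num, normEDS_two,
    normEDS_three, normEDS_one] at h
  linear_combination h

/-- The Somos-5-type relation `T(m, 3)` for `normEDS`. -/
theorem normEDS_somos_three (b c d : R) (m : ℤ) :
    normEDS b c d (m + 3) * normEDS b c d (m - 3) =
      normEDS b c d (m + 1) * normEDS b c d (m - 1) * c ^ 2 - d * b ^ 2 * normEDS b c d m ^ 2 := by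
  have h := normEDS_add_mul_sub b c d m 3
  rw [show (3 : ℤ) + 1 = 4 by norm_num, show (3 : ℤ) - 1 = 2 by norm_num, normEDS_two,
    normEDS_three, normEDS_four] at h
  linear_combination h

/-- **`normEDS b c d` is an elliptic sequence** (the first half of the Mathlib TODO). -/
theorem isEllipticSequence_normEDS (b c d : R) : IsEllipticSequence (normEDS b c d) := by
  intro p q r
  have h1 := normEDS_add_mul_sub b c d p q
  have h2 := normEDS_add_mul_sub b c d p r
  have h3 := normEDS_add_mul_sub b c d q r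
  simp only [IsEllipticNet.rel, add_zero]
  linear_combination (normEDS b c d r * normEDS b c d r) * h1
    - (normEDS b c d q * normEDS b c d q) * h2 + (normEDS b c d p * normEDS b c d p) * h3

end Fermat.Agent.S13.H83
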