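import Mathlib
import Fermat.Prelude.Def_FLTPrelim_FreyPackage
import Fermat.Prelude.Def_FLTPrelim_GaloisRep
import Fermat.Agent.S13.H84_Struct
import Fermat.Agent.S13.H60_NotAllE1

/-!
# The Frey curve: some nonzero `p`-torsion point has a `p`-integral abscissa (S13, LOCp input)

`frey_hSS` is the hypothesis `hSS` of `H5.frey_locp`: integral model of the Frey curve, the
ladder polynomial `theta` over `ℤ`, and `H60.exists_torsion_xCoord_mem_of_int`.
-/

set_option autoImplicit false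

namespace Fermat.Agent.S13.H84

open Polynomial WeierstrassCurve WeierstrassCurve.Affine WeierstrassCurve.Affine.Point

local notation "Qb" => AlgebraicClosure ℚ

section IntModel

variable (P : FreyPackage)

lemma frey_two_dvd_b : (2 : ℤ) ∣ P.b :=
  (ZMod.intCast_zmod_eq_zero_iff_dvd P.b 2).1 P.hb2

lemma frey_four_dvd : (4 : ℤ) ∣ P.b ^ P.p - 1 - P.a ^ P.p := by
  have hp5 := P.hp5
  have key : ((P.b ^ P.p - 1 - P.a ^ P.p : ℤ) : ZMod 4) = 0 → (4 : ℤ) ∣ P.b ^ P.p - 1 - P.a ^ P.p :=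
    fun h => by exact_mod_cast (ZMod.intCast_zmod_eq_zero_iff_dvd _ 4).1 h
  apply key
  push_cast
  have ha : (P.a : ZMod 4) = -1 := by rw [P.ha4]; decide
  have hb : (P.b : ZMod 4) ^ P.p = 0 := by
    obtain ⟨k, hk⟩ := frey_two_dvd_b P
    have h4 : (4 : ℤ) ∣ P.b ^ P.p := by
      rw [hk, mul_pow]
      have : (4 : ℤ) ∣ 2 ^ P.p := by
        have : (2 : ℤ) ^ 2 ∣ 2 ^ P.p := pow_dvd_pow 2 (by omega)
        simpa using this
      exact Dvd.dvd.mul_right this _
    have := (ZMod.intCast_zmod_eq_zero_iff_dvd (P.b ^ P.p) 4).2 (by exact_mod_cast h4)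
    simpa using this
  rw [hb, ha, P.hp_odd.neg_one_pow]
  ring

lemma frey_sixteen_dvd : (16 : ℤ) ∣ P.a ^ P.p * P.b ^ P.p := by
  have hp5 := P.hp5
  obtain ⟨k, hk⟩ := frey_two_dvd_b P
  have h16 : (16 : ℤ) ∣ P.b ^ P.p := by
    rw [hk, mul_pow]
    have : (16 : ℤ) ∣ 2 ^ P.p := by
      have : (2 : ℤ) ^ 4 ∣ 2 ^ P.p := pow_dvd_pow 2 (by omega)
      simpa using this
    exact Dvd.dvd.mul_right this _
  exact Dvd.dvd.mul_left h16 _

/-- the integral model of the Frey curve -/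
theorem freyCurveInt_map : P.freyCurveInt.map (Int.castRingHom ℚ) = P.freyCurve := by
  have h4 := frey_four_dvd P
  have h16 : (16 : ℤ) ∣ -(P.a ^ P.p) * P.b ^ P.p := by
    rw [neg_mul]; exact (dvd_neg).2 (frey_sixteen_dvd P)
  ext
  · simp [FreyPackage.freyCurveInt, FreyPackage.freyCurve]
  · simp only [FreyPackage.freyCurveInt, FreyPackage.freyCurve, WeierstrassCurve.map_a₂,
      eq_intCast]
    rw [Int.cast_div h4 (by norm_num)]
    push_cast
    ring
  · simp [FreyPackage.freyCurveInt, FreyPackage.freyCurve]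
  · simp only [FreyPackage.freyCurveInt, FreyPackage.freyCurve, WeierstrassCurve.map_a₄,
      eq_intCast]
    rw [Int.cast_div h16 (by norm_num)]
    push_cast
    ring
  · simp [FreyPackage.freyCurveInt, FreyPackage.freyCurve]

/-- the integral ladder polynomial of the Frey curve -/
noncomputable def freyTheta : ℤ[X] := theta P.freyCurveInt (P.p / 2)

lemma frey_p_eq : 2 * (P.p / 2) + 1 = P.p := by
  obtain ⟨j, hj⟩ := P.hp_odd
  omega

lemma freyTheta_leadingCoeff : (freyTheta P).leadingCoeff = -(P.p : ℤ) := by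
  have h : (2 * ((P.p / 2 : ℕ) : ℤ) + 1) = (P.p : ℤ) := by
    have := frey_p_eq P
    exact_mod_cast this
  have hne : (2 * ((P.p / 2 : ℕ) : ℤ) + 1) ≠ 0 := by
    rw [h]; exact_mod_cast P.hp0
  rw [freyTheta, leadingCoeff_theta _ hne, h]

lemma freyTheta_natDegree : 2 * (freyTheta P).natDegree + 1 = P.p ^ 2 := by
  have h : (2 * ((P.p / 2 : ℕ) : ℤ) + 1) = (P.p : ℤ) := by
    have := frey_p_eq P
    exact_mod_cast this
  have hne : (2 * ((P.p / 2 : ℕ) : ℤ) + 1) ≠ 0 := by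
    rw [h]; exact_mod_cast P.hp0
  rw [freyTheta, natDegree_theta _ hne]
  conv_rhs => rw [← frey_p_eq P]
  ring

lemma freyTheta_map :
    (freyTheta P).map (Int.castRingHom Qb) =
      theta ((P.freyCurve : Affine ℚ)⁄Qb) (P.p / 2) := by
  have h1 : Int.castRingHom Qb = (algebraMap ℚ Qb).comp (Int.castRingHom ℚ) :=
    RingHom.ext_int _ _
  rw [freyTheta, h1, ← Polynomial.map_map, map_theta, map_theta, freyCurveInt_map]
  rfl

end IntModel

section HSS

open Fermat.Agent.S05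

/-- **(B)** the hypothesis `hSS` of `H5.frey_locp`: if `E[p]` of the Frey curve has a proper
nonzero Galois-stable subspace, then at every place `A` over `p` some nonzero `p`-torsion point
has an `A`-integral abscissa. -/
theorem frey_hSS (P : FreyPackage)
    (N0 : Submodule (ZMod P.p)
      (Submodule.torsionBy ℤ ((P.freyCurve : Affine ℚ)⁄Qb).Point P.p))
    (hN : IsGaloisStable ℚ N0) (hbot : N0 ≠ ⊥) (htop : N0 ≠ ⊤)
    (A : ValuationSubring Qb) (hA : A.LiesOverPrime P.p) :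
    ∃ (x y : Qb) (h : ((P.freyCurve : Affine ℚ)⁄Qb).Nonsingular x y),
      P.p • (Point.some x y h : ((P.freyCurve : Affine ℚ)⁄Qb).Point) = 0 ∧
        A.valuation x ≤ 1 := by
  haveI : Fact P.p.Prime := ⟨P.pp⟩
  have hfin := frey_finite P
  have hcard : Nat.card (Submodule.torsionBy ℤ ((P.freyCurve : Affine ℚ)⁄Qb).Point P.p)
      = P.p ^ 2 := (H59.card_eq_of_proper_submodule (frey_card_le P) N0 hbot htop).2.1
  have hroots : ∀ Q : Submodule.torsionBy ℤ ((P.freyCurve : Affine ℚ)⁄Qb).Point P.p, Q ≠ 0 →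
      ((freyTheta P).map (Int.castRingHom Qb)).eval
        (H67.xCoord (P.freyCurve.baseChange Qb)
          (Q : ((P.freyCurve : Affine ℚ)⁄Qb).Point)) = 0 := by
    intro Q hQ
    rw [freyTheta_map]
    have hQ' : (Q : ((P.freyCurve : Affine ℚ)⁄Qb).Point) ≠ 0 := fun h => hQ (Subtype.ext h)
    have hp : P.p • (Q : ((P.freyCurve : Affine ℚ)⁄Qb).Point) = 0 :=
      (H59.mem_torsionBy_iff_nsmul _).mp Q.2
    exact (nsmul_eq_zero_iff_theta hQ' (P.p / 2)).mp (by rw [frey_p_eq P]; exact hp)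
  obtain ⟨Q, hQ0, hQA⟩ : ∃ Q : Submodule.torsionBy ℤ ((P.freyCurve : Affine ℚ)⁄Qb).Point P.p,
      Q ≠ 0 ∧ H67.xCoord (P.freyCurve.baseChange Qb)
        (Q : ((P.freyCurve : Affine ℚ)⁄Qb).Point) ∈ A :=
    @H60.exists_torsion_xCoord_mem_of_int P.freyCurve P.p P.pp hfin N0 hN
      hbot htop A hA (freyTheta P) (Or.inr (freyTheta_leadingCoeff P))
      (by rw [freyTheta_natDegree]; exact hcard.ge) hroots
  have hQ' : (Q : ((P.freyCurve : Affine ℚ)⁄Qb).Point) ≠ 0 := fun h => hQ0 (Subtype.ext h)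
  have hp : P.p • (Q : ((P.freyCurve : Affine ℚ)⁄Qb).Point) = 0 :=
    (H59.mem_torsionBy_iff_nsmul _).mp Q.2
  obtain ⟨x, y, h, hxy⟩ := H67.exists_of_ne_zero _ hQ'
  refine ⟨x, y, h, ?_, ?_⟩
  · rw [← hxy]; exact hp
  · rw [hxy, H67.xCoord_some] at hQA
    exact (A.valuation_le_one_iff x).mpr hQA

end HSS

end Fermat.Agent.S13.H84
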