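import Mathlib

/-!
# S13 / STRUCT : Ward's relation for Mathlib's `normEDS`

`normEDS b c d` (any commutative ring) satisfies Ward's relation
`W (p+q) * W (p-q) = W (p+1) * W (p-1) * W q ^ 2 - W (q+1) * W (q-1) * W p ^ 2`,
its Somos-4 special case, and is an elliptic sequence in Mathlib's sense.

Method: in the universal domain `ℤ[b,c,d]` all sorted same-parity relators `atomRel W a b c d`
vanish, by induction on `a + b`, using the three formal five-index syzygies, the even/odd
defining relations for the top pair `(b+2, b)` and Mathlib's `atomRel_avg_sub` for all other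
top pairs.  Nonvanishing of the terms comes from the specialisation `(2,3,2)`, where the
sequence is the identity.
-/

set_option autoImplicit false

namespace Fermat.Agent.S13.H99

open IsEllipticNet

section Core

variable {R : Type*} [CommRing R] (W : ℤ → R)

lemma syz_c (a b c d e : ℤ) :
    atom W c d * atomRel W a b c e - atom W c e * atomRel W a b c d
      + atom W a c * atomRel W b c d e - atom W b c * atomRel W a c d e = 0 := by
  simp only [atomRel]; ring

lemma syz_d (a b c d e : ℤ) :
    atom W c d * atomRel W a b d e - atom W d e * atomRel W a b c d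
      + atom W a d * atomRel W b c d e - atom W b d * atomRel W a c d e = 0 := by
  simp only [atomRel]; ring

lemma syz_e (a b c d e : ℤ) :
    atom W c e * atomRel W a b d e - atom W d e * atomRel W a b c e
      + atom W a e * atomRel W b c d e - atom W b e * atomRel W a c d e = 0 := by
  simp only [atomRel]; ring

lemma atom_eq {x y : ℤ} (h : x % 2 = y % 2) :
    atom W x y = W ((x + y) / 2) * W ((x - y) / 2) := by
  have h1 : (2:ℤ) ∣ x + y := by omega
  have h2 : (2:ℤ) ∣ x - y := by omega
  rw [atom, Int.tdiv_eq_ediv_of_dvd h1, Int.tdiv_eq_ediv_of_dvd h2]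

/-- Sorted quadruple of equal parity. -/
def Srt (a b c d : ℤ) : Prop :=
  0 ≤ d ∧ d < c ∧ c < b ∧ b < a ∧ a % 2 = d % 2 ∧ b % 2 = d % 2 ∧ c % 2 = d % 2

/-- All sorted relators of size `a + b ≤ n` vanish. -/
def Lvl (n : ℤ) : Prop :=
  ∀ a b c d : ℤ, Srt a b c d → a + b ≤ n → atomRel W a b c d = 0

/-- The hypotheses on the sequence. -/
structure Good : Prop where
  ne : ∀ k : ℤ, 0 < k → W k ≠ 0
  relEven : ∀ m : ℤ, rel W (m + 1) (m - 1) 1 0 = 0
  relOdd : ∀ m : ℤ, rel W (m + 1) m 1 0 = 0

variable {W}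

lemma Good.atom_ne [NoZeroDivisors R] (hW : Good W) {x y : ℤ} (hy : 0 ≤ y) (hxy : y < x)
    (h : x % 2 = y % 2) : atom W x y ≠ 0 := by
  rw [atom_eq W h]
  exact mul_ne_zero (hW.ne _ (by omega)) (hW.ne _ (by omega))

/-- The triangle lemma for sorted bottoms. -/
lemma tri [NoZeroDivisors R] (hW : Good W) {n : ℤ} (IH : Lvl W n) {a b c d e : ℤ}
    (hab : a + b ≤ n + 1) (he : 0 ≤ e) (hed : e < d) (hdc : d < c) (hcb : c < b) (hba : b < a)
    (pa : a % 2 = e % 2) (pb : b % 2 = e % 2) (pc : c % 2 = e % 2) (pd : d % 2 = e % 2) :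
    (atomRel W a b c d = 0 ↔ atomRel W a b c e = 0) ∧
      (atomRel W a b c d = 0 ↔ atomRel W a b d e = 0) := by
  have l1 : atomRel W b c d e = 0 :=
    IH b c d e ⟨he, hed, hdc, hcb, pb, pc, pd⟩ (by omega)
  have l2 : atomRel W a c d e = 0 :=
    IH a c d e ⟨he, hed, hdc, by omega, pa, pc, pd⟩ (by omega)
  have hcd : atom W c d ≠ 0 := hW.atom_ne (by omega) hdc (by omega)
  have hce : atom W c e ≠ 0 := hW.atom_ne he (by omega) pc
  have hde : atom W d e ≠ 0 := hW.atom_ne he hed pd
  have s1 := syz_c W a b c d e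
  have s2 := syz_d W a b c d e
  have s3 := syz_e W a b c d e
  rw [l1, l2] at s1 s2 s3
  simp only [mul_zero, add_zero, sub_zero] at s1 s2 s3
  have e1 : atom W c d * atomRel W a b c e = atom W c e * atomRel W a b c d := sub_eq_zero.mp s1
  have e2 : atom W c d * atomRel W a b d e = atom W d e * atomRel W a b c d := sub_eq_zero.mp s2
  refine ⟨⟨fun h => ?_, fun h => ?_⟩, ⟨fun h => ?_, fun h => ?_⟩⟩
  · rw [h, mul_zero] at e1
    exact (mul_eq_zero.mp e1).resolve_left hcd
  · rw [h, mul_zero] at e1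
    exact (mul_eq_zero.mp e1.symm).resolve_left hce
  · rw [h, mul_zero] at e2
    exact (mul_eq_zero.mp e2).resolve_left hcd
  · rw [h, mul_zero] at e2
    exact (mul_eq_zero.mp e2.symm).resolve_left hde
/-- Valid bottom index below `b`. -/
def Vd (b x : ℤ) : Prop := 0 ≤ x ∧ x < b ∧ x % 2 = b % 2

variable (W) in
/-- Unordered bottom edge predicate. -/
def Ed (a b x y : ℤ) : Prop := atomRel W a b (max x y) (min x y) = 0

lemma Ed.symm {a b x y : ℤ} (h : Ed W a b x y) : Ed W a b y x := by
  unfold Ed at *; rwa [max_comm, min_comm]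

lemma ed_of_lt {a b x y : ℤ} (hxy : y < x) : Ed W a b x y ↔ atomRel W a b x y = 0 := by
  unfold Ed; rw [max_eq_left hxy.le, min_eq_right hxy.le]

lemma ed_of_gt {a b x y : ℤ} (hxy : x < y) : Ed W a b x y ↔ atomRel W a b y x = 0 := by
  unfold Ed; rw [max_eq_right hxy.le, min_eq_left hxy.le]

/-- Unordered triangle lemma. -/
lemma tri' [NoZeroDivisors R] (hW : Good W) {n : ℤ} (IH : Lvl W n) {a b x y z : ℤ}
    (hab : a + b ≤ n + 1) (hba : b < a) (pa : a % 2 = b % 2)
    (hx : Vd b x) (hy : Vd b y) (hz : Vd b z) (hxy : x ≠ y) (hxz : x ≠ z) (hyz : y ≠ z)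
    (h : Ed W a b x y) : Ed W a b x z := by
  obtain ⟨hx0, hxb, px⟩ := hx
  obtain ⟨hy0, hyb, py⟩ := hy
  obtain ⟨hz0, hzb, pz⟩ := hz
  rcases lt_or_gt_of_ne hxy with h1 | h1 <;> rcases lt_or_gt_of_ne hxz with h2 | h2 <;>
    rcases lt_or_gt_of_ne hyz with h3 | h3
  · -- x < y < z : (c,d,e) = (z,y,x)
    have t := tri hW IH (a := a) (b := b) (c := z) (d := y) (e := x) hab hx0 h1 h3 hzb hba
      (by omega) (by omega) (by omega) (by omega)
    rw [ed_of_gt h1] at h; rw [ed_of_gt h2]
    exact t.1.mp (t.2.mpr h)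
  · -- x < y, x < z, z < y : (c,d,e) = (y,z,x)
    have t := tri hW IH (a := a) (b := b) (c := y) (d := z) (e := x) hab hx0 h2 h3 hyb hba
      (by omega) (by omega) (by omega) (by omega)
    rw [ed_of_gt h1] at h; rw [ed_of_gt h2]
    exact t.2.mp (t.1.mpr h)
  · -- x < y, z < x, y < z : impossible
    omega
  · -- x < y, z < x : (c,d,e) = (y,x,z)
    have t := tri hW IH (a := a) (b := b) (c := y) (d := x) (e := z) hab hz0 h2 h1 hyb hba
      (by omega) (by omega) (by omega) (by omega)
    rw [ed_of_gt h1] at h; rw [ed_of_lt h2]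
    exact t.2.mp h
  · -- y < x, x < z : (c,d,e) = (z,x,y)
    have t := tri hW IH (a := a) (b := b) (c := z) (d := x) (e := y) hab hy0 h1 h2 hzb hba
      (by omega) (by omega) (by omega) (by omega)
    rw [ed_of_lt h1] at h; rw [ed_of_gt h2]
    exact t.2.mpr h
  · -- y < x, x < z, z < y : impossible
    omega
  · -- y < x, z < x, y < z : (c,d,e) = (x,z,y)
    have t := tri hW IH (a := a) (b := b) (c := x) (d := z) (e := y) hab hy0 h3 h2 hxb hba
      (by omega) (by omega) (by omega) (by omega)
    rw [ed_of_lt h1] at h; rw [ed_of_lt h2]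
    exact t.1.mpr h
  · -- y < x, z < x, z < y : (c,d,e) = (x,y,z)
    have t := tri hW IH (a := a) (b := b) (c := x) (d := y) (e := z) hab hz0 h3 h1 hxb hba
      (by omega) (by omega) (by omega) (by omega)
    rw [ed_of_lt h1] at h; rw [ed_of_lt h2]
    exact t.1.mp h

/-- Connectivity: one vanishing bottom edge gives all bottom edges. -/
lemma connect [NoZeroDivisors R] (hW : Good W) {n : ℤ} (IH : Lvl W n) {a b c₀ d₀ : ℤ}
    (hab : a + b ≤ n + 1) (hba : b < a) (pa : a % 2 = b % 2)
    (hc₀ : Vd b c₀) (hd₀ : Vd b d₀) (hcd₀ : c₀ ≠ d₀) (hbase : Ed W a b c₀ d₀)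
    {x y : ℤ} (hx : Vd b x) (hy : Vd b y) (hxy : x ≠ y) : Ed W a b x y := by
  have step1 : ∀ z, Vd b z → z ≠ c₀ → Ed W a b c₀ z := by
    intro z hz hzc
    by_cases hzd : z = d₀
    · rw [hzd]; exact hbase
    · exact tri' hW IH hab hba pa hc₀ hd₀ hz hcd₀ (Ne.symm hzc) (Ne.symm hzd) hbase
  by_cases hxc : x = c₀
  · rw [hxc]; exact step1 y hy (by rw [← hxc]; exact Ne.symm hxy)
  by_cases hyc : y = c₀
  · rw [hyc]; exact (step1 x hx hxc).symm
  exact tri' hW IH hab hba pa hx hc₀ hy hxc hxy (Ne.symm hyc) (step1 x hx hxc).symm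
/-- The top pair `(b + 2, b)`. -/
lemma top1 [NoZeroDivisors R] (hW : Good W) {n : ℤ} (IH : Lvl W n) {b : ℤ}
    (hb : (b + 2) + b ≤ n + 1) {x y : ℤ} (hx : Vd b x) (hy : Vd b y) (hxy : x ≠ y) :
    Ed W (b + 2) b x y := by
  obtain ⟨hx0, hxb, px⟩ := id hx
  obtain ⟨hy0, hyb, py⟩ := id hy
  rcases Int.emod_two_eq_zero_or_one b with hpar | hpar
  · -- `b` even: base edge `(2, 0)` from the odd relation
    have hb4 : 4 ≤ b := by omega
    have hbase : Ed W (b + 2) b 2 0 := by
      rw [ed_of_lt (by norm_num)]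
      have h := hW.relOdd (b / 2)
      rw [rel_eq] at h
      have e1 : 2 * (b / 2 + 1) + 0 = b + 2 := by omega
      have e2 : 2 * (b / 2) + 0 = b := by omega
      rw [e1, e2] at h
      simpa using h
    exact connect hW IH hb (by omega) (by omega) ⟨by omega, by omega, by omega⟩
      ⟨le_refl _, by omega, by omega⟩ (by norm_num) hbase hx hy hxy
  · -- `b` odd: base edge `(3, 1)` from the averaged even relation
    have hb5 : 5 ≤ b := by omega
    have hbase : Ed W (b + 2) b 3 1 := by
      rw [ed_of_lt (by norm_num)]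
      have h := hW.relEven ((b + 1) / 2)
      rw [rel_eq] at h
      have e1 : 2 * ((b + 1) / 2 + 1) + 0 = b + 3 := by omega
      have e2 : 2 * ((b + 1) / 2 - 1) + 0 = b - 1 := by omega
      rw [e1, e2] at h
      have h' : atomRel W (b + 3) (b - 1) 2 0 = 0 := by simpa using h
      have avg := atomRel_avg_sub W (a := b + 3) (b := b - 1) (c := 2) (d := 0)
        ⟨by omega, by omega, by omega⟩
      have e3 : (b + 3 + (b - 1) + 2 + 0) / 2 = b + 2 := by omega
      rw [e3, h'] at avg
      have e4 : b + 2 - 0 = b + 2 := by ring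
      have e5 : b + 2 - 2 = b := by ring
      have e6 : b + 2 - (b - 1) = 3 := by ring
      have e7 : b + 2 - (b + 3) = -1 := by ring
      rw [e4, e5, e6, e7, atomRel_neg₄] at avg
      exact avg
    exact connect hW IH hb (by omega) (by omega) ⟨by omega, by omega, by omega⟩
      ⟨by omega, by omega, by omega⟩ (by norm_num) hbase hx hy hxy

/-- A general top pair `(a, b)` with `a ≥ b + 4`. -/
lemma topj [NoZeroDivisors R] (hW : Good W) {n : ℤ} (IH : Lvl W n) {a b : ℤ}
    (hab : a + b ≤ n + 1) (hba : b + 4 ≤ a) (pa : a % 2 = b % 2)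
    {x y : ℤ} (hx : Vd b x) (hy : Vd b y) (hxy : x ≠ y) : Ed W a b x y := by
  obtain ⟨hx0, hxb, px⟩ := id hx
  obtain ⟨hy0, hyb, py⟩ := id hy
  -- `a = N + j`, `b = N - j`
  obtain ⟨N, j, rfl, rfl⟩ : ∃ N j : ℤ, a = N + j ∧ b = N - j :=
    ⟨(a + b) / 2, (a - b) / 2, by omega, by omega⟩
  have hj : 2 ≤ j := by omega
  rcases Int.emod_two_eq_zero_or_one (N - j) with hpar | hpar
  · -- even family: base edge `(2, 0)`
    have hb4 : 4 ≤ N - j := by omega
    have hbase : Ed W (N + j) (N - j) 2 0 := by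
      rw [ed_of_lt (by norm_num)]
      have avg := atomRel_avg_sub W (a := N + j) (b := N - j) (c := 2) (d := 0)
        ⟨by omega, by omega, by omega⟩
      have e3 : (N + j + (N - j) + 2 + 0) / 2 = N + 1 := by omega
      have e4 : N + 1 - 0 = (N - 1) + 2 := by ring
      have e5 : N + 1 - 2 = N - 1 := by ring
      have e6 : N + 1 - (N - j) = j + 1 := by ring
      have e7 : N + 1 - (N + j) = -(j - 1) := by ring
      rw [e3, e4, e5, e6, e7, atomRel_neg₄] at avg
      rw [← avg]
      have t := top1 hW IH (b := N - 1) (by omega) (x := j + 1) (y := j - 1)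
        ⟨by omega, by omega, by omega⟩ ⟨by omega, by omega, by omega⟩ (by omega)
      rwa [ed_of_lt (by omega)] at t
    exact connect hW IH hab (by omega) pa ⟨by omega, by omega, by omega⟩
      ⟨le_refl _, by omega, by omega⟩ (by norm_num) hbase hx hy hxy
  · -- odd family: base edge `(3, 1)`
    have hb5 : 5 ≤ N - j := by omega
    have hbase : Ed W (N + j) (N - j) 3 1 := by
      rw [ed_of_lt (by norm_num)]
      have avg := atomRel_avg_sub W (a := N + j) (b := N - j) (c := 3) (d := 1)
        ⟨by omega, by omega, by omega⟩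
      have e3 : (N + j + (N - j) + 3 + 1) / 2 = N + 2 := by omega
      have e4 : N + 2 - 1 = (N - 1) + 2 := by ring
      have e5 : N + 2 - 3 = N - 1 := by ring
      have e6 : N + 2 - (N - j) = j + 2 := by ring
      have e7 : N + 2 - (N + j) = -(j - 2) := by ring
      rw [e3, e4, e5, e6, e7, atomRel_neg₄] at avg
      rw [← avg]
      have t := top1 hW IH (b := N - 1) (by omega) (x := j + 2) (y := j - 2)
        ⟨by omega, by omega, by omega⟩ ⟨by omega, by omega, by omega⟩ (by omega)
      rwa [ed_of_lt (by omega)] at t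
    exact connect hW IH hab (by omega) pa ⟨by omega, by omega, by omega⟩
      ⟨by omega, by omega, by omega⟩ (by norm_num) hbase hx hy hxy

/-- The induction step. -/
lemma lvl_succ [NoZeroDivisors R] (hW : Good W) {n : ℤ} (IH : Lvl W n) : Lvl W (n + 1) := by
  intro a b c d hs hab
  obtain ⟨hd0, hdc, hcb, hba, pa, pb, pc⟩ := hs
  have hc : Vd b c := ⟨by omega, hcb, by omega⟩
  have hd : Vd b d := ⟨hd0, by omega, by omega⟩
  by_cases h2 : a = b + 2
  · subst h2
    have t := top1 hW IH hab hc hd (by omega)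
    rwa [ed_of_lt hdc] at t
  · have t := topj hW IH hab (by omega) (by omega) hc hd (by omega)
    rwa [ed_of_lt hdc] at t

lemma lvl_all [NoZeroDivisors R] (hW : Good W) (n : ℕ) : Lvl W (n : ℤ) := by
  induction n with
  | zero =>
    intro a b c d hs hab
    obtain ⟨hd0, hdc, hcb, hba, pa, pb, pc⟩ := hs
    exfalso
    have : (0 : ℤ) = ((0 : ℕ) : ℤ) := rfl
    omega
  | succ n ih =>
    have := lvl_succ hW ih
    simpa using this

/-- All sorted relators vanish. -/
theorem atomRel_eq_zero_of_sorted [NoZeroDivisors R] (hW : Good W) {a b c d : ℤ}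
    (hs : Srt a b c d) : atomRel W a b c d = 0 := by
  have h0 : 0 ≤ a + b := by
    obtain ⟨hd0, hdc, hcb, hba, -⟩ := hs
    omega
  exact lvl_all hW (a + b).toNat a b c d hs (by rw [Int.toNat_of_nonneg h0])
/-- Ward's relation for `m > n ≥ 2` in the good situation. -/
lemma ward_of_good [NoZeroDivisors R] (hW : Good W) (h1 : W 1 = 1) {m n : ℤ} (hn : 2 ≤ n)
    (hmn : n < m) :
    W (m + n) * W (m - n) = W (m + 1) * W (m - 1) * W n ^ 2 - W (n + 1) * W (n - 1) * W m ^ 2 := by
  have h := atomRel_eq_zero_of_sorted hW (a := 2 * m) (b := 2 * n) (c := 2) (d := 0)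
    ⟨le_refl _, by norm_num, by omega, by omega, by omega, by omega, by omega⟩
  have a1 : atom W (2 * m) (2 * n) = W (m + n) * W (m - n) := atom_even W m n
  have a2 : atom W 2 0 = W 1 * W 1 := by
    have := atom_even W 1 0; simpa using this
  have a3 : atom W (2 * m) 2 = W (m + 1) * W (m - 1) := by
    have := atom_even W m 1; simpa using this
  have a4 : atom W (2 * n) 0 = W n * W n := by
    have := atom_even W n 0; simpa using this
  have a5 : atom W (2 * m) 0 = W m * W m := by
    have := atom_even W m 0; simpa using this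
  have a6 : atom W (2 * n) 2 = W (n + 1) * W (n - 1) := by
    have := atom_even W n 1; simpa using this
  rw [atomRel, a1, a2, a3, a4, a5, a6, h1] at h
  linear_combination h

end Core

section Universal

open MvPolynomial

/-- The universal ring `ℤ[b, c, d]`. -/
abbrev U : Type := MvPolynomial (Fin 3) ℤ

/-- The universal normalised EDS. -/
noncomputable def WU : ℤ → U := normEDS (X 0) (X 1) (X 2)

/-- The identity sequence is `normEDS 2 3 2`. -/
lemma normEDS_two_three_two (n : ℤ) : normEDS (2 : ℤ) 3 2 n = n := by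
  have key : ∀ k : ℕ, normEDS (2 : ℤ) 3 2 (k : ℤ) = k := by
    intro k
    induction k using normEDSRec with
    | zero => simp
    | one => simp
    | two => simp
    | three => simp
    | four => simp
    | even m h1 h2 h3 h4 h5 =>
      have h := normEDS_even (2 : ℤ) 3 2 ((m : ℤ) + 3)
      have e1 : (m : ℤ) + 3 - 1 = ((m + 2 : ℕ) : ℤ) := by push_cast; ring
      have e2 : (m : ℤ) + 3 = ((m + 3 : ℕ) : ℤ) := by push_cast; ring
      have e3 : (m : ℤ) + 3 + 2 = ((m + 5 : ℕ) : ℤ) := by push_cast; ring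
      have e4 : (m : ℤ) + 3 - 2 = ((m + 1 : ℕ) : ℤ) := by push_cast; ring
      have e5 : (m : ℤ) + 3 + 1 = ((m + 4 : ℕ) : ℤ) := by push_cast; ring
      rw [e1, e3, e4, e5, e2, h1, h2, h3, h4, h5] at h
      have e6 : ((2 * (m + 3) : ℕ) : ℤ) = 2 * ((m + 3 : ℕ) : ℤ) := by push_cast; ring
      rw [e6]
      push_cast at h ⊢
      nlinarith [h]
    | odd m h1 h2 h3 h4 =>
      have h := normEDS_odd (2 : ℤ) 3 2 ((m : ℤ) + 2)
      have e1 : (m : ℤ) + 2 + 2 = ((m + 4 : ℕ) : ℤ) := by push_cast; ring
      have e2 : (m : ℤ) + 2 = ((m + 2 : ℕ) : ℤ) := by push_cast; ring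
      have e3 : (m : ℤ) + 2 - 1 = ((m + 1 : ℕ) : ℤ) := by push_cast; ring
      have e4 : (m : ℤ) + 2 + 1 = ((m + 3 : ℕ) : ℤ) := by push_cast; ring
      rw [e1, e3, e4, e2, h1, h2, h3, h4] at h
      have e6 : ((2 * (m + 2) + 1 : ℕ) : ℤ) = 2 * ((m + 2 : ℕ) : ℤ) + 1 := by push_cast; ring
      rw [e6, h]
      push_cast
      ring
  rcases Int.eq_nat_or_neg n with ⟨k, rfl | rfl⟩
  · exact key k
  · rw [normEDS_neg, key k]
/-- `normEDS` satisfies the even and odd relators (any ring). -/
lemma rel_even_normEDS {R : Type*} [CommRing R] (b c d : R) (m : ℤ) :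
    rel (normEDS b c d) (m + 1) (m - 1) 1 0 = 0 := by
  rw [rel_even, normEDS_one, normEDS_two]
  linear_combination normEDS_even b c d m

lemma rel_odd_normEDS {R : Type*} [CommRing R] (b c d : R) (m : ℤ) :
    rel (normEDS b c d) (m + 1) m 1 0 = 0 := by
  rw [rel_odd, normEDS_one]
  linear_combination normEDS_odd b c d m

/-- Evaluation `ℤ[b,c,d] → ℤ` at `(2, 3, 2)`. -/
noncomputable def ev232 : U →+* ℤ := MvPolynomial.eval (![2, 3, 2] : Fin 3 → ℤ)

lemma ev232_WU (n : ℤ) : ev232 (WU n) = n := by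
  rw [WU, map_normEDS]
  simp only [ev232, MvPolynomial.eval_X]
  simpa using normEDS_two_three_two n

lemma WU_ne {k : ℤ} (hk : 0 < k) : WU k ≠ 0 := by
  intro h
  have := ev232_WU k
  rw [h, map_zero] at this
  omega

lemma good_WU : Good WU where
  ne := fun _ hk => WU_ne hk
  relEven := fun m => rel_even_normEDS _ _ _ m
  relOdd := fun m => rel_odd_normEDS _ _ _ m

end Universal

section Transfer

variable {R : Type*} [CommRing R] (b c d : R)

/-- The specialisation `ℤ[b,c,d] → R`. -/
noncomputable def spec : U →+* R := (MvPolynomial.aeval (![b, c, d] : Fin 3 → R)).toRingHom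

lemma spec_WU (n : ℤ) : spec b c d (WU n) = normEDS b c d n := by
  rw [WU, map_normEDS]
  simp [spec]

/-- Ward's relation for `m > n ≥ 2`. -/
lemma ward_aux {m n : ℤ} (hn : 2 ≤ n) (hmn : n < m) :
    normEDS b c d (m + n) * normEDS b c d (m - n) =
      normEDS b c d (m + 1) * normEDS b c d (m - 1) * normEDS b c d n ^ 2 -
        normEDS b c d (n + 1) * normEDS b c d (n - 1) * normEDS b c d m ^ 2 := by
  have h := ward_of_good good_WU (by simp [WU]) hn hmn
  have h' := congrArg (spec b c d) h
  simpa only [map_mul, map_sub, map_pow, spec_WU] using h'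
/-- Ward's relation for `0 ≤ n ≤ m`. -/
lemma ward_nonneg {m n : ℤ} (hn : 0 ≤ n) (hmn : n ≤ m) :
    normEDS b c d (m + n) * normEDS b c d (m - n) =
      normEDS b c d (m + 1) * normEDS b c d (m - 1) * normEDS b c d n ^ 2 -
        normEDS b c d (n + 1) * normEDS b c d (n - 1) * normEDS b c d m ^ 2 := by
  rcases eq_or_lt_of_le hn with h0 | h0
  · subst h0
    have e : normEDS b c d (0 - 1) = -1 := by
      rw [show (0 : ℤ) - 1 = -1 by norm_num, normEDS_neg, normEDS_one]
    simp only [add_zero, sub_zero, zero_add, normEDS_zero, normEDS_one, e]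
    ring
  rcases eq_or_lt_of_le (show (1 : ℤ) ≤ n by omega) with h1 | h1
  · subst h1
    simp only [sub_self, normEDS_zero, normEDS_one, show (1 : ℤ) + 1 = 2 by norm_num,
      normEDS_two]
    ring
  rcases eq_or_lt_of_le hmn with h2 | h2
  · subst h2
    simp only [sub_self, normEDS_zero]
    ring
  exact ward_aux b c d (by omega) h2

/-- **Ward's relation** for the normalised EDS over an arbitrary commutative ring. -/
theorem ward (p q : ℤ) :
    normEDS b c d (p + q) * normEDS b c d (p - q) =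
      normEDS b c d (p + 1) * normEDS b c d (p - 1) * normEDS b c d q ^ 2 -
        normEDS b c d (q + 1) * normEDS b c d (q - 1) * normEDS b c d p ^ 2 := by
  -- reduce to `0 ≤ q`
  wlog hq : 0 ≤ q generalizing q
  · have h := this (-q) (by omega)
    rw [show p + -q = p - q by ring, show p - -q = p + q by ring, normEDS_neg,
      show -q + 1 = -(q - 1) by ring, show -q - 1 = -(q + 1) by ring, normEDS_neg, normEDS_neg] at h
    linear_combination h
  -- reduce to `0 ≤ p`
  wlog hp : 0 ≤ p generalizing p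
  · have h := this (-p) (by omega)
    rw [show -p + q = -(p - q) by ring, show -p - q = -(p + q) by ring, normEDS_neg, normEDS_neg,
      show -p + 1 = -(p - 1) by ring, show -p - 1 = -(p + 1) by ring, normEDS_neg, normEDS_neg,
      normEDS_neg] at h
    linear_combination h
  rcases le_total q p with h | h
  · exact ward_nonneg b c d hq h
  · have h' := ward_nonneg b c d hp h
    rw [show q - p = -(p - q) by ring, normEDS_neg, add_comm q p] at h'
    linear_combination -h'

/-- **Somos-4 form** of Ward's relation. -/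
theorem somos4 (m : ℤ) :
    normEDS b c d (m + 2) * normEDS b c d (m - 2) =
      normEDS b c d (m + 1) * normEDS b c d (m - 1) * b ^ 2 - c * normEDS b c d m ^ 2 := by
  have h := ward b c d m 2
  rw [normEDS_two, show (2 : ℤ) + 1 = 3 by norm_num, show (2 : ℤ) - 1 = 1 by norm_num,
    normEDS_three, normEDS_one] at h
  linear_combination h

/-- The elliptic sequence relation `ER(p, q, r, 0) = 0`. -/
theorem isEllipticSequence_normEDS : IsEllipticSequence (normEDS b c d) := by
  intro p q r
  rw [rel]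
  simp only [add_zero]
  have h1 := ward b c d p q
  have h2 := ward b c d p r
  have h3 := ward b c d q r
  linear_combination (normEDS b c d r) ^ 2 * h1 - (normEDS b c d q) ^ 2 * h2
    + (normEDS b c d p) ^ 2 * h3

end Transfer

end Fermat.Agent.S13.H99
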